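import Fermat.Agent.Duality.Global.H2Injective

/-!
# Realising vectors of local classes by classes of `G_{K,S}`

For big `S` the vectors killed by the global invariant are the localisations of `H²(G_{K,S})`: two
primes at which some `S`-unit is not a local `p`-th power give a realised vector, and the graph
these pairs form on the primes over `S` is connected, as the `S`-units are isotropic.
-/

set_option autoImplicit false

open scoped Pointwise

namespace FermatAgent.Duality.Global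

open IsDedekindDomain NumberField Module

noncomputable section

local notation "Qb" => AlgebraicClosure ℚ
local notation "GQ" => AlgebraicClosure ℚ ≃ₐ[ℚ] AlgebraicClosure ℚ

attribute [local instance] FermatAgent.RT.isGalois_algClosureRat numberField_of_finite

section Linear

variable {k : Type} [Field k] {U : Type} [AddCommGroup U] [Module k U]
  {ι : Type} [Fintype ι] {V : ι → Type} [∀ i, AddCommGroup (V i)] [∀ i, Module k (V i)]
  [∀ i, Module.Finite k (V i)]

/-- An isotropic space of half the dimension is its own annihilator. -/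
theorem exists_eq_of_annihilates (W : Submodule k U) [Module.Finite k W]
    (f : ∀ i, U →ₗ[k] V i) (β : ∀ i, V i →ₗ[k] V i →ₗ[k] k)
    (hβ : ∀ i x, (∀ y, β i x y = 0) → x = 0)
    (hiso : ∀ x ∈ W, ∀ y ∈ W, ∑ i, β i (f i x) (f i y) = 0)
    (hinj : ∀ x ∈ W, (∀ i, f i x = 0) → x = 0)
    (hdim : ∑ i, finrank k (V i) = 2 * finrank k W) (t : ∀ i, V i)
    (ht : ∀ y ∈ W, ∑ i, β i (t i) (f i y) = 0) : ∃ x ∈ W, ∀ i, f i x = t i := by
  classical
  let F : U →ₗ[k] ∀ i, V i := LinearMap.pi f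
  let Φ : (∀ i, V i) →ₗ[k] Module.Dual k (∀ i, V i) :=
    ∑ i, ((LinearMap.proj i).dualMap).comp ((β i).comp (LinearMap.proj i))
  have hΦ : ∀ v w, Φ v w = ∑ i, β i (v i) (w i) := fun v w => by
    simp only [Φ, LinearMap.sum_apply, LinearMap.comp_apply, LinearMap.dualMap_apply,
      LinearMap.proj_apply]
  have hΦinj : Function.Injective Φ := by
    rw [← LinearMap.ker_eq_bot, LinearMap.ker_eq_bot']
    intro v hv
    funext i
    refine hβ i (v i) fun y => ?_
    have h := LinearMap.congr_fun hv (Pi.single i y)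
    rw [hΦ, Finset.sum_eq_single i (fun j _ hj => by rw [Pi.single_eq_of_ne hj, map_zero])
      (by simp), Pi.single_eq_same] at h
    exact h
  set S := W.map F
  have hS : finrank k S = finrank k W := by
    have h : Function.Injective (F.domRestrict W) :=
      LinearMap.ker_eq_bot.mp (LinearMap.ker_eq_bot'.mpr fun x hx =>
        Subtype.ext (hinj x.1 x.2 fun i => congrFun hx i))
    rw [show S = LinearMap.range (F.domRestrict W) from (LinearMap.range_domRestrict W F).symm]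
    exact LinearMap.finrank_range_of_inj h
  have hle : S.map Φ ≤ S.dualAnnihilator := by
    rintro _ ⟨_, ⟨x, hx, rfl⟩, rfl⟩
    rw [Submodule.mem_dualAnnihilator]
    rintro _ ⟨y, hy, rfl⟩
    rw [hΦ]
    exact hiso x hx y hy
  have h2 := Subspace.finrank_add_finrank_dualAnnihilator_eq S
  rw [Module.finrank_pi_fintype k] at h2
  have heq : S.map Φ = S.dualAnnihilator := Submodule.eq_of_le_of_finrank_le hle (by
    rw [← (Submodule.equivMapOfInjective Φ hΦinj S).finrank_eq]; omega)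
  have hmem : Φ t ∈ S.map Φ := by
    rw [heq, Submodule.mem_dualAnnihilator]
    rintro _ ⟨y, hy, rfl⟩
    rw [hΦ]
    exact ht y hy
  obtain ⟨s, ⟨x, hx, rfl⟩, hst⟩ := hmem
  exact ⟨x, hx, fun i => congrFun (hΦinj hst) i⟩

end Linear

variable {p : ℕ} [Fact p.Prime] {K : IntermediateField ℚ Qb} [FiniteDimensional ℚ K]
  (hK : ContainsMuP p K) (pl : HeightOneSpectrum (𝓞 K) → ValuationSubring Qb)
  (hpl : ∀ P, Over K (pl P) P) (hp2 : NoReal p K) {T : Finset (HeightOneSpectrum (𝓞 K))}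

section Isotropic

variable (hpT : ∀ P : HeightOneSpectrum (𝓞 K), (p : 𝓞 K) ∈ P.asIdeal → P ∈ T)
  {c : HeightOneSpectrum (𝓞 K) → ZMod p}
  (hc : ∀ x : fullH2 p K, (∀ P ∉ T, locF2 (pl P) x = 0) →
    ∑ P ∈ T, c P * h2Map hK (pl P) (locF2 (pl P) x) = 0)

include hpl hpT hc in
theorem sum_sym_eq_zero {b b' : Kˣ} (hb : b ∈ tUnits T) (hb' : b' ∈ tUnits T) :
    ∑ P ∈ T, c P * h2Map hK (pl P) (sym hK (pl P) b b') = 0 := by
  have h := hc (gsym hK b b') fun P hP => by
    rw [locF2_gsym]; exact sym_eq_zero_outside hK pl hpl hpT hb' hb hP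
  rwa [Finset.sum_congr rfl fun P _ => by rw [locF2_gsym]] at h

include hpl hpT hc hp2 in
set_option maxHeartbeats 2000000 in
/-- If the classes of `T`-units all vanish on a nonempty part of `T`, one of them vanishes on all
of `T`. -/
theorem exists_vanishing_of_isotropic (hc0 : ∀ P ∈ T, c P ≠ 0)
    {D : Finset (HeightOneSpectrum (𝓞 K))} (hDT : D ⊆ T) (hD : D.Nonempty)
    (hW : ∀ x ∈ unitSpace hK T, ∀ P ∈ D, locF1 (pl P) x = 0) :
    ∃ x ∈ unitSpace hK T, x ≠ 0 ∧ ∀ P ∈ T, locF1 (pl P) x = 0 := by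
  classical
  set C := T \ D
  have hfin : ∀ P : HeightOneSpectrum (𝓞 K), Module.Finite (ZMod p) (localH1 p K (pl P)) := fun P => by
    obtain ⟨l, hl, hlA⟩ := (hpl P).1
    exact (localDualityAt p hl K hK hlA).finite_H1
  have : ∀ P : C, Module.Finite (ZMod p) (localH1 p K (pl P.1)) := fun P => hfin P.1
  obtain ⟨P₁, hP₁⟩ := hD
  have hdim : ∑ P : C, finrank (ZMod p) (localH1 p K (pl P.1)) <
      2 * finrank (ZMod p) (unitSpace hK T) := by
    rw [finrank_unitSpace, Finset.sum_coe_sort C (fun P => finrank (ZMod p) (localH1 p K (pl P)))]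
    have h := sum_finrank_localH1 hK pl hpl hpT hp2
    rw [Finset.sum_coe_sort T (fun P => finrank (ZMod p) (localH1 p K (pl P)))] at h
    have h1 : ∑ P ∈ C, finrank (ZMod p) (localH1 p K (pl P)) +
        finrank (ZMod p) (localH1 p K (pl P₁)) ≤
        ∑ P ∈ T, finrank (ZMod p) (localH1 p K (pl P)) := by
      rw [← Finset.sum_erase_add T _ (hDT hP₁)]
      refine Nat.add_le_add_right (Finset.sum_le_sum_of_subset fun P hP => ?_) _
      exact Finset.mem_erase.mpr ⟨fun h => (Finset.mem_sdiff.mp hP).2 (h ▸ hP₁),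
        (Finset.mem_sdiff.mp hP).1⟩
    obtain ⟨l, hl, hlA⟩ := (hpl P₁).1
    rw [(localDualityAt p hl K hK hlA).finrank_H1] at h1
    omega
  obtain ⟨x, hx, hx0, hkill⟩ := exists_ne_zero_of_isotropic
    (V := fun P : C => localH1 p K (pl P.1)) (unitSpace hK T) (fun P => locF1 (pl P.1))
    (fun P => c P.1 • (cupTriv (ZMod p) (localLevels K (pl P.1))).compr₂ (h2Map hK (pl P.1)))
    (fun P x hx => by
      obtain ⟨l, hl, hlA⟩ := (hpl P.1).1
      refine (localDualityAt p hl K hK hlA).cup_nondegenerate x fun y => ?_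
      exact (h2Map_eq_zero_iff hK (hpl P.1).1).mp
        ((mul_eq_zero.mp (hx y)).resolve_left (hc0 P.1 (Finset.mem_sdiff.mp P.2).1)))
    (fun x hx y hy => by
      obtain ⟨b, hb, rfl⟩ := (mem_unitSpace hK).mp hx
      obtain ⟨b', hb', rfl⟩ := (mem_unitSpace hK).mp hy
      show ∑ P : C, c P.1 * h2Map hK (pl P.1) (sym hK (pl P.1) b b') = 0
      rw [Finset.sum_coe_sort C (fun P => c P * h2Map hK (pl P) (sym hK (pl P) b b')),
        Finset.sum_subset (Finset.sdiff_subset : C ⊆ T) fun P hP hP' => by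
          rw [sym, hW _ hx P (by_contra fun h => hP' (Finset.mem_sdiff.mpr ⟨hP, h⟩)), map_zero,
            LinearMap.zero_apply, map_zero, mul_zero]]
      exact sum_sym_eq_zero hK pl hpl hpT hc hb hb')
    (by convert hdim using 4)
  refine ⟨x, hx, hx0, fun P hP => ?_⟩
  by_cases hPD : P ∈ D
  · exact hW x hx P hPD
  · exact hkill ⟨P, Finset.mem_sdiff.mpr ⟨hP, hPD⟩⟩

end Isotropic

variable {S : Finset Nat.Primes} (hS : K.IsUnramifiedOutside S) (hpS : ExtCitation.pPrime p ∈ S)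
  (hT : ∀ P, P ∈ T ↔ ∃ q ∈ S, ((q : ℕ) : 𝓞 K) ∈ P.asIdeal)
  (hbig : ClassGroupGenerated p K S)

include hK hpl hpS hT hp2 hbig in
/-- A class of `T`-units vanishing on `T` is zero. -/
theorem unitSpace_eq_zero {x : fullH1 p K} (hx : x ∈ unitSpace hK T)
    (h : ∀ P ∈ T, locF1 (pl P) x = 0) : x = 0 := by
  classical
  refine eq_zero_of_zero_at hK pl hpl (fun P hP => mem_of_natCast_p_mem hpS hT hP) hp2
    (isBig_primesOver hT hbig) (Finset.disjoint_empty_left T) (fun P hP => absurd hP (Finset.notMem_empty P))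
    h ?_
  rwa [Finset.union_empty]

/-- The localisations at `T` of the classes of `G_{K,S}`. -/
def locT (T : Finset (HeightOneSpectrum (𝓞 K))) (S : Finset Nat.Primes) :
    globalH2 p K S →ₗ[ZMod p] (T → ZMod p) :=
  LinearMap.pi fun P => ((h2Map hK (pl P.1)).comp (locF2 (pl P.1))).comp (infl2 (S := S))

theorem locT_apply (x : globalH2 p K S) (P : T) :
    locT hK pl T S x P = h2Map hK (pl P.1) (locF2 (pl P.1) (infl2 x)) := rfl

open scoped Classical in
include hK hpl hp2 hS hpS hT hbig in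
set_option maxHeartbeats 1000000 in
/-- **Realisation.** -/
theorem exists_globalH2_of_sum_eq_zero {c : HeightOneSpectrum (𝓞 K) → ZMod p}
    (hc0 : ∀ P ∈ T, c P ≠ 0)
    (hc : ∀ x : fullH2 p K, (∀ P ∉ T, locF2 (pl P) x = 0) →
      ∑ P ∈ T, c P * h2Map hK (pl P) (locF2 (pl P) x) = 0)
    (hreal : ∀ z : HeightOneSpectrum (𝓞 K) → ZMod p, ∑ P ∈ T, c P * z P = 0 →
      ∃ x : fullH2 p K, (∀ P ∈ T, h2Map hK (pl P) (locF2 (pl P) x) = z P) ∧
        ∀ P ∉ T, locF2 (pl P) x = 0)
    (z : T → ZMod p) (hz : ∑ P : T, c P.1 * z P = 0) :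
    ∃ x : globalH2 p K S, locT hK pl T S x = z := by
  have hpT : ∀ P : HeightOneSpectrum (𝓞 K), (p : 𝓞 K) ∈ P.asIdeal → P ∈ T :=
    fun P hP => mem_of_natCast_p_mem hpS hT hP
  let δ : T → (T → ZMod p) := fun v => Pi.single v (c v.1)⁻¹
  set R := LinearMap.range (locT hK pl T S)
  have hedge : ∀ e : Kˣ, e ∈ tUnits T → ∀ v w : T, locF1 (pl v.1) (kappa hK e) ≠ 0 →
      locF1 (pl w.1) (kappa hK e) ≠ 0 → δ v - δ w ∈ R := by
    intro e he v w hv hw
    obtain ⟨x, hx, hx'⟩ := hreal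
      (fun P => (if P = v.1 then (c v.1)⁻¹ else 0) - (if P = w.1 then (c w.1)⁻¹ else 0)) (by
        rw [Finset.sum_congr rfl fun P _ => mul_sub _ _ _, Finset.sum_sub_distrib]
        simp only [mul_ite, mul_zero, Finset.sum_ite_eq', v.2, w.2, if_true,
          mul_inv_cancel₀ (hc0 v.1 v.2), mul_inv_cancel₀ (hc0 w.1 w.2), sub_self])
    have he0 : kappa hK e ≠ 0 := fun h => hv (by rw [h, map_zero])
    have hsplit : ∀ P, locF1 (pl P) (kappa hK e) = 0 → locF2 (pl P) x = 0 := by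
      intro P hP
      by_cases hPT : P ∈ T
      · refine (h2Map_eq_zero_iff hK (hpl P).1).mp ((hx P hPT).trans ?_)
        rw [if_neg (fun h : P = v.1 => hv (h ▸ hP)), if_neg (fun h : P = w.1 => hw (h ▸ hP)), sub_zero]
      · exact hx' P hPT
    obtain ⟨b, rfl⟩ := exists_eq_gsym hK pl hpl hp2 he0 x hsplit
    obtain ⟨x', hx''⟩ := exists_infl2_eq_gsym hK hS hpS hT he pl hpl he0 (b := b) fun P hP hP' =>
      dvd_ord_of_sym_eq_zero hK pl hpl hpT he hP hP' (by rw [← locF2_gsym]; exact hx' P hP)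
    refine ⟨x', funext fun P => ?_⟩
    rw [locT_apply, hx'', hx P.1 P.2, Pi.sub_apply]
    simp only [δ, Pi.single_apply, ← Subtype.ext_iff]
  obtain ⟨P₀, hP₀⟩ := exists_mem_T hK pl hpl hpT
  let v₀ : T := ⟨P₀, hP₀⟩
  have hall : ∀ v : T, δ v - δ v₀ ∈ R := by
    by_contra! hne
    obtain ⟨v₁, hv₁⟩ := hne
    set B := T.filter fun P => ∀ h : P ∈ T, δ ⟨P, h⟩ - δ v₀ ∈ R with hB
    have hP₀B : P₀ ∈ B := Finset.mem_filter.mpr ⟨hP₀, fun _ => by
      show δ v₀ - δ v₀ ∈ R
      rw [sub_self]; exact zero_mem R⟩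
    have hside : ∀ x ∈ unitSpace hK T,
        (∀ P ∈ B, locF1 (pl P) x = 0) ∨ ∀ P ∈ T \ B, locF1 (pl P) x = 0 := by
      intro x hx
      by_contra! h
      obtain ⟨⟨v, hv, hv'⟩, w, hw, hw'⟩ := h
      obtain ⟨e, he, rfl⟩ := (mem_unitSpace hK).mp hx
      obtain ⟨hwT, hwB⟩ := Finset.mem_sdiff.mp hw
      refine hwB (Finset.mem_filter.mpr ⟨hwT, fun h => ?_⟩)
      have h1 := hedge e he ⟨w, h⟩ ⟨v, (Finset.mem_filter.mp hv).1⟩ hw' hv'
      have h2 := (Finset.mem_filter.mp hv).2 (Finset.mem_filter.mp hv).1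
      simpa using add_mem h1 h2
    have hone : (∀ x ∈ unitSpace hK T, ∀ P ∈ B, locF1 (pl P) x = 0) ∨
        ∀ x ∈ unitSpace hK T, ∀ P ∈ T \ B, locF1 (pl P) x = 0 := by
      by_contra! h
      obtain ⟨⟨x, hx, P, hP, hxP⟩, y, hy, Q, hQ, hyQ⟩ := h
      have hxC := (hside x hx).resolve_left fun h => hxP (h P hP)
      have hyB := (hside y hy).resolve_right fun h => hyQ (h Q hQ)
      rcases hside (x + y) (add_mem hx hy) with h | h
      · exact hxP (by simpa [hyB P hP] using h P hP)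
      · exact hyQ (by simpa [hxC Q hQ] using h Q hQ)
    have hv₁B : v₁.1 ∈ T \ B := Finset.mem_sdiff.mpr
      ⟨v₁.2, fun h => hv₁ ((Finset.mem_filter.mp h).2 v₁.2)⟩
    have hex : ∃ D ⊆ T, D.Nonempty ∧ ∀ x ∈ unitSpace hK T, ∀ P ∈ D, locF1 (pl P) x = 0 := by
      rcases hone with h | h
      · exact ⟨B, Finset.filter_subset _ _, ⟨P₀, hP₀B⟩, h⟩
      · exact ⟨T \ B, Finset.sdiff_subset, ⟨_, hv₁B⟩, h⟩
    obtain ⟨D, hDT, hD, hW⟩ := hex
    obtain ⟨x, hx, hx0, hxT⟩ :=
      exists_vanishing_of_isotropic hK pl hpl hp2 hpT hc hc0 hDT hD hW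
    exact hx0 (unitSpace_eq_zero hK pl hpl hp2 hpS hT hbig hx hxT)
  have hzR : z ∈ R := by
    have e : z = ∑ v : T, (c v.1 * z v) • (δ v - δ v₀) := by
      simp only [smul_sub, Finset.sum_sub_distrib, ← Finset.sum_smul, hz, zero_smul, sub_zero]
      funext w
      rw [Finset.sum_apply, Finset.sum_eq_single w (fun v _ hv => by
        rw [Pi.smul_apply]; simp [δ, Ne.symm hv]) (by simp), Pi.smul_apply]
      simp only [δ, Pi.single_eq_same, smul_eq_mul]
      rw [mul_comm (c w.1), mul_assoc, mul_inv_cancel₀ (hc0 w.1 w.2), mul_one]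
    rw [e]
    exact sum_mem fun v _ => R.smul_mem _ (hall v)
  exact hzR

end

end FermatAgent.Duality.Global
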