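import Fermat.Agent.Duality.Global.Defs
import Fermat.Agent.Local.Place
import Fermat.Agent.TW.Decomposition

/-!
# The unramified quotient of a local group has no cohomology in degree two

A `2`-cocycle which only depends on the power of Frobenius is the coboundary of a cochain with
`p` times the period, which exists on an unramified cyclotomic level.
-/

set_option autoImplicit false

open scoped Pointwise

namespace FermatAgent.Duality.Global

noncomputable section

local notation "Qb" => AlgebraicClosure ℚ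
local notation "GQ" => AlgebraicClosure ℚ ≃ₐ[ℚ] AlgebraicClosure ℚ

attribute [local instance] FermatAgent.RT.isGalois_algClosureRat

section RootsOfUnity

variable {A : ValuationSubring Qb} {l : ℕ} (hl : l.Prime) (hA : A.LiesOverPrime l) {M : ℕ}
  (hM : ¬ l ∣ M)

lemma val_eq_one_of_pow_eq_one {ξ : Qb} (hM0 : M ≠ 0) (hξ : ξ ^ M = 1) : A.valuation ξ = 1 := by
  have h := congrArg A.valuation hξ
  rw [map_pow, map_one] at h
  exact (pow_eq_one_iff.1 h).resolve_right hM0

include hl hA hM in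
/-- Roots of unity of order prime to `l` are distinct in the residue field. -/
lemma eq_one_of_val_sub_one_lt {ξ : Qb} (hM0 : M ≠ 0) (hξ : ξ ^ M = 1)
    (h : A.valuation (ξ - 1) < 1) : ξ = 1 := by
  by_contra hne
  have hs : ∑ i ∈ Finset.range M, ξ ^ i = 0 := by
    have h1 := geom_sum_mul ξ M
    rw [hξ, sub_self, mul_eq_zero] at h1
    exact h1.resolve_right (sub_ne_zero.2 hne)
  have hsum : A.valuation (∑ i ∈ Finset.range M, (ξ ^ i - 1)) < 1 := by
    refine A.valuation.map_sum_lt one_ne_zero fun i _ => ?_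
    rw [← geom_sum_mul ξ i, map_mul]
    refine lt_of_le_of_lt (mul_le_of_le_one_left' (A.valuation.map_sum_le fun j _ => ?_)) h
    rw [map_pow, val_eq_one_of_pow_eq_one hM0 hξ, one_pow]
  rw [Finset.sum_sub_distrib, hs, Finset.sum_const, Finset.card_range, nsmul_one, zero_sub,
    Valuation.map_neg, FermatAgent.Local.val_natCast_eq_one hl hA hM] at hsum
  exact lt_irrefl _ hsum

include hl hA hM in
lemma eq_of_val_sub_lt {ξ η : Qb} (hM0 : M ≠ 0) (hξ : ξ ^ M = 1) (hη : η ^ M = 1)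
    (h : A.valuation (ξ - η) < 1) : ξ = η := by
  have hv := val_eq_one_of_pow_eq_one (A := A) hM0 hη
  have hη0 : η ≠ 0 := fun h0 => by rw [h0, map_zero] at hv; exact zero_ne_one hv
  refine (div_eq_one_iff_eq hη0).1 (eq_one_of_val_sub_one_lt hl hA hM hM0
    (by rw [div_pow, hξ, hη, div_one]) ?_)
  rwa [div_sub_one hη0, map_div₀, hv, div_one]

end RootsOfUnity

/-- A cochain on `ℕ` with given coboundary. -/
def primitiveOnNat {k : Type*} [AddCommGroup k] (C : ℕ → ℕ → k) : ℕ → k
  | 0 => C 0 0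
  | i + 1 => primitiveOnNat C i - C i 1

section Nat

variable {k : Type*} [AddCommGroup k] (C : ℕ → ℕ → k)
  (hC : ∀ g h j, C (g + h) j + C g h = C h j + C g (h + j))

include hC in
lemma primitiveOnNat_add (i j : ℕ) :
    primitiveOnNat C (i + j) = primitiveOnNat C i + primitiveOnNat C j - C i j := by
  induction j with
  | zero =>
    have h := hC i 0 0
    simp only [add_zero] at h
    have h' : C i 0 = C 0 0 := add_right_cancel h
    rw [add_zero, primitiveOnNat, h', add_sub_cancel_right]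
  | succ j ih =>
    rw [← add_assoc, primitiveOnNat, ih, primitiveOnNat]
    have h : C (i + j) 1 = C j 1 + C i (j + 1) - C i j := eq_sub_of_add_eq (hC i j 1)
    rw [h]
    abel

end Nat

lemma primitiveOnNat_mod {p : ℕ} [NeZero p] (C : ℕ → ℕ → ZMod p)
    (hC : ∀ g h j, C (g + h) j + C g h = C h j + C g (h + j)) {n : ℕ}
    (hn : ∀ i, C i n = C 0 0) (a : ℕ) :
    primitiveOnNat C (a % (p * n)) = primitiveOnNat C a := by
  have step : ∀ i k, primitiveOnNat C (i + k * n) =
      primitiveOnNat C i + (k : ZMod p) * (primitiveOnNat C n - C 0 0) := by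
    intro i k
    induction k with
    | zero => simp
    | succ k ih =>
      rw [Nat.succ_mul, ← add_assoc, primitiveOnNat_add C hC, ih, hn]
      push_cast
      ring
  conv_rhs => rw [← Nat.mod_add_div a (p * n), mul_comm p n, mul_assoc, mul_comm n (p * _),
    step, Nat.cast_mul, ZMod.natCast_self, zero_mul, zero_mul, add_zero]
  rw [mul_comm p n]

variable {p : ℕ} [Fact p.Prime] {K : IntermediateField ℚ Qb} {S : Finset Nat.Primes}

set_option maxHeartbeats 1000000 in
/-- A class of `G_{K,S}` is locally trivial in degree two outside `S`. -/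
theorem loc2_eq_zero_of_unramified (hS : K.IsUnramifiedOutside S) {q : Nat.Primes} (hq : q ∉ S)
    {A : ValuationSubring Qb} (hA : A.LiesOverPrime (q : ℕ)) (x : globalH2 p K S) :
    loc2 p K S A x = 0 := by
  classical
  have hp := (Fact.out : p.Prime)
  have : NeZero p := ⟨hp.ne_zero⟩
  obtain ⟨c, rfl⟩ := Submodule.mkQ_surjective _ x
  obtain ⟨_, ⟨_, ⟨F₀, hF₀, rfl⟩, rfl⟩, hc⟩ := c.2.1
  have hcoc := c.2.2
  -- a Galois level unramified at `q`
  let N := IntermediateField.normalClosure ℚ (F₀ ⊔ K : IntermediateField ℚ Qb) Qb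
  have hN : N.IsUnramifiedOutside S := isUnramifiedOutside_normalClosure (hF₀.sup hS)
  have := hN.1
  have hle : F₀ ⊔ K ≤ N := IntermediateField.le_normalClosure _
  have := finiteIndex_fixingSubgroup N
  obtain ⟨F, hF⟩ := FermatAgent.RT.exists_isFrobeniusAt q.2 hA
  have hFD := (FermatAgent.TW.isFrobeniusAt_iff.1 hF).1
  have hNfix : ∀ {g : GQ}, g ∈ N.fixingSubgroup → g ∈ K.fixingSubgroup := fun hg =>
    IntermediateField.fixingSubgroup_antitone (le_sup_right.trans hle) hg
  have hex : ∃ f, 0 < f ∧ F ^ f ∈ K.fixingSubgroup := by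
    obtain ⟨n, hn, -, h⟩ := Subgroup.exists_pow_mem_of_index_ne_zero
      (H := N.fixingSubgroup) Subgroup.FiniteIndex.index_ne_zero F
    exact ⟨n, hn, hNfix h⟩
  set f := Nat.find hex
  obtain ⟨hf0, hf⟩ := Nat.find_spec hex
  let g : localGroup K A := ⟨F ^ f, hf, pow_mem hFD f⟩
  obtain ⟨n, hn0, -, hn⟩ := Subgroup.exists_pow_mem_of_index_ne_zero
    (H := N.fixingSubgroup) Subgroup.FiniteIndex.index_ne_zero (F ^ f)
  -- an unramified root of unity moved with period `f p n` by Frobenius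
  set P := f * (p * n)
  have hP : 0 < P := Nat.mul_pos hf0 (Nat.mul_pos hp.pos hn0)
  set M := (q : ℕ) ^ P - 1
  have hq1 : 1 ≤ (q : ℕ) ^ P := Nat.one_le_pow _ _ q.2.pos
  have hM0 : M ≠ 0 := (Nat.sub_pos_of_lt (Nat.one_lt_pow hP.ne' q.2.one_lt)).ne'
  have hqM : ¬ (q : ℕ) ∣ M := fun h => q.2.ne_one (Nat.dvd_one.1
    ((Nat.dvd_add_right h).1 (by rw [Nat.sub_add_cancel hq1]; exact dvd_pow_self _ hP.ne')))
  have : NeZero M := ⟨hM0⟩
  have : NeZero (M : Qb) := ⟨Nat.cast_ne_zero.2 hM0⟩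
  obtain ⟨ζ, hζ⟩ := HasEnoughRootsOfUnity.exists_primitiveRoot Qb M
  have hζv : A.valuation ζ ≤ 1 := (val_eq_one_of_pow_eq_one hM0 hζ.pow_eq_one).le
  have hFζ : F ζ = ζ ^ (q : ℕ) := eq_of_val_sub_lt q.2 hA hqM hM0
    (by rw [← map_pow, hζ.pow_eq_one, map_one])
    (by rw [← pow_mul, mul_comm, pow_mul, hζ.pow_eq_one, one_pow])
    ((FermatAgent.TW.isFrobeniusAt_iff.1 hF).2 ζ ((A.valuation_le_one_iff ζ).1 hζv))
  have hFpow : ∀ m : ℕ, (F ^ m) ζ = ζ ^ ((q : ℕ) ^ m) := fun m => by
    induction m with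
    | zero => simp
    | succ m ih => rw [pow_succ' F, AlgEquiv.mul_apply, ih, map_pow, hFζ, ← pow_mul, pow_succ']
  have hIζ : ∀ i ∈ A.inertiaSubgroupIn ℚ, i ζ = ζ := fun i hi =>
    eq_of_val_sub_lt q.2 hA hqM hM0 (by rw [← map_pow, hζ.pow_eq_one, map_one]) hζ.pow_eq_one
      (FermatAgent.Local.inertia_val_sub_lt_one hi ((A.valuation_le_one_iff ζ).1 hζv))
  have hinj : ∀ a b : ℕ, ζ ^ ((q : ℕ) ^ a) = ζ ^ ((q : ℕ) ^ b) → a ≡ b [MOD P] := by
    intro a b hab
    wlog hle : a ≤ b generalizing a b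
    · exact (this b a hab.symm (le_of_not_ge hle)).symm
    obtain ⟨d, rfl⟩ := Nat.exists_eq_add_of_le hle
    have h1 : M ∣ (q : ℕ) ^ a * ((q : ℕ) ^ d - 1) := by
      rw [Nat.mul_sub, mul_one, ← pow_add, ← Nat.modEq_iff_dvd' (Nat.pow_le_pow_right q.2.pos hle)]
      rw [(hζ.isOfFinOrder hM0).pow_eq_pow_iff_modEq, ← hζ.eq_orderOf] at hab
      exact hab
    have h3 : M ∣ (q : ℕ) ^ d - 1 :=
      (((q.2.coprime_iff_not_dvd.2 hqM).pow_left a).symm).dvd_of_dvd_mul_left h1
    have h4 := Nat.pow_sub_one_gcd_pow_sub_one (q : ℕ) P d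
    rw [Nat.gcd_eq_left h3] at h4
    have h5 : P = P.gcd d := by
      refine Nat.pow_right_injective q.2.two_le ?_
      have := Nat.one_le_pow (P.gcd d) _ q.2.pos
      simp only
      omega
    have h6 : P ∣ d := h5 ▸ Nat.gcd_dvd_right P d
    exact (Nat.modEq_iff_dvd' (Nat.le_add_right a d)).2 (by simpa using h6)
  -- the exponent of an element of the local group
  let L := IntermediateField.normalClosure ℚ (N ⊔ (IntermediateField.adjoin ℚ ({ζ} : Set Qb)) : IntermediateField ℚ Qb) Qb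
  have : FiniteDimensional ℚ (IntermediateField.adjoin ℚ ({ζ} : Set Qb)) :=
    IntermediateField.adjoin.finiteDimensional (Algebra.IsIntegral.isIntegral ζ)
  have hNζ : FiniteDimensional ℚ (N ⊔ (IntermediateField.adjoin ℚ ({ζ} : Set Qb)) : IntermediateField ℚ Qb) :=
    IntermediateField.finiteDimensional_sup _ _
  have : FiniteDimensional ℚ L := normalClosure.is_finiteDimensional ℚ _ Qb
  have : IsGalois ℚ L := IsGalois.normalClosure ℚ _ Qb
  have hNL : N ≤ L := le_sup_left.trans (IntermediateField.le_normalClosure _)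
  have hζL : ζ ∈ L :=
    (le_sup_right.trans (IntermediateField.le_normalClosure (N ⊔ (IntermediateField.adjoin ℚ ({ζ} : Set Qb))))
      : (IntermediateField.adjoin ℚ ({ζ} : Set Qb)) ≤ L) (IntermediateField.mem_adjoin_simple_self ℚ ζ)
  have hgal : IsGalois ℚ N := IsGalois.normalClosure ℚ _ Qb
  have hexp : ∀ σ : localGroup K A, ∃ a : ℕ, (σ : GQ) ζ = ζ ^ ((q : ℕ) ^ (f * a)) ∧
      ((g ^ a : localGroup K A) : GQ)⁻¹ * σ ∈ N.fixingSubgroup := by
    intro σ
    obtain ⟨m, i, hi, hm⟩ :=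
      FermatAgent.TW.exists_frobenius_pow_mul q.2 hA L hF (σ.2.2 : (σ : GQ) ∈ _)
    have hiN : i ∈ N.fixingSubgroup := hN.2 q hq A hA hi
    have hN' : (F ^ m)⁻¹ * σ ∈ N.fixingSubgroup := fun y => by
      show (F ^ m)⁻¹ ((σ : GQ) y) = y
      rw [hm _ (hNL y.2), AlgEquiv.mul_apply, show i (y : Qb) = y from hiN y, ← AlgEquiv.mul_apply, inv_mul_cancel,
        AlgEquiv.one_apply]
    have hmK : F ^ m ∈ K.fixingSubgroup := by
      have := K.fixingSubgroup.mul_mem σ.2.1 (K.fixingSubgroup.inv_mem (hNfix hN'))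
      simpa using this
    obtain ⟨a, rfl⟩ : f ∣ m := by
      refine Nat.dvd_of_mod_eq_zero (by_contra fun h0 => ?_)
      refine Nat.find_min hex (Nat.mod_lt m hf0) ⟨Nat.pos_of_ne_zero h0, ?_⟩
      have h1 : F ^ m = (F ^ f) ^ (m / f) * F ^ (m % f) := by
        rw [← pow_mul, ← pow_add, Nat.div_add_mod]
      rw [h1] at hmK
      exact (Subgroup.mul_mem_cancel_left _ (pow_mem hf _)).1 hmK
    refine ⟨a, ?_, ?_⟩
    · rw [hm ζ hζL, AlgEquiv.mul_apply, hIζ i hi, hFpow]
    · rwa [SubgroupClass.coe_pow, ← pow_mul]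
  choose e he heN using hexp
  -- the cocycle on exponents
  set c' : localGroup K A × localGroup K A → ZMod p :=
    fun q => c.1 (localIncl K A q.1, localIncl K A q.2)
  have hc' : ∀ g₁ g₂ u v : localGroup K A, (u : GQ) ∈ N.fixingSubgroup →
      (v : GQ) ∈ N.fixingSubgroup → c' (g₁ * u, g₂ * v) = c' (g₁, g₂) := fun g₁ g₂ u v hu hv =>
    hc (localIncl K A g₁) (localIncl K A g₂) (localIncl K A u)
      (IntermediateField.fixingSubgroup_antitone (le_sup_left.trans hle) hu) (localIncl K A v)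
      (IntermediateField.fixingSubgroup_antitone (le_sup_left.trans hle) hv)
  set C : ℕ → ℕ → ZMod p := fun i j => c' (g ^ i, g ^ j)
  have hC : ∀ i j k, C (i + j) k + C i j = C j k + C i (j + k) := fun i j k => by
    have := hcoc (localIncl K A (g ^ i)) (localIncl K A (g ^ j)) (localIncl K A (g ^ k))
    simp only [C, c', pow_add, map_mul]
    exact this
  have hCn : ∀ i, C i n = C 0 0 := fun i => by
    have h0 := hC i 0 0
    simp only [add_zero] at h0
    rw [← add_right_cancel h0]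
    have hgn : ((g ^ n : localGroup K A) : GQ) ∈ N.fixingSubgroup := by
      rwa [SubgroupClass.coe_pow]
    have := hc' (g ^ i) 1 1 (g ^ n) (one_mem _) hgn
    simpa [C] using this
  set b : localGroup K A → ZMod p := fun σ => primitiveOnNat C (e σ % (p * n))
  have hper : ∀ a a' : ℕ, f * a ≡ f * a' [MOD P] →
      primitiveOnNat C (a % (p * n)) = primitiveOnNat C (a' % (p * n)) := fun a a' h =>
    congrArg _ (Nat.ModEq.mul_left_cancel' hf0.ne' h)
  show cl2 (localLevels K A) (triv (ZMod p) (localGroup K A)) _ = 0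
  refine (cl2_eq_zero_iff _ _ _).2 ⟨b, ⟨_, ⟨_, ⟨L, inferInstance, rfl⟩, rfl⟩, ?_⟩, ?_⟩
  · intro σ s hs
    refine hper _ _ (hinj _ _ ?_)
    have hsL : (s : GQ) ζ = ζ := hs ⟨ζ, hζL⟩
    rw [← he, ← he, Subgroup.coe_mul, AlgEquiv.mul_apply, hsL]
  · funext q'
    obtain ⟨σ, τ⟩ := q'
    show b τ - b (σ * τ) + b σ = c' (σ, τ)
    have hadd : f * e (σ * τ) ≡ f * (e σ + e τ) [MOD P] := hinj _ _ (by
      rw [← he, Subgroup.coe_mul, AlgEquiv.mul_apply, he τ, map_pow, he σ, ← pow_mul, ← pow_add,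
        mul_add])
    have hval : c' (σ, τ) = C (e σ) (e τ) := by
      have := hc' (g ^ e σ) (g ^ e τ) ((g ^ e σ)⁻¹ * σ) ((g ^ e τ)⁻¹ * τ) (heN σ) (heN τ)
      rwa [mul_inv_cancel_left, mul_inv_cancel_left] at this
    rw [hval, show b (σ * τ) = _ from hper _ _ hadd]
    simp only [b, primitiveOnNat_mod C hC hCn, primitiveOnNat_add C hC]
    abel

end

end FermatAgent.Duality.Global
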