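import Fermat.Agent.Duality.Global.Defs
import Fermat.Agent.Duality.Global.Realise
import Fermat.Agent.Duality.Global.Unramified

/-!
# Global duality for big `S`

Assembly: the Hasse principles, the global invariant with realisation by classes of `G_{K,S}`, and
the fact that the `S`-units are their own annihilator.
-/

set_option autoImplicit false

open scoped Pointwise

namespace FermatAgent.Duality.Global

open IsDedekindDomain NumberField Module

noncomputable section

local notation "Qb" => AlgebraicClosure ℚ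

attribute [local instance] numberField_of_finite

variable (p : ℕ) [Fact p.Prime] (K : IntermediateField ℚ Qb) (S : Finset Nat.Primes)

set_option maxHeartbeats 1000000 in
/-- See `FermatAgent.Duality.exists_globalDuality`. -/
theorem exists_globalDuality [FiniteDimensional ℚ K] (hp : p ≠ 2) (hK : ContainsMuP p K)
    (hS : K.IsUnramifiedOutside S) (hpS : ExtCitation.pPrime p ∈ S)
    (hbig : ClassGroupGenerated p K S) (P : PlaceSystem K S) :
    ∃ inv : LocalFunctionals (p := p) P, (∀ i, inv i ≠ 0) ∧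
      (∀ x : globalH1 p K S, (∀ i, loc1 p K S (P.place i) x = 0) → x = 0) ∧
      (∀ x : globalH2 p K S, (∀ i, loc2 p K S (P.place i) x = 0) → x = 0) ∧
      (∀ z : ∀ i, localH2 p K (P.place i),
        (∑ i, inv i (z i) = 0) ↔ ∃ x : globalH2 p K S, ∀ i, loc2 p K S (P.place i) x = z i) ∧
      (∀ t : ∀ i, localH1 p K (P.place i),
        (∀ y : globalH1 p K S, sumPairing P inv t (fun i => loc1 p K S (P.place i) y) = 0) ↔
          ∃ x : globalH1 p K S, ∀ i, loc1 p K S (P.place i) x = t i) := by
  classical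
  have hnr : NoReal p K := Or.inl hp
  obtain ⟨T, hT⟩ := exists_primesOver K S
  have hplace : ∀ i, IsPlace (P.place i) := fun i => ⟨_, (P.prime i).2, P.liesOver i⟩
  choose π hπ using fun i => exists_over (K := K) (hplace i)
  have hπT : ∀ i, π i ∈ T := fun i =>
    (mem_iff_of_over hT (P.liesOver i) (hπ i)).2 (P.prime_mem i)
  have hπinj : Function.Injective π := fun i j h => by
    obtain ⟨g, hg, hge⟩ := exists_smul_eq_of_over (hπ i) (h.symm ▸ hπ j : Over K (P.place j) (π i))
    exact P.inj i j g hg hge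
  have hsurj : ∀ Q ∈ T, ∃ i, π i = Q := fun Q hQ => by
    obtain ⟨A, hA⟩ := exists_place Q
    obtain ⟨l, hl, hlA⟩ := hA.1
    obtain ⟨i, -, g, hg, rfl⟩ :=
      P.exhausts _ ((mem_iff_of_over hT (q := ⟨l, hl⟩) hlA hA).1 hQ) A hlA
    exact ⟨i, ((hπ i).smul hg).eq hA⟩
  let e : P.ι ≃ T := Equiv.ofBijective (fun i => ⟨π i, hπT i⟩)
    ⟨fun i j h => hπinj (congrArg Subtype.val h),
      fun Q => (hsurj Q.1 Q.2).imp fun i h => Subtype.ext h⟩
  let pl : HeightOneSpectrum (𝓞 K) → ValuationSubring Qb := fun Q =>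
    if h : ∃ i, π i = Q then P.place h.choose else (exists_place Q).choose
  have hpl : ∀ Q, Over K (pl Q) Q := by
    intro Q
    by_cases h : ∃ i, π i = Q
    · rw [show pl Q = P.place h.choose from dif_pos h]
      exact (congrArg (Over K (P.place h.choose)) h.choose_spec).mp (hπ h.choose)
    · rw [show pl Q = (exists_place Q).choose from dif_neg h]
      exact (exists_place Q).choose_spec
  have hplπ : ∀ i, pl (π i) = P.place i := fun i => by
    have h : ∃ j, π j = π i := ⟨i, rfl⟩
    rw [show pl (π i) = P.place h.choose from dif_pos h, hπinj h.choose_spec]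
  have hpT : ∀ Q : HeightOneSpectrum (𝓞 K), (p : 𝓞 K) ∈ Q.asIdeal → Q ∈ T :=
    fun Q hQ => mem_of_natCast_p_mem hpS hT hQ
  obtain ⟨c, hc0, hc, hreal⟩ := exists_invariant hK pl hpl hnr hpT (isBig_primesOver hT hbig)
  have hsum : ∀ f : HeightOneSpectrum (𝓞 K) → ZMod p, ∑ i, f (π i) = ∑ Q ∈ T, f Q := fun f =>
    Finset.sum_bij (fun i _ => π i) (fun i _ => hπT i) (fun i _ j _ h => hπinj h)
      (fun Q hQ => (hsurj Q hQ).imp fun i h => ⟨Finset.mem_univ _, h⟩) (fun _ _ => rfl)
  let inv : LocalFunctionals (p := p) P := fun i => c (π i) • h2Map hK (P.place i)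
  have hout : ∀ x : globalH2 p K S, ∀ Q ∉ T, locF2 (pl Q) (infl2 x) = 0 := fun x Q hQ => by
    obtain ⟨l, hl, hlA⟩ := (hpl Q).1
    rw [locF2_infl2]
    exact loc2_eq_zero_of_unramified hS
      (fun h => hQ ((mem_iff_of_over hT (q := ⟨l, hl⟩) hlA (hpl Q)).2 h)) hlA x
  have hzero : ∀ u ∈ unitSpace hK T, (∀ i, locF1 (P.place i) u = 0) → u = 0 := fun u hu h =>
    unitSpace_eq_zero hK pl hpl hnr hpS hT hbig hu fun Q hQ => by
      obtain ⟨i, rfl⟩ := hsurj Q hQ
      rw [hplπ]
      exact h i
  have hiso : ∀ u ∈ unitSpace hK T, ∀ v ∈ unitSpace hK T, ∑ i, inv i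
      (cupTriv (ZMod p) (localLevels K (P.place i)) (locF1 (P.place i) u) (locF1 (P.place i) v)) =
        0 := by
    intro u hu v hv
    obtain ⟨b, hb, rfl⟩ := (mem_unitSpace hK).mp hu
    obtain ⟨b', hb', rfl⟩ := (mem_unitSpace hK).mp hv
    rw [← sum_sym_eq_zero hK pl hpl hpT hc hb hb',
      ← hsum (fun Q => c Q * h2Map hK (pl Q) (sym hK (pl Q) b b'))]
    refine Finset.sum_congr rfl fun i _ => ?_
    rw [hplπ]
    rfl
  refine ⟨inv, fun i h => ?_, fun x hx => ?_, fun x hx => ?_, fun z => ⟨fun h => ?_, ?_⟩,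
    fun t => ⟨fun h => ?_, ?_⟩⟩
  · obtain ⟨x, hx⟩ := (h2Map_bijective hK (hplace i)).2 1
    have h1 := LinearMap.congr_fun h x
    simp only [inv, LinearMap.smul_apply, hx, smul_eq_mul, mul_one, LinearMap.zero_apply] at h1
    exact hc0 _ (hπT i) h1
  · refine infl1_injective ((hzero _ (infl1_mem_unitSpace hK hS hpS hT hbig x) fun i => ?_).trans
      (map_zero infl1).symm)
    rw [locF1_infl1]
    exact hx i
  · refine infl2_injective hK hS hpS hT hbig ((eq_zero_of_locF2 hK hnr (infl2 x) fun A hA => ?_).trans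
      (map_zero infl2).symm)
    obtain ⟨Q, hQ⟩ := exists_over (K := K) hA
    refine locF2_eq_zero_congr (hpl Q) hQ ?_
    by_cases hQT : Q ∈ T
    · obtain ⟨i, rfl⟩ := hsurj Q hQT
      rw [hplπ, locF2_infl2]
      exact hx i
    · exact hout x Q hQT
  · obtain ⟨x, hx⟩ := exists_globalH2_of_sum_eq_zero hK pl hpl hnr hS hpS hT hbig hc0 hc hreal
      (fun Q => h2Map hK (P.place (e.symm Q)) (z (e.symm Q))) (by
        refine (Fintype.sum_equiv e _ _ fun i => ?_).symm.trans h
        rw [congrArg (fun j => h2Map hK (P.place j) (z j)) (e.symm_apply_apply i)]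
        rfl)
    refine ⟨x, fun i => (h2Map_bijective hK (hplace i)).1 ?_⟩
    have h1 := congrFun hx (e i)
    rw [congrArg (fun j => h2Map hK (P.place j) (z j)) (e.symm_apply_apply i), locT_apply,
      show (e i).1 = π i from rfl, hplπ, locF2_infl2] at h1
    exact h1
  · rintro ⟨x, hx⟩
    rw [← hc (infl2 x) (hout x),
      ← hsum (fun Q => c Q * h2Map hK (pl Q) (locF2 (pl Q) (infl2 x)))]
    refine Finset.sum_congr rfl fun i _ => ?_
    rw [hplπ, locF2_infl2, hx]
    rfl
  · have : ∀ i, Module.Finite (ZMod p) (localH1 p K (P.place i)) := fun i =>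
      (localDualityAt p (P.prime i).2 K hK (P.liesOver i)).finite_H1
    obtain ⟨u, hu, hut⟩ := exists_eq_of_annihilates (V := fun i => localH1 p K (P.place i))
      (unitSpace hK T) (fun i => locF1 (P.place i))
      (fun i => (cupTriv (ZMod p) (localLevels K (P.place i))).compr₂ (inv i))
      (fun i x hx => by
        refine (localDualityAt p (P.prime i).2 K hK (P.liesOver i)).cup_nondegenerate x fun y => ?_
        exact (h2Map_eq_zero_iff hK (hplace i)).mp
          ((mul_eq_zero.mp (hx y)).resolve_left (hc0 _ (hπT i))))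
      hiso hzero (by
        rw [finrank_unitSpace, Fintype.sum_equiv e _
          (fun Q : T => finrank (ZMod p) (localH1 p K (pl Q.1))) fun i => by
            rw [show (e i).1 = π i from rfl, hplπ],
          sum_finrank_localH1 hK pl hpl hpT hnr]
        ring)
      t (fun v hv => by
        obtain ⟨b, hb, rfl⟩ := (mem_unitSpace hK).mp hv
        obtain ⟨y, hy⟩ := exists_infl1_eq_kappa hK hS hpS hT hb
        refine (Finset.sum_congr rfl fun i _ => ?_).trans (h y)
        rw [← hy, locF1_infl1]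
        rfl)
    obtain ⟨b, hb, rfl⟩ := (mem_unitSpace hK).mp hu
    obtain ⟨x, hx⟩ := exists_infl1_eq_kappa hK hS hpS hT hb
    exact ⟨x, fun i => by rw [← hut i, ← hx, locF1_infl1]⟩
  · rintro ⟨x, hx⟩ y
    refine (Finset.sum_congr rfl fun i _ => ?_).trans
      (hiso _ (infl1_mem_unitSpace hK hS hpS hT hbig x) _ (infl1_mem_unitSpace hK hS hpS hT hbig y))
    rw [locF1_infl1, locF1_infl1, hx]

end

end FermatAgent.Duality.Global
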