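import Fermat.Agent.Duality.Global.Places
import Fermat.Agent.Duality.Local.Interface

/-!
# Definitions for global Kummer duality (L2)
-/

set_option autoImplicit false

namespace FermatAgent.Duality

open Module
open scoped nonZeroDivisors

noncomputable section

local notation "Qb" => AlgebraicClosure ℚ
local notation "GQ" => AlgebraicClosure ℚ ≃ₐ[ℚ] AlgebraicClosure ℚ

variable (p : ℕ) [Fact p.Prime] (K : IntermediateField ℚ Qb) (S : Finset Nat.Primes)

/-- The ideal classes of `K` are generated by primes over `S` and `p`-th powers. -/
def ClassGroupGenerated [FiniteDimensional ℚ K] : Prop :=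
  letI : NumberField K := ⟨⟩
  Subgroup.closure {c : ClassGroup (NumberField.RingOfIntegers K) |
      ∃ P : (Ideal (NumberField.RingOfIntegers K))⁰, (P : Ideal (NumberField.RingOfIntegers K)).IsPrime ∧
        (∃ q ∈ S, ((q : ℕ) : NumberField.RingOfIntegers K) ∈ (P : Ideal (NumberField.RingOfIntegers K))) ∧
        c = ClassGroup.mk0 P} ⊔
    (powMonoidHom p : ClassGroup (NumberField.RingOfIntegers K) →* _).range = ⊤

variable {p K S}

/-- A family of functionals, one for each local `H²`. -/
abbrev LocalFunctionals (P : PlaceSystem K S) : Type :=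
  ∀ i : P.ι, localH2 p K (P.place i) →ₗ[ZMod p] ZMod p

/-- The total local pairing attached to functionals on the local `H²`. -/
def sumPairing (P : PlaceSystem K S) (inv : LocalFunctionals (p := p) P)
    (x y : ∀ i : P.ι, localH1 p K (P.place i)) : ZMod p :=
  ∑ i, inv i (cupTriv (ZMod p) (localLevels K (P.place i)) (x i) (y i))

variable (p)

/-- The representation of `G_ℚ` on the `p`-th roots of unity. -/
abbrev cycloRep : Representation (ZMod p) GQ (ZMod p) :=
  (triv (ZMod p) GQ).twist (ExtCitation.cycloChar p)

end

end FermatAgent.Duality
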