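import Fermat.Agent.Duality.Euler.GalAction
import Fermat.Agent.Duality.Core.Mackey
import Fermat.Agent.Duality.Global.Defs
import Fermat.Agent.Duality.Local.Units
import Fermat.Agent.TW.Cyclo

/-!
# The field of `p`-th roots of unity; restriction and corestriction from it
-/

set_option autoImplicit false

open scoped Pointwise

namespace FermatAgent.Duality.Global

open FermatAgent.Duality FermatAgent.Duality.Euler

noncomputable section

local notation "Qb" => AlgebraicClosure ℚ
local notation "GQ" => AlgebraicClosure ℚ ≃ₐ[ℚ] AlgebraicClosure ℚ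

attribute [local instance] FermatAgent.RT.isGalois_algClosureRat

variable (p : ℕ) [Fact p.Prime]

/-- A primitive `p`-th root of unity. -/
def cycloRoot : Qb :=
  haveI : NeZero p := ⟨(Fact.out : p.Prime).ne_zero⟩
  (TW.exists_primitiveRoot_qbar p).choose

lemma cycloRoot_spec : IsPrimitiveRoot (cycloRoot p) p :=
  haveI : NeZero p := ⟨(Fact.out : p.Prime).ne_zero⟩
  (TW.exists_primitiveRoot_qbar p).choose_spec

/-- `ℚ(ζ_p)` inside `ℚ̄`. -/
def cycloField : IntermediateField ℚ Qb := IntermediateField.adjoin ℚ {cycloRoot p}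

instance finiteDimensional_cycloField : FiniteDimensional ℚ (cycloField p) :=
  IntermediateField.adjoin.finiteDimensional (Algebra.IsIntegral.isIntegral _)

lemma fixingSubgroup_cycloField :
    (cycloField p).fixingSubgroup = (ExtCitation.cycloChar p).ker := by
  ext σ
  constructor
  · intro h
    exact TW.cycloChar_eq_one_of_apply (cycloRoot_spec p)
      (h ⟨_, IntermediateField.mem_adjoin_simple_self ℚ (cycloRoot p)⟩)
  · intro h
    have h1 : σ (cycloRoot p) = cycloRoot p := by
      rw [TW.apply_root_eq_pow (cycloRoot_spec p), show ExtCitation.cycloChar p σ = 1 from h,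
        Units.val_one, ZMod.val_one, pow_one]
    have : cycloField p ≤ IntermediateField.fixedField (Subgroup.zpowers σ) := by
      rw [cycloField, IntermediateField.adjoin_le_iff, Set.singleton_subset_iff]
      rintro ⟨g, k, rfl⟩
      exact (MulAction.stabilizer GQ (cycloRoot p)).zpow_mem h1 k
    intro x
    exact this x.2 ⟨σ, Subgroup.mem_zpowers σ⟩

instance normal_fixingSubgroup_cycloField : (cycloField p).fixingSubgroup.Normal := by
  rw [fixingSubgroup_cycloField]
  infer_instance

lemma containsMuP_cycloField : ContainsMuP p (cycloField p) := fun σ hσ => by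
  rwa [fixingSubgroup_cycloField] at hσ

theorem isUnramifiedOutside_cycloField {S : Finset Nat.Primes} (hpS : ExtCitation.pPrime p ∈ S) :
    (cycloField p).IsUnramifiedOutside S := by
  refine ⟨inferInstance, fun q hq A hA i hi => ?_⟩
  rw [fixingSubgroup_cycloField]
  refine TW.cycloChar_eq_one_of_apply (cycloRoot_spec p) ?_
  have hqp : (q : ℕ) ≠ p := fun h => hq (by
    rwa [show q = ExtCitation.pPrime p from Subtype.ext h])
  have hζ := cycloRoot_spec p
  have hA1 : A.valuation (cycloRoot p) = 1 := by
    have h := congrArg A.valuation hζ.pow_eq_one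
    rw [map_pow, map_one] at h
    exact (pow_eq_one_iff.1 h).resolve_right (Fact.out : p.Prime).ne_zero
  have h1 := FermatAgent.Local.inertia_val_sub_lt_one hi ((A.valuation_le_one_iff _).1 hA1.le)
  rw [TW.apply_root_eq_pow hζ] at h1 ⊢
  set c := (ExtCitation.cycloChar p i : ZMod p).val with hc
  have hc0 : c ≠ 0 := fun h => (ExtCitation.cycloChar p i).ne_zero ((ZMod.val_eq_zero _).1 h)
  rcases eq_or_ne c 1 with h | h
  · rw [h, pow_one]
  exfalso
  have hcp : c < p := ZMod.val_lt _
  have hprim : IsPrimitiveRoot (cycloRoot p ^ (c - 1)) p :=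
    hζ.pow_of_coprime _ (((Fact.out : p.Prime).coprime_iff_not_dvd.2 fun hd => by
      have := Nat.le_of_dvd (by omega) hd
      omega).symm)
  rw [show cycloRoot p ^ c - cycloRoot p = cycloRoot p * (cycloRoot p ^ (c - 1) - 1) by
    rw [mul_sub, mul_one, ← pow_succ', Nat.sub_add_cancel (Nat.one_le_iff_ne_zero.2 hc0)],
    map_mul, hA1, one_mul, Local.val_zeta_sub_one_eq_one hprim q.2 hA hqp] at h1
  exact lt_irrefl _ h1

/-- The Galois group of `ℚ(ζ_p)` has order prime to `p`. -/
theorem not_dvd_card_galL : ¬ p ∣ Nat.card (GalL (cycloField p)) := by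
  have hinj : Function.Injective (omegaL (containsMuP_cycloField p)) := by
    refine (injective_iff_map_eq_one _).2 fun x hx => ?_
    induction x using QuotientGroup.induction_on with
    | _ g =>
    rw [omegaL_mk] at hx
    exact (QuotientGroup.eq_one_iff _).2 (by rw [fixingSubgroup_cycloField]; exact hx)
  have h1 := Nat.card_le_card_of_injective _ hinj
  rw [Nat.card_eq_fintype_card (α := (ZMod p)ˣ), ZMod.card_units] at h1
  have := finite_galL (cycloField p)
  intro hd
  have := Nat.le_of_dvd Nat.card_pos hd
  have := (Fact.out : p.Prime).pos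
  omega

variable {p} {T T' : Finset Nat.Primes}

/-- Restriction to `ℚ(ζ_p)`. -/
def resCyclo : H2c (sLevels T) (cycloRep p) →ₗ[ZMod p] globalH2 p (cycloField p) T :=
  map2 (φ := LinearMap.id) _ (triv (ZMod p) (cycloField p).fixingSubgroup)
    (f := (cycloField p).fixingSubgroup.subtype)
    (fun U hU => ⟨_, ⟨U, hU, rfl⟩, fun _ h => h⟩) (fun n m => by
      show cycloRep p n m = m
      rw [Representation.twist_apply_apply, containsMuP_cycloField p n n.2, Units.val_one, one_smul]
      rfl)

lemma exists_level_cycloField (hpT : ExtCitation.pPrime p ∈ T) :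
    ∃ V ∈ (sLevels T).lev, V ≤ (cycloField p).fixingSubgroup :=
  ⟨_, ⟨_, isUnramifiedOutside_cycloField p hpT, rfl⟩, le_rfl⟩

/-- The coefficient identification over `ℚ(ζ_p)`. -/
def toTwist : globalH2 p (cycloField p) T →ₗ[ZMod p]
    H2c ((sLevels T).comap (cycloField p).fixingSubgroup.subtype)
      ((cycloRep p).comp (cycloField p).fixingSubgroup.subtype) :=
  map2 (φ := LinearMap.id) _ _ (f := MonoidHom.id _) (fun U hU => ⟨U, hU, fun _ h => h⟩)
    (fun n m => by
      show m = cycloRep p n m
      rw [Representation.twist_apply_apply, containsMuP_cycloField p n n.2, Units.val_one, one_smul]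
      rfl)

instance fintype_galCyclo : Fintype (GalL (cycloField p)) :=
  haveI := finite_galL (cycloField p)
  Fintype.ofFinite _

/-- Corestriction from `ℚ(ζ_p)`. -/
def coresCyclo (hpT : ExtCitation.pPrime p ∈ T) :
    globalH2 p (cycloField p) T →ₗ[ZMod p] H2c (sLevels T) (cycloRep p) :=
  cores2 _ (cycloRep p) (sLevels T) (exists_level_cycloField hpT) ∘ₗ toTwist

/-- `res ∘ cores` is the twisted norm. -/
theorem resCyclo_coresCyclo (hpT : ExtCitation.pPrime p ∈ T) (x : globalH2 p (cycloField p) T) :
    resCyclo (coresCyclo hpT x) = ∑ c : GalL (cycloField p),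
      (omegaL (containsMuP_cycloField p) c : ZMod p) • gal2 p (cycloField p) T c x := by
  set U := (cycloField p).fixingSubgroup
  let back : H2c ((sLevels T).comap U.subtype) ((cycloRep p).comp U.subtype) →ₗ[ZMod p]
      globalH2 p (cycloField p) T :=
    map2 (φ := LinearMap.id) _ _ (f := MonoidHom.id _) (fun V hV => ⟨V, hV, fun _ h => h⟩)
      (fun n m => by
        show cycloRep p n m = m
        rw [Representation.twist_apply_apply, containsMuP_cycloField p n n.2, Units.val_one, one_smul]
        rfl)
  have h1 : ∀ y, resCyclo y = back (res2 (sLevels T) (cycloRep p) U y) := fun y => by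
    induction y using Submodule.Quotient.induction_on with | _ f => rfl
  rw [h1, coresCyclo, LinearMap.comp_apply, res2_cores2, map_sum]
  refine Finset.sum_congr rfl fun c _ => ?_
  obtain ⟨f, rfl⟩ := Submodule.mkQ_surjective _ x
  conv_rhs => rw [← mk_coresSec U c, omegaL_mk, gal2_mk]
  show cl2 (globalLevels (cycloField p) T) (triv (ZMod p) U) _ =
    _ • cl2 (globalLevels (cycloField p) T) (triv (ZMod p) U) _
  rw [← map_smul]
  refine congrArg _ (Subtype.ext (funext fun n => ?_))
  show cycloRep p (coresSec U c) (f.1 _) = (ExtCitation.cycloChar p (coresSec U c) : ZMod p) * f.1 _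
  rw [Representation.twist_apply_apply]
  rfl

/-- `cores ∘ res` is multiplication by the degree. -/
theorem coresCyclo_resCyclo (hpT : ExtCitation.pPrime p ∈ T) (y : H2c (sLevels T) (cycloRep p)) :
    coresCyclo hpT (resCyclo y) = (Nat.card (GalL (cycloField p)) : ZMod p) • y := by
  have h := cores2_res2 (cycloField p).fixingSubgroup (cycloRep p) (sLevels T)
    (exists_level_cycloField hpT) y
  rw [Nat.card_eq_fintype_card, Nat.cast_smul_eq_nsmul]
  refine Eq.trans ?_ h
  rw [coresCyclo, LinearMap.comp_apply]
  refine congrArg _ ?_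
  induction y using Submodule.Quotient.induction_on with | _ f => rfl

lemma isLevHom_sLevels_mono (h : T ⊆ T') : IsLevHom (sLevels T') (sLevels T) (MonoidHom.id GQ) := by
  rintro _ ⟨F, hF, rfl⟩
  exact ⟨_, ⟨F, hF.mono h, rfl⟩, fun _ hx => hx⟩

/-- Inflation to more primes. -/
def inflCyclo (h : T ⊆ T') : H2c (sLevels T) (cycloRep p) →ₗ[ZMod p] H2c (sLevels T') (cycloRep p) :=
  map2 (φ := LinearMap.id) _ _ (isLevHom_sLevels_mono h) (fun _ _ => rfl)

theorem loc2_resCyclo_infl (h : T ⊆ T') (A : ValuationSubring Qb)
    (y : H2c (sLevels T) (cycloRep p)) :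
    loc2 p (cycloField p) T' A (resCyclo (inflCyclo h y)) =
      loc2 p (cycloField p) T A (resCyclo y) := by
  induction y using Submodule.Quotient.induction_on with | _ f => rfl

end

end FermatAgent.Duality.Global
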