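import Fermat.Agent.Duality.Global.NormIndex
import Fermat.Agent.GalRep.Density.Frobenius

/-!
# Kummer classes of `T`-units

Their dimension, their symbols with a fixed element, and auxiliary primes at which a given element
is a local `p`-th power.
-/

set_option autoImplicit false

open scoped Pointwise

namespace FermatAgent.Duality.Global

open IsDedekindDomain NumberField Module
open FermatAgent.Duality.Local (muDataLocal)

noncomputable section

local notation "Qb" => AlgebraicClosure ℚ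
local notation "GQ" => AlgebraicClosure ℚ ≃ₐ[ℚ] AlgebraicClosure ℚ

attribute [local instance] FermatAgent.RT.isGalois_algClosureRat numberField_of_finite

variable {p : ℕ} [Fact p.Prime] {K : IntermediateField ℚ Qb} [FiniteDimensional ℚ K]
  (hK : ContainsMuP p K)

/-- The Kummer map of `K`. -/
def kappaAdd : Additive Kˣ →+ fullH1 p K :=
  AddMonoidHom.mk' (fun x => kappa hK x.toMul) fun x y => by rw [toMul_add, kappa_mul]

/-- The classes of the `T`-units. -/
def unitSpace (T : Finset (HeightOneSpectrum (𝓞 K))) : Submodule (ZMod p) (fullH1 p K) :=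
  AddSubgroup.toZModSubmodule p ((tUnits T).toAddSubgroup.map (kappaAdd hK))

theorem mem_unitSpace {T : Finset (HeightOneSpectrum (𝓞 K))} {c : fullH1 p K} :
    c ∈ unitSpace hK T ↔ ∃ x ∈ tUnits T, kappa hK x = c :=
  ⟨fun ⟨y, hy, hyc⟩ => ⟨y.toMul, hy, hyc⟩, fun ⟨x, hx, hxc⟩ => ⟨Additive.ofMul x, hx, hxc⟩⟩

theorem kappa_mem_unitSpace {T : Finset (HeightOneSpectrum (𝓞 K))} {x : Kˣ} (hx : x ∈ tUnits T) :
    kappa hK x ∈ unitSpace hK T := (mem_unitSpace hK).mpr ⟨x, hx, rfl⟩

theorem unitSpace_mono {T T' : Finset (HeightOneSpectrum (𝓞 K))} (h : T ⊆ T') :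
    unitSpace hK T ≤ unitSpace hK T' := by
  intro c hc
  obtain ⟨x, hx, rfl⟩ := (mem_unitSpace hK).mp hc
  exact kappa_mem_unitSpace hK (tUnits_mono h hx)

omit [FiniteDimensional ℚ K] in
include hK in
theorem zeta_mem_base : (muGlobal hK).ζ ∈ K := by
  have h : (muGlobal hK).ζ ∈ IntermediateField.fixedField K.fixingSubgroup :=
    fun σ => (muGlobal hK).fixed σ σ.2
  rwa [InfiniteGalois.fixedField_fixingSubgroup] at h

omit [FiniteDimensional ℚ K] in
include hK in
theorem exists_primitiveRoot : ∃ ζ : K, IsPrimitiveRoot ζ p :=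
  ⟨⟨_, zeta_mem_base hK⟩, IsPrimitiveRoot.coe_submonoidClass_iff.mp (muGlobal hK).isPrimitiveRoot⟩

theorem natCard_unitSpace (T : Finset (HeightOneSpectrum (𝓞 K))) :
    Nat.card (unitSpace hK T) = p ^ (Units.rank K + T.card + 1) := by
  obtain ⟨ζ, hζ⟩ := exists_primitiveRoot hK
  let g : tUnits T →* Multiplicative (fullH1 p K) :=
    MonoidHom.mk' (fun x => Multiplicative.ofAdd (kappa hK x.1)) fun x y => by
      rw [Subgroup.coe_mul, kappa_mul, ofAdd_add]
  have hker : g.ker = (powMonoidHom p : tUnits T →* tUnits T).range := by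
    ext x
    rw [MonoidHom.mem_ker, MonoidHom.mem_range]
    refine ⟨fun h => ?_, ?_⟩
    · obtain ⟨y, hy⟩ := (kappa_eq_zero_iff hK x.1).mp h
      refine ⟨⟨y, fun P hP => ?_⟩, Subtype.ext hy⟩
      have := congrArg (ord P) hy
      rw [ord_pow, x.2 P hP, mul_eq_zero] at this
      exact this.resolve_left (by exact_mod_cast (Fact.out : p.Prime).ne_zero)
    · rintro ⟨y, rfl⟩
      exact (kappa_eq_zero_iff hK _).mpr ⟨y.1, rfl⟩
  rw [← (tUnits_index_pow (T := T) hζ).1, ← hker, Subgroup.index_ker]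
  refine Nat.card_congr (Equiv.subtypeEquiv Multiplicative.ofAdd fun c => ?_)
  rw [mem_unitSpace, MonoidHom.mem_range]
  exact ⟨fun ⟨x, hx, hxc⟩ => ⟨⟨x, hx⟩, congrArg Multiplicative.ofAdd hxc⟩,
    fun ⟨x, hxc⟩ => ⟨x.1, x.2, Multiplicative.ofAdd.injective hxc⟩⟩

instance finite_unitSpace (T : Finset (HeightOneSpectrum (𝓞 K))) : Finite (unitSpace hK T) :=
  Nat.finite_of_card_ne_zero (by
    rw [natCard_unitSpace]; exact pow_ne_zero _ (Fact.out : p.Prime).ne_zero)

theorem finrank_unitSpace (T : Finset (HeightOneSpectrum (𝓞 K))) :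
    finrank (ZMod p) (unitSpace hK T) = Units.rank K + T.card + 1 := by
  have h := natCard_unitSpace hK T
  rw [Module.natCard_eq_pow_finrank (K := ZMod p), Nat.card_zmod] at h
  exact Nat.pow_right_injective (Fact.out : p.Prime).two_le h

/-! ### Symbols with a fixed element -/

variable (pl : HeightOneSpectrum (𝓞 K) → ValuationSubring Qb)

include hK in
theorem exists_h2Equiv (A : ValuationSubring Qb) (hA : IsPlace A) :
    ∃ φ : localH2 p K A →ₗ[ZMod p] ZMod p, Function.Bijective φ := by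
  obtain ⟨l, hl, hA⟩ := hA
  have h := (localDualityAt p hl K hK hA).finrank_H2
  have : Module.Finite (ZMod p) (localH2 p K A) := Module.finite_of_finrank_eq_succ h
  obtain ⟨e⟩ := FiniteDimensional.nonempty_linearEquiv_of_finrank_eq
    (R := ZMod p) (M := localH2 p K A) (M' := ZMod p) (h.trans (finrank_self _).symm)
  exact ⟨e.toLinearMap, e.bijective⟩

open scoped Classical in
/-- An identification of the local `H²` with `𝔽_p`. -/
def h2Map (A : ValuationSubring Qb) : localH2 p K A →ₗ[ZMod p] ZMod p :=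
  if h : IsPlace A then (exists_h2Equiv hK A h).choose else 0

theorem h2Map_bijective {A : ValuationSubring Qb} (hA : IsPlace A) :
    Function.Bijective (h2Map hK A) := by
  rw [h2Map, dif_pos hA]
  exact (exists_h2Equiv hK A hA).choose_spec

theorem h2Map_eq_zero_iff {A : ValuationSubring Qb} (hA : IsPlace A) {x : localH2 p K A} :
    h2Map hK A x = 0 ↔ x = 0 :=
  map_eq_zero_iff _ (h2Map_bijective hK hA).1

/-- The symbol with `a` as a functional on the local `H¹`. -/
def symFun (A : ValuationSubring Qb) (a : Kˣ) : localH1 p K A →ₗ[ZMod p] ZMod p :=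
  (h2Map hK A).comp ((cupTriv (ZMod p) (localLevels K A)).flip (locF1 A (kappa hK a)))

theorem symFun_apply (A : ValuationSubring Qb) (a : Kˣ) (d : localH1 p K A) :
    symFun hK A a d = h2Map hK A (cupTriv (ZMod p) (localLevels K A) d (locF1 A (kappa hK a))) :=
  rfl

/-- The symbols with `a` at the places of `s`. -/
def symMap (a : Kˣ) (s : Finset (HeightOneSpectrum (𝓞 K))) :
    fullH1 p K →ₗ[ZMod p] (s → ZMod p) :=
  LinearMap.pi fun P => (symFun hK (pl P.1) a).comp (locF1 (pl P.1))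

theorem symMap_kappa (a b : Kˣ) (s : Finset (HeightOneSpectrum (𝓞 K))) (P : s) :
    symMap hK pl a s (kappa hK b) P = h2Map hK (pl P.1) (sym hK (pl P.1) b a) := rfl

open scoped Classical in
/-- The primes of `T` at which `a` is no local `p`-th power. -/
def nonsplit (a : Kˣ) (T : Finset (HeightOneSpectrum (𝓞 K))) :
    Finset (HeightOneSpectrum (𝓞 K)) :=
  T.filter fun P => locF1 (pl P) (kappa hK a) ≠ 0

omit [FiniteDimensional ℚ K] in
theorem mem_nonsplit {a : Kˣ} {T : Finset (HeightOneSpectrum (𝓞 K))} {P : HeightOneSpectrum (𝓞 K)} :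
    P ∈ nonsplit hK pl a T ↔ P ∈ T ∧ locF1 (pl P) (kappa hK a) ≠ 0 := by
  classical
  exact Finset.mem_filter

variable (hpl : ∀ P, Over K (pl P) P) {T : Finset (HeightOneSpectrum (𝓞 K))} {a : Kˣ}
  (haT : a ∈ tUnits T) (hpT : ∀ P : HeightOneSpectrum (𝓞 K), (p : 𝓞 K) ∈ P.asIdeal → P ∈ T)
  (hbig : IsBig p T) (hp2 : NoReal p K) (ha : kappa hK a ≠ 0)

omit [FiniteDimensional ℚ K] in
theorem finrank_map_add_one_le_aux {W : Type} [AddCommGroup W] [Module (ZMod p) W]
    {U : Submodule (ZMod p) (fullH1 p K)} [Finite U] (f : fullH1 p K →ₗ[ZMod p] W) :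
    Nat.card (U.map f) = p ^ finrank (ZMod p) (U.map f) := by
  have : Finite (U.map f) := Finite.of_surjective
    (fun c : U => (⟨_, Submodule.mem_map_of_mem c.2⟩ : U.map f)) fun ⟨v, c, hc, hv⟩ =>
      ⟨⟨c, hc⟩, Subtype.ext hv⟩
  have : Module.Finite (ZMod p) (U.map f) := Module.Finite.of_finite
  rw [Module.natCard_eq_pow_finrank (K := ZMod p), Nat.card_zmod]

/-- A linear map killing a subgroup of index `p ^ (n - 1)` of the `T`-units. -/
theorem map_bound {W : Type} [AddCommGroup W] [Module (ZMod p) W] (f : fullH1 p K →ₗ[ZMod p] W)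
    {T : Finset (HeightOneSpectrum (𝓞 K))} {N : Subgroup Kˣ} {n : ℕ}
    (hidx : N.relIndex (tUnits T) * p = p ^ n) (hN : ∀ b ∈ N, f (kappa hK b) = 0) :
    finrank (ZMod p) ((unitSpace hK T).map f) + 1 ≤ n ∧
      (n ≤ finrank (ZMod p) ((unitSpace hK T).map f) + 1 →
        ∀ b ∈ tUnits T, f (kappa hK b) = 0 → b ∈ N) := by
  have hp := (Fact.out : p.Prime)
  let g : tUnits T →* Multiplicative W :=
    MonoidHom.mk' (fun x => Multiplicative.ofAdd (f (kappa hK x.1))) fun x y => by
      rw [Subgroup.coe_mul, kappa_mul, map_add, ofAdd_add]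
  have hle : N.subgroupOf (tUnits T) ≤ g.ker := fun x hx =>
    congrArg Multiplicative.ofAdd (hN x.1 hx)
  have hV : g.ker.index = p ^ finrank (ZMod p) ((unitSpace hK T).map f) := by
    rw [Subgroup.index_ker, ← finrank_map_add_one_le_aux f]
    refine Nat.card_congr (Equiv.subtypeEquiv Multiplicative.toAdd fun v => ?_)
    rw [MonoidHom.mem_range]
    constructor
    · rintro ⟨x, rfl⟩
      exact Submodule.mem_map_of_mem (kappa_mem_unitSpace hK x.2)
    · rintro ⟨c, hc, hcv⟩
      obtain ⟨x, hx, rfl⟩ := (mem_unitSpace hK).mp hc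
      exact ⟨⟨x, hx⟩, Multiplicative.toAdd.injective hcv⟩
  have hN0 : N.relIndex (tUnits T) ≠ 0 := fun h => pow_ne_zero n hp.ne_zero (by
    rw [← hidx, h, zero_mul])
  set r := finrank (ZMod p) ((unitSpace hK T).map f)
  have hdvd : p ^ (r + 1) ∣ p ^ n := by
    rw [pow_succ, ← hidx, ← hV]
    exact Nat.mul_dvd_mul_right (Subgroup.index_dvd_of_le hle) p
  have h1 : r + 1 ≤ n := (Nat.pow_dvd_pow_iff_le_right hp.one_lt).mp hdvd
  refine ⟨h1, fun h2 b hb hb0 => ?_⟩
  have heq : g.ker.index = (N.subgroupOf (tUnits T)).index := by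
    refine Nat.eq_of_mul_eq_mul_right hp.pos ?_
    show _ = N.relIndex (tUnits T) * p
    rw [hidx, hV, ← pow_succ, le_antisymm h1 h2]
  have hrel : (N.subgroupOf (tUnits T)).relIndex g.ker = 1 := by
    have h := Subgroup.relIndex_mul_index hle
    rw [← heq] at h
    refine Nat.eq_of_mul_eq_mul_right (m := g.ker.index) ?_ (h.trans (one_mul _).symm)
    rw [hV]
    exact pow_pos hp.pos r
  exact (Subgroup.relIndex_eq_one.mp hrel) (x := ⟨b, hb⟩) (congrArg Multiplicative.ofAdd hb0)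

include hpl haT hpT hbig hp2 ha in
/-- The symbols of the `T`-units with `a` fill at most a hyperplane; if they fill one, a `T`-unit
with vanishing symbols at `T` has vanishing global symbol with `a`. -/
theorem symMap_bound :
    finrank (ZMod p) ((unitSpace hK T).map (symMap hK pl a (nonsplit hK pl a T))) + 1 ≤
      (nonsplit hK pl a T).card ∧
    ((nonsplit hK pl a T).card ≤
        finrank (ZMod p) ((unitSpace hK T).map (symMap hK pl a (nonsplit hK pl a T))) + 1 →
      ∀ b ∈ tUnits T, symMap hK pl a (nonsplit hK pl a T) (kappa hK b) = 0 → gsym hK b a = 0) := by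
  obtain ⟨s, hs⟩ := exists_chi_eq_one hK ha
  obtain ⟨N, -, hidx, hNa⟩ := exists_norm_subgroup hK s hs pl hpl haT hpT hbig hp2 ha
  have hcard : Nat.card {P // P ∈ T ∧ locF1 (pl P) (kappa hK a) ≠ 0} = (nonsplit hK pl a T).card :=
    Nat.subtype_card _ fun P => mem_nonsplit hK pl
  rw [hcard] at hidx
  obtain ⟨h1, h2⟩ := map_bound hK (symMap hK pl a (nonsplit hK pl a T)) hidx fun b hb =>
    funext fun P => by rw [symMap_kappa, ← locF2_gsym, hNa b hb, map_zero, map_zero]; rfl
  exact ⟨h1, fun h b hb hb0 => hNa b (h2 h b hb hb0)⟩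

/-! ### Auxiliary primes -/

include hpl in
/-- A prime outside a given finite set at which `a` is split and `c` is not. -/
theorem exists_split_prime (F : Finset (HeightOneSpectrum (𝓞 K))) (_hpF : ∀ P : HeightOneSpectrum (𝓞 K), (p : 𝓞 K) ∈ P.asIdeal → P ∈ F)
    {c : Kˣ} (hca : ∀ lam : ZMod p, kappa hK c ≠ lam • kappa hK a) :
    ∃ P ∉ F, locF1 (pl P) (kappa hK a) = 0 ∧ locF1 (pl P) (kappa hK c) ≠ 0 := by
  classical
  -- an element of `G_K` trivial on `a` and not on `c`
  obtain ⟨σ, hσa, hσc⟩ : ∃ σ : K.fixingSubgroup, (chi hK a).1 σ = 0 ∧ (chi hK c).1 σ ≠ 0 := by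
    by_contra! hall
    by_cases ha' : kappa hK a = 0
    · refine hca 0 ?_
      rw [zero_smul, ← cl1_chi, Local.cl1_triv_eq_zero_iff]
      refine Subtype.ext (funext fun g => hall g ?_)
      rw [← cl1_chi, Local.cl1_triv_eq_zero_iff] at ha'
      exact congrFun (congrArg Subtype.val ha') g
    obtain ⟨s, hs⟩ := exists_chi_eq_one hK ha'
    refine hca ((chi hK c).1 s) ?_
    rw [← cl1_chi, ← cl1_chi, ← map_smul, cl1_triv_eq_iff]
    refine Subtype.ext (funext fun g => ?_)
    show (chi hK c).1 g = (chi hK c).1 s * (chi hK a).1 g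
    have h := hall ((s ^ ((chi hK a).1 g).val)⁻¹ * g) (Local.inv_pow_mul_mem hs g)
    have : NeZero p := ⟨(Fact.out : p.Prime).ne_zero⟩
    rw [Local.chi_mul, Local.chi_inv, Local.chi_pow, ZMod.natCast_zmod_val, neg_add_eq_zero] at h
    rw [← h, mul_comm]
  set bad := F ∪ (finite_setOf_ord_ne_zero a).toFinset ∪ (finite_setOf_ord_ne_zero c).toFinset
  have hbad : Set.Finite {l : ℕ | l.Prime ∧ ∃ P ∈ bad, (l : 𝓞 K) ∈ P.asIdeal} := by
    refine (bad.finite_toSet.biUnion fun P _ => ?_).subset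
      (show _ ⊆ ⋃ P ∈ (bad : Set (HeightOneSpectrum (𝓞 K))), {l : ℕ | l.Prime ∧ (l : 𝓞 K) ∈ P.asIdeal}
        from fun l ⟨hl, P, hP, hlP⟩ => Set.mem_biUnion hP ⟨hl, hlP⟩)
    refine Set.Subsingleton.finite fun l hl l' hl' => ?_
    obtain ⟨A, hA⟩ := exists_place P
    obtain ⟨q, hq, hAq⟩ := hA.1
    have key : ∀ m : ℕ, m.Prime → (m : 𝓞 K) ∈ P.asIdeal → m = q := fun m hm hmP => by
      rw [← hA.2, Ideal.mem_comap, map_natCast, ← Int.cast_natCast,
        FermatAgent.RT.intCast_mem_centre_iff hq hAq, Int.natCast_dvd_natCast] at hmP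
      exact ((Nat.prime_dvd_prime_iff_eq hq hm).mp hmP).symm
    exact (key l hl.1 hl.2).trans (key l' hl'.1 hl'.2).symm
  let L := kummerExt p a ⊔ kummerExt p c
  have : FiniteDimensional ℚ L := IntermediateField.finiteDimensional_sup _ _
  obtain ⟨l, hl, hlS, A, hA, τ, hτ, m, k, hm, hk⟩ :=
    FermatAgent.GalRep.exists_isFrobeniusAt_pow_eq L (σ : GQ)
      (hbad.union (Set.finite_singleton p))
  obtain ⟨P, hP⟩ := exists_over (K := K) (A := A) ⟨l, hl, hA⟩
  have hlp : l ≠ p := fun h => hlS (Or.inr h)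
  have hPbad : P ∉ bad := fun h => hlS (Or.inl ⟨hl, P, h, hP.natCast_mem hA⟩)
  simp only [bad, Finset.mem_union, not_or, Set.Finite.mem_toFinset, Set.mem_ofPred_eq, not_not]
    at hPbad
  refine ⟨P, hPbad.1.1, ?_⟩
  obtain ⟨g, hg, hgA⟩ := exists_smul_eq_of_over hP (hpl P)
  -- it is enough to argue at `A`
  have htrans : ∀ x : Kˣ, locF1 (pl P) (kappa hK x) = 0 ↔ locF1 A (kappa hK x) = 0 := by
    intro x
    rw [← cl1_chi]
    constructor
    · intro h
      refine Local.cl1_triv_eq_zero_iff.mpr (Subtype.ext (funext fun d => ?_))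
      have hd : g * d * g⁻¹ ∈ localGroup K (pl P) := by
        refine ⟨mul_mem (mul_mem hg d.2.1) (K.fixingSubgroup.inv_mem hg), ?_⟩
        show _ • pl P = pl P
        rw [hgA, mul_smul, mul_smul, inv_smul_smul, show (d : GQ) • A = A from d.2.2]
      have := chi_eq_zero_of_local hK (by rw [← cl1_chi]; exact h) _ hd
      show (chi hK x).1 ⟨d, d.2.1⟩ = 0
      rwa [show (⟨g * d * g⁻¹, hd.1⟩ : K.fixingSubgroup) =
        ⟨g, hg⟩ * ⟨d, d.2.1⟩ * ⟨g, hg⟩⁻¹ from rfl, Local.chi_mul, Local.chi_mul, Local.chi_inv,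
        add_neg_cancel_comm] at this
    · intro h
      refine Local.cl1_triv_eq_zero_iff.mpr (Subtype.ext (funext fun d => ?_))
      have hd : g⁻¹ * d * g ∈ localGroup K A := by
        refine ⟨mul_mem (mul_mem (K.fixingSubgroup.inv_mem hg) d.2.1) hg, ?_⟩
        show _ • A = A
        rw [mul_smul, mul_smul, ← hgA, show (d : GQ) • pl P = pl P from d.2.2, hgA, inv_smul_smul]
      have := chi_eq_zero_of_local hK (by rw [← cl1_chi]; exact h) _ hd
      show (chi hK x).1 ⟨d, d.2.1⟩ = 0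
      rwa [show (⟨g⁻¹ * d * g, hd.1⟩ : K.fixingSubgroup) =
        ⟨g, hg⟩⁻¹ * ⟨d, d.2.1⟩ * ⟨g, hg⟩ from rfl, Local.chi_mul, Local.chi_mul, Local.chi_inv,
        neg_add_cancel_comm] at this
  rw [htrans, ne_eq, htrans]
  have hLx : ∀ {x : Qb}, x ∈ K → x ∈ L := fun hx =>
    (le_sup_left : kummerExt p a ≤ L) (le_kummerExt a hx)
  have hτK : τ ∈ K.fixingSubgroup := fun x => by
    show τ (x : Qb) = x
    rw [← hk _ (hLx x.2)]
    exact (pow_mem σ.2 k) x
  have hval : ∀ x : Kˣ, (kummerExt p x ≤ L) →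
      (chi hK x).1 (⟨τ, hτK⟩ ^ m) = (chi hK x).1 σ ∧
        (chi hK x).1 ⟨τ, hτK⟩ = (k : ZMod p) * (chi hK x).1 σ := by
    intro x hx
    have key : ∀ u v : K.fixingSubgroup, (∀ y ∈ L, (u : GQ) y = (v : GQ) y) →
        (chi hK x).1 u = (chi hK x).1 v := fun u v h => by
      have h1 := chi_root hK x u
      rw [h _ (hx (rootP_mem x)), chi_root hK x v] at h1
      exact (Local.zpw_injective (muGlobal hK).isPrimitiveRoot
        (mul_right_cancel₀ (rootP_ne_zero x) h1)).symm
    exact ⟨key _ _ (fun y hy => by rw [SubgroupClass.coe_pow]; exact hm y hy),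
      (key ⟨τ, hτK⟩ (σ ^ k) (fun y hy => by rw [SubgroupClass.coe_pow]; exact (hk y hy).symm)).trans
        (Local.chi_pow _ _ _)⟩
  have hτd : τ ∈ A.decompositionSubgroup ℚ := hτ.mem_decompositionSubgroup
  have hc0 : locF1 A (kappa hK c) ≠ 0 := fun h => hσc (by
    rw [← (hval c le_sup_right).1]
    exact chi_eq_zero_of_local hK h _ ⟨pow_mem hτK m, pow_mem hτd m⟩)
  refine ⟨?_, hc0⟩
  have hua := locF1_kappa_unit_mem_unramified hK hP hl hA hlp (not_not.mp (show ¬ ord P a ≠ 0 from fun h => h hPbad.1.2))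
  have huc := locF1_kappa_unit_mem_unramified hK hP hl hA hlp (not_not.mp (show ¬ ord P c ≠ 0 from fun h => h hPbad.2))
  have := (localDualityAt p hl K hK hA).finite_H1
  obtain ⟨lam, hlam⟩ := exists_smul_eq_of_finrank_eq_one
    (localDualityAt p hl K hK hA).finrank_unramified (x := ⟨_, huc⟩)
    (fun h => hc0 congr(($h).1)) ⟨_, hua⟩
  have hlam' : lam • locF1 A (kappa hK c) = locF1 A (kappa hK a) := congr(($hlam).1)
  rw [← hlam']
  suffices lam = 0 by rw [this, zero_smul]
  have hz := hlam'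
  rw [← map_smul, ← cl1_chi, ← cl1_chi, ← map_smul] at hz
  have hz' := congrFun (congrArg Subtype.val ((cl1_triv_eq_iff (p := p)).mp hz))
    ⟨τ ^ m, pow_mem hτK m, pow_mem hτd m⟩
  change lam * (chi hK c).1 (⟨τ, hτK⟩ ^ m) = (chi hK a).1 (⟨τ, hτK⟩ ^ m) at hz'
  rw [(hval a le_sup_left).1, (hval c le_sup_right).1, hσa, mul_eq_zero] at hz'
  exact hz'.resolve_right hσc

end

end FermatAgent.Duality.Global
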