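import Fermat.Agent.Duality.Global.Kummer
import Fermat.Agent.Duality.Global.UnitSpaces

/-!
# Enough primes generate the class group; finiteness of `H¹(G_{K,S}, 𝔽_p)`
-/

set_option autoImplicit false

open scoped Pointwise nonZeroDivisors

namespace FermatAgent.Duality.Global

open IsDedekindDomain NumberField FermatAgent.Duality Module

noncomputable section

local notation "Qb" => AlgebraicClosure ℚ
local notation "GQ" => AlgebraicClosure ℚ ≃ₐ[ℚ] AlgebraicClosure ℚ

attribute [local instance] FermatAgent.RT.isGalois_algClosureRat numberField_of_finite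

variable (p : ℕ) [Fact p.Prime] (K : IntermediateField ℚ Qb) [FiniteDimensional ℚ K]
  (S : Finset Nat.Primes)

omit [Fact (Nat.Prime p)] in
/-- Enough primes make the class group generated. -/
theorem exists_classGroupGenerated_of_primes :
    ∃ S' : Finset Nat.Primes, S ⊆ S' ∧ ClassGroupGenerated p K S' := by
  classical
  choose m hm using fun c : ClassGroup (𝓞 K) => show ∃ m : Multiset (HeightOneSpectrum (𝓞 K)),
      ClassGroup.mk0 (FermatAgent.CFT.idealOfMultiset K m) = c by
    obtain ⟨I, hI⟩ := ClassGroup.mk0_surjective c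
    obtain ⟨m, rfl⟩ := (FermatAgent.CFT.idealOfMultiset_bijective K).surjective I
    exact ⟨m, hI⟩
  have hq : ∀ P : HeightOneSpectrum (𝓞 K),
      ∃ q : Nat.Primes, ((q : ℕ) : 𝓞 K) ∈ P.asIdeal := by
    intro P
    obtain ⟨A, hA⟩ := exists_place P
    obtain ⟨l, hl, hlA⟩ := hA.1
    exact ⟨⟨l, hl⟩, hA.natCast_mem hlA⟩
  choose q hqP using hq
  refine ⟨S ∪ Finset.univ.biUnion (fun c => (m c).toFinset.image q), Finset.subset_union_left, ?_⟩
  unfold ClassGroupGenerated
  refine eq_top_iff.2 fun c _ => Subgroup.mem_sup_left ?_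
  rw [← hm c, FermatAgent.CFT.idealOfMultiset, map_multiset_prod, Multiset.map_map]
  refine multiset_prod_mem _ fun x hx => ?_
  obtain ⟨P, hP, rfl⟩ := Multiset.mem_map.1 hx
  refine Subgroup.subset_closure ⟨_, P.isPrime, ⟨q P, ?_, hqP P⟩, rfl⟩
  exact Finset.mem_union_right _ (Finset.mem_biUnion.2
    ⟨c, Finset.mem_univ _, Finset.mem_image_of_mem _ (Multiset.mem_toFinset.2 hP)⟩)

variable {p K S}

omit [FiniteDimensional ℚ K] in
lemma isLevHom_globalLevels_full :
    IsLevHom (subLevels K.fixingSubgroup) (globalLevels K S) (MonoidHom.id _) := by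
  rintro _ ⟨_, ⟨F, hF, rfl⟩, rfl⟩
  exact ⟨_, ⟨_, ⟨F, hF.1, rfl⟩, rfl⟩, fun _ h => h⟩

/-- Finiteness of `H¹(G_{K,S}, 𝔽_p)`. -/
theorem finite_globalH1_of_big (hK : ContainsMuP p K) (hS : K.IsUnramifiedOutside S)
    (hpS : ExtCitation.pPrime p ∈ S) : Module.Finite (ZMod p) (globalH1 p K S) := by
  classical
  obtain ⟨S', hSS', hbig⟩ := exists_classGroupGenerated_of_primes p K S
  obtain ⟨T, hT⟩ := exists_primesOver K S'
  let ι : globalH1 p K S →ₗ[ZMod p] fullH1 p K :=
    map1 (φ := LinearMap.id) (triv (ZMod p) K.fixingSubgroup) (triv (ZMod p) K.fixingSubgroup)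
      isLevHom_globalLevels_full (fun _ _ => rfl)
  have hι : ∀ x, ι x ∈ unitSpace hK T := by
    intro x
    induction x using Submodule.Quotient.induction_on with
    | _ f =>
    -- the cocycle is a level cocycle for `S'` too
    have hf : f.1 ∈ Z1 (globalLevels K S') (triv (ZMod p) K.fixingSubgroup) := by
      refine ⟨?_, f.2.2⟩
      obtain ⟨_, ⟨_, ⟨F, hF, rfl⟩, rfl⟩, hU⟩ := f.2.1
      exact ⟨_, ⟨_, ⟨F, hF.mono hSS', rfl⟩, rfl⟩, hU⟩
    obtain ⟨r, hr0, hrK, hval, hσ⟩ :=
      exists_sUnit_root_muGlobal hK (hS.mono hSS') (hSS' hpS) hbig ⟨f.1, hf⟩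
    let e : Kˣ := Units.mk0 ⟨r ^ p, hrK⟩ fun h0 => pow_ne_zero p hr0 (congrArg Subtype.val h0)
    have he : e ∈ tUnits T := by
      intro v hv
      obtain ⟨A, hA⟩ := exists_place v
      obtain ⟨l, hl, hlA⟩ := hA.1
      refine (hA.val_eq_one_iff e).1 (hval ⟨l, hl⟩ (fun h => ?_) A hlA)
      exact hv ((hT v).2 ⟨_, h, hA.natCast_mem hlA⟩)
    refine (mem_unitSpace hK).2 ⟨e, he, ?_⟩
    refine congrArg (fun z => cl1 (subLevels K.fixingSubgroup) (triv (ZMod p) K.fixingSubgroup) z)
      (Subtype.ext (funext fun σ => ?_))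
    exact Local.kapFun_eq_of _ _ (r := r) rfl σ _ (hσ σ)
  have hinj : Function.Injective ι := by
    refine (injective_iff_map_eq_zero ι).2 fun x hx => ?_
    induction x using Submodule.Quotient.induction_on with
    | _ f =>
    refine (cl1_eq_zero_iff _ _ f).2 ?_
    exact (cl1_eq_zero_iff (subLevels K.fixingSubgroup) (triv (ZMod p) K.fixingSubgroup) _).1 hx
  exact Module.Finite.of_injective (ι.codRestrict _ hι) fun a b h =>
    hinj (congrArg Subtype.val h)

end

end FermatAgent.Duality.Global
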