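import Fermat.Agent.Duality.Euler.FrobPlaces
import Fermat.Agent.Duality.Global.CycloField
import Fermat.Agent.Duality.Global.Finite
import Fermat.Agent.Duality.Global.GlobalDuality
import Fermat.Agent.Duality.Global.Unramified

/-!
# Reciprocity over `ℚ`

For big sets of primes the functionals of global duality over `ℚ(ζ_p)`, summed over the places
above each prime, kill every twisted class of `ℚ`; they are unique up to one scalar, which is fixed
at `p`, and so do not depend on the set of primes.
-/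

set_option autoImplicit false

open scoped Pointwise

namespace FermatAgent.Duality.Global

open FermatAgent.Duality FermatAgent.Duality.Euler Module

noncomputable section

local notation "Qb" => AlgebraicClosure ℚ
local notation "GQ" => AlgebraicClosure ℚ ≃ₐ[ℚ] AlgebraicClosure ℚ

attribute [local instance] FermatAgent.RT.isGalois_algClosureRat

variable (p : ℕ) [Fact p.Prime]

/-- A set of primes for which global duality over `ℚ(ζ_p)` is Galois equivariant. -/
structure GoodSet (T : Finset Nat.Primes) : Prop where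
  p_mem : ExtCitation.pPrime p ∈ T
  classGroup : ClassGroupGenerated p (cycloField p) T
  frob : HasFrobPrimes (cycloField p) p T

theorem exists_goodSet (S : Finset Nat.Primes) : ∃ T, S ⊆ T ∧ GoodSet p T := by
  classical
  obtain ⟨F, hF⟩ := exists_hasFrobPrimes (cycloField p) p
  obtain ⟨T, hT, hbig⟩ := exists_classGroupGenerated_of_primes p (cycloField p)
    (insert (ExtCitation.pPrime p) (S ∪ F))
  exact ⟨T, (Finset.subset_union_left.trans (Finset.subset_insert _ _)).trans hT,
    hT (Finset.mem_insert_self _ _), hbig,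
    hF.mono ((Finset.subset_union_right.trans (Finset.subset_insert _ _)).trans hT)⟩

variable {p}

theorem GoodSet.mono {T T' : Finset Nat.Primes} (h : GoodSet p T) (hT : T ⊆ T') : GoodSet p T' :=
  ⟨hT h.p_mem, classGroupGenerated_mono h.classGroup hT, h.frob.mono hT⟩

variable (A : Nat.Primes → ValuationSubring Qb)

/-- `θ` kills the twisted classes of `ℚ` unramified outside `T`. -/
def KillsClasses (T : Finset Nat.Primes)
    (θ : ∀ q, localH2 p (cycloField p) (A q) →ₗ[ZMod p] ZMod p) : Prop :=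
  ∀ y : H2c (sLevels T) (cycloRep p),
    ∑ q ∈ T, θ q (loc2 p (cycloField p) T (A q) (resCyclo y)) = 0

variable {A}

/-- A place system passing through the chosen places. -/
theorem exists_adapted (hA : ∀ q, (A q).LiesOverPrime (q : ℕ)) (T : Finset Nat.Primes) :
    ∃ P : PlaceSystem (cycloField p) T, ∀ q ∈ T, ∃ i, P.prime i = q ∧ P.place i = A q := by
  classical
  obtain ⟨P⟩ := nonempty_placeSystem (cycloField p) T
  have hidx : ∀ q : T, ∃ i, P.prime i = q.1 ∧ ∃ g ∈ (cycloField p).fixingSubgroup,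
      A q.1 = g • P.place i := fun q => P.exhausts _ q.2 _ (hA _)
  choose idx hprime n hn hidx using hidx
  let m : P.ι → GQ := fun i =>
    if idx ⟨P.prime i, P.prime_mem i⟩ = i then n ⟨P.prime i, P.prime_mem i⟩ else 1
  have hm : ∀ i, m i ∈ (cycloField p).fixingSubgroup := fun i => by
    simp only [m]
    split_ifs
    · exact hn _
    · exact one_mem _
  refine ⟨{
    ι := P.ι
    prime := P.prime
    place := fun i => m i • P.place i
    prime_mem := P.prime_mem
    liesOver := fun i => TW.smul_liesOverPrime (P.liesOver i) (m i)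
    exhausts := fun q hq B hB => ?_
    inj := fun i j g hg h => P.inj i j ((m j)⁻¹ * g * m i)
      (mul_mem (mul_mem (inv_mem (hm j)) hg) (hm i)) ?_ }, fun q hq => ⟨idx ⟨q, hq⟩, hprime _, ?_⟩⟩
  · obtain ⟨i, hi, g, hg, h⟩ := P.exhausts q hq B hB
    exact ⟨i, hi, g * (m i)⁻¹, mul_mem hg (inv_mem (hm i)),
      by rw [h, mul_smul, inv_smul_smul]⟩
  · rw [mul_smul, mul_smul, ← h, inv_smul_smul]
  · show m (idx ⟨q, hq⟩) • P.place (idx ⟨q, hq⟩) = A q
    have e : (⟨P.prime (idx ⟨q, hq⟩), P.prime_mem _⟩ : T) = ⟨q, hq⟩ := Subtype.ext (hprime _)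
    simp only [m]
    rw [e, if_pos rfl]
    exact (hidx ⟨q, hq⟩).symm

section Coordinates

variable {T : Finset Nat.Primes} (hpT : ExtCitation.pPrime p ∈ T)
  (P : PlaceSystem (cycloField p) T) (inv : LocalFunctionals (p := p) P) (hinv : ∀ i, inv i ≠ 0)
  (hrange : ∀ z : ∀ i, localH2 p (cycloField p) (P.place i),
    (∑ i, inv i (z i) = 0) ↔
      ∃ x : globalH2 p (cycloField p) T, ∀ i, loc2 p (cycloField p) T (P.place i) x = z i)
  (hfix : FixesPlace p P)

include hinv hrange hfix in
lemma locCoord_norm (x : globalH2 p (cycloField p) T) (j : P.ι) :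
    locCoord P inv (resCyclo (coresCyclo hpT x)) j =
      ∑ c : GalL (cycloField p), locCoord P inv x (c⁻¹ • j) := by
  rw [resCyclo_coresCyclo, map_sum, Finset.sum_apply]
  refine Finset.sum_congr rfl fun c _ => ?_
  have h := locCoord_gal2 P inv (containsMuP_cycloField p) hinv hrange hfix c x (c⁻¹ • j)
  rw [smul_inv_smul] at h
  rw [map_smul, Pi.smul_apply, h, smul_eq_mul, ← mul_assoc, Units.mul_inv, one_mul]

lemma card_galL_ne_zero : (Nat.card (GalL (cycloField p)) : ZMod p) ≠ 0 := fun h =>
  not_dvd_card_galL p ((ZMod.natCast_eq_zero_iff _ _).1 h)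

include hpT hinv hrange hfix in
lemma locCoord_resCyclo_smul (y : H2c (sLevels T) (cycloRep p)) (g : GalL (cycloField p))
    (j : P.ι) : locCoord P inv (resCyclo y) (g • j) = locCoord P inv (resCyclo y) j := by
  have key : ∀ j, (Nat.card (GalL (cycloField p)) : ZMod p) * locCoord P inv (resCyclo y) j =
      ∑ c : GalL (cycloField p), locCoord P inv (resCyclo y) (c⁻¹ • j) := fun j => by
    rw [← locCoord_norm hpT P inv hinv hrange hfix (resCyclo y) j, coresCyclo_resCyclo, map_smul,
      map_smul, Pi.smul_apply, smul_eq_mul]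
  refine mul_left_cancel₀ (card_galL_ne_zero (p := p)) ?_
  rw [key, key, ← Equiv.sum_comp (Equiv.mulLeft g)]
  simp only [Equiv.coe_mulLeft, mul_inv_rev, mul_smul, inv_smul_smul]

include hpT hinv hrange hfix in
/-- A twisted class over `ℚ` supported at `q` and `p`, non-zero there. -/
theorem exists_test (_hA : ∀ i j : P.ι, P.prime i = P.prime j → ∃ g : GalL (cycloField p), g • i = j)
    {i₀ i₁ : P.ι} (h01 : P.prime i₀ ≠ P.prime i₁) :
    ∃ y : H2c (sLevels T) (cycloRep p),
      (∀ j, P.prime j ≠ P.prime i₀ → P.prime j ≠ P.prime i₁ →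
        locCoord P inv (resCyclo y) j = 0) ∧
      locCoord P inv (resCyclo y) i₀ ≠ 0 ∧ locCoord P inv (resCyclo y) i₁ ≠ 0 := by
  classical
  obtain ⟨w, hw⟩ := (mem_range_locCoord_iff P inv hinv hrange
    (Pi.single i₀ 1 - Pi.single i₁ 1)).2 (by simp)
  refine ⟨coresCyclo hpT w, fun j h0 h1 => ?_, ?_, ?_⟩
  · rw [locCoord_norm hpT P inv hinv hrange hfix, hw]
    refine Finset.sum_eq_zero fun c _ => ?_
    rw [Pi.sub_apply, Pi.single_eq_of_ne (fun e => h0 (by rw [← e, prime_smul])),
      Pi.single_eq_of_ne (fun e => h1 (by rw [← e, prime_smul])), sub_zero]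
  all_goals
    rw [locCoord_norm hpT P inv hinv hrange hfix, hw]
  · rw [Finset.sum_congr rfl fun c _ => by
      rw [Pi.sub_apply, Pi.single_eq_of_ne (i := i₁) (fun e => h01 (by rw [← e, prime_smul])),
        sub_zero, Pi.single_apply], Finset.sum_boole]
    intro h
    refine not_dvd_card_galL p (((ZMod.natCast_eq_zero_iff _ _).1 h).trans ?_)
    refine (dvd_of_eq ?_).trans
      (Subgroup.card_subgroup_dvd_card (MulAction.stabilizer (GalL (cycloField p)) i₀))
    rw [Nat.card_eq_fintype_card, Fintype.card_subtype]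
    refine congrArg Finset.card (Finset.filter_congr fun c _ => ?_)
    rw [MulAction.mem_stabilizer_iff, inv_smul_eq_iff, eq_comm]
  · rw [Finset.sum_congr rfl fun c _ => by
      rw [Pi.sub_apply, Pi.single_eq_of_ne (i := i₀) (fun e => h01 (by rw [← e, prime_smul])),
        zero_sub, Pi.single_apply], Finset.sum_neg_distrib, neg_ne_zero, Finset.sum_boole]
    intro h
    refine not_dvd_card_galL p (((ZMod.natCast_eq_zero_iff _ _).1 h).trans ?_)
    refine (dvd_of_eq ?_).trans
      (Subgroup.card_subgroup_dvd_card (MulAction.stabilizer (GalL (cycloField p)) i₁))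
    rw [Nat.card_eq_fintype_card, Fintype.card_subtype]
    refine congrArg Finset.card (Finset.filter_congr fun c _ => ?_)
    rw [MulAction.mem_stabilizer_iff, inv_smul_eq_iff, eq_comm]

end Coordinates

theorem exists_smul_place {T : Finset Nat.Primes} (P : PlaceSystem (cycloField p) T) (i j : P.ι)
    (h : P.prime i = P.prime j) : ∃ g : GalL (cycloField p), g • i = j := by
  obtain ⟨g, hg⟩ := TW.exists_smul_eq (P.prime i).2 (P.liesOver i)
    (show (P.place j).LiesOverPrime (P.prime i : ℕ) by rw [h]; exact P.liesOver j)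
  exact ⟨g, placeIdx_eq_of P (one_mem _) (by rw [one_smul, hg])⟩

variable (hp : p ≠ 2) (hA : ∀ q, (A q).LiesOverPrime (q : ℕ))

/-- The coordinates of a good set, with functionals killing the classes and test classes. -/
structure GoodData (A : Nat.Primes → ValuationSubring Qb) (T : Finset Nat.Primes) where
  θ : ∀ q, localH2 p (cycloField p) (A q) →ₗ[ZMod p] ZMod p
  kills : KillsClasses A T θ
  test : ∀ q ∈ T, ∀ r ∈ T, q ≠ r → ∃ y : H2c (sLevels T) (cycloRep p),
    (∀ s ∈ T, s ≠ q → s ≠ r → loc2 p (cycloField p) T (A s) (resCyclo y) = 0) ∧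
    θ q (loc2 p (cycloField p) T (A q) (resCyclo y)) ≠ 0

include hp hA in
theorem nonempty_goodData {T : Finset Nat.Primes} (hT : GoodSet p T) :
    Nonempty (GoodData (p := p) A T) := by
  classical
  obtain ⟨P, hP⟩ := exists_adapted (p := p) hA T
  obtain ⟨inv, hinv, -, -, hrange, -⟩ := exists_globalDuality p (cycloField p) T hp
    (containsMuP_cycloField p) (isUnramifiedOutside_cycloField p hT.p_mem) hT.p_mem hT.classGroup P
  have hfix := hT.frob.fixesPlace P
  choose idx hprime hplace using hP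
  have hmk : ∀ q, ∃ θq : localH2 p (cycloField p) (A q) →ₗ[ZMod p] ZMod p, ∀ (hq : q ∈ T) x,
      θq (loc2 p (cycloField p) T (A q) x) =
        ((Finset.univ.filter fun i => P.prime i = q).card : ZMod p) *
          locCoord P inv x (idx q hq) := by
    intro q
    by_cases hq : q ∈ T
    · rw [← hplace q hq]
      exact ⟨((Finset.univ.filter fun i => P.prime i = q).card : ZMod p) • inv (idx q hq),
        fun _ x => rfl⟩
    · exact ⟨0, fun h => absurd h hq⟩
  choose θ hθ using hmk
  have hinvariant : ∀ (y : H2c (sLevels T) (cycloRep p)) q (hq : q ∈ T),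
      θ q (loc2 p (cycloField p) T (A q) (resCyclo y)) =
        ∑ i ∈ Finset.univ.filter (fun i => P.prime i = q), locCoord P inv (resCyclo y) i := by
    intro y q hq
    rw [hθ q hq, Finset.sum_congr rfl fun i hi => ?_, Finset.sum_const, nsmul_eq_mul]
    obtain ⟨g, hg⟩ := exists_smul_place P (idx q hq) i
      (by rw [hprime, (Finset.mem_filter.1 hi).2])
    rw [← hg, locCoord_resCyclo_smul hT.p_mem P inv hinv hrange hfix]
  refine ⟨⟨θ, fun y => ?_, fun q hq r hr hqr => ?_⟩⟩
  · rw [Finset.sum_congr rfl fun q hq => hinvariant y q hq,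
      Finset.sum_fiberwise_of_maps_to (fun i _ => P.prime_mem i)]
    exact (mem_range_locCoord_iff P inv hinv hrange _).1 ⟨_, rfl⟩
  obtain ⟨y, hy0, hyq, -⟩ := exists_test hT.p_mem P inv hinv hrange hfix (exists_smul_place P)
    (i₀ := idx q hq) (i₁ := idx r hr) (by rw [hprime, hprime]; exact hqr)
  refine ⟨y, fun s hs hsq hsr => ?_, ?_⟩
  · have h := hy0 (idx s hs) (by rw [hprime, hprime]; exact hsq) (by rw [hprime, hprime]; exact hsr)
    rw [locCoord_apply] at h
    rw [← hplace s hs]
    exact inv_injective P inv (containsMuP_cycloField p) hinv (idx s hs) (by rw [h, map_zero])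
  · rw [hθ q hq]
    refine mul_ne_zero (fun h => ?_) hyq
    refine not_dvd_card_galL p (((ZMod.natCast_eq_zero_iff _ _).1 h).trans ?_)
    have horb : (Finset.univ.filter fun i => P.prime i = q).card =
        Nat.card (MulAction.orbit (GalL (cycloField p)) (idx q hq)) := by
      rw [Nat.card_eq_fintype_card, ← Set.toFinset_card]
      refine congrArg Finset.card (Finset.ext fun i => ?_)
      rw [Finset.mem_filter, Set.mem_toFinset, MulAction.mem_orbit_iff]
      refine ⟨fun h => exists_smul_place P _ _ (by rw [hprime, h.2]), ?_⟩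
      rintro ⟨g, rfl⟩
      exact ⟨Finset.mem_univ _, by rw [prime_smul, hprime]⟩
    have := finite_galL (cycloField p)
    rw [horb, Nat.card_congr (MulAction.orbitEquivQuotientStabilizer _ _)]
    exact Subgroup.card_quotient_dvd_card _

include hA in
lemma eq_smul_functional (q : Nat.Primes)
    {θ θ' : localH2 p (cycloField p) (A q) →ₗ[ZMod p] ZMod p} {u : localH2 p (cycloField p) (A q)}
    (hu : u ≠ 0) (h : θ u = θ' u) : θ = θ' := by
  refine LinearMap.ext fun x => ?_
  obtain ⟨c, rfl⟩ := exists_smul_eq_of_finrank_eq_one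
    (localDualityAt p q.2 (cycloField p) (containsMuP_cycloField p) (hA q)).finrank_H2 hu x
  rw [map_smul, map_smul, h]

/-- Functionals agreeing at `p` and killing the classes of a good set agree on it. -/
theorem GoodData.unique {T : Finset Nat.Primes} (D : GoodData (p := p) A T)
    (hA : ∀ q, (A q).LiesOverPrime (q : ℕ)) (hpT : ExtCitation.pPrime p ∈ T)
    {θ θ' : ∀ q, localH2 p (cycloField p) (A q) →ₗ[ZMod p] ZMod p}
    (h : KillsClasses A T θ) (h' : KillsClasses A T θ')
    (hp : θ (ExtCitation.pPrime p) = θ' (ExtCitation.pPrime p)) {q : Nat.Primes} (hq : q ∈ T) :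
    θ q = θ' q := by
  classical
  rcases eq_or_ne q (ExtCitation.pPrime p) with rfl | hqp
  · exact hp
  obtain ⟨y, hy0, hyq⟩ := D.test q hq _ hpT hqp
  have e : ∀ φ, KillsClasses A T φ → φ q (loc2 p (cycloField p) T (A q) (resCyclo y)) =
      -φ (ExtCitation.pPrime p) (loc2 p (cycloField p) T (A _) (resCyclo y)) := fun φ hφ => by
    have := hφ y
    rw [Finset.sum_eq_add_of_mem q _ hq hpT hqp fun s hs hne => by
      rw [hy0 s hs hne.1 hne.2, map_zero]] at this
    exact eq_neg_of_add_eq_zero_left this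
  exact eq_smul_functional hA q (u := loc2 p (cycloField p) T (A q) (resCyclo y))
    (fun hu => hyq (by rw [hu, map_zero]))
    (by rw [e θ h, e θ' h', hp])

/-- Functionals killing the classes of more primes kill those of fewer. -/
theorem KillsClasses.mono {T T' : Finset Nat.Primes} {θ : ∀ q, localH2 p (cycloField p) (A q) →ₗ[ZMod p] ZMod p}
    (hA : ∀ q, (A q).LiesOverPrime (q : ℕ)) (h : KillsClasses A T' θ) (hT : T ⊆ T')
    (hpT : ExtCitation.pPrime p ∈ T) : KillsClasses A T θ := by
  intro y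
  have := h (inflCyclo hT y)
  simp only [loc2_resCyclo_infl] at this
  rwa [← Finset.sum_subset hT fun q _ hq => by
    rw [loc2_eq_zero_of_unramified (isUnramifiedOutside_cycloField p hpT) hq (hA q), map_zero]] at this

/-- Reciprocity over `ℚ`. -/
theorem exists_reciprocity (hp : p ≠ 2) (A : Nat.Primes → ValuationSubring Qb)
    (hA : ∀ q, (A q).LiesOverPrime (q : ℕ)) :
    ∃ inv : ∀ q : Nat.Primes,
        H2c (subLevels ((A q).decompositionSubgroup ℚ))
          ((cycloRep p).comp ((A q).decompositionSubgroup ℚ).subtype) →ₗ[ZMod p] ZMod p,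
      (∀ q, inv q ≠ 0) ∧
      ∀ S : Finset Nat.Primes, ExtCitation.pPrime p ∈ S →
        ∀ x : H2c (sLevels S) (cycloRep p), ∀ hl : ∀ q, IsLevHom
          (subLevels ((A q).decompositionSubgroup ℚ)) (sLevels S)
          ((A q).decompositionSubgroup ℚ).subtype,
        ∑ q ∈ S, inv q (map2 (φ := LinearMap.id) (cycloRep p) _ (hl q) (fun _ _ => rfl) x) = 0 := by
  classical
  set P₀ := ExtCitation.pPrime p
  obtain ⟨T₀, -, hT₀⟩ := exists_goodSet p (∅ : Finset Nat.Primes)
  obtain ⟨q₀, hq₀, hq₀p, -⟩ := hT₀.frob 1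
  have hne₀ : q₀ ≠ P₀ := fun h => hq₀p (congrArg Subtype.val h)
  -- every family killing the classes of a good set is non-zero at `p`
  have hθp : ∀ {T}, T₀ ⊆ T → ∀ D : GoodData (p := p) A T, D.θ P₀ ≠ 0 := by
    intro T hT D h0
    obtain ⟨y, hy0, hyq⟩ := D.test q₀ (hT hq₀) P₀ (hT hT₀.p_mem) hne₀
    refine hyq ?_
    have := D.kills y
    rwa [Finset.sum_eq_add_of_mem q₀ P₀ (hT hq₀) (hT hT₀.p_mem) hne₀ fun s hs hne => by
      rw [hy0 s hs hne.1 hne.2, map_zero], h0, LinearMap.zero_apply, add_zero] at this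
  obtain ⟨D₀⟩ := nonempty_goodData hp hA hT₀
  obtain ⟨u₀, hu₀⟩ : ∃ u, D₀.θ P₀ u ≠ 0 := by
    by_contra h
    push Not at h
    exact hθp subset_rfl D₀ (LinearMap.ext h)
  -- normalised families
  have hnorm : ∀ T, T₀ ⊆ T → ∃ θ, KillsClasses A T θ ∧ θ P₀ = D₀.θ P₀ ∧
      ∀ q ∈ T, ∃ y : H2c (sLevels T) (cycloRep p),
        θ q (loc2 p (cycloField p) T (A q) (resCyclo y)) ≠ 0 := by
    intro T hT
    obtain ⟨D⟩ := nonempty_goodData hp hA (hT₀.mono hT)
    obtain ⟨u, hu⟩ : ∃ u, D.θ P₀ u ≠ 0 := by
      by_contra h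
      push Not at h
      exact hθp hT D (LinearMap.ext h)
    have hu0 : u₀ ≠ 0 := fun h => hu₀ (by rw [h, map_zero])
    have hDu : D.θ P₀ u₀ ≠ 0 := by
      obtain ⟨c, rfl⟩ := exists_smul_eq_of_finrank_eq_one (localDualityAt p P₀.2 (cycloField p)
        (containsMuP_cycloField p) (hA P₀)).finrank_H2 hu0 u
      rw [map_smul, smul_eq_mul] at hu
      exact right_ne_zero_of_mul hu
    set c := D₀.θ P₀ u₀ / D.θ P₀ u₀
    have hc : c ≠ 0 := div_ne_zero hu₀ hDu
    refine ⟨fun q => c • D.θ q, fun y => ?_, ?_, fun q hq => ?_⟩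
    · simp only [LinearMap.smul_apply, ← Finset.smul_sum]
      rw [D.kills y, smul_zero]
    · refine eq_smul_functional hA P₀ hu0 ?_
      rw [LinearMap.smul_apply, smul_eq_mul, div_mul_cancel₀ _ hDu]
    · obtain ⟨r, hr, hqr⟩ : ∃ r ∈ T, q ≠ r := by
        rcases eq_or_ne q P₀ with rfl | h
        · exact ⟨q₀, hT hq₀, hne₀.symm⟩
        · exact ⟨P₀, hT hT₀.p_mem, h⟩
      obtain ⟨y, -, hy⟩ := D.test q hq r hr hqr
      exact ⟨y, by rw [LinearMap.smul_apply, smul_eq_mul]; exact mul_ne_zero hc hy⟩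
  choose θ hkill hθ₀ hθne using hnorm
  let W : Nat.Primes → Finset Nat.Primes := fun q => insert q T₀
  have hW : ∀ q, T₀ ⊆ W q := fun q => Finset.subset_insert _ _
  let θinf : ∀ q, localH2 p (cycloField p) (A q) →ₗ[ZMod p] ZMod p := fun q => θ (W q) (hW q) q
  have hcompat : ∀ T (hT : T₀ ⊆ T), ∀ q ∈ T, θ T hT q = θinf q := by
    intro T hT q hq
    have hU : T₀ ⊆ T ∪ W q := hT.trans Finset.subset_union_left
    have step : ∀ T' (hT' : T₀ ⊆ T'), T' ⊆ T ∪ W q → q ∈ T' →
        θ T' hT' q = θ (T ∪ W q) hU q := by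
      intro T' hT' hsub hq'
      obtain ⟨D⟩ := nonempty_goodData hp hA (hT₀.mono hT')
      refine D.unique hA (hT' hT₀.p_mem) (hkill T' hT')
        ((hkill _ hU).mono hA hsub (hT' hT₀.p_mem)) ?_ hq'
      rw [hθ₀, hθ₀]
    rw [step T hT Finset.subset_union_left hq]
    exact (step (W q) (hW q) Finset.subset_union_right (Finset.mem_insert_self _ _)).symm
  let ι : ∀ q, H2c (subLevels ((A q).decompositionSubgroup ℚ))
      ((cycloRep p).comp ((A q).decompositionSubgroup ℚ).subtype) →ₗ[ZMod p]
        localH2 p (cycloField p) (A q) := fun q =>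
    map2 (φ := LinearMap.id) _ (triv (ZMod p) (localGroup (cycloField p) (A q)))
      (f := Subgroup.inclusion inf_le_right)
      (by rintro _ ⟨U, hU, rfl⟩; exact ⟨_, ⟨U, hU, rfl⟩, fun _ h => h⟩) (fun n m => by
        show cycloRep p (n : GQ) m = m
        rw [Representation.twist_apply_apply, containsMuP_cycloField p n n.2.1, Units.val_one,
          one_smul]
        rfl)
  have hι : ∀ (T : Finset Nat.Primes) (y : H2c (sLevels T) (cycloRep p)) q
      (hl : IsLevHom (subLevels ((A q).decompositionSubgroup ℚ)) (sLevels T)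
        ((A q).decompositionSubgroup ℚ).subtype),
      ι q (map2 (φ := LinearMap.id) (cycloRep p) _ hl (fun _ _ => rfl) y) =
        loc2 p (cycloField p) T (A q) (resCyclo y) := by
    intro T y q hl
    induction y using Submodule.Quotient.induction_on with | _ f => rfl
  refine ⟨fun q => θinf q ∘ₗ ι q, fun q h => ?_, fun S hpS x hl => ?_⟩
  · obtain ⟨y, hy⟩ := hθne (W q) (hW q) q (Finset.mem_insert_self _ _)
    refine hy ?_
    have hl : IsLevHom (subLevels ((A q).decompositionSubgroup ℚ)) (sLevels (W q))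
        ((A q).decompositionSubgroup ℚ).subtype := by
      rintro _ ⟨F, hF, rfl⟩
      exact ⟨_, ⟨F.fixingSubgroup, ⟨F, hF.1, rfl⟩, rfl⟩, fun _ h => h⟩
    rw [← hι _ y q hl]
    exact LinearMap.congr_fun h _
  · simp only [LinearMap.comp_apply, hι]
    have hT : T₀ ⊆ S ∪ T₀ := Finset.subset_union_right
    have h1 := (hkill _ hT).mono hA (Finset.subset_union_left : S ⊆ S ∪ T₀) hpS x
    refine Eq.trans (Finset.sum_congr rfl fun q hq => ?_) h1
    rw [hcompat _ hT q (Finset.mem_union_left _ hq)]

end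

end FermatAgent.Duality.Global
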