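import Fermat.Agent.Duality.Global.LocalSymbol

/-!
# Localisations at conjugate places

Inner automorphisms act trivially on cohomology: a class of `G_K` which vanishes at a place
vanishes at its conjugates under `G_K`.
-/

set_option autoImplicit false

open scoped Pointwise

namespace FermatAgent.Duality.Global

noncomputable section

local notation "Qb" => AlgebraicClosure ℚ
local notation "GQ" => AlgebraicClosure ℚ ≃ₐ[ℚ] AlgebraicClosure ℚ

attribute [local instance] FermatAgent.RT.isGalois_algClosureRat numberField_of_finite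

variable {p : ℕ} [Fact p.Prime] {K : IntermediateField ℚ Qb} [FiniteDimensional ℚ K]

theorem exists_normal_field {F : IntermediateField ℚ Qb} (hF : FiniteDimensional ℚ F) :
    ∃ N : IntermediateField ℚ Qb, FiniteDimensional ℚ N ∧ F ≤ N ∧ N.fixingSubgroup.Normal := by
  let N := IntermediateField.normalClosure ℚ F Qb
  have hN : FiniteDimensional ℚ N := normalClosure.is_finiteDimensional ℚ F Qb
  have : IsGalois ℚ N := IsGalois.normalClosure ℚ F Qb
  exact ⟨N, hN, IntermediateField.le_normalClosure F,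
    (InfiniteGalois.normal_iff_isGalois N).mpr inferInstance⟩

omit [FiniteDimensional ℚ K] in
theorem conj_mem_localGroup {A : ValuationSubring Qb} {g : GQ} (hg : g ∈ K.fixingSubgroup) {a : GQ}
    (ha : a ∈ localGroup K (g • A)) : g⁻¹ * a * g ∈ localGroup K A := by
  refine ⟨mul_mem (mul_mem (K.fixingSubgroup.inv_mem hg) ha.1) hg, ?_⟩
  show (g⁻¹ * a * g) • A = A
  rw [mul_smul, mul_smul, show a • (g • A) = g • A from ha.2, inv_smul_smul]

omit [FiniteDimensional ℚ K] in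
/-- A class of degree one vanishing at a place vanishes at its conjugates. -/
theorem locF1_smul_eq_zero {A : ValuationSubring Qb} {g : GQ} (hg : g ∈ K.fixingSubgroup)
    {x : fullH1 p K} (hx : locF1 A x = 0) : locF1 (g • A) x = 0 := by
  obtain ⟨f, rfl⟩ := Submodule.mkQ_surjective _ x
  refine Local.cl1_triv_eq_zero_iff.mpr (Subtype.ext (funext fun d => ?_))
  have h := congrFun (congrArg Subtype.val (Local.cl1_triv_eq_zero_iff.mp hx))
    ⟨_, conj_mem_localGroup hg d.2⟩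
  show f.1 ⟨d, d.2.1⟩ = 0
  change f.1 (⟨g, hg⟩⁻¹ * ⟨d, d.2.1⟩ * ⟨g, hg⟩) = 0 at h
  rwa [Local.chi_mul, Local.chi_mul, Local.chi_inv, neg_add_cancel_comm] at h

omit [FiniteDimensional ℚ K] in
/-- A class of degree two vanishing at a place vanishes at its conjugates. -/
theorem locF2_smul_eq_zero {A : ValuationSubring Qb} {g : GQ} (hg : g ∈ K.fixingSubgroup)
    {x : fullH2 p K} (hx : locF2 A x = 0) : locF2 (g • A) x = 0 := by
  obtain ⟨f, rfl⟩ := Submodule.mkQ_surjective _ x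
  obtain ⟨w, hw, hdw⟩ := (cl2_eq_zero_iff _ _ _).1 hx
  obtain ⟨Fw, hFw, hwl⟩ := Local.isLev₁_iff_exists_field.1 hw
  obtain ⟨_, ⟨_, ⟨Ff, hFf, rfl⟩, rfl⟩, hfl⟩ := f.2.1
  obtain ⟨N, hN, hle, hn⟩ := exists_normal_field
    (IntermediateField.finiteDimensional_sup Fw Ff : FiniteDimensional ℚ (Fw ⊔ Ff : IntermediateField ℚ Qb))
  let γ : K.fixingSubgroup := ⟨g, hg⟩
  let e : localGroup K (g • A) → localGroup K A := fun a => ⟨_, conj_mem_localGroup hg a.2⟩
  let ι : localGroup K (g • A) → K.fixingSubgroup := fun a => ⟨a, a.2.1⟩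
  let y : localGroup K (g • A) → ZMod p := fun a =>
    f.1 (ι a, γ) - f.1 (γ, γ⁻¹ * ι a * γ) + w (e a)
  refine (cl2_eq_zero_iff _ _ _).2 ⟨y, Local.isLev₁_iff_exists_field.2 ⟨N, hN, fun a u hu => ?_⟩,
    funext fun q => ?_⟩
  · have hu' : g⁻¹ * (u : GQ) * g ∈ N.fixingSubgroup := by simpa using hn.conj_mem _ hu g⁻¹
    have hN1 : ∀ z ∈ N.fixingSubgroup, z ∈ Fw.fixingSubgroup ∧ z ∈ Ff.fixingSubgroup := fun z hz =>
      ⟨IntermediateField.fixingSubgroup_antitone (le_sup_left.trans hle) hz,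
        IntermediateField.fixingSubgroup_antitone (le_sup_right.trans hle) hz⟩
    have e1 : f.1 (ι (a * u), γ) = f.1 (ι a, γ) := by
      have := hfl (ι a) γ (ι u) (hN1 _ hu).2 1 (one_mem _)
      rwa [mul_one] at this
    have e2 : f.1 (γ, γ⁻¹ * ι (a * u) * γ) = f.1 (γ, γ⁻¹ * ι a * γ) := by
      have := hfl γ (γ⁻¹ * ι a * γ) 1 (one_mem _) (γ⁻¹ * ι u * γ) (hN1 _ hu').2
      rw [mul_one] at this
      rwa [show γ⁻¹ * ι a * γ * (γ⁻¹ * ι u * γ) = γ⁻¹ * ι (a * u) * γ from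
        Subtype.ext (show (g⁻¹ * (a : GQ) * g) * (g⁻¹ * (u : GQ) * g) = g⁻¹ * ((a : GQ) * u) * g by
          group)] at this
    have e3 : w (e (a * u)) = w (e a) := by
      rw [show e (a * u) = e a * e u from
        Subtype.ext (show g⁻¹ * ((a : GQ) * u) * g = (g⁻¹ * (a : GQ) * g) * (g⁻¹ * (u : GQ) * g) by
          group)]
      exact hwl _ _ (hN1 _ hu').1
    show y (a * u) = y a
    simp only [y, e1, e2, e3]
  · obtain ⟨a, b⟩ := q
    show y b - y (a * b) + y a = f.1 (ι a, ι b)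
    have h0 := f.2.2
    have c1 : f.1 (ι a * ι b, γ) + f.1 (ι a, ι b) = f.1 (ι b, γ) + f.1 (ι a, ι b * γ) :=
      h0 (ι a) (ι b) γ
    have c2 : f.1 (ι a * γ, γ⁻¹ * ι b * γ) + f.1 (ι a, γ) =
        f.1 (γ, γ⁻¹ * ι b * γ) + f.1 (ι a, γ * (γ⁻¹ * ι b * γ)) := h0 (ι a) γ (γ⁻¹ * ι b * γ)
    have c3 : f.1 (γ * (γ⁻¹ * ι a * γ), γ⁻¹ * ι b * γ) + f.1 (γ, γ⁻¹ * ι a * γ) =
        f.1 (γ⁻¹ * ι a * γ, γ⁻¹ * ι b * γ) + f.1 (γ, γ⁻¹ * ι a * γ * (γ⁻¹ * ι b * γ)) :=
      h0 γ (γ⁻¹ * ι a * γ) (γ⁻¹ * ι b * γ)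
    have c4 : w (e b) - w (e a * e b) + w (e a) =
        f.1 (γ⁻¹ * ι a * γ, γ⁻¹ * ι b * γ) := congrFun hdw (e a, e b)
    rw [show γ * (γ⁻¹ * ι b * γ) = ι b * γ by group] at c2
    rw [show γ * (γ⁻¹ * ι a * γ) = ι a * γ by group,
      show γ⁻¹ * ι a * γ * (γ⁻¹ * ι b * γ) = γ⁻¹ * (ι a * ι b) * γ by group] at c3
    rw [show e a * e b = e (a * b) from
      Subtype.ext (show (g⁻¹ * (a : GQ) * g) * (g⁻¹ * (b : GQ) * g) = g⁻¹ * ((a : GQ) * b) * g by
        group)] at c4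
    simp only [y, show ι (a * b) = ι a * ι b from rfl]
    linear_combination c4 + c2 - c1 - c3

end

end FermatAgent.Duality.Global
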