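import Fermat.Agent.Duality.Global.Invariants
import Fermat.Agent.Duality.Global.ConjPlace
import Fermat.Agent.Duality.Global.Finite

/-!
# Classes of degree one of `G_{K,S}` inside those of `G_K`

A class of `G_{K,S}` gives a class of `G_K`; this map is injective, and its classes are unramified
outside `S`.
-/

set_option autoImplicit false

open scoped Pointwise

namespace FermatAgent.Duality.Global

open IsDedekindDomain NumberField FermatAgent.Duality Module

noncomputable section

local notation "Qb" => AlgebraicClosure ℚ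
local notation "GQ" => AlgebraicClosure ℚ ≃ₐ[ℚ] AlgebraicClosure ℚ

attribute [local instance] FermatAgent.RT.isGalois_algClosureRat numberField_of_finite

variable {p : ℕ} [Fact p.Prime] {K : IntermediateField ℚ Qb} [FiniteDimensional ℚ K]
  {S : Finset Nat.Primes}

/-- A class of `G_{K,S}` as a class of `G_K`, in degree one. -/
def toFull1 : globalH1 p K S →ₗ[ZMod p] fullH1 p K :=
  map1 (φ := LinearMap.id) (triv (ZMod p) K.fixingSubgroup) (triv (ZMod p) K.fixingSubgroup)
    isLevHom_globalLevels_full (fun _ _ => rfl)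

omit [FiniteDimensional ℚ K] in
lemma toFull1_injective : Function.Injective (toFull1 : globalH1 p K S →ₗ[ZMod p] fullH1 p K) := by
  refine (injective_iff_map_eq_zero _).2 fun x hx => ?_
  induction x using Submodule.Quotient.induction_on with
  | _ f =>
  refine (cl1_eq_zero_iff _ _ f).2 ?_
  exact (cl1_eq_zero_iff (subLevels K.fixingSubgroup) (triv (ZMod p) K.fixingSubgroup) _).1 hx

omit [FiniteDimensional ℚ K] in
/-- Classes of `G_{K,S}` are unramified outside `S`. -/
theorem toFull1_unramified (x : globalH1 p K S) {q : Nat.Primes} (hq : q ∉ S)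
    {A : ValuationSubring Qb} (hA : A.LiesOverPrime (q : ℕ)) :
    locF1 A (toFull1 x) ∈ unramifiedH1 p K A := by
  induction x using Submodule.Quotient.induction_on with
  | _ f =>
  rw [unramifiedH1, LinearMap.mem_ker]
  refine (cl1_eq_zero_iff _ _ _).2 ⟨0, ?_⟩
  rw [map_zero]
  funext σ
  show (0 : ZMod p) = f.1 ⟨((σ.1 : localGroup K A) : GQ), (σ.1).2.1⟩
  obtain ⟨_, ⟨_, ⟨F, hF, rfl⟩, rfl⟩, hU⟩ := f.2.1
  have hσ : ((σ.1 : localGroup K A) : GQ) ∈ F.fixingSubgroup := hF.2 q hq A hA σ.2
  let s : K.fixingSubgroup := ⟨((σ.1 : localGroup K A) : GQ), (σ.1).2.1⟩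
  have h := hU 1 s hσ
  have h0 : f.1 1 = 0 := by simpa using f.2.2 1 1
  rw [one_mul, h0] at h
  exact h.symm

end

end FermatAgent.Duality.Global
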