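import Fermat.Agent.Duality.Global.Invariants
import Fermat.Agent.Duality.Global.Finite
import Fermat.Agent.Duality.Global.Unramified

/-!
# Fields unramified outside `S` generated by roots

A root of an element fixed by inertia is fixed by inertia when its valuation is that of an
inertia-fixed element. Classes of `G_{K,S}` inside those of `G_K`.
-/

set_option autoImplicit false

open scoped Pointwise

namespace FermatAgent.Duality.Global

open IsDedekindDomain NumberField Module

noncomputable section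

local notation "Qb" => AlgebraicClosure ℚ
local notation "GQ" => AlgebraicClosure ℚ ≃ₐ[ℚ] AlgebraicClosure ℚ

attribute [local instance] FermatAgent.RT.isGalois_algClosureRat numberField_of_finite

/-- An automorphism in inertia fixes a prime-to-`l` root of a fixed element, if the root has the
valuation of a fixed element. -/
theorem inertia_fix_of_root {A : ValuationSubring Qb} {l : ℕ} (hl : l.Prime) (hA : A.LiesOverPrime l)
    {M : ℕ} (hM : ¬ l ∣ M) {σ : GQ} (hσ : σ ∈ A.inertiaSubgroupIn ℚ) {x z : Qb} (hx0 : x ≠ 0)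
    (hfix : σ (x ^ M) = x ^ M) (hz : σ z = z) (hv : A.valuation x = A.valuation z) : σ x = x := by
  have hM0 : M ≠ 0 := fun h => hM (h ▸ dvd_zero l)
  have hz0 : z ≠ 0 := fun h => hx0 ((_root_.map_eq_zero A.valuation).mp (by rw [hv, h, map_zero]))
  have hu : A.valuation (x / z) = 1 := by
    rw [map_div₀, hv, div_self ((_root_.map_ne_zero _).mpr hz0)]
  have hξ : (σ x / x) ^ M = 1 := by
    rw [div_pow, ← map_pow, hfix, div_self (pow_ne_zero _ hx0)]
  have h1 := FermatAgent.Local.inertia_val_sub_lt_one hσ ((A.valuation_le_one_iff (x / z)).1 hu.le)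
  rw [map_div₀ σ, hz, show σ x / z - x / z = (σ x / x - 1) * (x / z) by field_simp, map_mul, hu,
    mul_one] at h1
  exact (div_eq_one_iff_eq hx0).1 (eq_one_of_val_sub_one_lt hl hA hM hM0 hξ h1)

theorem adjoin_le_fixed_of_forall {σ : GQ} {s : Set Qb} (h : ∀ x ∈ s, σ x = x) :
    σ ∈ (IntermediateField.adjoin ℚ s).fixingSubgroup := by
  rw [← Subgroup.zpowers_le, ← IntermediateField.le_iff_le, IntermediateField.adjoin_le_iff]
  intro x hx
  rw [SetLike.mem_coe, IntermediateField.mem_fixedField_iff]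
  intro τ hτ
  obtain ⟨k, rfl⟩ := Subgroup.mem_zpowers_iff.1 hτ
  exact MulAction.mem_stabilizer_iff.1
    ((MulAction.stabilizer GQ x).zpow_mem (show σ ∈ MulAction.stabilizer GQ x from h x hx) k)

/-- Adjoining finitely many elements fixed by inertia outside `S`. -/
theorem isUnramifiedOutside_sup_adjoin {S : Finset Nat.Primes} {F : IntermediateField ℚ Qb}
    (hF : F.IsUnramifiedOutside S) {s : Set Qb} (hs : s.Finite)
    (h : ∀ q : Nat.Primes, q ∉ S → ∀ A : ValuationSubring Qb, A.LiesOverPrime (q : ℕ) →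
      ∀ σ ∈ A.inertiaSubgroupIn ℚ, ∀ x ∈ s, σ x = x) :
    (F ⊔ IntermediateField.adjoin ℚ s).IsUnramifiedOutside S := by
  have := hs.to_subtype
  have : FiniteDimensional ℚ (IntermediateField.adjoin ℚ s) :=
    IntermediateField.finiteDimensional_adjoin fun x _ => Algebra.IsIntegral.isIntegral x
  have := hF.1
  refine ⟨IntermediateField.finiteDimensional_sup F _, fun q hq A hA σ hσ => ?_⟩
  rw [IntermediateField.fixingSubgroup_sup]
  exact ⟨hF.2 q hq A hA hσ, adjoin_le_fixed_of_forall (h q hq A hA σ hσ)⟩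

variable {p : ℕ} [Fact p.Prime] {K : IntermediateField ℚ Qb} [FiniteDimensional ℚ K]
  {S : Finset Nat.Primes}

/-- Inflation in degree one. -/
def infl1 : globalH1 p K S →ₗ[ZMod p] fullH1 p K :=
  map1 (φ := LinearMap.id) (triv (ZMod p) K.fixingSubgroup) (triv (ZMod p) K.fixingSubgroup)
    isLevHom_globalLevels_full (fun _ _ => rfl)

/-- Inflation in degree two. -/
def infl2 : globalH2 p K S →ₗ[ZMod p] fullH2 p K :=
  map2 (φ := LinearMap.id) (triv (ZMod p) K.fixingSubgroup) (triv (ZMod p) K.fixingSubgroup)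
    isLevHom_globalLevels_full (fun _ _ => rfl)

omit [FiniteDimensional ℚ K] in
theorem locF1_infl1 (A : ValuationSubring Qb) (x : globalH1 p K S) :
    locF1 A (infl1 x) = loc1 p K S A x := by
  obtain ⟨f, rfl⟩ := Submodule.mkQ_surjective _ x
  rfl

omit [FiniteDimensional ℚ K] in
theorem locF2_infl2 (A : ValuationSubring Qb) (x : globalH2 p K S) :
    locF2 A (infl2 x) = loc2 p K S A x := by
  obtain ⟨f, rfl⟩ := Submodule.mkQ_surjective _ x
  rfl

omit [FiniteDimensional ℚ K] in
theorem infl1_injective : Function.Injective (infl1 (p := p) (K := K) (S := S)) := by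
  refine (injective_iff_map_eq_zero _).2 fun x hx => ?_
  obtain ⟨f, rfl⟩ := Submodule.mkQ_surjective _ x
  exact (cl1_eq_zero_iff _ _ f).2
    ((cl1_eq_zero_iff (subLevels K.fixingSubgroup) (triv (ZMod p) K.fixingSubgroup) _).1 hx)

variable (hK : ContainsMuP p K) {T : Finset (HeightOneSpectrum (𝓞 K))}
  (hS : K.IsUnramifiedOutside S) (hpS : ExtCitation.pPrime p ∈ S)
  (hT : ∀ P, P ∈ T ↔ ∃ q ∈ S, ((q : ℕ) : 𝓞 K) ∈ P.asIdeal)

omit [FiniteDimensional ℚ K] in
include hT in
theorem mem_iff_of_over {q : Nat.Primes} {A : ValuationSubring Qb} (hA : A.LiesOverPrime (q : ℕ))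
    {P : HeightOneSpectrum (𝓞 K)} (hP : Over K A P) : P ∈ T ↔ q ∈ S := by
  refine ⟨fun h => ?_, fun h => (hT P).2 ⟨q, h, hP.natCast_mem hA⟩⟩
  obtain ⟨q', hq', hmem⟩ := (hT P).1 h
  rwa [← show q' = q from Subtype.ext (eq_of_natCast_mem hP q.2 hA q'.2 hmem)]

omit [FiniteDimensional ℚ K] in
include hT hpS in
theorem mem_of_natCast_p_mem {P : HeightOneSpectrum (𝓞 K)} (h : (p : 𝓞 K) ∈ P.asIdeal) : P ∈ T :=
  (hT P).2 ⟨_, hpS, h⟩

include hS hpS hT in
/-- The classes of `T`-units come from `G_{K,S}`. -/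
theorem exists_infl1_eq_kappa {e : Kˣ} (he : e ∈ tUnits T) :
    ∃ x : globalH1 p K S, infl1 x = kappa hK e := by
  set μ := muGlobal (p := p) hK
  set r := Local.rootP p ((e : K) : Qb)
  have hr : r ^ p = ((e : K) : Qb) := Local.rootP_pow _
  have hr0 : r ≠ 0 := rootP_ne_zero e
  have hF : (K ⊔ IntermediateField.adjoin ℚ {r}).IsUnramifiedOutside S := by
    refine isUnramifiedOutside_sup_adjoin hS (Set.finite_singleton r) fun q hq A hA σ hσ x hx => ?_
    rw [Set.mem_singleton_iff] at hx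
    subst hx
    obtain ⟨P, hP⟩ := exists_over (K := K) (A := A) ⟨_, q.2, hA⟩
    have hPT : P ∉ T := fun h => hq ((mem_iff_of_over hT hA hP).1 h)
    have hv : A.valuation ((e : K) : Qb) = 1 := (hP.val_eq_one_iff e).2 (he P hPT)
    refine inertia_fix_of_root q.2 hA (M := p) (fun h => ?_) hσ hr0 ?_ (map_one σ) ?_
    · exact hq (by
        rw [show q = ExtCitation.pPrime p from
          Subtype.ext ((Nat.prime_dvd_prime_iff_eq q.2 (Fact.out : p.Prime)).1 h)]
        exact hpS)
    · rw [hr]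
      exact (hS.2 q hq A hA hσ) ⟨_, (e : K).2⟩
    · rw [map_one]
      rw [← hr, map_pow] at hv
      exact (pow_eq_one_iff.1 hv).resolve_right (Fact.out : p.Prime).ne_zero
  have hf : (chi hK e).1 ∈ Z1 (globalLevels K S) (triv (ZMod p) K.fixingSubgroup) := by
    refine ⟨⟨_, ⟨_, ⟨_, hF, rfl⟩, rfl⟩, fun g u hu => ?_⟩, (chi hK e).2.2⟩
    have hu0 : (chi hK e).1 u = 0 :=
      Local.kapFun_eq_of μ (toFix e) hr u 0 (by
        rw [Local.zpw_zero, one_mul]
        exact hu ⟨r, (le_sup_right : _ ≤ K ⊔ IntermediateField.adjoin ℚ {r})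
          (IntermediateField.mem_adjoin_simple_self ℚ r)⟩)
    rw [Local.chi_mul, hu0, add_zero]
  exact ⟨cl1 (globalLevels K S) (triv (ZMod p) K.fixingSubgroup) ⟨_, hf⟩, rfl⟩

include hS hpS hT in
/-- Conversely the classes of `G_{K,S}` are classes of `T`-units, for big `S`. -/
theorem infl1_mem_unitSpace (hbig : ClassGroupGenerated p K S) (x : globalH1 p K S) :
    infl1 x ∈ unitSpace hK T := by
  obtain ⟨f, rfl⟩ := Submodule.mkQ_surjective _ x
  obtain ⟨r, hr0, hrK, hval, hσ⟩ := exists_sUnit_root_muGlobal hK hS hpS hbig f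
  let e : Kˣ := Units.mk0 ⟨r ^ p, hrK⟩ fun h0 => pow_ne_zero p hr0 (congrArg Subtype.val h0)
  have he : e ∈ tUnits T := by
    intro v hv
    obtain ⟨A, hA⟩ := exists_place v
    obtain ⟨l, hl, hlA⟩ := hA.1
    exact (hA.val_eq_one_iff e).1
      (hval ⟨l, hl⟩ (fun h => hv ((hT v).2 ⟨_, h, hA.natCast_mem hlA⟩)) A hlA)
  refine (mem_unitSpace hK).2 ⟨e, he, ?_⟩
  refine congrArg (fun z => cl1 (subLevels K.fixingSubgroup) (triv (ZMod p) K.fixingSubgroup) z)
    (Subtype.ext (funext fun σ => ?_))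
  exact Local.kapFun_eq_of _ _ (r := r) rfl σ _ (hσ σ)

end

end FermatAgent.Duality.Global
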