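import Fermat.Agent.Duality.Euler.FrobPlaces
import Fermat.Agent.Duality.Global.ConjPlace
import Fermat.Agent.Duality.Global.GlobalDuality
import Fermat.Agent.Duality.Global.LevelFields
import Fermat.Agent.Duality.Global.Unramified
import Fermat.Agent.Duality.Global.Finite
import Fermat.Agent.Duality.Instance.Fields

/-!
# Finiteness of the locally trivial classes of degree two

Such a class dies over a big set of primes; the cochain killing it is, on the inertia groups of
the finitely many new primes, a tame character, and these values determine the class.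
-/

set_option autoImplicit false

open scoped Pointwise

namespace FermatAgent.Duality.Global

open FermatAgent.Duality Module

noncomputable section

local notation "Qb" => AlgebraicClosure ℚ
local notation "GQ" => AlgebraicClosure ℚ ≃ₐ[ℚ] AlgebraicClosure ℚ

attribute [local instance] FermatAgent.RT.isGalois_algClosureRat numberField_of_finite

variable {p : ℕ} [Fact p.Prime] {K : IntermediateField ℚ Qb} [FiniteDimensional ℚ K]
  {S S' : Finset Nat.Primes}

/-- Functions on inertia which are restrictions of characters of a field unramified there. -/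
def RamChar (K : IntermediateField ℚ Qb) (A : ValuationSubring Qb)
    (ρ : A.inertiaSubgroupIn ℚ → ZMod p) : Prop :=
  ∃ (F : IntermediateField ℚ Qb) (_ : FiniteDimensional ℚ F) (hI : A.inertiaSubgroupIn ℚ ≤ F.fixingSubgroup),
    K ≤ F ∧ ∃ f : Z1 (localLevels F A) (triv (ZMod p) (localGroup F A)),
      ∀ σ : A.inertiaSubgroupIn ℚ,
        ρ σ = f.1 ⟨σ, hI σ.2, FermatAgent.Local.mem_decomposition_of_inertia σ.2⟩

omit [FiniteDimensional ℚ K] in
/-- There are only finitely many tame characters of inertia. -/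
theorem finite_ramChar (hK : ContainsMuP p K) {A : ValuationSubring Qb} {l : ℕ} (hl : l.Prime)
    (hA : A.LiesOverPrime l) (hlp : l ≠ p) :
    Finite {ρ : A.inertiaSubgroupIn ℚ → ZMod p // RamChar K A ρ} := by
  classical
  by_cases h : ∀ ρ : A.inertiaSubgroupIn ℚ → ZMod p, RamChar K A ρ → ρ = 0
  · have : Subsingleton {ρ : A.inertiaSubgroupIn ℚ → ZMod p // RamChar K A ρ} :=
      ⟨fun a b => Subtype.ext ((h _ a.2).trans (h _ b.2).symm)⟩
    infer_instance
  push Not at h
  obtain ⟨ρ₀, ⟨F₀, hF₀, hI₀, hK₀, f₀, hf₀⟩, hne⟩ := h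
  have key : ∀ ρ, RamChar (p := p) K A ρ → ∃ t : ZMod p, ρ = t • ρ₀ := by
    rintro ρ ⟨F, hF, hI, hKF, f, hf⟩
    have : FiniteDimensional ℚ (F ⊔ F₀ : IntermediateField ℚ Qb) :=
      IntermediateField.finiteDimensional_sup F F₀
    set M : IntermediateField ℚ Qb := F ⊔ F₀
    have hM : ContainsMuP p M := fun g hg =>
      hK g (IntermediateField.fixingSubgroup_antitone (hKF.trans le_sup_left) hg)
    have hIM : A.inertiaSubgroupIn ℚ ≤ M.fixingSubgroup := fun σ hσ => by
      rw [IntermediateField.fixingSubgroup_sup]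
      exact ⟨hI hσ, hI₀ hσ⟩
    have hle : localGroup M A ≤ localGroup F A :=
      inf_le_inf_right _ (IntermediateField.fixingSubgroup_antitone le_sup_left)
    have hle₀ : localGroup M A ≤ localGroup F₀ A :=
      inf_le_inf_right _ (IntermediateField.fixingSubgroup_antitone le_sup_right)
    set y := resSub1 p hle (cl1 (localLevels F A) (triv (ZMod p) (localGroup F A)) f)
    set y₀ := resSub1 p hle₀ (cl1 (localLevels F₀ A) (triv (ZMod p) (localGroup F₀ A)) f₀)
    have hLD := localDualityAt p hl M hM hA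
    have := hLD.finite_H1
    have hy₀ : y₀ ∉ unramifiedH1 p M A := by
      intro hu
      refine hne (funext fun σ => ?_)
      obtain ⟨m, hm⟩ := (cl1_eq_zero_iff _ _ _).1 (LinearMap.mem_ker.1 hu)
      have := congrFun hm (⟨⟨σ, hIM σ.2, FermatAgent.Local.mem_decomposition_of_inertia σ.2⟩, σ.2⟩ :
        localInertia M A)
      rw [hf₀ σ]
      exact this.symm.trans (by simp [dd₀])
    have htop : unramifiedH1 p M A ⊔ Submodule.span (ZMod p) {y₀} = ⊤ := by
      apply Submodule.eq_top_of_finrank_eq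
      refine le_antisymm (Submodule.finrank_le _) ?_
      have h1 : unramifiedH1 p M A < unramifiedH1 p M A ⊔ Submodule.span (ZMod p) {y₀} :=
        left_lt_sup.mpr fun h' => hy₀ (h' (Submodule.mem_span_singleton_self y₀))
      have h2 := Submodule.finrank_lt_finrank_of_lt h1
      rw [hLD.finrank_unramified] at h2
      rw [hLD.finrank_H1, localDegree, if_neg hlp]
      omega
    obtain ⟨u, hu, z, hz, huz⟩ := Submodule.mem_sup.1 (htop ▸ Submodule.mem_top (x := y))
    obtain ⟨t, rfl⟩ := Submodule.mem_span_singleton.1 hz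
    refine ⟨t, funext fun σ => ?_⟩
    rw [← eq_sub_iff_add_eq] at huz
    rw [huz] at hu
    obtain ⟨m, hm⟩ := (cl1_eq_zero_iff (_ : LevelSystem (localInertia M A)) _
      (_ : Z1 _ _)).1 (LinearMap.mem_ker.1 hu)
    have := congrFun hm (⟨⟨σ, hIM σ.2, FermatAgent.Local.mem_decomposition_of_inertia σ.2⟩, σ.2⟩ :
      localInertia M A)
    rw [Pi.smul_apply, hf σ, hf₀ σ, smul_eq_mul, ← sub_eq_zero]
    exact this.symm.trans (by simp [dd₀])
  choose t ht using key
  refine Finite.of_injective (fun ρ => t ρ.1 ρ.2) fun a b h => Subtype.ext ?_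
  simp only at h
  rw [ht a.1 a.2, ht b.1 b.2, h]

omit [FiniteDimensional ℚ K] in
lemma isLevHom_globalLevels_le (h : S ⊆ S') :
    IsLevHom (globalLevels K S') (globalLevels K S) (MonoidHom.id _) := by
  rintro _ ⟨_, ⟨F, hF, rfl⟩, rfl⟩
  exact ⟨_, ⟨_, ⟨F, hF.mono h, rfl⟩, rfl⟩, fun _ hx => hx⟩

omit [FiniteDimensional ℚ K] in
lemma isLev₁_sub {b b' : K.fixingSubgroup → ZMod p} (h : IsLev₁ (globalLevels K S) b)
    (h' : IsLev₁ (globalLevels K S) b') : IsLev₁ (globalLevels K S) (b - b') := by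
  obtain ⟨U, hU, h1⟩ := h
  obtain ⟨U', hU', h2⟩ := h'
  obtain ⟨W, hW, hle⟩ := (globalLevels K S).inf_mem hU hU'
  exact ⟨W, hW, fun g s hs => by simp [h1 g s (hle hs).1, h2 g s (hle hs).2]⟩

/-- Inflation to more primes. -/
def inflLarger2 (h : S ⊆ S') : globalH2 p K S →ₗ[ZMod p] globalH2 p K S' :=
  map2 (φ := LinearMap.id) (triv (ZMod p) K.fixingSubgroup) (triv (ZMod p) K.fixingSubgroup)
    (isLevHom_globalLevels_le h) (fun _ _ => rfl)

omit [FiniteDimensional ℚ K] in
lemma loc2_inflLarger2 (h : S ⊆ S') (A : ValuationSubring Qb) (x : globalH2 p K S) :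
    loc2 p K S' A (inflLarger2 h x) = loc2 p K S A x := by
  induction x using Submodule.Quotient.induction_on with | _ f => rfl

omit [FiniteDimensional ℚ K] in
/-- Off the levels of a coboundary over `S` the cochain is affine. -/
theorem exists_affine (hS : K.IsUnramifiedOutside S)
    (c : Z2 (globalLevels K S) (triv (ZMod p) K.fixingSubgroup)) (b : K.fixingSubgroup → ZMod p)
    (hdb : dd₁ (triv (ZMod p) K.fixingSubgroup) b = c.1) :
    ∃ N : IntermediateField ℚ Qb, N.IsUnramifiedOutside S ∧ K ≤ N ∧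
      ∀ g u : K.fixingSubgroup, (u : GQ) ∈ N.fixingSubgroup →
        b (g * u) = b g + b u - c.1 (1, 1) ∧ b (u * g) = b u + b g - c.1 (1, 1) := by
  obtain ⟨_, ⟨_, ⟨F, hF, rfl⟩, rfl⟩, hl⟩ := c.2.1
  refine ⟨F ⊔ K, hF.sup hS, le_sup_right, fun g u hu => ?_⟩
  have huF := IntermediateField.fixingSubgroup_antitone (le_sup_left : F ≤ F ⊔ K) hu
  have hcoc := c.2.2
  have e1 : c.1 (g, 1) = c.1 (1, 1) := by
    have := hcoc g 1 1
    simp only [mul_one] at this
    exact add_right_cancel this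
  have e2 : c.1 (1, g) = c.1 (1, 1) := by
    have := hcoc 1 1 g
    simp only [one_mul] at this
    exact (add_left_cancel (this.trans (add_comm _ _))).symm
  have h1 : b u - b (g * u) + b g = c.1 (g, u) := congrFun hdb (g, u)
  have h2 : b g - b (u * g) + b u = c.1 (u, g) := congrFun hdb (u, g)
  have e3 : c.1 (g, u) = c.1 (g, 1) := by
    have := hl g 1 1 (one_mem _) u huF
    rwa [mul_one, one_mul] at this
  have e4 : c.1 (u, g) = c.1 (1, g) := by
    have := hl 1 g u huF 1 (one_mem _)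
    rwa [one_mul, mul_one] at this
  rw [e3, e1] at h1
  rw [e4, e2] at h2
  exact ⟨by linear_combination -h1, by linear_combination -h2⟩

omit [FiniteDimensional ℚ K] in
/-- On inertia outside `S` the killing cochain is a tame character. -/
theorem ramChar_of_killing (hS : K.IsUnramifiedOutside S)
    (c : Z2 (globalLevels K S) (triv (ZMod p) K.fixingSubgroup)) (b : K.fixingSubgroup → ZMod p)
    (hb : IsLev₁ (globalLevels K S') b) (hdb : dd₁ (triv (ZMod p) K.fixingSubgroup) b = c.1)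
    {q : Nat.Primes} (hq : q ∉ S) {A : ValuationSubring Qb} (hA : A.LiesOverPrime (q : ℕ)) :
    RamChar (p := p) K A fun σ => b ⟨σ, hS.2 q hq A hA σ.2⟩ - c.1 (1, 1) := by
  obtain ⟨N, hN, hKN, hN'⟩ := exists_affine hS c b hdb
  let j : localGroup N A → K.fixingSubgroup := fun g =>
    ⟨g, IntermediateField.fixingSubgroup_antitone hKN g.2.1⟩
  refine ⟨N, hN.1, hN.2 q hq A hA, hKN, ⟨fun g => b (j g) - c.1 (1, 1), ?_, fun g h => ?_⟩,
    fun σ => rfl⟩
  · obtain ⟨_, ⟨_, ⟨F, hF, rfl⟩, rfl⟩, hl⟩ := hb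
    exact Local.isLev₁_iff_exists_field.2 ⟨F, hF.1, fun g s hs =>
      congrArg (· - c.1 (1, 1)) (hl (j g) (j s) hs)⟩
  · show b (j (g * h)) - _ = (b (j h) - _) + (b (j g) - _)
    rw [show j (g * h) = j g * j h from rfl, (hN' (j g) (j h) h.2.1).1]
    ring

omit [FiniteDimensional ℚ K] in
/-- A class whose killing cochain is trivial on inertia outside `S` vanishes. -/
theorem cl2_eq_zero_of_inertia (hS : K.IsUnramifiedOutside S) (P' : PlaceSystem K S')
    (c : Z2 (globalLevels K S) (triv (ZMod p) K.fixingSubgroup)) (b : K.fixingSubgroup → ZMod p)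
    (hb : IsLev₁ (globalLevels K S') b) (hdb : dd₁ (triv (ZMod p) K.fixingSubgroup) b = c.1)
    (h0 : ∀ i, ∀ hi : P'.prime i ∉ S, ∀ σ, ∀ hσ : σ ∈ (P'.place i).inertiaSubgroupIn ℚ,
      b ⟨σ, hS.2 _ hi _ (P'.liesOver i) hσ⟩ = c.1 (1, 1)) :
    cl2 (globalLevels K S) (triv (ZMod p) K.fixingSubgroup) c = 0 := by
  obtain ⟨N, hN, hKN, hNb⟩ := exists_affine hS c b hdb
  set d₁ := c.1 (1, 1)
  have hd1 : b 1 = d₁ := by
    have := (hNb 1 1 (one_mem _)).1
    rw [one_mul] at this
    linear_combination -this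
  -- the subgroup on which `b` is constant
  let W : Subgroup GQ :=
    { carrier := {u | ∃ hu : u ∈ K.fixingSubgroup, u ∈ N.fixingSubgroup ∧ b ⟨u, hu⟩ = d₁}
      one_mem' := ⟨one_mem _, one_mem _, hd1⟩
      mul_mem' := by
        rintro u v ⟨hu, h1, h3⟩ ⟨hv, h1', h3'⟩
        refine ⟨mul_mem hu hv, mul_mem h1 h1', ?_⟩
        show b (⟨u, hu⟩ * ⟨v, hv⟩) = d₁
        rw [(hNb ⟨u, hu⟩ ⟨v, hv⟩ h1').1, h3, h3']
        ring
      inv_mem' := by
        rintro u ⟨hu, h1, h3⟩
        refine ⟨inv_mem hu, inv_mem h1, ?_⟩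
        have := (hNb ⟨u, hu⟩ (⟨u, hu⟩ : K.fixingSubgroup)⁻¹ (inv_mem h1)).1
        rw [mul_inv_cancel, hd1, h3] at this
        show b (⟨u, hu⟩ : K.fixingSubgroup)⁻¹ = d₁
        linear_combination -this }
  obtain ⟨_, ⟨_, ⟨Fb, hFb, rfl⟩, rfl⟩, hlb⟩ := hb
  have hconst : ∀ u : K.fixingSubgroup, (u : GQ) ∈ Fb.fixingSubgroup → b u = d₁ := fun u h1 => by
    have e1 := hlb 1 u h1
    rw [one_mul, hd1] at e1
    exact e1
  have := hN.1
  have := hFb.1
  have : FiniteDimensional ℚ (N ⊔ Fb : IntermediateField ℚ Qb) :=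
    IntermediateField.finiteDimensional_sup N Fb
  obtain ⟨E, -, hEfin, hE⟩ := exists_field_of_fixingSubgroup_le (F := N ⊔ Fb) (H := W) (by
    intro u hu
    rw [IntermediateField.fixingSubgroup_sup] at hu
    exact ⟨IntermediateField.fixingSubgroup_antitone hKN hu.1, hu.1, hconst _ hu.2⟩)
  have hEu : E.IsUnramifiedOutside S := by
    refine ⟨hEfin, fun q hq A hA σ hσ => ?_⟩
    rw [hE]
    refine ⟨hS.2 q hq A hA hσ, hN.2 q hq A hA hσ, ?_⟩
    by_cases hq' : q ∈ S'
    · obtain ⟨i, hi, g, hg, rfl⟩ := P'.exhausts q hq' A hA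
      have hiS : P'.prime i ∉ S := by rw [hi]; exact hq
      have hσ' : g⁻¹ * σ * g ∈ (P'.place i).inertiaSubgroupIn ℚ := Duality.conj_mem_inertia g hσ
      let τ : K.fixingSubgroup := ⟨g⁻¹ * σ * g, hS.2 _ hiS _ (P'.liesOver i) hσ'⟩
      have hτ : b τ = d₁ := h0 i hiS _ hσ'
      let s : K.fixingSubgroup := ⟨σ, hS.2 q hq _ hA hσ⟩
      let γ : K.fixingSubgroup := ⟨g, hg⟩
      have e1 := (hNb γ τ (hN.2 _ hiS _ (P'.liesOver i) hσ')).1
      have e2 := (hNb γ s (hN.2 q hq _ hA hσ)).2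
      rw [show γ * τ = s * γ from Subtype.ext (by simp [γ, τ, s, mul_assoc])] at e1
      show b s = d₁
      linear_combination e1 - e2 + hτ
    · exact hconst _ (hFb.2 q hq' A hA hσ)
  refine (cl2_eq_zero_iff _ _ _).2 ⟨b, ⟨_, ⟨_, ⟨E, hEu, rfl⟩, rfl⟩, fun g s hs => ?_⟩, hdb⟩
  have hs' : (s : GQ) ∈ W := hE ▸ hs
  obtain ⟨_, h1, h3⟩ := hs'
  rw [(hNb g s h1).1, show b s = d₁ from h3]
  ring

/-- The locally trivial classes of degree two are finite. -/
theorem finite_sha2 (hp2 : p ≠ 2) (hK : ContainsMuP p K) (hS : K.IsUnramifiedOutside S)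
    (hpS : ExtCitation.pPrime p ∈ S) (P : PlaceSystem K S) :
    Finite (LinearMap.ker (LinearMap.pi fun i => loc2 p K S (P.place i))) := by
  classical
  obtain ⟨S', hSS', hbig⟩ := exists_classGroupGenerated_of_primes p K S
  obtain ⟨P'⟩ := Euler.nonempty_placeSystem K S'
  obtain ⟨-, -, -, hloc, -, -⟩ :=
    exists_globalDuality p K S' hp2 hK (hS.mono hSS') (hSS' hpS) hbig P'
  set sha := LinearMap.ker (LinearMap.pi fun i => loc2 p K S (P.place i))
  have hinfl : ∀ x ∈ sha, inflLarger2 hSS' x = 0 := by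
    intro x hx
    refine hloc _ fun i => ?_
    rw [loc2_inflLarger2]
    by_cases hq : P'.prime i ∈ S
    · obtain ⟨j, -, g, hg, e⟩ := P.exhausts _ hq _ (P'.liesOver i)
      rw [e, ← locF2_infl2]
      exact locF2_smul_eq_zero hg ((locF2_infl2 _ x).trans (congrFun (LinearMap.mem_ker.1 hx) j))
    · exact loc2_eq_zero_of_unramified hS hq (P'.liesOver i) x
  -- a cochain killing each class
  have hdata : ∀ x : sha, ∃ (c : Z2 (globalLevels K S) (triv (ZMod p) K.fixingSubgroup))
      (b : K.fixingSubgroup → ZMod p),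
      cl2 (globalLevels K S) (triv (ZMod p) K.fixingSubgroup) c = x.1 ∧
      IsLev₁ (globalLevels K S') b ∧ dd₁ (triv (ZMod p) K.fixingSubgroup) b = c.1 := by
    intro x
    obtain ⟨c, hc⟩ := Submodule.mkQ_surjective _ x.1
    have h := hinfl x.1 x.2
    rw [← hc] at h
    obtain ⟨b, hb, hdb⟩ := (cl2_eq_zero_iff (globalLevels K S') (triv (ZMod p) K.fixingSubgroup) _).1 h
    exact ⟨c, b, hc, hb, hdb⟩
  choose c b hc hb hdb using hdata
  let ι := {i : P'.ι // P'.prime i ∉ S}
  have hfin : ∀ i : ι, Finite {ρ : (P'.place i.1).inertiaSubgroupIn ℚ → ZMod p //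
      RamChar K (P'.place i.1) ρ} := fun i =>
    finite_ramChar hK (P'.prime i.1).2 (P'.liesOver i.1) fun e => i.2 (by
      rwa [show P'.prime i.1 = ExtCitation.pPrime p from Subtype.ext e])
  refine Finite.of_injective (fun x (i : ι) => (⟨_, ramChar_of_killing hS (c x) (b x) (hb x) (hdb x)
    i.2 (P'.liesOver i.1)⟩ : {ρ : (P'.place i.1).inertiaSubgroupIn ℚ → ZMod p //
      RamChar K (P'.place i.1) ρ})) fun x x' h => ?_
  refine Subtype.ext ?_
  rw [← hc x, ← hc x', ← sub_eq_zero, ← map_sub]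
  refine cl2_eq_zero_of_inertia hS P' (c x - c x') (b x - b x') (isLev₁_sub (hb x) (hb x'))
    ((map_sub _ _ _).trans (by rw [hdb, hdb]; rfl)) fun i hi σ hσ => ?_
  have h0 : b x _ - (c x).1 (1, 1) = b x' _ - (c x').1 (1, 1) :=
    congrFun (congrArg Subtype.val (congrFun h ⟨i, hi⟩)) ⟨σ, hσ⟩
  show b x _ - b x' _ = (c x).1 (1, 1) - (c x').1 (1, 1)
  linear_combination h0

end

end FermatAgent.Duality.Global
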