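import Fermat.Agent.Duality.Global.Capitulation
import Fermat.Agent.Duality.Global.ShaOne
import Fermat.Agent.Duality.Global.ShaTwo

/-!
# Divisor classes modulo `p` inside the locally trivial classes of degree two

The index of the `p`-th powers in the classes of divisors outside `S` is at most the number of
locally trivial classes of degree two of `G_{K,S}`.
-/

set_option autoImplicit false

namespace FermatAgent.Duality.Global

open IsDedekindDomain NumberField FermatAgent.Duality Module

noncomputable section

local notation "Qb" => AlgebraicClosure ℚ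

attribute [local instance] FermatAgent.RT.isGalois_algClosureRat numberField_of_finite

variable {p : ℕ} [Fact p.Prime] {K : IntermediateField ℚ Qb} [FiniteDimensional ℚ K]
  {S : Finset Nat.Primes}

/-- The divisor classes modulo `p` embed in the locally trivial classes of degree two. -/
theorem index_le_natCard_sha2 (hp2 : p ≠ 2) (hK : ContainsMuP p K) (hS : K.IsUnramifiedOutside S)
    (hpS : ExtCitation.pPrime p ∈ S) (P : PlaceSystem K S)
    {T : Finset (HeightOneSpectrum (𝓞 K))}
    (hT : ∀ v, v ∈ T ↔ ∃ q ∈ S, ((q : ℕ) : 𝓞 K) ∈ v.asIdeal) :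
    (nsmulAddMonoidHom (α := TClass T) p).range.index ≤
      Nat.card (LinearMap.ker (LinearMap.pi fun i => loc2 p K S (P.place i))) := by
  classical
  have := finite_tClass T
  have := finite_sha2 hp2 hK hS hpS P
  obtain ⟨k, m, hm, hkm⟩ := Nat.exists_eq_pow_mul_and_not_dvd
    (Nat.card_pos (α := TClass T)).ne' p (Fact.out : p.Prime).ne_one
  set R := (nsmulAddMonoidHom (α := TClass T) p).range
  have hrep : ∀ c : TClass T ⧸ R, ∃ e : TOut T →₀ ℤ,
      (QuotientAddGroup.mk (QuotientAddGroup.mk e : TClass T) : TClass T ⧸ R) = c := fun c => by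
    induction c using QuotientAddGroup.induction_on with
    | _ a => exact ⟨(QuotientAddGroup.mk_surjective a).choose,
        congrArg _ (QuotientAddGroup.mk_surjective a).choose_spec⟩
  choose e he using hrep
  let D := fun c => (nonempty_capData hK hS hpS hT hkm (e c)).some
  let Φ : TClass T ⧸ R → LinearMap.ker (LinearMap.pi fun i => loc2 p K S (P.place i)) := fun c =>
    ⟨cl2 (globalLevels K S) (triv (ZMod p) K.fixingSubgroup) (D c).c,
      LinearMap.mem_ker.2 (funext fun i => (D c).loc2_eq_zero (P.place i))⟩
  refine Nat.card_le_card_of_injective Φ fun c c' h => ?_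
  have h1 := (D c).sub_mem_range (D c') hS hm hT (congrArg Subtype.val h)
  rw [← he c, ← he c', QuotientAddGroup.eq_iff_sub_mem, ← QuotientAddGroup.mk_sub]
  exact h1

end

end FermatAgent.Duality.Global
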