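import Fermat.Agent.Duality.Global.Finite
import Fermat.Agent.Duality.Global.GlobalDuality
import Fermat.Agent.Duality.Global.Reciprocity
import Fermat.Agent.Duality.Global.ShaBound

/-!
# Interface of global Kummer duality (L2)

For `K ⊆ ℚ̄` a number field containing the `p`-th roots of unity, unramified outside `S ∋ p`:
finiteness of `H¹(G_{K,S}, 𝔽_p)`, self-orthogonality of its image in the local groups, the sequence
`0 → H²(G_{K,S}) → ⊕ local → 𝔽_p → 0` for big `S`, and reciprocity over `ℚ`.
-/

set_option autoImplicit false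

namespace FermatAgent.Duality

open Module

noncomputable section

local notation "Qb" => AlgebraicClosure ℚ
local notation "GQ" => AlgebraicClosure ℚ ≃ₐ[ℚ] AlgebraicClosure ℚ

variable (p : ℕ) [Fact p.Prime] (K : IntermediateField ℚ Qb) (S : Finset Nat.Primes)

/-- Finiteness of `H¹(G_{K,S}, 𝔽_p)`. -/
theorem finite_globalH1 [FiniteDimensional ℚ K] (hK : ContainsMuP p K)
    (hS : K.IsUnramifiedOutside S) (hpS : ExtCitation.pPrime p ∈ S) :
    Module.Finite (ZMod p) (globalH1 p K S) :=
  Global.finite_globalH1_of_big hK hS hpS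

/-- The global facts over `K` for a big `S`: `loc` is injective in degrees `1` and `2`, the image
in degree `2` is the kernel of the sum of suitable nonzero functionals `inv`, and the image in
degree `1` is its own annihilator for the pairing built from them. -/
theorem exists_globalDuality [FiniteDimensional ℚ K] (hp : p ≠ 2) (hK : ContainsMuP p K)
    (hS : K.IsUnramifiedOutside S) (hpS : ExtCitation.pPrime p ∈ S)
    (hbig : ClassGroupGenerated p K S) (P : PlaceSystem K S) :
    ∃ inv : LocalFunctionals (p := p) P, (∀ i, inv i ≠ 0) ∧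
      (∀ x : globalH1 p K S, (∀ i, loc1 p K S (P.place i) x = 0) → x = 0) ∧
      (∀ x : globalH2 p K S, (∀ i, loc2 p K S (P.place i) x = 0) → x = 0) ∧
      (∀ z : ∀ i, localH2 p K (P.place i),
        (∑ i, inv i (z i) = 0) ↔ ∃ x : globalH2 p K S, ∀ i, loc2 p K S (P.place i) x = z i) ∧
      (∀ t : ∀ i, localH1 p K (P.place i),
        (∀ y : globalH1 p K S, sumPairing P inv t (fun i => loc1 p K S (P.place i) y) = 0) ↔
          ∃ x : globalH1 p K S, ∀ i, loc1 p K S (P.place i) x = t i) :=
  Global.exists_globalDuality p K S hp hK hS hpS hbig P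

omit [Fact (Nat.Prime p)] in
/-- Enough primes make the class group generated. -/
theorem exists_classGroupGenerated [FiniteDimensional ℚ K] :
    ∃ S' : Finset Nat.Primes, S ⊆ S' ∧ ClassGroupGenerated p K S' :=
  Global.exists_classGroupGenerated_of_primes p K S

/-- Reciprocity over `ℚ`: there are nonzero functionals on the local `H²(·, μ_p)` at all primes
whose sum kills every class unramified outside a finite set of primes. -/
theorem exists_reciprocity (hp : p ≠ 2) (A : Nat.Primes → ValuationSubring Qb)
    (hA : ∀ q, (A q).LiesOverPrime (q : ℕ)) :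
    ∃ inv : ∀ q : Nat.Primes,
        H2c (subLevels ((A q).decompositionSubgroup ℚ))
          ((cycloRep p).comp ((A q).decompositionSubgroup ℚ).subtype) →ₗ[ZMod p] ZMod p,
      (∀ q, inv q ≠ 0) ∧
      ∀ S : Finset Nat.Primes, ExtCitation.pPrime p ∈ S →
        ∀ x : H2c (sLevels S) (cycloRep p), ∀ hl : ∀ q, IsLevHom
          (subLevels ((A q).decompositionSubgroup ℚ)) (sLevels S)
          ((A q).decompositionSubgroup ℚ).subtype,
        ∑ q ∈ S, inv q (map2 (φ := LinearMap.id) (cycloRep p) _ (hl q) (fun _ _ => rfl) x) = 0 :=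
  Global.exists_reciprocity hp A hA

end

end FermatAgent.Duality
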