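import Fermat.Agent.Duality.Global.Val
import Fermat.Agent.TW.Places

/-!
# The local degrees at the primes over a prime number add up to the degree
-/

set_option autoImplicit false

open scoped Pointwise

namespace FermatAgent.Duality.Global

open IsDedekindDomain NumberField Module

noncomputable section

local notation "Qb" => AlgebraicClosure ℚ
local notation "GQ" => AlgebraicClosure ℚ ≃ₐ[ℚ] AlgebraicClosure ℚ

attribute [local instance] FermatAgent.RT.isGalois_algClosureRat numberField_of_finite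

variable {K : IntermediateField ℚ Qb} [FiniteDimensional ℚ K]

omit [FiniteDimensional ℚ K] in
/-- The residue characteristic of the place of a prime containing `q`. -/
theorem liesOverPrime_of_natCast_mem {A : ValuationSubring Qb} {P : HeightOneSpectrum (𝓞 K)}
    (h : Over K A P) {q : ℕ} (hq : q.Prime) (hqP : (q : 𝓞 K) ∈ P.asIdeal) :
    A.LiesOverPrime q := by
  obtain ⟨l, hl, hA⟩ := h.1
  rw [← h.2, Ideal.mem_comap, map_natCast, ← Int.cast_natCast,
    FermatAgent.RT.intCast_mem_centre_iff hl hA, Int.natCast_dvd_natCast] at hqP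
  rwa [← (Nat.prime_dvd_prime_iff_eq hl hq).mp hqP]

theorem sum_relIndex_eq_finrank {q : ℕ} (hq : q.Prime)
    (pl : HeightOneSpectrum (𝓞 K) → ValuationSubring Qb) (hpl : ∀ P, Over K (pl P) P)
    (T : Finset (HeightOneSpectrum (𝓞 K))) (hT : ∀ P, P ∈ T ↔ (q : 𝓞 K) ∈ P.asIdeal) :
    ∑ P ∈ T, (localGroup K (pl P)).relIndex ((pl P).decompositionSubgroup ℚ) = finrank ℚ K := by
  classical
  obtain ⟨A₀, hA₀⟩ := FermatAgent.RT.exists_liesOverPrime hq
  have hlie : ∀ P : T, (pl P.1).LiesOverPrime q := fun P =>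
    liesOverPrime_of_natCast_mem (hpl P.1) hq ((hT P.1).mp P.2)
  choose h hh using fun P : T => FermatAgent.TW.exists_smul_eq hq hA₀ (hlie P)
  let D : T → Subgroup GQ := fun P => (pl P.1).decompositionSubgroup ℚ
  let H : ∀ P : T, Subgroup (D P) := fun P => (localGroup K (pl P.1)).subgroupOf (D P)
  let f : (Σ P : T, D P ⧸ H P) → GQ ⧸ K.fixingSubgroup := fun x =>
    Quotient.liftOn' x.2 (fun d => QuotientGroup.mk ((h x.1)⁻¹ * (d : GQ))) fun d d' hdd => by
      rw [QuotientGroup.leftRel_apply] at hdd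
      refine QuotientGroup.eq.mpr ?_
      have e : ((h x.1)⁻¹ * (d : GQ))⁻¹ * ((h x.1)⁻¹ * (d' : GQ)) = ((d⁻¹ * d' : D x.1) : GQ) := by
        rw [Subgroup.coe_mul, Subgroup.coe_inv]; group
      rw [e]
      exact (Subgroup.mem_subgroupOf.mp hdd).1
  have hf : Function.Bijective f := by
    constructor
    · rintro ⟨P, x⟩ ⟨P', x'⟩ hxx
      induction x using QuotientGroup.induction_on with | H d => ?_
      induction x' using QuotientGroup.induction_on with | H d' => ?_
      set g := ((h P)⁻¹ * (d : GQ))⁻¹ * ((h P')⁻¹ * (d' : GQ)) with hgdef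
      have hg : g ∈ K.fixingSubgroup := QuotientGroup.eq.mp hxx
      have hA : g • pl P'.1 = pl P.1 := by
        rw [hgdef, mul_inv_rev, inv_inv, mul_smul, mul_smul, mul_smul,
          show (d' : GQ) • pl P'.1 = pl P'.1 from d'.2, inv_smul_eq_iff.mpr (hh P').symm, hh P]
        exact inv_smul_eq_iff.mpr (show (d : GQ) • pl P.1 = pl P.1 from d.2).symm
      obtain rfl : P = P' :=
        Subtype.ext ((hpl P.1).eq (hA ▸ (hpl P'.1).smul hg))
      rw [Sigma.mk.injEq]
      refine ⟨rfl, heq_of_eq (QuotientGroup.eq.mpr (Subgroup.mem_subgroupOf.mpr ⟨?_, ?_⟩))⟩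
      · rwa [hgdef, mul_inv_rev, inv_inv, mul_assoc, mul_inv_cancel_left,
          ← Subgroup.coe_inv, ← Subgroup.coe_mul] at hg
      · exact (d⁻¹ * d').2
    · intro x
      induction x using QuotientGroup.induction_on with | H x => ?_
      obtain ⟨P₀, hP₀⟩ := exists_over (K := K)
        (A := x⁻¹ • A₀) (IsPlace.smul ⟨q, hq, hA₀⟩ _)
      have hP₀T : P₀ ∈ T := (hT P₀).mpr
        (hP₀.natCast_mem (FermatAgent.GalRep.liesOverPrime_smul _ hA₀))
      obtain ⟨g, hg, hgA⟩ := exists_smul_eq_of_over (hpl P₀) hP₀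
      have hd : h ⟨P₀, hP₀T⟩ * x * g ∈ D ⟨P₀, hP₀T⟩ := by
        show _ • pl P₀ = pl P₀
        rw [mul_smul, ← hgA, mul_smul, smul_inv_smul, hh ⟨P₀, hP₀T⟩]
      refine ⟨⟨⟨P₀, hP₀T⟩, QuotientGroup.mk ⟨_, hd⟩⟩, QuotientGroup.eq.mpr ?_⟩
      show ((h ⟨P₀, hP₀T⟩)⁻¹ * (h ⟨P₀, hP₀T⟩ * x * g))⁻¹ * x ∈ K.fixingSubgroup
      rw [mul_assoc (h _), inv_mul_cancel_left, mul_inv_rev, inv_mul_cancel_right]
      exact inv_mem hg
  have hind : K.fixingSubgroup.index = finrank ℚ K :=
    (IntermediateField.finrank_eq_fixingSubgroup_index (L := K)).symm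
  have : Finite (GQ ⧸ K.fixingSubgroup) := by
    refine (Nat.card_ne_zero.mp ?_).2
    rw [← Subgroup.index, hind]
    exact finrank_pos.ne'
  have : Finite (Σ P : T, D P ⧸ H P) := Finite.of_injective f hf.1
  have : ∀ P : T, Finite (D P ⧸ H P) := fun P =>
    Finite.of_injective (fun x => (⟨P, x⟩ : Σ P : T, D P ⧸ H P)) fun a b hab =>
      eq_of_heq (Sigma.mk.inj_iff.mp hab).2
  have e := Nat.card_eq_of_bijective f hf
  rw [Nat.card_sigma, ← Subgroup.index, hind] at e
  rw [← e, ← Finset.sum_coe_sort T]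
  exact Finset.sum_congr rfl fun P _ => rfl

theorem finite_setOf_natCast_mem {q : ℕ} (hq : q ≠ 0) :
    {P : HeightOneSpectrum (𝓞 K) | (q : 𝓞 K) ∈ P.asIdeal}.Finite :=
  (Ideal.finite_factors (I := Ideal.span {(q : 𝓞 K)}) (by simpa using hq)).subset fun P hP => by
    simpa [Ideal.dvd_span_singleton] using hP

end

end FermatAgent.Duality.Global
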