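import Fermat.Agent.Duality.Core.Basic
import Fermat.Agent.Duality.Core.GaloisS

/-!
# Places of a number field inside `ℚ̄`, as orbits of places of `ℚ̄`
-/

set_option autoImplicit false

open scoped Pointwise

namespace FermatAgent.Duality

noncomputable section

local notation "Qb" => AlgebraicClosure ℚ
local notation "GQ" => AlgebraicClosure ℚ ≃ₐ[ℚ] AlgebraicClosure ℚ

/-- A complete system of representatives of the places of `K` over the primes in `S`. -/
structure PlaceSystem (K : IntermediateField ℚ Qb) (S : Finset Nat.Primes) where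
  ι : Type
  [fintype : Fintype ι]
  prime : ι → Nat.Primes
  place : ι → ValuationSubring Qb
  prime_mem : ∀ i, prime i ∈ S
  liesOver : ∀ i, (place i).LiesOverPrime (prime i : ℕ)
  exhausts : ∀ q ∈ S, ∀ A : ValuationSubring Qb, A.LiesOverPrime (q : ℕ) →
    ∃ i, prime i = q ∧ ∃ g ∈ K.fixingSubgroup, A = g • place i
  inj : ∀ i j, ∀ g ∈ K.fixingSubgroup, place j = g • place i → i = j

attribute [instance] PlaceSystem.fintype

/-- The level system of `G_{K,S}` on `G_K`. -/
abbrev globalLevels (K : IntermediateField ℚ Qb) (S : Finset Nat.Primes) :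
    LevelSystem K.fixingSubgroup := (sLevels S).comap K.fixingSubgroup.subtype

variable (p : ℕ) [Fact p.Prime] (K : IntermediateField ℚ Qb) (S : Finset Nat.Primes)

/-- `H¹(G_{K,S}, 𝔽_p)`. -/
abbrev globalH1 : Type := H1c (globalLevels K S) (triv (ZMod p) K.fixingSubgroup)

/-- `H²(G_{K,S}, 𝔽_p)`. -/
abbrev globalH2 : Type := H2c (globalLevels K S) (triv (ZMod p) K.fixingSubgroup)

/-- The inclusion of a local group into `G_K`. -/
def localIncl (A : ValuationSubring Qb) : localGroup K A →* K.fixingSubgroup :=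
  Subgroup.inclusion inf_le_left

lemma isLevHom_localIncl (A : ValuationSubring Qb) :
    IsLevHom (subLevels (localGroup K A)) (globalLevels K S) (localIncl K A) := by
  rintro _ ⟨U, ⟨F, hF, rfl⟩, rfl⟩
  exact ⟨_, ⟨F.fixingSubgroup, ⟨F, hF.1, rfl⟩, rfl⟩, fun _ h => h⟩

/-- Localisation in degree `1`. -/
def loc1 (A : ValuationSubring Qb) :
    globalH1 p K S →ₗ[ZMod p] H1c (subLevels (localGroup K A)) (triv (ZMod p) (localGroup K A)) :=
  map1 (φ := LinearMap.id) _ _ (isLevHom_localIncl K S A) (fun _ _ => rfl)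

/-- Localisation in degree `2`. -/
def loc2 (A : ValuationSubring Qb) :
    globalH2 p K S →ₗ[ZMod p] H2c (subLevels (localGroup K A)) (triv (ZMod p) (localGroup K A)) :=
  map2 (φ := LinearMap.id) _ _ (isLevHom_localIncl K S A) (fun _ _ => rfl)

end

end FermatAgent.Duality
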