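import Fermat.Agent.Duality.Core.Basic
import Fermat.Agent.GalRep.Density.Split
import Fermat.Agent.GalRep.Density.Conj
import Fermat.Agent.LocalP.Places
import Fermat.Agent.CFT.GaloisPrimes
import Mathlib.RingTheory.DedekindDomain.SelmerGroup

/-!
# Places of `ℚ̄` and primes of a number field inside `ℚ̄`

`Over K A P`: the place `A` of `ℚ̄` induces the prime `P` of `K`. Every place over a prime number
induces a prime, every prime is induced, and two places inducing the same prime are conjugate
under `G_K`. On `K` the valuation of `A` is equivalent to that of `P`.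
-/

set_option autoImplicit false

open scoped Pointwise nonZeroDivisors

namespace FermatAgent.Duality.Global

open IsDedekindDomain NumberField
open FermatAgent.RT (centre mem_centre_iff natCast_mem_centre intCast_mem_centre_iff mem_of_isIntegral_int)

noncomputable section

local notation "Qb" => AlgebraicClosure ℚ
local notation "GQ" => AlgebraicClosure ℚ ≃ₐ[ℚ] AlgebraicClosure ℚ
local notation "ZB" => integralClosure ℤ (AlgebraicClosure ℚ)

attribute [local instance] FermatAgent.RT.isGalois_algClosureRat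

/-- The number field structure of a finite extension of `ℚ` inside `ℚ̄`. -/
theorem numberField_of_finite (K : IntermediateField ℚ Qb) [FiniteDimensional ℚ K] :
    NumberField K := ⟨⟩

attribute [local instance] numberField_of_finite

/-- A place of `ℚ̄` over some prime number. -/
def IsPlace (A : ValuationSubring Qb) : Prop := ∃ l : ℕ, l.Prime ∧ A.LiesOverPrime l

theorem IsPlace.smul {A : ValuationSubring Qb} (h : IsPlace A) (g : GQ) : IsPlace (g • A) := by
  obtain ⟨l, hl, hA⟩ := h
  exact ⟨l, hl, FermatAgent.GalRep.liesOverPrime_smul g hA⟩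

theorem centre_smul (g : GQ) (A : ValuationSubring Qb) : centre (g • A) = g • centre A := by
  ext x
  rw [Ideal.mem_pointwise_smul_iff_inv_smul_mem, mem_centre_iff, mem_centre_iff,
    FermatAgent.GalRep.mem_nonunits_smul_iff]
  rfl

variable (K : IntermediateField ℚ Qb) [FiniteDimensional ℚ K]

/-- The inclusion of the integers of `K` in the algebraic integers. -/
def toZB : 𝓞 K →+* ZB :=
  (K.val.toRingHom.comp (algebraMap (𝓞 K) K)).codRestrict (Subalgebra.toSubring ZB) fun x =>
    x.isIntegral_coe.map (K.val.restrictScalars ℤ)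

omit [FiniteDimensional ℚ K] in
theorem coe_toZB (x : 𝓞 K) : (toZB K x : Qb) = ((x : K) : Qb) := rfl

omit [FiniteDimensional ℚ K] in
theorem toZB_injective : Function.Injective (toZB K) := fun x y h =>
  RingOfIntegers.coe_injective (Subtype.ext
    ((coe_toZB K x).symm.trans ((congrArg Subtype.val h).trans (coe_toZB K y))))

/-- `A` induces the prime `P` of `K`. -/
def Over (A : ValuationSubring Qb) (P : HeightOneSpectrum (𝓞 K)) : Prop :=
  IsPlace A ∧ (centre A).comap (toZB K) = P.asIdeal

variable {K}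

omit [FiniteDimensional ℚ K] in
theorem Over.mem_iff {A : ValuationSubring Qb} {P : HeightOneSpectrum (𝓞 K)} (h : Over K A P)
    (x : 𝓞 K) : x ∈ P.asIdeal ↔ A.valuation ((x : K) : Qb) < 1 := by
  rw [← h.2, Ideal.mem_comap, mem_centre_iff, coe_toZB]
  rfl

omit [FiniteDimensional ℚ K] in
theorem Over.eq {A : ValuationSubring Qb} {P P' : HeightOneSpectrum (𝓞 K)} (h : Over K A P)
    (h' : Over K A P') : P = P' :=
  HeightOneSpectrum.ext (h.2.symm.trans h'.2)

omit [FiniteDimensional ℚ K] in
theorem Over.natCast_mem {A : ValuationSubring Qb} {P : HeightOneSpectrum (𝓞 K)} (h : Over K A P)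
    {l : ℕ} (hA : A.LiesOverPrime l) : (l : 𝓞 K) ∈ P.asIdeal := by
  rw [← h.2, Ideal.mem_comap, map_natCast]
  exact natCast_mem_centre hA

omit [FiniteDimensional ℚ K] in
theorem exists_over {A : ValuationSubring Qb} (hA : IsPlace A) :
    ∃ P : HeightOneSpectrum (𝓞 K), Over K A P := by
  obtain ⟨l, hl, hlA⟩ := hA
  refine ⟨⟨(centre A).comap (toZB K), Ideal.IsPrime.comap _, fun h => ?_⟩, ⟨l, hl, hlA⟩, rfl⟩
  have : (l : 𝓞 K) ∈ (centre A).comap (toZB K) := by
    rw [Ideal.mem_comap, map_natCast]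
    exact natCast_mem_centre hlA
  rw [h, Ideal.mem_bot] at this
  exact hl.ne_zero (Nat.cast_eq_zero.mp this)

omit [FiniteDimensional ℚ K] in
theorem exists_place (P : HeightOneSpectrum (𝓞 K)) :
    ∃ A : ValuationSubring Qb, Over K A P := by
  obtain ⟨l, hl, hlP⟩ := FermatAgent.CFT.exists_prime_mem P
  let _ : Algebra (𝓞 K) ZB := (toZB K).toAlgebra
  have : IsScalarTower ℤ (𝓞 K) ZB := IsScalarTower.of_algebraMap_eq fun n => by simp
  have : Algebra.IsIntegral ℤ ZB := integralClosure.AlgebraIsIntegral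
  have : Algebra.IsIntegral (𝓞 K) ZB := Algebra.IsIntegral.tower_top ℤ
  have : FaithfulSMul (𝓞 K) ZB := (faithfulSMul_iff_algebraMap_injective _ _).mpr (toZB_injective K)
  obtain ⟨Q, hQ, hQP⟩ := Ideal.exists_ideal_over_prime_of_isIntegral_of_isDomain
    (S := ZB) P.asIdeal (by simp)
  obtain ⟨A₀, hA₀⟩ := FermatAgent.RT.exists_liesOverPrime hl
  have hlQ : (l : ZB) ∈ Q := by
    have h : (l : 𝓞 K) ∈ P.asIdeal := by
      have := Ideal.mem_span_singleton_self (l : ℤ)
      rw [hlP.over, Ideal.under, Ideal.mem_comap, map_natCast] at this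
      exact this
    rw [← hQP, Ideal.mem_comap, map_natCast] at h
    exact h
  obtain ⟨g, hg⟩ := FermatAgent.GalRep.exists_smul_centre_eq (A := A₀) Q (by
    rw [FermatAgent.GalRep.under_int_eq_span Q hl hlQ,
      FermatAgent.GalRep.under_int_eq_span (centre A₀) hl (natCast_mem_centre hA₀)])
  refine ⟨g • A₀, IsPlace.smul ⟨l, hl, hA₀⟩ g, ?_⟩
  rw [centre_smul, ← hg, ← hQP]
  rfl

omit [FiniteDimensional ℚ K] in
theorem toZB_smul_of_mem {g : GQ} (hg : g ∈ K.fixingSubgroup) (x : 𝓞 K) :
    g • toZB K x = toZB K x :=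
  Subtype.ext (hg ⟨_, (x : K).2⟩)

omit [FiniteDimensional ℚ K] in
theorem Over.smul {A : ValuationSubring Qb} {P : HeightOneSpectrum (𝓞 K)} (h : Over K A P) {g : GQ}
    (hg : g ∈ K.fixingSubgroup) : Over K (g • A) P := by
  refine ⟨h.1.smul g, ?_⟩
  rw [← h.2]
  ext x
  rw [Ideal.mem_comap, Ideal.mem_comap, centre_smul, Ideal.mem_pointwise_smul_iff_inv_smul_mem,
    toZB_smul_of_mem (inv_mem hg)]

theorem exists_smul_eq_of_over {A B : ValuationSubring Qb} {P : HeightOneSpectrum (𝓞 K)}
    (hA : Over K A P) (hB : Over K B P) : ∃ g ∈ K.fixingSubgroup, B = g • A := by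
  obtain ⟨l, hl, hlA⟩ := hA.1
  obtain ⟨l', hl', hlB⟩ := hB.1
  obtain rfl : l = l' := by
    have h1 := hA.natCast_mem hlA
    rw [← hB.2, Ideal.mem_comap, map_natCast, ← Int.cast_natCast,
      intCast_mem_centre_iff hl' hlB, Int.natCast_dvd_natCast] at h1
    exact ((Nat.prime_dvd_prime_iff_eq hl' hl).mp h1).symm
  let H : Subgroup GQ := K.fixingSubgroup
  have : CompactSpace H :=
    isCompact_iff_compactSpace.mp (IntermediateField.fixingSubgroup_isClosed _).isCompact
  let _ : TopologicalSpace ZB := ⊥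
  have : DiscreteTopology ZB := ⟨rfl⟩
  have : ContinuousSMul GQ ZB := by
    rw [continuousSMul_iff_stabilizer_isOpen]
    intro b
    have : FiniteDimensional ℚ (IntermediateField.adjoin ℚ {(b : Qb)}) :=
      IntermediateField.adjoin.finiteDimensional
        (FermatAgent.RT.isGalois_algClosureRat.to_normal.isIntegral _)
    refine Subgroup.isOpen_mono ?_
      (IntermediateField.fixingSubgroup_isOpen (IntermediateField.adjoin ℚ {(b : Qb)}))
    intro σ hσ
    exact Subtype.ext (hσ ⟨b, IntermediateField.mem_adjoin_simple_self ℚ (b : Qb)⟩)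
  have : ContinuousSMul H ZB := by
    rw [continuousSMul_iff_stabilizer_isOpen]
    intro b
    exact (stabilizer_isOpen GQ b).preimage continuous_subtype_val
  let _ : Algebra (𝓞 K) ZB := (toZB K).toAlgebra
  have : SMulCommClass H (𝓞 K) ZB := ⟨fun g a b => by
    show g • (toZB K a * b) = toZB K a * g • b
    rw [smul_mul', show g • toZB K a = toZB K a from toZB_smul_of_mem g.2 a]⟩
  have : Algebra.IsInvariant (𝓞 K) ZB H := ⟨fun b hb => by
    have hbK : (b : Qb) ∈ K := by
      rw [← InfiniteGalois.fixedField_fixingSubgroup K]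
      exact fun g => congrArg Subtype.val (hb g)
    have hint : IsIntegral ℤ (⟨b, hbK⟩ : K) :=
      (isIntegral_algHom_iff (K.val.restrictScalars ℤ) Subtype.val_injective).mp b.2
    exact ⟨⟨⟨b, hbK⟩, hint⟩, Subtype.ext rfl⟩⟩
  have hpA := FermatAgent.RT.centre_isPrime A
  have hpB := FermatAgent.RT.centre_isPrime B
  obtain ⟨g, hg⟩ := Algebra.IsInvariant.exists_smul_of_under_eq_of_profinite (A := 𝓞 K) (G := H)
    (centre A) (centre B) (hA.2.trans hB.2.symm)
  refine ⟨g, g.2, ?_⟩
  have hg' : (g : GQ) • centre A = centre B := hg.symm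
  ext x
  rw [ValuationSubring.mem_pointwise_smul_iff_inv_smul_mem, AlgEquiv.smul_def]
  constructor
  · intro hx
    exact FermatAgent.LocalP.apply_mem_of_smul_centre hl hlB
      (inv_smul_eq_iff.mpr hg'.symm) hx
  · intro hx
    have h := FermatAgent.LocalP.apply_mem_of_smul_centre hl hlA hg' hx
    rwa [← AlgEquiv.smul_def, ← AlgEquiv.smul_def, smul_inv_smul] at h

/-! ### Valuations and orders -/

/-- The order of a non-zero element at a prime. -/
def ord (P : HeightOneSpectrum (𝓞 K)) (x : Kˣ) : ℤ :=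
  -Multiplicative.toAdd (P.valuationOfNeZero x)

theorem valuation_eq_exp (P : HeightOneSpectrum (𝓞 K)) (x : Kˣ) :
    P.valuation K (x : K) = WithZero.exp (-ord P x) := by
  rw [ord, neg_neg, ← P.valuationOfNeZero_eq]
  rfl

@[simp] theorem ord_one (P : HeightOneSpectrum (𝓞 K)) : ord P (1 : Kˣ) = 0 := by
  rw [ord, map_one, toAdd_one, neg_zero]

@[simp] theorem ord_mul (P : HeightOneSpectrum (𝓞 K)) (x y : Kˣ) :
    ord P (x * y) = ord P x + ord P y := by
  rw [ord, ord, ord, map_mul, toAdd_mul, neg_add]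

@[simp] theorem ord_inv (P : HeightOneSpectrum (𝓞 K)) (x : Kˣ) : ord P x⁻¹ = -ord P x := by
  rw [ord, ord, map_inv, toAdd_inv]

@[simp] theorem ord_pow (P : HeightOneSpectrum (𝓞 K)) (x : Kˣ) (n : ℕ) :
    ord P (x ^ n) = n * ord P x := by
  rw [ord, ord, map_pow, toAdd_pow, nsmul_eq_mul, mul_neg]

@[simp] theorem ord_div (P : HeightOneSpectrum (𝓞 K)) (x y : Kˣ) :
    ord P (x / y) = ord P x - ord P y := by
  rw [div_eq_mul_inv, ord_mul, ord_inv, sub_eq_add_neg]

@[simp] theorem ord_zpow (P : HeightOneSpectrum (𝓞 K)) (x : Kˣ) (n : ℤ) :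
    ord P (x ^ n) = n * ord P x := by
  rw [ord, ord, map_zpow, toAdd_zpow, zsmul_eq_mul, mul_neg, Int.cast_id]

theorem exists_ord_eq_one (P : HeightOneSpectrum (𝓞 K)) : ∃ x : Kˣ, ord P x = 1 := by
  obtain ⟨π, hπ⟩ := P.valuation_exists_uniformizer K
  have h0 : π ≠ 0 := fun h => WithZero.exp_ne_zero (by rw [← hπ, h, map_zero])
  refine ⟨Units.mk0 π h0, ?_⟩
  have := (valuation_eq_exp P (Units.mk0 π h0)).symm.trans hπ
  rw [WithZero.exp_inj] at this
  omega

variable {A : ValuationSubring Qb} {P : HeightOneSpectrum (𝓞 K)}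

omit [FiniteDimensional ℚ K] in
theorem Over.val_eq_one_of_not_mem (h : Over K A P) {x : 𝓞 K} (hx : x ∉ P.asIdeal) :
    A.valuation ((x : K) : Qb) = 1 := by
  refine le_antisymm ((A.valuation_le_one_iff _).mpr ?_) (not_lt.mp fun hlt => hx ((h.mem_iff x).mpr hlt))
  exact mem_of_isIntegral_int A (toZB K x).2

theorem Over.val_le_one_iff (h : Over K A P) (x : K) :
    A.valuation (x : Qb) ≤ 1 ↔ P.valuation K x ≤ 1 := by
  constructor
  · intro hx
    by_contra hP
    rw [not_le] at hP
    have hx0 : x ≠ 0 := by rintro rfl; simp at hP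
    obtain ⟨n, d, hnd⟩ := P.exists_primeCompl_mul_eq_of_integer x⁻¹
      (by rw [map_inv₀]; exact inv_le_one_of_one_le₀ hP.le)
    have hn : n ∈ P.asIdeal := by
      by_contra hn
      have h1 := congrArg (P.valuation K) hnd
      rw [map_mul, map_inv₀, (P.valuation_eq_one_iff_notMem (K := K)).mpr hn,
        (P.valuation_eq_one_iff_notMem (K := K)).mpr d.2, mul_one, inv_eq_one] at h1
      exact hP.ne' h1
    have h2 := congrArg (fun y : K => A.valuation (y : Qb)) hnd
    simp only [MulMemClass.coe_mul, map_mul, IntermediateField.coe_inv, map_inv₀] at h2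
    rw [show A.valuation ((algebraMap (𝓞 K) K d : K) : Qb) = 1 from h.val_eq_one_of_not_mem d.2,
      mul_one] at h2
    have h3 : (A.valuation (x : Qb))⁻¹ < 1 := by rw [h2]; exact (h.mem_iff n).mp hn
    have hpos : 0 < A.valuation (x : Qb) :=
      zero_lt_iff.mpr ((_root_.map_ne_zero _).mpr (by simpa using hx0))
    exact absurd hx (not_le.mpr ((inv_lt_one₀ hpos).mp h3))
  · intro hx
    obtain ⟨n, d, hnd⟩ := P.exists_primeCompl_mul_eq_of_integer x hx
    have h2 := congrArg (fun y : K => A.valuation (y : Qb)) hnd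
    simp only [MulMemClass.coe_mul, map_mul] at h2
    rw [show A.valuation ((algebraMap (𝓞 K) K d : K) : Qb) = 1 from h.val_eq_one_of_not_mem d.2,
      mul_one] at h2
    rw [h2]
    exact (A.valuation_le_one_iff _).mpr (mem_of_isIntegral_int A (toZB K n).2)

theorem Over.val_le_iff (h : Over K A P) (x y : Kˣ) :
    A.valuation ((x : K) : Qb) ≤ A.valuation ((y : K) : Qb) ↔ ord P y ≤ ord P x := by
  have hy : 0 < A.valuation ((y : K) : Qb) :=
    zero_lt_iff.mpr ((_root_.map_ne_zero _).mpr (by simp))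
  have h1 := h.val_le_one_iff ((x / y : Kˣ) : K)
  rw [valuation_eq_exp, ord_div, Units.val_div_eq_div_val, IntermediateField.coe_div, map_div₀,
    div_le_one₀ hy, ← WithZero.exp_zero, WithZero.exp_le_exp] at h1
  rw [h1]
  omega

theorem Over.val_eq_iff (h : Over K A P) (x y : Kˣ) :
    A.valuation ((x : K) : Qb) = A.valuation ((y : K) : Qb) ↔ ord P x = ord P y := by
  rw [le_antisymm_iff, h.val_le_iff, h.val_le_iff]
  omega

theorem Over.val_eq_one_iff (h : Over K A P) (x : Kˣ) :
    A.valuation ((x : K) : Qb) = 1 ↔ ord P x = 0 := by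
  have := h.val_eq_iff x 1
  simpa using this

theorem finite_setOf_ord_ne_zero (x : Kˣ) :
    {P : HeightOneSpectrum (𝓞 K) | ord P x ≠ 0}.Finite := by
  obtain ⟨a, b, hb, hab⟩ := IsFractionRing.div_surjective (A := 𝓞 K) (x : K)
  have hb0 : (b : 𝓞 K) ≠ 0 := nonZeroDivisors.ne_zero hb
  have ha0 : a ≠ 0 := by rintro rfl; exact x.ne_zero (by rw [← hab, map_zero, zero_div])
  refine ((Ideal.finite_factors (I := Ideal.span {a * b}) (by simp [ha0, hb0]))).subset fun P hP => ?_
  by_contra hdvd
  simp only [Set.mem_ofPred_eq, Ideal.dvd_span_singleton] at hdvd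
  refine hP ?_
  have h1 : P.valuation K (x : K) = 1 := by
    rw [← hab, map_div₀, (P.valuation_eq_one_iff_notMem (K := K)).mpr fun h => hdvd (P.asIdeal.mul_mem_right _ h),
      (P.valuation_eq_one_iff_notMem (K := K)).mpr fun h => hdvd (P.asIdeal.mul_mem_left _ h), div_one]
  rw [valuation_eq_exp, ← WithZero.exp_zero, WithZero.exp_inj] at h1
  omega

end

end FermatAgent.Duality.Global
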