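import Fermat.Agent.Duality.Local.Units
import Fermat.Agent.Duality.Local.KillCyclic
import Fermat.Agent.Duality.Local.Interface
import Fermat.Agent.Duality.Global.Val

/-!
# Global Kummer classes and their local components

Classes of `G_K` (all open subgroups as levels) in degrees one and two, their restrictions to the
local groups, and the dictionary between local Kummer classes and orders at the primes of `K`.
-/

set_option autoImplicit false

open scoped Pointwise

namespace FermatAgent.Duality.Global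

open IsDedekindDomain NumberField Module
open FermatAgent.Duality.Local (MuData fixedUnits kap kapHom kapFun kapFun_spec zpw rootP rootP_pow
  muDataLocal)

noncomputable section

local notation "Qb" => AlgebraicClosure ℚ
local notation "GQ" => AlgebraicClosure ℚ ≃ₐ[ℚ] AlgebraicClosure ℚ

attribute [local instance] FermatAgent.RT.isGalois_algClosureRat numberField_of_finite

variable (p : ℕ) [Fact p.Prime]

section Restriction

variable {D D' D'' : Subgroup GQ}

theorem isLevHom_inclusion (h : D' ≤ D) :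
    IsLevHom (subLevels D') (subLevels D) (Subgroup.inclusion h) := by
  rintro _ ⟨U, hU, rfl⟩
  exact ⟨_, ⟨U, hU, rfl⟩, fun _ hx => hx⟩

/-- Classes of degree one with trivial coefficients. -/
abbrev triH1 (D : Subgroup GQ) : Type := H1c (subLevels D) (triv (ZMod p) D)

/-- Classes of degree two with trivial coefficients. -/
abbrev triH2 (D : Subgroup GQ) : Type := H2c (subLevels D) (triv (ZMod p) D)

/-- Restriction in degree one. -/
def resSub1 (h : D' ≤ D) : triH1 p D →ₗ[ZMod p] triH1 p D' :=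
  map1 (φ := LinearMap.id) _ _ (isLevHom_inclusion h) (fun _ _ => rfl)

/-- Restriction in degree two. -/
def resSub2 (h : D' ≤ D) : triH2 p D →ₗ[ZMod p] triH2 p D' :=
  map2 (φ := LinearMap.id) _ _ (isLevHom_inclusion h) (fun _ _ => rfl)

theorem resSub2_resSub2 (h : D' ≤ D) (h' : D'' ≤ D') (x : triH2 p D) :
    resSub2 p h' (resSub2 p h x) = resSub2 p (h'.trans h) x := by
  obtain ⟨f, rfl⟩ := Submodule.mkQ_surjective _ x
  rfl

theorem resSub2_cup (h : D' ≤ D) (x y : triH1 p D) :
    resSub2 p h (cupTriv (ZMod p) (subLevels D) x y) =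
      cupTriv (ZMod p) (subLevels D') (resSub1 p h x) (resSub1 p h y) := by
  obtain ⟨f, rfl⟩ := Submodule.mkQ_surjective _ x
  obtain ⟨f', rfl⟩ := Submodule.mkQ_surjective _ y
  rfl

theorem cl1_triv_eq_iff {f f' : Z1 (subLevels D) (triv (ZMod p) D)} :
    cl1 (subLevels D) (triv (ZMod p) D) f = cl1 (subLevels D) (triv (ZMod p) D) f' ↔ f = f' := by
  rw [← sub_eq_zero, ← map_sub, Local.cl1_triv_eq_zero_iff, sub_eq_zero]

theorem res2_kerChi_eq_zero (χ : Z1 (subLevels D) (triv (ZMod p) D)) (x : triH2 p D)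
    (h : resSub2 p (Subgroup.map_subtype_le (Local.kerChi χ)) x = 0) :
    res2 (subLevels D) (triv (ZMod p) D) (Local.kerChi χ) x = 0 := by
  let e : Local.kerChi χ →* (Local.kerChi χ).map D.subtype :=
    (Subgroup.equivMapOfInjective _ D.subtype Subtype.val_injective).toMonoidHom
  have he : IsLevHom ((subLevels D).comap (Local.kerChi χ).subtype)
      (subLevels ((Local.kerChi χ).map D.subtype)) e := by
    rintro _ ⟨U, hU, rfl⟩
    exact ⟨_, ⟨_, ⟨U, hU, rfl⟩, rfl⟩, fun _ hx => hx⟩
  have h2 := congrArg (map2 (φ := LinearMap.id) (triv (ZMod p) ((Local.kerChi χ).map D.subtype))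
    ((triv (ZMod p) D).comp (Local.kerChi χ).subtype) he fun _ _ => rfl) h
  rw [map_zero] at h2
  rw [← h2]
  obtain ⟨f, rfl⟩ := Submodule.mkQ_surjective _ x
  rfl

theorem resSub2_cup_self_eq_zero (χ : Z1 (subLevels D) (triv (ZMod p) D)) (x : triH1 p D)
    (h : D' ≤ D) (hD' : ∀ g : D', χ.1 ⟨g, h g.2⟩ = 0) :
    resSub2 p h (cupTriv (ZMod p) (subLevels D) x (cl1 (subLevels D) (triv (ZMod p) D) χ)) = 0 := by
  rw [resSub2_cup]
  have : resSub1 p h (cl1 (subLevels D) (triv (ZMod p) D) χ) = 0 := by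
    refine Local.cl1_triv_eq_zero_iff.mpr (Subtype.ext (funext fun g => ?_))
    exact hD' g
  rw [this, map_zero]

end Restriction

variable (K : IntermediateField ℚ Qb) [FiniteDimensional ℚ K]

/-- Full-level classes of `G_K`. -/
abbrev fullH1 : Type := triH1 p K.fixingSubgroup

/-- Full-level classes of degree two of `G_K`. -/
abbrev fullH2 : Type := triH2 p K.fixingSubgroup

variable {p K}

/-- Localisation at a place in degree one. -/
def locF1 (A : ValuationSubring Qb) : fullH1 p K →ₗ[ZMod p] localH1 p K A :=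
  resSub1 p inf_le_left

/-- Localisation at a place in degree two. -/
def locF2 (A : ValuationSubring Qb) : fullH2 p K →ₗ[ZMod p] localH2 p K A :=
  resSub2 p inf_le_left

variable (hK : ContainsMuP p K)

/-- The root of unity of `muDataLocal`, as data for `G_K`. -/
def muGlobal : MuData p K.fixingSubgroup where
  ζ := (HasEnoughRootsOfUnity.exists_primitiveRoot Qb p).choose
  isPrimitiveRoot := (HasEnoughRootsOfUnity.exists_primitiveRoot Qb p).choose_spec
  fixed σ hσ := by
    obtain ⟨A, hA⟩ := FermatAgent.RT.exists_liesOverPrime (Fact.out : p.Prime)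
    have : NeZero p := ⟨(Fact.out : p.Prime).ne_zero⟩
    have hζ := (HasEnoughRootsOfUnity.exists_primitiveRoot Qb p).choose_spec
    have h := modularCyclotomicCharacter.spec Qb (ExtCitation.card_rootsOfUnity_eq_self p)
      (σ : Qb ≃+* Qb) (t := (hζ.isUnit (NeZero.ne p)).unit)
      (by rw [mem_rootsOfUnity]; exact Units.ext (by simpa using hζ.pow_eq_one))
    have h1 : ExtCitation.cycloChar p σ = 1 := hK σ hσ
    have : Fact (1 < p) := ⟨(Fact.out : p.Prime).one_lt⟩
    rw [show modularCyclotomicCharacter Qb (ExtCitation.card_rootsOfUnity_eq_self p)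
      (σ : Qb ≃+* Qb) = 1 from h1, Units.val_one, ZMod.val_one, pow_one] at h
    simpa using h

/-- Elements of `K` as elements fixed by `G_K`. -/
def toFix : Kˣ →* fixedUnits K.fixingSubgroup :=
  (Units.map K.val.toRingHom.toMonoidHom).codRestrict _ fun x _ hσ => hσ ⟨_, (x : K).2⟩

omit [FiniteDimensional ℚ K] in
theorem coe_toFix (x : Kˣ) : (((toFix x : fixedUnits K.fixingSubgroup) : Qbˣ) : Qb) = ((x : K) : Qb) :=
  rfl

omit [FiniteDimensional ℚ K] in
theorem toFix_injective : Function.Injective (toFix (K := K)) := fun _ _ h =>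
  Units.ext (Subtype.ext (congrArg (fun z : fixedUnits K.fixingSubgroup => ((z : Qbˣ) : Qb)) h))

omit [FiniteDimensional ℚ K] in
theorem toFix_surjective : Function.Surjective (toFix (K := K)) := fun b => by
  have h : ((b : Qbˣ) : Qb) ∈ K := by
    have h1 : ((b : Qbˣ) : Qb) ∈ IntermediateField.fixedField K.fixingSubgroup :=
      fun σ => b.2 σ σ.2
    rwa [InfiniteGalois.fixedField_fixingSubgroup] at h1
  exact ⟨Units.mk0 ⟨_, h⟩ fun h0 => (b : Qbˣ).ne_zero (congrArg Subtype.val h0),
    Subtype.ext (Units.ext rfl)⟩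

/-- The Kummer class of an element of `K`. -/
def kappa (x : Kˣ) : fullH1 p K := kapHom (muGlobal hK) (Additive.ofMul (toFix x))

omit [FiniteDimensional ℚ K] in
theorem kappa_mul (x y : Kˣ) : kappa hK (x * y) = kappa hK x + kappa hK y := by
  rw [kappa, map_mul, ofMul_mul, map_add]
  rfl

omit [FiniteDimensional ℚ K] in
@[simp] theorem kappa_one : kappa hK (1 : Kˣ) = 0 := by
  rw [kappa, map_one, ofMul_one, map_zero]

omit [FiniteDimensional ℚ K] in
theorem kappa_inv (x : Kˣ) : kappa hK x⁻¹ = -kappa hK x := by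
  rw [kappa, map_inv, ofMul_inv, map_neg]
  rfl

omit [FiniteDimensional ℚ K] in
theorem kappa_pow (x : Kˣ) (n : ℕ) : kappa hK (x ^ n) = n • kappa hK x := by
  rw [kappa, map_pow, ofMul_pow, map_nsmul]
  rfl

omit [FiniteDimensional ℚ K] in
theorem kappa_zpow (x : Kˣ) (n : ℤ) : kappa hK (x ^ n) = n • kappa hK x := by
  rw [kappa, map_zpow, ofMul_zpow, map_zsmul]
  rfl

omit [FiniteDimensional ℚ K] in
theorem kappa_surjective : Function.Surjective (kappa hK) := fun c => by
  obtain ⟨b, rfl⟩ := Local.kapHom_surjective (muGlobal hK) c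
  obtain ⟨x, hx⟩ := toFix_surjective (K := K) b.toMul
  exact ⟨x, by rw [kappa, hx]; rfl⟩

omit [FiniteDimensional ℚ K] in
theorem kappa_eq_zero_iff (x : Kˣ) : kappa hK x = 0 ↔ ∃ y : Kˣ, y ^ p = x := by
  rw [kappa, Local.kapHom_eq_zero_iff]
  refine ⟨fun ⟨b, hb⟩ => ?_, fun ⟨y, hy⟩ => ⟨toFix y, by rw [← map_pow, hy]⟩⟩
  obtain ⟨y, rfl⟩ := toFix_surjective (K := K) b
  exact ⟨y, toFix_injective (by rw [map_pow, hb])⟩

/-- An element of `K` inside the local field. -/
def toLocal (A : ValuationSubring Qb) : Kˣ →* fixedUnits (localGroup K A) :=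
  (Units.map K.val.toRingHom.toMonoidHom).codRestrict _ fun x _ hσ => hσ.1 ⟨_, (x : K).2⟩

omit [FiniteDimensional ℚ K] in
theorem locF1_kappa (A : ValuationSubring Qb) (x : Kˣ) :
    locF1 A (kappa hK x) = kapHom (muDataLocal p K hK A) (Additive.ofMul (toLocal A x)) := rfl

/-- The local symbol. -/
def sym (A : ValuationSubring Qb) (x y : Kˣ) : localH2 p K A :=
  cupTriv (ZMod p) (localLevels K A) (locF1 A (kappa hK x)) (locF1 A (kappa hK y))

/-- The global symbol. -/
def gsym (x y : Kˣ) : fullH2 p K :=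
  cupTriv (ZMod p) (subLevels K.fixingSubgroup) (kappa hK x) (kappa hK y)

omit [FiniteDimensional ℚ K] in
theorem locF2_gsym (A : ValuationSubring Qb) (x y : Kˣ) :
    locF2 A (gsym hK x y) = sym hK A x y :=
  resSub2_cup p inf_le_left _ _

omit [FiniteDimensional ℚ K] in
theorem sym_comm (A : ValuationSubring Qb) (x y : Kˣ) : sym hK A y x = -sym hK A x y :=
  eq_neg_of_add_eq_zero_right (Local.cupTriv_anticomm _ _)

variable {A : ValuationSubring Qb} {P : HeightOneSpectrum (𝓞 K)}

omit [FiniteDimensional ℚ K] in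
/-- A local unit has an unramified class away from `p`. -/
theorem kapHom_mem_unramified {l : ℕ} (hl : l.Prime) (hA : A.LiesOverPrime l) (hlp : l ≠ p)
    (u : fixedUnits (localGroup K A)) (hu : A.valuation ((u : Qbˣ) : Qb) = 1) :
    kapHom (muDataLocal p K hK A) (Additive.ofMul u) ∈ unramifiedH1 p K A := by
  set μ := muDataLocal p K hK A
  rw [unramifiedH1, LinearMap.mem_ker, Local.kapHom_apply]
  refine (cl1_eq_zero_iff _ _ _).2 ⟨0, ?_⟩
  rw [map_zero]
  funext σ
  show (0 : ZMod p) = kapFun μ u σ.1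
  set r := rootP p ((u : Qbˣ) : Qb)
  have hr : A.valuation r = 1 := by
    have h := congrArg A.valuation (rootP_pow (p := p) ((u : Qbˣ) : Qb))
    rw [map_pow, hu] at h
    exact (pow_eq_one_iff.1 h).resolve_right (Fact.out : p.Prime).ne_zero
  have h1 := FermatAgent.Local.inertia_val_sub_lt_one
    (show ((σ.1 : localGroup K A) : GQ) ∈ A.inertiaSubgroupIn ℚ from σ.2)
    ((A.valuation_le_one_iff r).1 hr.le)
  rw [kapFun_spec μ u (rootP_pow _) σ.1, ← sub_one_mul, map_mul, hr, mul_one] at h1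
  by_contra hne
  rw [Local.val_zpw_sub_one μ.isPrimitiveRoot (Ne.symm hne),
    Local.val_zeta_sub_one_eq_one μ.isPrimitiveRoot hl hA hlp] at h1
  exact lt_irrefl _ h1

theorem locF1_kappa_unit_mem_unramified (h : Over K A P) {l : ℕ} (hl : l.Prime)
    (hA : A.LiesOverPrime l) (hlp : l ≠ p) {x : Kˣ} (hx : ord P x = 0) :
    locF1 A (kappa hK x) ∈ unramifiedH1 p K A := by
  rw [locF1_kappa]
  exact kapHom_mem_unramified hK hl hA hlp _ ((h.val_eq_one_iff x).mpr hx)

/-- A local element is a power of a uniformiser times a unit. -/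
theorem exists_unit_mul (h : Over K A P) {π : Kˣ} (hπ : ord P π = 1)
    (z : fixedUnits (localGroup K A)) :
    ∃ (k : ℤ) (u : fixedUnits (localGroup K A)), A.valuation ((u : Qbˣ) : Qb) = 1 ∧
      z = u * toLocal A π ^ k := by
  obtain ⟨l, hl, hA⟩ := h.1
  obtain ⟨y, hy, hy0, hyv⟩ := Local.exists_mem_val_eq hl hA
    (Local.mem_localField_iff.2 z.2) (z : Qbˣ).ne_zero
  let y' : Kˣ := Units.mk0 ⟨y, hy⟩ fun h0 => hy0 (congrArg Subtype.val h0)
  refine ⟨ord P y', z / toLocal A π ^ ord P y', ?_, (div_mul_cancel _ _).symm⟩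
  rw [← map_zpow, Subgroup.coe_div, Units.val_div_eq_div_val, map_div₀,
    show A.valuation (((toLocal A (π ^ ord P y') : fixedUnits (localGroup K A)) : Qbˣ) : Qb) =
      A.valuation ((y' : K) : Qb) from (h.val_eq_iff _ _).mpr (by rw [ord_zpow, hπ, mul_one]),
    show A.valuation ((y' : K) : Qb) = A.valuation ((z : Qbˣ) : Qb) from hyv,
    div_self ((_root_.map_ne_zero _).2 (z : Qbˣ).ne_zero)]

/-- A locally trivial Kummer class has order divisible by `p`. -/
theorem dvd_ord_of_locF1_eq_zero (h : Over K A P) {x : Kˣ} (hx : locF1 A (kappa hK x) = 0) :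
    (p : ℤ) ∣ ord P x := by
  obtain ⟨π, hπ⟩ := exists_ord_eq_one P
  rw [locF1_kappa, Local.kapHom_eq_zero_iff] at hx
  obtain ⟨b, hb⟩ := hx
  obtain ⟨k, u, hu, rfl⟩ := exists_unit_mul h hπ b
  refine ⟨k, ?_⟩
  have hv := congrArg (fun z : fixedUnits (localGroup K A) => A.valuation ((z : Qbˣ) : Qb)) hb
  simp only [mul_pow, Subgroup.coe_mul, Units.val_mul, map_mul, SubmonoidClass.coe_pow,
    Units.val_pow_eq_pow_val, map_pow, hu, one_pow, one_mul] at hv
  rw [← map_zpow, ← map_pow] at hv
  have := (h.val_eq_iff ((π ^ k) ^ p) x).mp hv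
  rw [ord_pow, ord_zpow, hπ, mul_one] at this
  exact this.symm

/-- An unramified Kummer class has order divisible by `p`. -/
theorem dvd_ord_of_unramified (h : Over K A P) {l : ℕ} (hl : l.Prime) (hA : A.LiesOverPrime l)
    (hlp : l ≠ p) {x : Kˣ} (hx : locF1 A (kappa hK x) ∈ unramifiedH1 p K A) :
    (p : ℤ) ∣ ord P x := by
  by_contra hnd
  obtain ⟨π, hπ⟩ := exists_ord_eq_one P
  set μ := muDataLocal p K hK A
  have hall : unramifiedH1 p K A = ⊤ := by
    rw [eq_top_iff]
    rintro c -
    obtain ⟨z, rfl⟩ := Local.kapHom_surjective μ c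
    obtain ⟨z, rfl⟩ := Additive.ofMul.surjective z
    obtain ⟨k, u, hu, rfl⟩ := exists_unit_mul h hπ z
    rw [ofMul_mul, map_add]
    refine add_mem (kapHom_mem_unramified hK hl hA hlp u hu) ?_
    rw [ofMul_zpow, map_zsmul, ← locF1_kappa hK A π]
    refine zsmul_mem ?_ k
    -- `π` is a `ℤ/p`-combination of `x` and a unit
    have hu' : locF1 A (kappa hK (x / π ^ ord P x)) ∈ unramifiedH1 p K A :=
      locF1_kappa_unit_mem_unramified hK h hl hA hlp (by rw [ord_div, ord_zpow, hπ, mul_one, sub_self])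
    have h2 : (ord P x : ZMod p) • locF1 A (kappa hK π) ∈ unramifiedH1 p K A := by
      have := sub_mem hx hu'
      rwa [div_eq_mul_inv, kappa_mul, kappa_inv, kappa_zpow, map_add, map_neg, map_zsmul,
        ← sub_eq_add_neg, sub_sub_cancel, ← Int.cast_smul_eq_zsmul (ZMod p)] at this
    have hne : (ord P x : ZMod p) ≠ 0 := fun h0 => hnd ((ZMod.intCast_zmod_eq_zero_iff_dvd _ p).mp h0)
    exact (Submodule.smul_mem_iff _ hne).mp h2
  have hLD := localDualityAt p hl K hK hA
  have := hLD.finrank_unramified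
  rw [hall, finrank_top, hLD.finrank_H1] at this
  omega

theorem sym_units_eq_zero (h : Over K A P) {l : ℕ} (hl : l.Prime) (hA : A.LiesOverPrime l)
    (hlp : l ≠ p) {x y : Kˣ} (hx : (p : ℤ) ∣ ord P x) (hy : (p : ℤ) ∣ ord P y) :
    sym hK A x y = 0 := by
  have key : ∀ z : Kˣ, (p : ℤ) ∣ ord P z → locF1 A (kappa hK z) ∈ unramifiedH1 p K A := by
    rintro z ⟨k, hk⟩
    obtain ⟨π, hπ⟩ := exists_ord_eq_one P
    have := locF1_kappa_unit_mem_unramified hK h hl hA hlp (x := z / (π ^ k) ^ p)
      (by rw [ord_div, ord_pow, ord_zpow, hπ, hk]; ring)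
    rwa [div_eq_mul_inv, kappa_mul, kappa_inv, kappa_pow, ← Nat.cast_smul_eq_nsmul (ZMod p),
      ZMod.natCast_self, zero_smul, neg_zero, add_zero] at this
  exact (localDualityAt p hl K hK hA).cup_unramified hlp _ (key x hx) _ (key y hy)

/-- Pairing with a class having a non-trivial local component is onto the local `H²`. -/
theorem exists_cup_ne_zero {l : ℕ} (hl : l.Prime) (hA : A.LiesOverPrime l) {c : localH1 p K A}
    (hK : ContainsMuP p K) (hc : c ≠ 0) :
    ∃ d, cupTriv (ZMod p) (localLevels K A) c d ≠ 0 := by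
  by_contra hall
  push Not at hall
  exact hc ((localDualityAt p hl K hK hA).cup_nondegenerate c hall)

end

end FermatAgent.Duality.Global
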