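import Fermat.Agent.Duality.Global.Val
import Fermat.Agent.CFT.UnitsIndex
import Mathlib.NumberTheory.NumberField.Units.DirichletTheorem

/-!
# `T`-units of a number field inside `ℚ̄`

The group of `T`-units is finitely generated of rank `rank + #T`, its `p`-th powers have index
`p ^ (r₂ + #T)` when `μ_p ⊆ K`, and for `p`-big `T` every element whose orders outside `T` are
divisible by `p` is a `T`-unit times a `p`-th power.
-/

set_option autoImplicit false

open scoped nonZeroDivisors

namespace FermatAgent.Duality.Global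

open IsDedekindDomain NumberField Module UniqueFactorizationMonoid

noncomputable section

local notation "Qb" => AlgebraicClosure ℚ

attribute [local instance] numberField_of_finite

variable (p : ℕ) [Fact p.Prime] {K : IntermediateField ℚ Qb} [FiniteDimensional ℚ K]

/-- The `T`-units. -/
def tUnits (T : Finset (HeightOneSpectrum (𝓞 K))) : Subgroup Kˣ where
  carrier := {x | ∀ P ∉ T, ord P x = 0}
  one_mem' := fun P _ => ord_one P
  mul_mem' := fun {x y} hx hy P hP => by rw [ord_mul, hx P hP, hy P hP, add_zero]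
  inv_mem' := fun {x} hx P hP => by rw [ord_inv, hx P hP, neg_zero]

theorem tUnits_mono {T T' : Finset (HeightOneSpectrum (𝓞 K))} (h : T ⊆ T') :
    tUnits T ≤ tUnits T' := fun _ hx P hP => hx P fun hm => hP (h hm)

/-- The classes of the primes outside `T` are killed, up to `T`, by integers prime to `p`. -/
def IsBig (T : Finset (HeightOneSpectrum (𝓞 K))) : Prop :=
  ∀ P ∉ T, ∃ (k : Kˣ) (m : ℕ), ¬ p ∣ m ∧ ord P k = m ∧ ∀ P' ∉ T, P' ≠ P → ord P' k = 0

variable {p}

omit [Fact (Nat.Prime p)] in
theorem IsBig.mono {T T' : Finset (HeightOneSpectrum (𝓞 K))} (hb : IsBig p T) (h : T ⊆ T') :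
    IsBig p T' := fun P hP => by
  obtain ⟨k, m, hm, hk, hk'⟩ := hb P fun hm => hP (h hm)
  exact ⟨k, m, hm, hk, fun P' hP' hne => hk' P' (fun hm => hP' (h hm)) hne⟩

variable {T : Finset (HeightOneSpectrum (𝓞 K))}

theorem IsBig.exists_ord (hb : IsBig p T) (e : HeightOneSpectrum (𝓞 K) → ℤ)
    (he : {P | e P ≠ 0}.Finite) :
    ∃ (k : Kˣ) (m : ℕ), ¬ p ∣ m ∧ ∀ P ∉ T, ord P k = m * e P := by
  classical
  suffices ∀ s : Finset (HeightOneSpectrum (𝓞 K)), ∀ f : HeightOneSpectrum (𝓞 K) → ℤ,
      (∀ P ∉ s, P ∉ T → f P = 0) →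
      ∃ (k : Kˣ) (m : ℕ), ¬ p ∣ m ∧ ∀ P ∉ T, ord P k = m * f P from
    this he.toFinset e fun P hP _ => by simpa using hP
  intro s
  induction s using Finset.induction_on with
  | empty => exact fun f hf => ⟨1, 1, (Fact.out : p.Prime).not_dvd_one, fun P hP => by
      rw [ord_one, hf P (Finset.notMem_empty P) hP, mul_zero]⟩
  | insert Q s hQ ih =>
    intro f hf
    obtain ⟨k, m, hm, hk⟩ := ih (Function.update f Q 0) fun P hP hPT => by
      rcases eq_or_ne P Q with rfl | hne
      · exact Function.update_self _ _ _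
      · rw [Function.update_of_ne hne]; exact hf P (by simp [hne, hP]) hPT
    by_cases hQT : Q ∈ T
    · refine ⟨k, m, hm, fun P hP => ?_⟩
      rw [hk P hP, Function.update_of_ne (by rintro rfl; exact hP hQT)]
    obtain ⟨kQ, mQ, hmQ, hkQ, hkQ'⟩ := hb Q hQT
    refine ⟨k ^ (mQ : ℤ) * kQ ^ ((m : ℤ) * f Q), m * mQ,
      (Fact.out : p.Prime).not_dvd_mul hm hmQ, fun P hP => ?_⟩
    rw [ord_mul, ord_zpow, ord_zpow, hk P hP]
    rcases eq_or_ne P Q with rfl | hne
    · rw [Function.update_self, hkQ]; push_cast; ring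
    · rw [Function.update_of_ne hne, hkQ' P hP hne]; push_cast; ring

theorem IsBig.exists_tUnit_mul_pow (hb : IsBig p T) {x : Kˣ}
    (hx : ∀ P ∉ T, (p : ℤ) ∣ ord P x) : ∃ e ∈ tUnits T, ∃ y : Kˣ, x = e * y ^ p := by
  classical
  obtain ⟨k, m, hm, hk⟩ := hb.exists_ord (fun P => ord P x / p)
    ((finite_setOf_ord_ne_zero x).subset fun P hP hP0 => hP (by simp [hP0]))
  have he : x ^ m / k ^ p ∈ tUnits T := fun P hP => by
    obtain ⟨c, hc⟩ := hx P hP
    have hp : (p : ℤ) ≠ 0 := by exact_mod_cast (Fact.out : p.Prime).ne_zero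
    rw [ord_div, ord_pow, ord_pow, hk P hP, hc, Int.mul_ediv_cancel_left c hp]
    ring
  obtain ⟨a, b, hab⟩ : IsCoprime (m : ℤ) p :=
    Nat.isCoprime_iff_coprime.mpr ((Fact.out : p.Prime).coprime_iff_not_dvd.mpr hm).symm
  refine ⟨(x ^ m / k ^ p) ^ a, zpow_mem he a, k ^ a * x ^ b, ?_⟩
  have e : (k ^ p) ^ a = (k ^ a) ^ p := by
    rw [← zpow_natCast, ← zpow_mul, mul_comm, zpow_mul, zpow_natCast]
  calc x = x ^ ((m : ℤ) * a + b * p) := by
        rw [show (m : ℤ) * a + b * p = 1 by linear_combination hab, zpow_one]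
    _ = _ := by
        rw [div_zpow, e, mul_pow, zpow_add, zpow_mul, zpow_natCast, zpow_mul, zpow_natCast,
          ← mul_assoc, div_mul_cancel]

/-! ### Orders and ideals -/

theorem ord_algebraMap (P : HeightOneSpectrum (𝓞 K)) (t : 𝓞 K) (x : Kˣ)
    (hx : (x : K) = algebraMap (𝓞 K) K t) :
    ord P x = (normalizedFactors (Ideal.span {t})).count P.asIdeal := by
  classical
  have ht : t ≠ 0 := by rintro rfl; exact x.ne_zero (hx.trans (map_zero _))
  have h := valuation_eq_exp P x
  rw [hx, P.valuation_of_algebraMap, P.intValuation_if_neg ht, WithZero.exp_inj, neg_inj,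
    Ideal.count_associates_factors_eq (by simpa using ht) P.isPrime P.ne_bot] at h
  exact h.symm

theorem count_prime_self (P : HeightOneSpectrum (𝓞 K)) :
    (normalizedFactors P.asIdeal).count P.asIdeal = 1 := by
  classical
  rw [normalizedFactors_irreducible P.irreducible, normalize_eq, Multiset.count_singleton_self]

theorem count_prime_ne {P P' : HeightOneSpectrum (𝓞 K)} (h : P' ≠ P) :
    (normalizedFactors P.asIdeal).count P'.asIdeal = 0 := by
  classical
  rw [normalizedFactors_irreducible P.irreducible, normalize_eq, Multiset.count_singleton,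
    if_neg fun h' => h (HeightOneSpectrum.ext h')]

/-- A relation `P ^ m ~ (product of primes in T)` in the class group gives an element. -/
theorem exists_ord_of_classGroup (P : HeightOneSpectrum (𝓞 K)) (hP : P ∉ T) {m : ℕ}
    (h : FermatAgent.CFT.primeClass P ^ m ∈
      Subgroup.closure (FermatAgent.CFT.primeClass '' (T : Set (HeightOneSpectrum (𝓞 K))))) :
    ∃ k : Kˣ, ord P k = m ∧ ∀ P' ∉ T, P' ≠ P → ord P' k = 0 := by
  classical
  obtain ⟨X, hX0, hXT, hX⟩ : ∃ X : Ideal (𝓞 K), ∃ hX : X ≠ 0,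
      (∀ P' ∉ T, (normalizedFactors X).count P'.asIdeal = 0) ∧
      ClassGroup.mk0 ⟨X, mem_nonZeroDivisors_of_ne_zero hX⟩ = FermatAgent.CFT.primeClass P ^ m := by
    rw [← Subgroup.mem_toSubmonoid, Subgroup.closure_toSubmonoid_of_finite] at h
    obtain ⟨l, hl, hprod⟩ := Submonoid.exists_list_of_mem_closure h
    clear h
    induction l generalizing m with
    | nil =>
      refine ⟨1, one_ne_zero, fun P' _ => by rw [normalizedFactors_one]; rfl, ?_⟩
      rw [← hprod, List.prod_nil, ← map_one ClassGroup.mk0]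
      rfl
    | cons c l ih =>
      obtain ⟨P₁, hP₁, hc⟩ := hl c List.mem_cons_self
      obtain ⟨X, hX0, hXT, hX⟩ : ∃ X : Ideal (𝓞 K), ∃ hX : X ≠ 0,
          (∀ P' ∉ T, (normalizedFactors X).count P'.asIdeal = 0) ∧
          ClassGroup.mk0 ⟨X, mem_nonZeroDivisors_of_ne_zero hX⟩ = l.prod := by
        clear ih hprod
        induction l with
        | nil =>
          exact ⟨1, one_ne_zero, fun P' _ => by rw [normalizedFactors_one]; rfl, by rw [List.prod_nil, ← map_one ClassGroup.mk0]; rfl⟩
        | cons c' l' ih' =>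
          obtain ⟨X', hX'0, hX'T, hX'⟩ := ih' fun y hy => hl y (by
            rcases List.mem_cons.mp hy with rfl | hy
            · exact List.mem_cons_self
            · exact List.mem_cons_of_mem _ (List.mem_cons_of_mem _ hy))
          obtain ⟨P₂, hP₂, hc'⟩ := hl c' (List.mem_cons_of_mem _ List.mem_cons_self)
          refine ⟨P₂.asIdeal * X', mul_ne_zero P₂.ne_bot hX'0, fun P' hP' => ?_, ?_⟩
          · rw [normalizedFactors_mul P₂.ne_bot hX'0, Multiset.count_add, hX'T P' hP',
              count_prime_ne (by rintro rfl; exact hP' hP₂)]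
          · rw [List.prod_cons, ← hX', ← hc', FermatAgent.CFT.primeClass_eq, ← map_mul]
            rfl
      refine ⟨P₁.asIdeal * X, mul_ne_zero P₁.ne_bot hX0, fun P' hP' => ?_, ?_⟩
      · rw [normalizedFactors_mul P₁.ne_bot hX0, Multiset.count_add, hXT P' hP',
          count_prime_ne (by rintro rfl; exact hP' hP₁)]
      · rw [← hprod, List.prod_cons, ← hX, ← hc, FermatAgent.CFT.primeClass_eq, ← map_mul]
        rfl
  have hPm : P.asIdeal ^ m ≠ 0 := pow_ne_zero _ P.ne_bot
  have hcl : ClassGroup.mk0 ⟨P.asIdeal ^ m, mem_nonZeroDivisors_of_ne_zero hPm⟩ =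
      ClassGroup.mk0 ⟨X, mem_nonZeroDivisors_of_ne_zero hX0⟩ := by
    rw [hX, FermatAgent.CFT.primeClass_eq, ← map_pow]
    rfl
  obtain ⟨s, t, hs, ht, hst⟩ := ClassGroup.mk0_eq_mk0_iff.mp hcl
  let s' : Kˣ := Units.mk0 (algebraMap (𝓞 K) K s) (by simpa using hs)
  let t' : Kˣ := Units.mk0 (algebraMap (𝓞 K) K t) (by simpa using ht)
  refine ⟨t' / s', ?_⟩
  have key : ∀ P', ord P' t' + (normalizedFactors X).count P'.asIdeal =
      ord P' s' + m * (normalizedFactors P.asIdeal).count P'.asIdeal := fun P' => by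
    have h1 := congrArg (fun I => (normalizedFactors I).count P'.asIdeal) hst
    simp only [normalizedFactors_mul (x := Ideal.span {s}) (by simpa using hs) hPm,
      normalizedFactors_mul (x := Ideal.span {t}) (by simpa using ht) hX0, normalizedFactors_pow,
      Multiset.count_add, Multiset.count_nsmul] at h1
    rw [ord_algebraMap P' t t' rfl, ord_algebraMap P' s s' rfl]
    exact_mod_cast h1.symm
  refine ⟨?_, fun P' hP' hne => ?_⟩
  · have h1 := key P
    rw [hXT P hP, count_prime_self] at h1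
    rw [ord_div]; push_cast at h1 ⊢; omega
  · have h1 := key P'
    rw [hXT P' hP', count_prime_ne hne] at h1
    rw [ord_div]; push_cast at h1 ⊢; omega

/-- If the classes of `T` and the `p`-th powers generate, then `T` is big. -/
theorem isBig_of_closure_eq_top
    (h : Subgroup.closure (FermatAgent.CFT.primeClass '' (T : Set (HeightOneSpectrum (𝓞 K)))) ⊔
      (powMonoidHom p : ClassGroup (𝓞 K) →* _).range = ⊤) : IsBig p T := by
  intro P hP
  set C := Subgroup.closure (FermatAgent.CFT.primeClass '' (T : Set (HeightOneSpectrum (𝓞 K))))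
  obtain ⟨k, hk⟩ := exists_ord_of_classGroup (T := T) (m := Nat.card (ClassGroup (𝓞 K) ⧸ C)) P hP
    ((QuotientGroup.eq_one_iff _).mp (by rw [QuotientGroup.mk_pow, pow_card_eq_one']))
  refine ⟨k, Nat.card (ClassGroup (𝓞 K) ⧸ C), ?_, hk⟩
  · intro hd
    obtain ⟨x, hx⟩ := exists_prime_orderOf_dvd_card' p hd
    obtain ⟨c, rfl⟩ := QuotientGroup.mk'_surjective C x
    have hsurj : Function.Surjective
        (powMonoidHom p : ClassGroup (𝓞 K) ⧸ C →* ClassGroup (𝓞 K) ⧸ C) := by
      intro y
      obtain ⟨y, rfl⟩ := QuotientGroup.mk'_surjective C y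
      have hy : y ∈ C ⊔ (powMonoidHom p : ClassGroup (𝓞 K) →* _).range := h ▸ Subgroup.mem_top y
      obtain ⟨c', hc', z, ⟨w, rfl⟩, rfl⟩ := Subgroup.mem_sup.mp hy
      exact ⟨QuotientGroup.mk' C w, by
        rw [powMonoidHom_apply, powMonoidHom_apply, map_mul, ← map_pow,
          (show QuotientGroup.mk' C c' = 1 from (QuotientGroup.eq_one_iff c').mpr hc'), one_mul]⟩
    have hone := (Finite.injective_iff_surjective.mpr hsurj)
      (a₁ := QuotientGroup.mk' C c) (a₂ := 1) (by
        rw [powMonoidHom_apply, powMonoidHom_apply, one_pow, ← hx, pow_orderOf_eq_one])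
    rw [hone, orderOf_one] at hx
    exact (Fact.out : p.Prime).one_lt.ne hx

/-! ### The rank -/

variable (T) in
/-- The orders at the primes of `T`. -/
def ordVec : Additive (tUnits T) →ₗ[ℤ] (T → ℤ) :=
  (AddMonoidHom.mk' (fun x P => ord P.1 (Additive.toMul x : tUnits T).1) fun x y => by
    funext P
    rw [toMul_add, Subgroup.coe_mul, ord_mul, Pi.add_apply]).toIntLinearMap

theorem ordVec_apply (x : tUnits T) (P : T) : ordVec T (Additive.ofMul x) P = ord P.1 x.1 := rfl

/-- Units as `T`-units. -/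
def unitsToT : (𝓞 K)ˣ →* tUnits T :=
  (Units.map (algebraMap (𝓞 K) K).toMonoidHom).codRestrict _ fun u P _ => by
    rw [ord_algebraMap P (u : 𝓞 K) _ rfl, Ideal.span_singleton_eq_top.mpr u.isUnit,
      ← Ideal.one_eq_top, normalizedFactors_one]
    rfl

theorem unitsToT_injective : Function.Injective (unitsToT (T := T)) := fun _ _ h =>
  Units.map_injective (FaithfulSMul.algebraMap_injective (𝓞 K) K) congr(($h).1)

theorem mem_range_unitsToT {x : tUnits T} (h : ∀ P, ord P x.1 = 0) :
    x ∈ (unitsToT (T := T)).range := by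
  have hval : ∀ P : HeightOneSpectrum (𝓞 K), P.valuation K (x.1 : K) = 1 := fun P => by
    rw [valuation_eq_exp, h P, neg_zero, WithZero.exp_zero]
  obtain ⟨a, ha⟩ := HeightOneSpectrum.mem_integers_of_valuation_le_one (R := 𝓞 K) K (x.1 : K)
    fun P => (hval P).le
  obtain ⟨b, hb⟩ := HeightOneSpectrum.mem_integers_of_valuation_le_one (R := 𝓞 K) K
    ((x.1⁻¹ : Kˣ) : K) fun P => by rw [Units.val_inv_eq_inv_val, map_inv₀, hval P, inv_one]
  refine ⟨⟨a, b, ?_, ?_⟩, Subtype.ext (Units.ext ha)⟩ <;>
    refine FaithfulSMul.algebraMap_injective (𝓞 K) K ?_ <;>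
    rw [map_mul, map_one, ha, hb] <;> simp

/-- The linear map of units. -/
def unitsLin (T : Finset (HeightOneSpectrum (𝓞 K))) :
    Additive (𝓞 K)ˣ →ₗ[ℤ] Additive (tUnits T) :=
  (MonoidHom.toAdditive (unitsToT (T := T))).toIntLinearMap

theorem ker_ordVec : LinearMap.ker (ordVec T) = LinearMap.range (unitsLin T) := by
  ext x
  constructor
  · intro hx
    obtain ⟨u, hu⟩ := mem_range_unitsToT (x := x.toMul) fun P => by
      by_cases hP : P ∈ T
      · exact congrFun hx ⟨P, hP⟩
      · exact x.toMul.2 P hP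
    exact ⟨Additive.ofMul u, congrArg Additive.ofMul hu⟩
  · rintro ⟨u, rfl⟩
    rw [LinearMap.mem_ker]
    funext P
    show ord P.1 ((unitsToT (T := T) u.toMul).1) = 0
    exact (unitsToT (T := ∅) u.toMul).2 P.1 (Finset.notMem_empty _)

theorem finite_tUnits : Module.Finite ℤ (Additive (tUnits T)) := by
  refine ⟨Submodule.fg_of_fg_map_of_fg_inf_ker (ordVec T) ?_ ?_⟩
  · exact IsNoetherian.noetherian _
  · rw [top_inf_eq, ker_ordVec, LinearMap.range_eq_map]
    exact Submodule.FG.map _ Module.Finite.fg_top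

theorem exists_tUnit_ord (P : HeightOneSpectrum (𝓞 K)) (hP : P ∈ T) :
    ∃ x : tUnits T, ord P x.1 = NumberField.classNumber K ∧ ∀ P' ≠ P, ord P' x.1 = 0 := by
  have h : FermatAgent.CFT.primeClass P ^ NumberField.classNumber K ∈ Subgroup.closure
      (FermatAgent.CFT.primeClass '' ((∅ : Finset (HeightOneSpectrum (𝓞 K))) : Set _)) := by
    rw [NumberField.classNumber, pow_card_eq_one]
    exact one_mem _
  obtain ⟨k, hk, hk'⟩ := exists_ord_of_classGroup P (Finset.notMem_empty P) h
  exact ⟨⟨k, fun P' hP' => hk' P' (Finset.notMem_empty _) (by rintro rfl; exact hP' hP)⟩, hk,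
    fun P' hne => hk' P' (Finset.notMem_empty _) hne⟩

theorem finrank_tUnits :
    finrank ℤ (Additive (tUnits T)) = Units.rank K + T.card := by
  classical
  have := finite_tUnits (T := T)
  have h1 := Submodule.finrank_quotient_add_finrank (LinearMap.ker (ordVec T))
  rw [(LinearMap.quotKerEquivRange _).finrank_eq, ker_ordVec,
    LinearMap.finrank_range_of_inj (f := unitsLin T) unitsToT_injective, Units.finrank_eq] at h1
  have h2 : finrank ℤ (LinearMap.range (ordVec T)) = T.card := by
    refine le_antisymm ((Submodule.finrank_le _).trans_eq (by simp)) ?_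
    have h3 := FermatAgent.CFT.finrank_eq_of_ker_torsion (A := T → ℤ)
      (nsmulAddMonoidHom (NumberField.classNumber K)).toIntLinearMap fun x hx => by
        refine isOfFinAddOrder_iff_nsmul_eq_zero.mpr ⟨_, ?_, hx⟩
        exact Fintype.card_pos
    rw [Module.finrank_pi, Fintype.card_coe] at h3
    rw [← h3]
    refine Submodule.finrank_mono ?_
    rintro _ ⟨v, rfl⟩
    choose x hx hx' using fun P : T => exists_tUnit_ord (T := T) P.1 P.2
    refine ⟨∑ P : T, v P • Additive.ofMul (x P), ?_⟩
    rw [map_sum]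
    funext Q
    rw [Finset.sum_apply, Finset.sum_eq_single Q (fun P _ hne => ?_) (by simp)]
    · rw [map_zsmul, Pi.smul_apply, ordVec_apply, hx Q]
      simp [mul_comm]
    · rw [map_zsmul, Pi.smul_apply, ordVec_apply, hx' P Q.1 fun h => hne (Subtype.ext h.symm),
        smul_zero]
  rw [h2] at h1
  omega

/-- No real places: either `p` is odd, and then `μ_p` excludes them, or the field has none. -/
def NoReal (p : ℕ) (K : IntermediateField ℚ (AlgebraicClosure ℚ)) : Prop :=
  p ≠ 2 ∨ IsTotallyComplex K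

omit [Fact p.Prime] [FiniteDimensional ℚ K] in
theorem NoReal.mono {L : IntermediateField ℚ (AlgebraicClosure ℚ)} (h : NoReal p K) (hKL : K ≤ L) :
    NoReal p L :=
  h.imp id fun h => ⟨fun _ => InfinitePlace.not_isReal_iff_isComplex.mp fun hw =>
    InfinitePlace.not_isReal_iff_isComplex.mpr (h.isComplex _)
      (hw.comap (IntermediateField.inclusion hKL).toRingHom)⟩

/-- A field with a primitive `p`-th root of unity and `NoReal` has only complex places. -/
theorem finrank_eq_two_mul (hp : NoReal p K) {ζ : K} (hζ : IsPrimitiveRoot ζ p) :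
    finrank ℚ K = 2 * (Units.rank K + 1) ∧
      Units.rank K + 1 = InfinitePlace.nrComplexPlaces K := by
  classical
  have h0 : InfinitePlace.nrRealPlaces K = 0 := hp.elim
    (fun hp => InfinitePlace.IsPrimitiveRoot.nrRealPlaces_eq_zero_of_two_lt
      (lt_of_le_of_ne (Fact.out : p.Prime).two_le (Ne.symm hp)) hζ)
    fun _ => IsTotallyComplex.nrRealPlaces_eq_zero K
  have h1 := InfinitePlace.card_add_two_mul_card_eq_rank K
  have h2 := InfinitePlace.card_eq_nrRealPlaces_add_nrComplexPlaces K
  have h3 : 0 < Fintype.card (InfinitePlace K) := Fintype.card_pos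
  rw [Units.rank]
  omega

theorem tUnits_index_pow {ζ : K} (hζ : IsPrimitiveRoot ζ p) :
    (powMonoidHom p : tUnits T →* tUnits T).range.index = p ^ (Units.rank K + T.card + 1) ∧
      Nat.card (powMonoidHom p : tUnits T →* tUnits T).ker = p := by
  classical
  have := finite_tUnits (T := T)
  have hp0 := (Fact.out : p.Prime).ne_zero
  have : NeZero p := ⟨hp0⟩
  have hker : Nat.card (powMonoidHom p : tUnits T →* tUnits T).ker = p := by
    refine Eq.trans ?_ hζ.card_rootsOfUnity
    refine Nat.card_congr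
      { toFun := fun x => ⟨x.1.1, congr(($(x.2)).1)⟩
        invFun := fun u => ⟨⟨u.1, fun P _ => ?_⟩, Subtype.ext u.2⟩
        left_inv := fun x => rfl
        right_inv := fun u => rfl }
    have h := congrArg (ord P) u.2
    rw [ord_pow, ord_one, mul_eq_zero] at h
    exact h.resolve_left (by exact_mod_cast hp0)
  have h := FermatAgent.CFT.index_range_pow_eq (A := Additive (tUnits T))
    (nsmulAddMonoidHom p) (AddMonoidHom.id _) one_ne_zero hp0 Function.bijective_id (fun x => rfl)
  rw [pow_one, pow_one, finrank_tUnits] at h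
  exact ⟨(h.trans (congrArg (· * _) hker)).trans (pow_succ' _ _).symm, hker⟩

end

end FermatAgent.Duality.Global
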