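import Fermat.Agent.Duality.Global.LocalSymbol
import Fermat.Agent.Duality.Global.SUnits
import Fermat.Agent.Duality.Global.Defs

/-!
# Kummer theory of `G_{K,S}`: classes come from `S`-units

For `S` big a class of `H¹(G_{K,S}, 𝔽_p)` is the Kummer class of an `S`-unit.
-/

set_option autoImplicit false

open scoped Pointwise

namespace FermatAgent.Duality.Global

open IsDedekindDomain NumberField FermatAgent.Duality FermatAgent.Duality.Local

noncomputable section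

local notation "Qb" => AlgebraicClosure ℚ
local notation "GQ" => AlgebraicClosure ℚ ≃ₐ[ℚ] AlgebraicClosure ℚ

attribute [local instance] FermatAgent.RT.isGalois_algClosureRat numberField_of_finite

variable {p : ℕ} [Fact p.Prime] {K : IntermediateField ℚ Qb} [FiniteDimensional ℚ K]
  {S : Finset Nat.Primes}

variable (K S) in
/-- The primes of `K` over `S`. -/
theorem exists_primesOver :
    ∃ T : Finset (HeightOneSpectrum (𝓞 K)),
      ∀ v, v ∈ T ↔ ∃ q ∈ S, ((q : ℕ) : 𝓞 K) ∈ v.asIdeal := by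
  classical
  have hT : {v : HeightOneSpectrum (𝓞 K) | ∃ q ∈ S, ((q : ℕ) : 𝓞 K) ∈ v.asIdeal}.Finite := by
    refine (S.finite_toSet.biUnion fun q _ =>
      Ideal.finite_factors (I := Ideal.span {((q : ℕ) : 𝓞 K)}) ?_).subset fun v hv => ?_
    · simp [q.2.ne_zero]
    · obtain ⟨q, hq, hqv⟩ := hv
      exact Set.mem_biUnion hq (Ideal.dvd_span_singleton.2 hqv)
  exact ⟨hT.toFinset, fun v => hT.mem_toFinset⟩

omit [FiniteDimensional ℚ K] in
/-- A prime number lying in a prime over the place of another one equals it. -/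
theorem eq_of_natCast_mem {A : ValuationSubring Qb} {P : HeightOneSpectrum (𝓞 K)} (h : Over K A P)
    {l q : ℕ} (hl : l.Prime) (hA : A.LiesOverPrime l) (hq : q.Prime)
    (hmem : (q : 𝓞 K) ∈ P.asIdeal) : q = l := by
  rw [← h.2, Ideal.mem_comap, map_natCast, ← Int.cast_natCast,
    FermatAgent.RT.intCast_mem_centre_iff hl hA, Int.natCast_dvd_natCast] at hmem
  exact ((Nat.prime_dvd_prime_iff_eq hl hq).1 hmem).symm

/-- Primes over a big `S` are big. -/
theorem isBig_primesOver {T : Finset (HeightOneSpectrum (𝓞 K))}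
    (hT : ∀ v, v ∈ T ↔ ∃ q ∈ S, ((q : ℕ) : 𝓞 K) ∈ v.asIdeal) (hbig : ClassGroupGenerated p K S) :
    IsBig p T := by
  refine isBig_of_closure_eq_top ?_
  unfold ClassGroupGenerated at hbig
  refine eq_top_iff.2 (hbig.symm.le.trans (sup_le_sup_right (Subgroup.closure_mono ?_) _))
  rintro c ⟨P, hP, ⟨q, hq, hqP⟩, rfl⟩
  refine ⟨⟨P, hP, nonZeroDivisors.coe_ne_zero P⟩, (hT _).2 ⟨q, hq, hqP⟩, rfl⟩

/-- **Kummer surjectivity from `S`-units.** -/
theorem exists_sUnit_root {ζ : Qb} (hζ : IsPrimitiveRoot ζ p) (hK : ContainsMuP p K)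
    (_hS : K.IsUnramifiedOutside S) (hpS : ExtCitation.pPrime p ∈ S)
    (hbig : ClassGroupGenerated p K S)
    (f : Z1 (globalLevels K S) (triv (ZMod p) K.fixingSubgroup)) :
    ∃ r : Qb, r ≠ 0 ∧ r ^ p ∈ K ∧
      (∀ q : Nat.Primes, q ∉ S → ∀ A : ValuationSubring Qb, A.LiesOverPrime (q : ℕ) →
        A.valuation (r ^ p) = 1) ∧
      ∀ σ : K.fixingSubgroup, (σ : GQ) r = Local.zpw p ζ (f.1 σ) * r := by
  let μ : MuData p K.fixingSubgroup :=
    { ζ := ζ
      isPrimitiveRoot := hζ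
      fixed := fun σ hσ => by
        have : NeZero p := ⟨(Fact.out : p.Prime).ne_zero⟩
        obtain ⟨i, -, hi⟩ := (muGlobal hK).isPrimitiveRoot.eq_pow_of_pow_eq_one hζ.pow_eq_one
        rw [← hi, map_pow, (muGlobal hK).fixed σ hσ] }
  -- the class over the whole group
  have hfull : f.1 ∈ Z1 (subLevels K.fixingSubgroup) (triv (ZMod p) K.fixingSubgroup) := by
    refine ⟨?_, f.2.2⟩
    obtain ⟨_, ⟨_, ⟨F, hF, rfl⟩, rfl⟩, hU⟩ := f.2.1
    exact ⟨_, ⟨_, ⟨F, hF.1, rfl⟩, rfl⟩, hU⟩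
  obtain ⟨a, ha⟩ := Local.kap_surjective μ ⟨f.1, hfull⟩
  obtain ⟨x, rfl⟩ := toFix_surjective (K := K) a
  set r₀ := rootP p ((x : K) : Qb)
  have hr₀ : r₀ ^ p = ((x : K) : Qb) := rootP_pow _
  have hspec : ∀ σ : K.fixingSubgroup, (σ : GQ) r₀ = Local.zpw p ζ (f.1 σ) * r₀ := fun σ => by
    have h : kapFun μ (toFix x) σ = f.1 σ := congrArg (fun z => z.1 σ) ha
    rw [← h]
    exact kapFun_spec μ (toFix x) hr₀ σ
  obtain ⟨T, hT⟩ := exists_primesOver K S
  -- the orders outside `S` are divisible by `p`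
  have hdvd : ∀ v ∉ T, (p : ℤ) ∣ ord v x := by
    intro v hv
    obtain ⟨A, hA⟩ := exists_place v
    obtain ⟨l, hl, hlA⟩ := hA.1
    have hlS : (⟨l, hl⟩ : Nat.Primes) ∉ S := fun h =>
      hv ((hT v).2 ⟨_, h, hA.natCast_mem hlA⟩)
    have hlp : l ≠ p := fun e => hlS (by
      rwa [show (⟨l, hl⟩ : Nat.Primes) = ExtCitation.pPrime p from Subtype.ext e])
    refine dvd_ord_of_unramified hK hA hl hlA hlp (x := x) ?_
    rw [locF1_kappa, unramifiedH1, LinearMap.mem_ker, Local.kapHom_apply]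
    refine (cl1_eq_zero_iff _ _ _).2 ⟨0, ?_⟩
    rw [map_zero]
    funext σ
    show (0 : ZMod p) = kapFun (muDataLocal p K hK A) (toLocal A x) σ.1
    refine (kapFun_eq_of _ _ (r := r₀) hr₀ _ 0 ?_).symm
    rw [Local.zpw_zero, one_mul]
    -- inertia is inside the level of `f`
    obtain ⟨_, ⟨_, ⟨F, hF, rfl⟩, rfl⟩, hU⟩ := f.2.1
    have hσI : ((σ.1 : localGroup K A) : GQ) ∈ A.inertiaSubgroupIn ℚ := σ.2
    have hσF : ((σ.1 : localGroup K A) : GQ) ∈ F.fixingSubgroup := hF.2 ⟨l, hl⟩ hlS A hlA hσI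
    let s : K.fixingSubgroup := ⟨((σ.1 : localGroup K A) : GQ), (σ.1).2.1⟩
    have h0 : f.1 1 = 0 := by simpa using f.2.2 1 1
    have hfs : f.1 s = 0 := by
      have h := hU 1 s hσF
      rwa [one_mul, h0] at h
    have h := hspec s
    rwa [hfs, Local.zpw_zero, one_mul] at h
  obtain ⟨e, he, y, hy⟩ := (isBig_primesOver hT hbig).exists_tUnit_mul_pow hdvd
  have hy0 : ((y : K) : Qb) ≠ 0 := by simp
  have hrp : (r₀ / ((y : K) : Qb)) ^ p = ((e : K) : Qb) := by
    rw [div_pow, hr₀, hy, Units.val_mul, Units.val_pow_eq_pow_val, MulMemClass.coe_mul,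
      SubmonoidClass.coe_pow, mul_div_assoc, div_self (pow_ne_zero _ hy0), mul_one]
  have hr₀0 : r₀ ≠ 0 := fun h0 => by
    rw [h0, zero_pow (Fact.out : p.Prime).ne_zero] at hr₀
    exact x.ne_zero (ZeroMemClass.coe_eq_zero.1 hr₀.symm)
  refine ⟨r₀ / ((y : K) : Qb), div_ne_zero hr₀0 hy0, hrp ▸ (e : K).2, fun q hq A hA => ?_,
    fun σ => ?_⟩
  · rw [hrp]
    obtain ⟨v, hv⟩ := exists_over (K := K) (A := A) ⟨_, q.2, hA⟩
    refine (hv.val_eq_one_iff e).2 (he v fun hvT => ?_)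
    obtain ⟨q', hq', hqv⟩ := (hT v).1 hvT
    have hqq : q' = q := Subtype.ext (eq_of_natCast_mem hv q.2 hA q'.2 hqv)
    exact hq (hqq ▸ hq')
  · rw [map_div₀, hspec σ, show (σ : GQ) ((y : K) : Qb) = ((y : K) : Qb) from σ.2 ⟨_, (y : K).2⟩,
      mul_div_assoc]

/-- The same in the form used by the Euler characteristic. -/
theorem exists_sUnit_root_muGlobal (hK : ContainsMuP p K)
    (hS : K.IsUnramifiedOutside S) (hpS : ExtCitation.pPrime p ∈ S)
    (hbig : ClassGroupGenerated p K S) :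
    ∀ f : Z1 (globalLevels K S) (triv (ZMod p) K.fixingSubgroup),
      ∃ r : Qb, r ≠ 0 ∧ r ^ p ∈ K ∧
        (∀ q : Nat.Primes, q ∉ S → ∀ A : ValuationSubring Qb, A.LiesOverPrime (q : ℕ) →
          A.valuation (r ^ p) = 1) ∧
        ∀ σ : K.fixingSubgroup, (σ : GQ) r = Local.zpw p (muGlobal hK).ζ (f.1 σ) * r :=
  exists_sUnit_root (muGlobal hK).isPrimitiveRoot hK hS hpS hbig

end

end FermatAgent.Duality.Global
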