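import Fermat.Agent.Duality.Global.TClass
import Fermat.Agent.Duality.Global.Unramified
import Fermat.Agent.Mazur.Descent.Unramified

/-!
# Classes of divisors outside `S` as locally trivial classes of degree two

With `#TClass = p ^ k * m` a divisor `e` gives `α` of divisor `p ^ k * m * e`; it becomes trivial
over `K (α ^ (1 / p ^ k))`, which is unramified outside `S`, and the obstruction to extracting a
further `p`-th root there is a class of degree two trivial at every place.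
-/

set_option autoImplicit false

open scoped Pointwise

namespace FermatAgent.Duality.Global

open IsDedekindDomain NumberField FermatAgent.Duality Module
open FermatAgent.Duality.Local (zpw rootP rootP_pow)

noncomputable section

local notation "Qb" => AlgebraicClosure ℚ
local notation "GQ" => AlgebraicClosure ℚ ≃ₐ[ℚ] AlgebraicClosure ℚ

attribute [local instance] FermatAgent.RT.isGalois_algClosureRat numberField_of_finite

variable {p : ℕ} [Fact p.Prime] {K : IntermediateField ℚ Qb} [FiniteDimensional ℚ K]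
  {S : Finset Nat.Primes}

/-- The order of an element with an inertia-fixed `n`-th root is divisible by `n`. -/
theorem dvd_ord_of_inertia_fixed {A : ValuationSubring Qb} {P : HeightOneSpectrum (𝓞 K)}
    (h : Over K A P) {l : ℕ} (hl : l.Prime) (hA : A.LiesOverPrime l) {γ : Qb} (hγ : γ ≠ 0)
    (hfix : ∀ σ ∈ A.inertiaSubgroupIn ℚ, σ γ = γ) {n : ℕ} {x : Kˣ}
    (hx : γ ^ n = ((x : K) : Qb)) : (n : ℤ) ∣ ord P x := by
  obtain ⟨i, hi⟩ := FermatAgent.Mazur.Descent.exists_val_eq_zpow_of_inertia_fixed hl hA hγ hfix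
  let L : Kˣ := Units.mk0 (l : K) (Nat.cast_ne_zero.2 hl.ne_zero)
  have hL : ((L : K) : Qb) = (l : Qb) := by simp [L]
  have hv : A.valuation ((x : K) : Qb) = A.valuation (((L ^ (i * n) : Kˣ) : K) : Qb) := by
    have hz : (((L ^ (i * n) : Kˣ) : K) : Qb) = (l : Qb) ^ (i * (n : ℤ)) := by
      rw [Units.val_zpow_eq_zpow_val, ← hL]
      exact map_zpow₀ K.val _ _
    rw [← hx, map_pow, hi, hz, map_zpow₀, zpow_mul, zpow_natCast]
  refine ⟨i * ord P L, ?_⟩
  rw [(h.val_eq_iff x _).1 hv, ord_zpow]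
  ring

/-- A divisor outside `T` together with the data making it trivial over `K_S`. -/
structure CapData (hK : ContainsMuP p K) (S : Finset Nat.Primes)
    (T : Finset (HeightOneSpectrum (𝓞 K))) (k m : ℕ) (e : TOut T →₀ ℤ) where
  α : Kˣ
  ord_α : ∀ P : TOut T, ord P.1 α = (p ^ k * m : ℕ) * e P
  β : Qb
  β_pow : β ^ p ^ (k + 1) = ((α : K) : Qb)
  b : K.fixingSubgroup → ZMod p
  lev_b : IsLev₁ (subLevels K.fixingSubgroup) b
  c : Z2 (globalLevels K S) (triv (ZMod p) K.fixingSubgroup)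
  dd_b : dd₁ (triv (ZMod p) K.fixingSubgroup) b = c.1
  lev_twist : IsLev₁ (globalLevels K S)
    fun g => zpw p (muGlobal hK).ζ (b g) * ((g : GQ) β / β)

variable (hK : ContainsMuP p K) {T : Finset (HeightOneSpectrum (𝓞 K))}

set_option maxHeartbeats 1000000 in
theorem nonempty_capData (hS : K.IsUnramifiedOutside S) (hpS : ExtCitation.pPrime p ∈ S)
    (hT : ∀ v, v ∈ T ↔ ∃ q ∈ S, ((q : ℕ) : 𝓞 K) ∈ v.asIdeal) {k m : ℕ}
    (hkm : Nat.card (TClass T) = p ^ k * m) (e : TOut T →₀ ℤ) :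
    Nonempty (CapData hK S T k m e) := by
  classical
  have hp := (Fact.out : p.Prime)
  have := finite_tClass T
  set n := p ^ k
  have hn0 : n ≠ 0 := pow_ne_zero _ hp.ne_zero
  set N := p ^ (k + 1)
  have hN0 : N ≠ 0 := pow_ne_zero _ hp.ne_zero
  have : NeZero N := ⟨hN0⟩
  have : NeZero (N : Qb) := ⟨Nat.cast_ne_zero.2 hN0⟩
  obtain ⟨α, hα⟩ : ∃ α : Kˣ, ∀ P : TOut T, ord P.1 α = (n * m : ℕ) * e P := by
    obtain ⟨α, hα⟩ := mk_eq_zero_iff.1 (show (QuotientAddGroup.mk ((n * m) • e) : TClass T) = 0 by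
      rw [QuotientAddGroup.mk_nsmul, ← hkm, card_nsmul_eq_zero'])
    exact ⟨α, fun P => by rw [hα P, Finsupp.smul_apply, nsmul_eq_mul]⟩
  have hα0 : ((α : K) : Qb) ≠ 0 := by simp
  obtain ⟨β, hβ⟩ := IsAlgClosed.exists_pow_nat_eq ((α : K) : Qb) (Nat.pos_of_ne_zero hN0)
  have hβ0 : β ≠ 0 := fun h => hα0 (by rw [← hβ, h, zero_pow hN0])
  set δ := β ^ p
  have hδ0 : δ ≠ 0 := pow_ne_zero _ hβ0
  have hδn : δ ^ n = ((α : K) : Qb) := by
    rw [← pow_mul, ← hβ]
    simp only [n, N, pow_succ']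
  obtain ⟨ξ, hξ⟩ := HasEnoughRootsOfUnity.exists_primitiveRoot Qb N
  -- inertia outside `S` fixes `δ` and `ξ`
  have hfix : ∀ q : Nat.Primes, q ∉ S → ∀ A : ValuationSubring Qb, A.LiesOverPrime (q : ℕ) →
      ∀ σ ∈ A.inertiaSubgroupIn ℚ, σ δ = δ ∧ σ ξ = ξ := by
    intro q hq A hA σ hσ
    have hqp : (q : ℕ) ≠ p := fun h => hq (by rwa [show q = ExtCitation.pPrime p from Subtype.ext h])
    have hqM : ∀ j, ¬ (q : ℕ) ∣ p ^ j := fun j h =>
      hqp ((Nat.prime_dvd_prime_iff_eq q.2 hp).1 (q.2.dvd_of_dvd_pow h))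
    have hξv : A.valuation ξ = 1 := val_eq_one_of_pow_eq_one hN0 hξ.pow_eq_one
    refine ⟨?_, eq_of_val_sub_lt q.2 hA (hqM _) hN0 (by rw [← map_pow, hξ.pow_eq_one, map_one])
      hξ.pow_eq_one (FermatAgent.Local.inertia_val_sub_lt_one hσ
        ((A.valuation_le_one_iff ξ).1 hξv.le))⟩
    obtain ⟨P, hP⟩ := exists_over (K := K) (A := A) ⟨_, q.2, hA⟩
    have hPT : P ∉ T := fun h => by
      obtain ⟨q', hq', hqP⟩ := (hT P).1 h
      exact hq (Subtype.ext (eq_of_natCast_mem hP q.2 hA q'.2 hqP) ▸ hq')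
    obtain ⟨π, hπ⟩ := exists_ord_eq_one P
    set x : Kˣ := π ^ ((m : ℤ) * e ⟨P, hPT⟩)
    have hx0 : ((x : K) : Qb) ≠ 0 := by simp
    set t := δ / ((x : K) : Qb)
    have ht0 : t ≠ 0 := div_ne_zero hδ0 hx0
    have hσK : σ ∈ K.fixingSubgroup := hS.2 q hq A hA hσ
    have htn : t ^ n = (((α / x ^ n : Kˣ) : K) : Qb) := by
      rw [div_pow, hδn]
      simp
    have htv : A.valuation t = 1 := by
      have h1 : A.valuation t ^ n = 1 := by
        rw [← map_pow, htn]
        refine (hP.val_eq_one_iff _).2 ?_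
        rw [ord_div, ord_pow, ord_zpow, hπ, hα ⟨P, hPT⟩]
        push_cast
        ring
      exact (pow_eq_one_iff.1 h1).resolve_right hn0
    have hroot : (σ t / t) ^ n = 1 := by
      rw [div_pow, ← map_pow, htn,
        show σ (((α / x ^ n : Kˣ) : K) : Qb) = _ from hσK ⟨_, ((α / x ^ n : Kˣ) : K).2⟩,
        div_self (by simp)]
    have h2 := FermatAgent.Local.inertia_val_sub_lt_one hσ ((A.valuation_le_one_iff t).1 htv.le)
    have h3 : σ t / t = 1 := eq_one_of_val_sub_one_lt q.2 hA (hqM k) hn0 hroot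
      (by rwa [div_sub_one ht0, map_div₀, htv, div_one])
    rw [div_eq_one_iff_eq ht0, map_div₀,
      show σ ((x : K) : Qb) = _ from hσK ⟨_, (x : K).2⟩, div_left_inj' hx0] at h3
    exact h3
  -- the level
  let F := IntermediateField.normalClosure ℚ (IntermediateField.adjoin ℚ ({δ, ξ} : Set Qb) ⊔ K :
    IntermediateField ℚ Qb) Qb
  have hadj : (IntermediateField.adjoin ℚ ({δ, ξ} : Set Qb)).IsUnramifiedOutside S := by
    refine ⟨IntermediateField.finiteDimensional_adjoin fun x _ => Algebra.IsIntegral.isIntegral x,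
      fun q hq A hA σ hσ => ?_⟩
    rw [← Subgroup.zpowers_le, ← IntermediateField.le_iff_le, IntermediateField.adjoin_le_iff]
    rintro x hx ⟨g, j, rfl⟩
    refine (MulAction.stabilizer GQ x).zpow_mem (?_ : σ • x = x) j
    rcases hx with rfl | rfl
    · exact (hfix q hq A hA σ hσ).1
    · exact (hfix q hq A hA σ hσ).2
  have hF : F.IsUnramifiedOutside S := isUnramifiedOutside_normalClosure (hadj.sup hS)
  have hsub : ({δ, ξ} : Set Qb) ⊆ F := fun x hx =>
    (le_sup_left.trans (IntermediateField.le_normalClosure _)) (IntermediateField.subset_adjoin ℚ _ hx)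
  have hnor : ∀ (g : GQ) {x : Qb}, x ∈ F → g x ∈ F := fun g x hx => by
    have := hF.1
    have : Normal ℚ F := normalClosure.normal ℚ _ Qb
    exact IntermediateField.normal_iff_forall_map_le'.1 this g ⟨x, hx, rfl⟩
  let V : Subgroup K.fixingSubgroup := F.fixingSubgroup.comap K.fixingSubgroup.subtype
  have hV : V ∈ (globalLevels K S).lev := ⟨_, ⟨F, hF, rfl⟩, rfl⟩
  -- the exponent
  set ζ := (muGlobal hK).ζ
  have hζ : IsPrimitiveRoot ζ p := (muGlobal hK).isPrimitiveRoot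
  let v : K.fixingSubgroup → Qb := fun g => rootP p ((g : GQ) δ / δ)
  let w : K.fixingSubgroup → Qb := fun g => (g : GQ) β / β
  have hw0 : ∀ g, w g ≠ 0 := fun g => div_ne_zero (by simpa using hβ0) hβ0
  have hwp : ∀ g, w g ^ p = v g ^ p := fun g => by
    simp only [v, w, rootP_pow, div_pow, ← map_pow]
    rfl
  have hb : ∀ g, ∃ i, zpw p ζ i = v g / w g := fun g => Local.exists_zpw_eq hζ
    (by rw [div_pow, ← hwp, div_self (pow_ne_zero _ (hw0 g))])
  choose b hb using hb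
  have hb' : ∀ g, zpw p ζ (b g) * w g = v g := fun g => by rw [hb, div_mul_cancel₀ _ (hw0 g)]
  have hvF : ∀ g, v g ∈ F := fun g => by
    have h1 : v g ^ N = 1 := by
      rw [show N = p * n from pow_succ' p k, pow_mul, rootP_pow, div_pow, ← map_pow, hδn,
        show (g : GQ) ((α : K) : Qb) = _ from g.2 ⟨_, (α : K).2⟩, div_self hα0]
    obtain ⟨i, -, hi⟩ := hξ.eq_pow_of_pow_eq_one h1
    rw [← hi]
    exact pow_mem (hsub (Set.mem_insert_of_mem _ rfl)) i
  have hvs : ∀ g, ∀ s ∈ V, v (g * s) = v g := fun g s hs => by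
    show rootP p ((g : GQ) ((s : GQ) δ) / δ) = _
    rw [show (s : GQ) δ = δ from hs ⟨δ, hsub (Set.mem_insert _ _)⟩]
  have hwmul : ∀ g h, w (g * h) = w g * (g : GQ) (w h) := fun g h => by
    show (g : GQ) ((h : GQ) β) / β = (g : GQ) β / β * (g : GQ) ((h : GQ) β / β)
    rw [map_div₀, div_mul_div_comm, mul_comm, mul_div_mul_right _ _ (by simpa using hβ0)]
  have hblev : IsLev₁ (subLevels K.fixingSubgroup) b := by
    have h1 : IsLev₁ (subLevels K.fixingSubgroup) fun g : K.fixingSubgroup =>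
        Function.invFun (zpw p ζ) (v g / w g) :=
      Local.isLev₁_map₂ (Local.isLev₁_eval (fun y => rootP p (y / δ)) δ)
        (Local.isLev₁_eval (fun y => y / β) β) fun y z => Function.invFun (zpw p ζ) (y / z)
    have e : b = fun g : K.fixingSubgroup => Function.invFun (zpw p ζ) (v g / w g) := funext fun g =>
      by rw [← hb, Function.leftInverse_invFun (Local.zpw_injective hζ) (b g)]
    rwa [e]
  set c := dd₁ (triv (ZMod p) K.fixingSubgroup) b
  have hc : ∀ g h, zpw p ζ (c (g, h)) * v (g * h) = (g : GQ) (v h) * v g := by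
    intro g h
    have h1 : (g : GQ) (zpw p ζ (b h)) = zpw p ζ (b h) := Local.map_zpw ((muGlobal hK).fixed g g.2) _
    have h2 : c (g, h) + b (g * h) = b h + b g := by
      show b h - b (g * h) + b g + b (g * h) = _
      abel
    rw [← hb' (g * h), ← mul_assoc, ← Local.zpw_add hζ, h2, Local.zpw_add hζ, hwmul, ← hb' h,
      map_mul, h1, ← hb' g]
    ring
  have hclev : IsLev₂ (globalLevels K S) c := by
    refine ⟨V, hV, fun g g' s hs s' hs' => Local.zpw_injective hζ ?_⟩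
    have hv0 : ∀ g, v g ≠ 0 := fun g h => hw0 g (pow_eq_zero_iff hp.ne_zero |>.1 (by
      rw [hwp, h, zero_pow hp.ne_zero]))
    have e1 : v (g * s * (g' * s')) = v (g * g') := by
      show rootP p ((g : GQ) ((s : GQ) ((g' : GQ) ((s' : GQ) δ))) / δ) = _
      rw [show (s' : GQ) δ = δ from hs' ⟨δ, hsub (Set.mem_insert _ _)⟩,
        show (s : GQ) ((g' : GQ) δ) = (g' : GQ) δ from hs ⟨_, hnor _ (hsub (Set.mem_insert _ _))⟩]
      rfl
    have e2 : ((g * s : K.fixingSubgroup) : GQ) (v (g' * s')) = (g : GQ) (v g') := by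
      rw [hvs g' s' hs', Subgroup.coe_mul, AlgEquiv.mul_apply,
        show (s : GQ) (v g') = v g' from hs ⟨_, hvF g'⟩]
    have h1 := hc (g * s) (g' * s')
    rw [e1, e2, hvs g s hs, ← hc g g'] at h1
    exact mul_right_cancel₀ (hv0 _) h1
  refine ⟨⟨α, hα, β, hβ, b, hblev, ⟨c, hclev, fun g h j => ?_⟩, rfl, ?_⟩⟩
  · show (b j - b (g * h * j) + b (g * h)) + (b h - b (g * h) + b g) =
      (b j - b (h * j) + b h) + (b (h * j) - b (g * (h * j)) + b g)
    rw [mul_assoc]
    abel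
  · exact ⟨V, hV, fun g s hs => (hb' (g * s)).trans ((hvs g s hs).trans (hb' g).symm)⟩

variable {hK}

/-- The locally trivial class of a divisor. -/
theorem CapData.loc2_eq_zero {k m : ℕ} {e : TOut T →₀ ℤ} (D : CapData hK S T k m e)
    (A : ValuationSubring Qb) : loc2 p K S A (cl2 (globalLevels K S) (triv (ZMod p) K.fixingSubgroup) D.c) = 0 := by
  show cl2 (localLevels K A) (triv (ZMod p) (localGroup K A)) _ = 0
  refine (cl2_eq_zero_iff _ _ _).2 ⟨fun g => D.b (localIncl K A g), ?_, ?_⟩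
  · obtain ⟨F, hF, h⟩ := Local.isLev₁_iff_exists_field.1 D.lev_b
    exact Local.isLev₁_iff_exists_field.2
      ⟨F, hF, fun g s hs => (congrArg D.b (map_mul _ g s)).trans (h _ _ hs)⟩
  · funext q
    show D.b (localIncl K A q.2) - D.b (localIncl K A (q.1 * q.2)) + D.b (localIncl K A q.1) =
      D.c.1 (localIncl K A q.1, localIncl K A q.2)
    rw [← D.dd_b, map_mul]
    rfl

/-- Two divisors with the same class of degree two differ by a multiple of `p`. -/
theorem CapData.sub_mem_range {k m : ℕ} {e e' : TOut T →₀ ℤ} (D : CapData hK S T k m e)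
    (D' : CapData hK S T k m e') (hSK : K.IsUnramifiedOutside S) (hm : ¬ p ∣ m)
    (hT : ∀ v, v ∈ T ↔ ∃ q ∈ S, ((q : ℕ) : 𝓞 K) ∈ v.asIdeal)
    (h : cl2 (globalLevels K S) (triv (ZMod p) K.fixingSubgroup) D.c =
      cl2 (globalLevels K S) (triv (ZMod p) K.fixingSubgroup) D'.c) :
    (QuotientAddGroup.mk (e - e') : TClass T) ∈ (nsmulAddMonoidHom (α := TClass T) p).range := by
  classical
  have hp := (Fact.out : p.Prime)
  obtain ⟨y, hy, hdy⟩ := (cl2_eq_zero_iff (globalLevels K S) (triv (ZMod p) K.fixingSubgroup)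
    (D.c - D'.c)).1 (by rw [map_sub, h, sub_self])
  set ζ := (muGlobal hK).ζ
  have hζ : IsPrimitiveRoot ζ p := (muGlobal hK).isPrimitiveRoot
  let ε : K.fixingSubgroup → ZMod p := fun g => D.b g - D'.b g - y g
  have hyfull : IsLev₁ (subLevels K.fixingSubgroup) y := by
    obtain ⟨_, ⟨_, ⟨F, hF, rfl⟩, rfl⟩, hU⟩ := hy
    exact ⟨_, ⟨_, ⟨F, hF.1, rfl⟩, rfl⟩, hU⟩
  have hε : ε ∈ Z1 (subLevels K.fixingSubgroup) (triv (ZMod p) K.fixingSubgroup) := by
    refine ⟨Local.isLev₁_map₂ (Local.isLev₁_map₂ D.lev_b D'.lev_b (· - ·)) hyfull (· - ·),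
      fun g h => ?_⟩
    have h1 := congrFun D.dd_b (g, h)
    have h2 := congrFun D'.dd_b (g, h)
    have h3 := congrFun hdy (g, h)
    change D.b h - D.b (g * h) + D.b g = D.c.1 (g, h) at h1
    change D'.b h - D'.b (g * h) + D'.b g = D'.c.1 (g, h) at h2
    change y h - y (g * h) + y g = D.c.1 (g, h) - D'.c.1 (g, h) at h3
    show ε (g * h) = ε h + ε g
    simp only [ε]
    linear_combination h3 - h1 + h2
  obtain ⟨u, hu⟩ := Local.kap_surjective (muGlobal hK) ⟨ε, hε⟩
  obtain ⟨a, rfl⟩ := toFix_surjective (K := K) u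
  set r := rootP p ((a : K) : Qb)
  have hr : r ^ p = ((a : K) : Qb) := rootP_pow _
  have hspec : ∀ g : K.fixingSubgroup, (g : GQ) r = zpw p ζ (ε g) * r := fun g => by
    rw [← show Local.kapFun (muGlobal hK) (toFix a) g = ε g from congrArg (fun z => z.1 g) hu]
    exact Local.kapFun_spec _ (toFix a) hr g
  have hr0 : r ≠ 0 := fun h0 => a.ne_zero (by
    rw [h0, zero_pow hp.ne_zero] at hr
    exact ZeroMemClass.coe_eq_zero.1 hr.symm)
  have hne : ∀ {x : Kˣ} {γ : Qb} {j : ℕ}, γ ^ p ^ j = ((x : K) : Qb) → γ ≠ 0 := fun {x γ j} hx h0 =>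
    x.ne_zero (by
      rw [h0, zero_pow (pow_ne_zero _ hp.ne_zero)] at hx
      exact ZeroMemClass.coe_eq_zero.1 hx.symm)
  set γ := D.β / D'.β * r
  have hγ0 : γ ≠ 0 := mul_ne_zero (div_ne_zero (hne D.β_pow) (hne D'.β_pow)) hr0
  -- `g γ / γ` is level-constant for `S`
  obtain ⟨U, hU, hlev⟩ : IsLev₁ (globalLevels K S) fun g : K.fixingSubgroup => (g : GQ) γ / γ := by
    have key : ∀ g : K.fixingSubgroup, (g : GQ) γ / γ =
        (zpw p ζ (D.b g) * ((g : GQ) D.β / D.β)) / (zpw p ζ (D'.b g) * ((g : GQ) D'.β / D'.β)) /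
          zpw p ζ (y g) := by
      intro g
      have e1 : zpw p ζ (ε g) * (zpw p ζ (D'.b g) * zpw p ζ (y g)) = zpw p ζ (D.b g) := by
        rw [← Local.zpw_add hζ, ← Local.zpw_add hζ]
        congr 1
        simp only [ε]
        ring
      have hg0 : ∀ {x : Qb}, x ≠ 0 → (g : GQ) x ≠ 0 := fun hx => by simpa using hx
      show (g : GQ) (D.β / D'.β * r) / (D.β / D'.β * r) = _
      rw [map_mul, map_div₀, hspec g, ← e1]
      have := hne D.β_pow
      have := hne D'.β_pow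
      have := hg0 (hne D'.β_pow)
      have := Local.zpw_ne_zero (p := p) hζ (D'.b g)
      have := Local.zpw_ne_zero (p := p) hζ (y g)
      field_simp
    obtain ⟨U₁, hU₁, h1⟩ := D.lev_twist
    obtain ⟨U₂, hU₂, h2⟩ := D'.lev_twist
    obtain ⟨U₃, hU₃, h3⟩ := hy
    obtain ⟨W, hW, hle⟩ := (globalLevels K S).inf_mem hU₁ hU₂
    obtain ⟨W', hW', hle'⟩ := (globalLevels K S).inf_mem hW hU₃
    refine ⟨W', hW', fun g s hs => ?_⟩
    simp only [key]
    have a1 := h1 g s (hle (hle' hs).1).1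
    have a2 := h2 g s (hle (hle' hs).1).2
    simp only at a1 a2
    rw [a1, a2, h3 g s (hle' hs).2]
  obtain ⟨_, ⟨F, hF, rfl⟩, rfl⟩ := hU
  set x : Kˣ := D.α / D'.α * a ^ p ^ k
  have hγx : γ ^ p ^ (k + 1) = ((x : K) : Qb) := by
    rw [mul_pow, div_pow, D.β_pow, D'.β_pow, pow_succ' p k, pow_mul, hr]
    simp [x]
  have hdiv : ∀ P : TOut T, (p : ℤ) ∣ (m : ℤ) * (e P - e' P) + ord P.1 a := by
    intro P
    obtain ⟨A, hA⟩ := exists_place P.1
    obtain ⟨l, hl, hlA⟩ := hA.1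
    have hlS : (⟨l, hl⟩ : Nat.Primes) ∉ S := fun h' =>
      P.2 ((hT P.1).2 ⟨_, h', hA.natCast_mem hlA⟩)
    have hfix : ∀ σ ∈ A.inertiaSubgroupIn ℚ, σ γ = γ := by
      intro σ hσ
      by_cases hσK : σ ∈ K.fixingSubgroup
      · have := hlev 1 ⟨σ, hσK⟩ (hF.2 _ hlS A hlA hσ)
        simp only at this
        rw [one_mul, OneMemClass.coe_one, AlgEquiv.one_apply, div_self hγ0,
          div_eq_one_iff_eq hγ0] at this
        exact this
      · exact absurd ((show K.IsUnramifiedOutside S from hSK).2 _ hlS A hlA hσ) hσK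
    have h1 := dvd_ord_of_inertia_fixed hA hl hlA hγ0 hfix hγx
    rw [ord_mul, ord_div, ord_pow, D.ord_α, D'.ord_α, Nat.cast_mul, ← mul_sub, mul_assoc,
      ← mul_add, pow_succ, Nat.cast_mul] at h1
    exact Int.dvd_of_mul_dvd_mul_left (by exact_mod_cast pow_ne_zero k hp.ne_zero) h1
  -- so `m (e - e')` is a multiple of `p` in the class group
  have hmem : (m : ℤ) • (QuotientAddGroup.mk (e - e') : TClass T) ∈
      (nsmulAddMonoidHom (α := TClass T) p).range := by
    set f : TOut T →₀ ℤ := (m : ℤ) • (e - e') + ordOut T (Additive.ofMul a)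
    refine ⟨QuotientAddGroup.mk (f.mapRange (· / (p : ℤ)) (by simp)), ?_⟩
    have e0 : p • f.mapRange (· / (p : ℤ)) (by simp) = f := Finsupp.ext fun P => by
      rw [Finsupp.smul_apply, Finsupp.mapRange_apply, nsmul_eq_mul]
      exact Int.mul_ediv_cancel' (hdiv P)
    rw [nsmulAddMonoidHom_apply, ← QuotientAddGroup.mk_nsmul, e0, QuotientAddGroup.mk_add,
      QuotientAddGroup.mk_zsmul, show (QuotientAddGroup.mk (ordOut T (Additive.ofMul a)) : TClass T) = 0
        from (QuotientAddGroup.eq_zero_iff _).2 ⟨_, rfl⟩, add_zero]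
  obtain ⟨u, v, huv⟩ : IsCoprime (m : ℤ) p :=
    Nat.isCoprime_iff_coprime.mpr (hp.coprime_iff_not_dvd.mpr hm).symm
  rw [← one_zsmul (QuotientAddGroup.mk (e - e') : TClass T), ← huv, add_zsmul, mul_zsmul, mul_zsmul]
  refine add_mem (zsmul_mem hmem _) (zsmul_mem ?_ _)
  exact ⟨_, (natCast_zsmul _ _).symm⟩

end

end FermatAgent.Duality.Global
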