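import Fermat.Agent.Duality.Global.LocalSymbol
import Fermat.Agent.Duality.Global.SUnits

/-!
# The Kummer extension attached to an element

`kummerExt K a = K(a^(1/p))`, an automorphism `s` generating its group over `K`, the primes over a
finite set `T` of primes of `K`, and their number.
-/

set_option autoImplicit false

open scoped Pointwise

namespace FermatAgent.Duality.Global

open IsDedekindDomain NumberField Module
open FermatAgent.Duality.Local (kap kapFun kapFun_spec kapFun_eq_of zpw rootP rootP_pow kerChi mem_kerChi)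

noncomputable section

local notation "Qb" => AlgebraicClosure ℚ
local notation "GQ" => AlgebraicClosure ℚ ≃ₐ[ℚ] AlgebraicClosure ℚ

attribute [local instance] FermatAgent.RT.isGalois_algClosureRat numberField_of_finite

theorem val_eq_one_smul_iff (g : GQ) (A : ValuationSubring Qb) (x : Qb) :
    (g • A).valuation x = 1 ↔ A.valuation (g⁻¹ x) = 1 := by
  have h : ∀ B : ValuationSubring Qb, ∀ y : Qb, B.valuation y = 1 ↔ y ∈ B ∧ y ∉ B.nonunits := by
    intro B y
    rw [ValuationSubring.mem_nonunits_iff, not_lt, ← B.valuation_le_one_iff]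
    exact le_antisymm_iff
  rw [h, h, ValuationSubring.mem_pointwise_smul_iff_inv_smul_mem,
    FermatAgent.GalRep.mem_nonunits_smul_iff, AlgEquiv.smul_def]

variable {p : ℕ} [Fact p.Prime] {K : IntermediateField ℚ Qb} [FiniteDimensional ℚ K]
  (hK : ContainsMuP p K)

/-- The Kummer cocycle of an element of `K`. -/
def chi (a : Kˣ) : Z1 (subLevels K.fixingSubgroup) (triv (ZMod p) K.fixingSubgroup) :=
  kap (muGlobal hK) (toFix a)

omit [FiniteDimensional ℚ K] in
theorem cl1_chi (a : Kˣ) :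
    cl1 (subLevels K.fixingSubgroup) (triv (ZMod p) K.fixingSubgroup) (chi hK a) = kappa hK a := rfl

omit [FiniteDimensional ℚ K] in
theorem chi_root (a : Kˣ) (g : K.fixingSubgroup) :
    (g : GQ) (rootP p ((a : K) : Qb)) =
      zpw p (muGlobal hK).ζ ((chi hK a).1 g) * rootP p ((a : K) : Qb) :=
  kapFun_spec (muGlobal hK) (toFix a) (rootP_pow _) g

/-- `K(a ^ (1/p))`. -/
def kummerExt (p : ℕ) [Fact p.Prime] {K : IntermediateField ℚ Qb} (a : Kˣ) : IntermediateField ℚ Qb :=
  K ⊔ IntermediateField.adjoin ℚ {rootP p ((a : K) : Qb)}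

instance finiteDimensional_kummerExt (a : Kˣ) : FiniteDimensional ℚ (kummerExt p a) := by
  have : FiniteDimensional ℚ (IntermediateField.adjoin ℚ {rootP p ((a : K) : Qb)}) :=
    IntermediateField.adjoin.finiteDimensional
      ((AlgebraicClosure.isAlgebraic ℚ).isAlgebraic _).isIntegral
  exact IntermediateField.finiteDimensional_sup _ _

omit [FiniteDimensional ℚ K] in
theorem le_kummerExt (a : Kˣ) : K ≤ kummerExt p a := le_sup_left

omit [FiniteDimensional ℚ K] in
theorem rootP_mem (a : Kˣ) : rootP p ((a : K) : Qb) ∈ kummerExt p a :=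
  (le_sup_right : _ ≤ kummerExt p a) (IntermediateField.mem_adjoin_simple_self ℚ _)

omit [FiniteDimensional ℚ K] in
theorem rootP_ne_zero (a : Kˣ) : rootP p ((a : K) : Qb) ≠ 0 :=
  Local.ne_zero_of_pow_eq (a := toFix a) (rootP_pow (p := p) _)

omit [FiniteDimensional ℚ K] in
theorem mem_fix_kummerExt (a : Kˣ) {g : GQ} :
    g ∈ (kummerExt p a).fixingSubgroup ↔
      ∃ h : g ∈ K.fixingSubgroup, (chi hK a).1 ⟨g, h⟩ = 0 := by
  rw [kummerExt, IntermediateField.fixingSubgroup_sup, Subgroup.mem_inf]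
  constructor
  · rintro ⟨h, h'⟩
    refine ⟨h, kapFun_eq_of (muGlobal hK) (toFix a) (rootP_pow _) _ _ ?_⟩
    rw [Local.zpw_zero, one_mul]
    exact h' ⟨_, IntermediateField.mem_adjoin_simple_self ℚ _⟩
  · rintro ⟨h, h0⟩
    refine ⟨h, ?_⟩
    rw [← Subgroup.zpowers_le, ← IntermediateField.le_iff_le, IntermediateField.adjoin_simple_le_iff]
    rintro ⟨τ, hτ⟩
    obtain ⟨i, rfl⟩ := Subgroup.mem_zpowers_iff.mp hτ
    refine MulAction.mem_stabilizer_iff.mp ((MulAction.stabilizer GQ (rootP p ((a : K) : Qb))).zpow_mem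
      (MulAction.mem_stabilizer_iff.mpr ?_) i)
    show g (rootP p ((a : K) : Qb)) = _
    have := chi_root hK a ⟨g, h⟩
    rwa [h0, Local.zpw_zero, one_mul] at this

variable {a : Kˣ} (ha : kappa hK a ≠ 0)

omit [FiniteDimensional ℚ K] in
include ha in
theorem exists_chi_eq_one : ∃ s : K.fixingSubgroup, (chi hK a).1 s = 1 := by
  obtain ⟨g, hg⟩ : ∃ g, (chi hK a).1 g ≠ 0 := by
    by_contra! hall
    exact ha (by rw [← cl1_chi, show chi hK a = 0 from Subtype.ext (funext hall), map_zero])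
  refine ⟨g ^ ((chi hK a).1 g)⁻¹.val, ?_⟩
  have : NeZero p := ⟨(Fact.out : p.Prime).ne_zero⟩
  rw [Local.chi_pow, ZMod.natCast_zmod_val, inv_mul_cancel₀ hg]

omit [FiniteDimensional ℚ K] in
include ha in
theorem finrank_kummerExt : finrank ℚ (kummerExt p a) = p * finrank ℚ K := by
  rw [IntermediateField.finrank_eq_fixingSubgroup_index,
    IntermediateField.finrank_eq_fixingSubgroup_index]
  have hle : (kummerExt p a).fixingSubgroup ≤ K.fixingSubgroup :=
    IntermediateField.fixingSubgroup_antitone (le_kummerExt a)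
  rw [← Subgroup.relIndex_mul_index hle]
  congr 1
  obtain ⟨s, hs⟩ := exists_chi_eq_one hK ha
  have hsub : (kummerExt p a).fixingSubgroup.subgroupOf K.fixingSubgroup = kerChi (chi hK a) := by
    ext g
    rw [Subgroup.mem_subgroupOf, mem_fix_kummerExt hK a, mem_kerChi]
    exact ⟨fun ⟨_, h⟩ => h, fun h => ⟨g.2, h⟩⟩
  rw [Subgroup.relIndex, hsub, Subgroup.index]
  have : NeZero p := ⟨(Fact.out : p.Prime).ne_zero⟩
  refine (Nat.card_eq_of_bijective
    (fun i : ZMod p => (QuotientGroup.mk (s ^ i.val) : _ ⧸ kerChi (chi hK a))) ⟨?_, ?_⟩).symm.trans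
    (Nat.card_zmod p)
  · intro i j hij
    have h := QuotientGroup.eq.mp hij
    rw [mem_kerChi, Local.chi_mul, Local.chi_inv, Local.chi_pow, Local.chi_pow, hs, mul_one,
      mul_one, ZMod.natCast_zmod_val, ZMod.natCast_zmod_val, neg_add_eq_zero] at h
    exact h
  · intro q
    obtain ⟨g, rfl⟩ := QuotientGroup.mk_surjective q
    exact ⟨(chi hK a).1 g, QuotientGroup.eq.mpr (Local.inv_pow_mul_mem hs g)⟩

variable {s : K.fixingSubgroup} (hs : (chi hK a).1 s = 1)

omit [FiniteDimensional ℚ K] in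
include hK in
theorem conj_mem_fix (g : K.fixingSubgroup) {n : GQ} (hn : n ∈ (kummerExt p a).fixingSubgroup) :
    (g : GQ)⁻¹ * n * g ∈ (kummerExt p a).fixingSubgroup := by
  obtain ⟨h, h0⟩ := (mem_fix_kummerExt hK a).mp hn
  refine (mem_fix_kummerExt hK a).mpr ⟨mul_mem (mul_mem (inv_mem g.2) h) g.2, ?_⟩
  exact Local.conj_mem_kerChi (chi hK a) (mem_kerChi _ |>.mpr h0) g

omit [FiniteDimensional ℚ K] in
include hK in
theorem apply_mem (g : K.fixingSubgroup) {x : Qb} (hx : x ∈ kummerExt p a) :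
    (g : GQ) x ∈ kummerExt p a := by
  have h : (g : GQ) x ∈ IntermediateField.fixedField (kummerExt p a).fixingSubgroup := by
    rintro ⟨n, hn⟩
    show n ((g : GQ) x) = (g : GQ) x
    have h1 : ((g : GQ)⁻¹ * n * g) x = x := (conj_mem_fix hK g hn) ⟨x, hx⟩
    conv_rhs => rw [← h1]
    rw [← AlgEquiv.mul_apply, ← AlgEquiv.mul_apply]
    congr 1
    group
  rwa [InfiniteGalois.fixedField_fixingSubgroup] at h

/-- `x ↦ g x` on the units of the Kummer extension. -/
def galU (g : K.fixingSubgroup) : (kummerExt p a)ˣ →* (kummerExt p a)ˣ where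
  toFun x := Units.mk0 ⟨(g : GQ) ((x : kummerExt p a) : Qb), apply_mem hK g (x : kummerExt p a).2⟩
    fun h => x.ne_zero (Subtype.ext ((g : GQ).injective
      ((congrArg Subtype.val h).trans (map_zero (g : GQ)).symm)))
  map_one' := Units.ext (Subtype.ext (map_one (g : GQ)))
  map_mul' _ _ := Units.ext (Subtype.ext (map_mul (g : GQ) _ _))

omit [FiniteDimensional ℚ K] in
include hs in
/-- On the Kummer extension every `g ∈ G_K` is a power of `s`. -/
theorem apply_eq_pow (g : K.fixingSubgroup) {x : Qb} (hx : x ∈ kummerExt p a) :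
    (g : GQ) x = ((s ^ ((chi hK a).1 g).val : K.fixingSubgroup) : GQ) x := by
  set t := s ^ ((chi hK a).1 g).val
  have h : ((t⁻¹ * g : K.fixingSubgroup) : GQ) ∈ (kummerExt p a).fixingSubgroup :=
    (mem_fix_kummerExt hK a).mpr ⟨(t⁻¹ * g).2, Local.inv_pow_mul_mem hs g⟩
  have h1 : ((t⁻¹ * g : K.fixingSubgroup) : GQ) x = x := h ⟨x, hx⟩
  conv_rhs => rw [← h1]
  rw [← AlgEquiv.mul_apply, ← Subgroup.coe_mul, mul_inv_cancel_left]

omit [FiniteDimensional ℚ K] in
include hK in
/-- A nontrivial local component gives an element of the local group moving the root. -/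
theorem exists_local_chi_ne_zero {A : ValuationSubring Qb} (h : locF1 A (kappa hK a) ≠ 0) :
    ∃ d : localGroup K A, (chi hK a).1 ⟨d, d.2.1⟩ ≠ 0 := by
  by_contra! hall
  exact h (by
    rw [← cl1_chi]
    exact Local.cl1_triv_eq_zero_iff.mpr (Subtype.ext (funext fun d => hall d)))

omit [FiniteDimensional ℚ K] in
theorem chi_eq_zero_of_local {A : ValuationSubring Qb} (h : locF1 A (kappa hK a) = 0)
    (d : GQ) (hd : d ∈ localGroup K A) : (chi hK a).1 ⟨d, hd.1⟩ = 0 := by
  rw [← cl1_chi] at h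
  exact congrFun (congrArg Subtype.val (Local.cl1_triv_eq_zero_iff.mp h)) ⟨d, hd⟩

/-! ### The primes over `T` -/

variable (pl : HeightOneSpectrum (𝓞 K) → ValuationSubring Qb) (hpl : ∀ P, Over K (pl P) P)

omit [FiniteDimensional ℚ K] in
include hpl in
/-- The prime of the extension induced by `s ^ i • pl P`. -/
theorem exists_primeAt (s : K.fixingSubgroup) (q : HeightOneSpectrum (𝓞 K) × ZMod p) :
    ∃ Q : HeightOneSpectrum (𝓞 (kummerExt p a)),
      Over (kummerExt p a) (((s ^ q.2.val : K.fixingSubgroup) : GQ) • pl q.1) Q :=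
  exists_over ((hpl q.1).1.smul _)

/-- The prime of the extension induced by `s ^ i • pl P`. -/
def primeAt (s : K.fixingSubgroup) (q : HeightOneSpectrum (𝓞 K) × ZMod p) :
    HeightOneSpectrum (𝓞 (kummerExt p a)) :=
  (exists_primeAt pl hpl s q).choose

omit [FiniteDimensional ℚ K] in
theorem over_primeAt (s : K.fixingSubgroup) (q : HeightOneSpectrum (𝓞 K) × ZMod p) :
    Over (kummerExt p a) (((s ^ q.2.val : K.fixingSubgroup) : GQ) • pl q.1)
      (primeAt pl hpl s q) :=
  (exists_primeAt pl hpl s q).choose_spec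

open scoped Classical in
/-- The primes of the extension over `T`. -/
def primesAbove (s : K.fixingSubgroup) (T : Finset (HeightOneSpectrum (𝓞 K))) :
    Finset (HeightOneSpectrum (𝓞 (kummerExt p a))) :=
  have : NeZero p := ⟨(Fact.out : p.Prime).ne_zero⟩
  (T ×ˢ (Finset.univ : Finset (ZMod p))).image (primeAt pl hpl s)

include hs in
theorem mem_primesAbove_iff {T : Finset (HeightOneSpectrum (𝓞 K))} {A : ValuationSubring Qb}
    {Q : HeightOneSpectrum (𝓞 (kummerExt p a))} {P : HeightOneSpectrum (𝓞 K)}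
    (hQ : Over (kummerExt p a) A Q) (hP : Over K A P) :
    Q ∈ primesAbove pl hpl s T ↔ P ∈ T := by
  classical
  have : NeZero p := ⟨(Fact.out : p.Prime).ne_zero⟩
  have hle : (kummerExt p a).fixingSubgroup ≤ K.fixingSubgroup :=
    IntermediateField.fixingSubgroup_antitone (le_kummerExt a)
  constructor
  · intro h
    obtain ⟨⟨P', i⟩, hmem, rfl⟩ := Finset.mem_image.mp h
    obtain ⟨n, hn, hA⟩ := exists_smul_eq_of_over (over_primeAt pl hpl s (P', i)) hQ
    have h' : Over K A P' := by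
      rw [hA]; exact ((hpl P').smul (s ^ i.val).2).smul (hle hn)
    rw [hP.eq h']
    exact (Finset.mem_product.mp hmem).1
  · intro h
    obtain ⟨g, hg, hA⟩ := exists_smul_eq_of_over (hpl P) hP
    refine Finset.mem_image.mpr
      ⟨(P, (chi hK a).1 ⟨g, hg⟩), Finset.mem_product.mpr ⟨h, Finset.mem_univ _⟩, ?_⟩
    set t := s ^ ((chi hK a).1 ⟨g, hg⟩).val
    have hn : ((⟨g, hg⟩ * t⁻¹ : K.fixingSubgroup) : GQ) ∈ (kummerExt p a).fixingSubgroup := by
      refine (mem_fix_kummerExt hK a).mpr ⟨(⟨g, hg⟩ * t⁻¹ : K.fixingSubgroup).2, ?_⟩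
      show (chi hK a).1 (⟨g, hg⟩ * t⁻¹) = 0
      rw [Local.chi_mul, Local.chi_inv, Local.chi_pow, hs, mul_one, ZMod.natCast_zmod_val,
        add_neg_cancel]
    have hA' : A = ((⟨g, hg⟩ * t⁻¹ : K.fixingSubgroup) : GQ) • ((t : GQ) • pl P) := by
      rw [← mul_smul, ← Subgroup.coe_mul, inv_mul_cancel_right]
      exact hA
    exact ((over_primeAt pl hpl s (P, _)).smul hn).eq (hA' ▸ hQ)

open scoped Classical in
include hs in
theorem card_primesAbove (T : Finset (HeightOneSpectrum (𝓞 K))) :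
    (primesAbove (p := p) (a := a) pl hpl s T).card =
      (T.filter fun P => locF1 (pl P) (kappa hK a) ≠ 0).card +
        p * (T.filter fun P => locF1 (pl P) (kappa hK a) = 0).card := by
  have : NeZero p := ⟨(Fact.out : p.Prime).ne_zero⟩
  have hle : (kummerExt p a).fixingSubgroup ≤ K.fixingSubgroup :=
    IntermediateField.fixingSubgroup_antitone (le_kummerExt a)
  -- two of the primes agree iff the exponents differ by a value of `χ` on the local group
  have key : ∀ P P' : HeightOneSpectrum (𝓞 K), ∀ i j : ZMod p,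
      primeAt (a := a) pl hpl s (P, i) = primeAt pl hpl s (P', j) ↔
        P = P' ∧ ∃ d, ∃ hd : d ∈ localGroup K (pl P), (chi hK a).1 ⟨d, hd.1⟩ = i - j := by
    intro P P' i j
    constructor
    · intro h
      obtain ⟨n, hn, hA⟩ := exists_smul_eq_of_over (over_primeAt pl hpl s (P, i))
        (h ▸ over_primeAt pl hpl s (P', j))
      obtain ⟨hnK, hn0⟩ := (mem_fix_kummerExt hK a).mp hn
      obtain rfl : P = P' := by
        refine (((hpl P).smul (s ^ i.val).2).smul hnK).eq ?_
        rw [← hA]; exact (hpl P').smul (s ^ j.val).2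
      refine ⟨rfl, _, ⟨((s ^ j.val)⁻¹ * (⟨n, hnK⟩ * s ^ i.val)).2, ?_⟩, ?_⟩
      · show ((((s ^ j.val)⁻¹ * (⟨n, hnK⟩ * s ^ i.val) : K.fixingSubgroup)) : GQ) • pl P = pl P
        rw [Subgroup.coe_mul, Subgroup.coe_inv, Subgroup.coe_mul, mul_smul, mul_smul, inv_smul_eq_iff]
        exact hA.symm
      · show (chi hK a).1 ((s ^ j.val)⁻¹ * (⟨n, hnK⟩ * s ^ i.val)) = i - j
        rw [Local.chi_mul, Local.chi_mul, Local.chi_inv, Local.chi_pow, Local.chi_pow, hs, hn0,
          mul_one, mul_one, ZMod.natCast_zmod_val, ZMod.natCast_zmod_val]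
        ring
    · rintro ⟨rfl, d, hd, hdi⟩
      set n : K.fixingSubgroup := s ^ j.val * ⟨d, hd.1⟩ * (s ^ i.val)⁻¹
      have hn : (n : GQ) ∈ (kummerExt p a).fixingSubgroup := by
        refine (mem_fix_kummerExt hK a).mpr ⟨n.2, ?_⟩
        show (chi hK a).1 n = 0
        rw [Local.chi_mul, Local.chi_mul, Local.chi_inv, Local.chi_pow, Local.chi_pow, hs, hdi,
          mul_one, mul_one, ZMod.natCast_zmod_val, ZMod.natCast_zmod_val]
        ring
      have hA : ((s ^ j.val : K.fixingSubgroup) : GQ) • pl P =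
          (n : GQ) • (((s ^ i.val : K.fixingSubgroup) : GQ) • pl P) := by
        rw [← mul_smul, ← Subgroup.coe_mul, inv_mul_cancel_right, Subgroup.coe_mul, mul_smul,
          show (d : GQ) • pl P = pl P from hd.2]
      exact ((over_primeAt pl hpl s (P, i)).smul hn).eq (hA ▸ over_primeAt pl hpl s (P, j))
  rw [primesAbove]
  rw [show (T ×ˢ (Finset.univ : Finset (ZMod p))).image (primeAt (a := a) pl hpl s) =
      ((T.filter fun P => locF1 (pl P) (kappa hK a) ≠ 0).image fun P => primeAt pl hpl s (P, 0)) ∪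
      (((T.filter fun P => locF1 (pl P) (kappa hK a) = 0) ×ˢ (Finset.univ : Finset (ZMod p))).image
        (primeAt pl hpl s)) from ?_]
  · rw [Finset.card_union_of_disjoint ?_, Finset.card_image_of_injOn ?_,
      Finset.card_image_of_injOn ?_, Finset.card_product, Finset.card_univ, ZMod.card, mul_comm p]
    · rintro ⟨P, i⟩ hP ⟨P', j⟩ - h
      obtain ⟨rfl, d, hd, hdi⟩ := (key _ _ _ _).mp h
      rw [chi_eq_zero_of_local hK (Finset.mem_filter.mp (Finset.mem_product.mp hP).1).2 d hd,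
        eq_comm, sub_eq_zero] at hdi
      rw [hdi]
    · intro P _ P' _ h
      exact ((key _ _ _ _).mp h).1
    · rw [Finset.disjoint_left]
      rintro Q hQ hQ'
      obtain ⟨P, hP, rfl⟩ := Finset.mem_image.mp hQ
      obtain ⟨⟨P', j⟩, hP', h⟩ := Finset.mem_image.mp hQ'
      obtain ⟨rfl, -⟩ := (key _ _ _ _).mp h
      exact (Finset.mem_filter.mp hP).2 (Finset.mem_filter.mp (Finset.mem_product.mp hP').1).2
  · ext Q
    simp only [Finset.mem_union, Finset.mem_image, Finset.mem_product, Finset.mem_filter,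
      Finset.mem_univ, and_true, Prod.exists]
    constructor
    · rintro ⟨P, i, hP, rfl⟩
      by_cases h : locF1 (pl P) (kappa hK a) = 0
      · exact Or.inr ⟨P, i, ⟨hP, h⟩, rfl⟩
      · refine Or.inl ⟨P, ⟨hP, h⟩, ((key P P i 0).mpr ⟨rfl, ?_⟩).symm⟩
        obtain ⟨d, hd⟩ := exists_local_chi_ne_zero hK h
        refine ⟨_, (d ^ (((chi hK a).1 ⟨d, d.2.1⟩)⁻¹ * i).val).2, ?_⟩
        show (chi hK a).1 (⟨d, d.2.1⟩ ^ _) = i - 0
        rw [Local.chi_pow, ZMod.natCast_zmod_val, sub_zero, mul_comm _ i, mul_assoc,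
          inv_mul_cancel₀ hd, mul_one]
    · rintro (⟨P, ⟨hP, -⟩, rfl⟩ | ⟨P, i, ⟨hP, -⟩, rfl⟩)
      · exact ⟨P, 0, hP, rfl⟩
      · exact ⟨P, i, hP, rfl⟩

end

end FermatAgent.Duality.Global
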