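import Fermat.Agent.Duality.Global.SymbolLevel
import Fermat.Agent.Duality.Bridge.Ramified

/-!
# `H²(G_{K,S}) → H²(G_K)` is injective for big `S`

A cochain of `G_K` with coboundary on a level unramified outside `S` is, on that level, a character
invariant under conjugation. Its ramification outside `S` is removed by a Kummer class of `K`.
-/

set_option autoImplicit false

open scoped Pointwise

namespace FermatAgent.Duality.Global

open IsDedekindDomain NumberField Module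

noncomputable section

local notation "Qb" => AlgebraicClosure ℚ
local notation "GQ" => AlgebraicClosure ℚ ≃ₐ[ℚ] AlgebraicClosure ℚ

attribute [local instance] FermatAgent.RT.isGalois_algClosureRat numberField_of_finite

variable {p : ℕ} [Fact p.Prime] {K : IntermediateField ℚ Qb} [FiniteDimensional ℚ K]
  (hK : ContainsMuP p K) {S : Finset Nat.Primes} {T : Finset (HeightOneSpectrum (𝓞 K))}
  (hS : K.IsUnramifiedOutside S) (hpS : ExtCitation.pPrime p ∈ S)
  (hT : ∀ P, P ∈ T ↔ ∃ q ∈ S, ((q : ℕ) : 𝓞 K) ∈ P.asIdeal)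
  (hbig : ClassGroupGenerated p K S)

/-- On the inertia of a field unramified at `A` a character is a multiple of the Kummer character of
a uniformiser of `K`. -/
theorem exists_smul_on_inertia {A : ValuationSubring Qb} {P : HeightOneSpectrum (𝓞 K)}
    (hP : Over K A P) {l : ℕ} (hl : l.Prime) (hA : A.LiesOverPrime l) (hlp : l ≠ p)
    {π : Kˣ} (hπ : ord P π = 1) {E : IntermediateField ℚ Qb} [FiniteDimensional ℚ E] (hKE : K ≤ E)
    (hI : A.inertiaSubgroupIn ℚ ≤ E.fixingSubgroup)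
    (ψ : Z1 (subLevels E.fixingSubgroup) (triv (ZMod p) E.fixingSubgroup)) :
    ∃ lam : ZMod p, ∀ (σ : GQ) (hσ : σ ∈ A.inertiaSubgroupIn ℚ),
      ψ.1 ⟨σ, hI hσ⟩ =
        lam * (chi hK π).1 ⟨σ, IntermediateField.fixingSubgroup_antitone hKE (hI hσ)⟩ := by
  have hE := containsMuP_mono hK hKE
  have hLD := localDualityAt p hl E hE hA
  have := hLD.finite_H1
  let π' : Eˣ := Units.map (IntermediateField.inclusion hKE).toRingHom.toMonoidHom π
  have hdec : ∀ {σ : GQ}, σ ∈ A.inertiaSubgroupIn ℚ → σ ∈ localGroup E A := fun {σ} hσ =>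
    ⟨hI hσ, (FermatAgent.LocalP.mem_inertia_iff_sub_mem.mp hσ).1⟩
  have hval : ∀ x : localH1 p E A, x ∈ unramifiedH1 p E A → ∀ f, cl1 (localLevels E A)
      (triv (ZMod p) (localGroup E A)) f = x → ∀ (σ : GQ) (hσ : σ ∈ A.inertiaSubgroupIn ℚ),
        f.1 ⟨σ, hdec hσ⟩ = 0 := by
    rintro _ hx f rfl σ hσ
    rw [unramifiedH1, LinearMap.mem_ker] at hx
    obtain ⟨m, hm⟩ := (cl1_eq_zero_iff _ _ _).mp hx
    have := congrFun hm ⟨⟨σ, hdec hσ⟩, hσ⟩
    simp at this
    exact this.symm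
  have hπn : locF1 A (kappa hE π') ∉ unramifiedH1 p E A := by
    intro hu
    have h0 : ∀ (σ : GQ) (hσ : σ ∈ A.inertiaSubgroupIn ℚ),
        (chi hK π).1 ⟨σ, IntermediateField.fixingSubgroup_antitone hKE (hI hσ)⟩ = 0 :=
      fun σ hσ => hval _ hu (Local.kap (Local.muDataLocal p E hE A) (toLocal A π')) rfl σ hσ
    have hun : locF1 A (kappa hK π) ∈ unramifiedH1 p K A := by
      rw [← cl1_chi, unramifiedH1, LinearMap.mem_ker]
      refine (cl1_eq_zero_iff _ _ _).2 ⟨0, ?_⟩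
      rw [map_zero]
      funext σ
      exact (h0 _ σ.2).symm
    have := dvd_ord_of_unramified hK hP hl hA hlp hun
    rw [hπ] at this
    exact (Fact.out : p.Prime).not_dvd_one (Int.natCast_dvd_natCast.mp (by exact_mod_cast this))
  set xψ : localH1 p E A :=
    locF1 A (cl1 (subLevels E.fixingSubgroup) (triv (ZMod p) E.fixingSubgroup) ψ) with hxψ
  have htop : unramifiedH1 p E A ⊔ Submodule.span (ZMod p) {locF1 A (kappa hE π')} = ⊤ := by
    apply Submodule.eq_top_of_finrank_eq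
    refine le_antisymm (Submodule.finrank_le _) ?_
    have h1 : unramifiedH1 p E A <
        unramifiedH1 p E A ⊔ Submodule.span (ZMod p) {locF1 A (kappa hE π')} :=
      left_lt_sup.mpr fun h' => hπn (h' (Submodule.mem_span_singleton_self _))
    have h2 := Submodule.finrank_lt_finrank_of_lt h1
    rw [hLD.finrank_unramified] at h2
    rw [hLD.finrank_H1, localDegree, if_neg hlp]
    omega
  obtain ⟨u, hu, z, hz, huz⟩ := Submodule.mem_sup.mp (htop ▸ Submodule.mem_top (x := xψ))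
  obtain ⟨lam, rfl⟩ := Submodule.mem_span_singleton.mp hz
  refine ⟨lam, fun σ hσ => ?_⟩
  let f₀ : Z1 (subLevels (localGroup E A)) (triv (ZMod p) (localGroup E A)) :=
    mapZ1 (φ := LinearMap.id) (triv (ZMod p) E.fixingSubgroup) (triv (ZMod p) (localGroup E A))
      (isLevHom_inclusion (inf_le_left : localGroup E A ≤ E.fixingSubgroup)) (fun _ _ => rfl) ψ
  have hf : cl1 (localLevels E A) (triv (ZMod p) (localGroup E A))
      (f₀ -
        lam • Local.kap (Local.muDataLocal p E hE A) (toLocal A π')) = u := by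
    rw [map_sub, map_smul]
    exact sub_eq_of_eq_add (show xψ = u + lam • locF1 A (kappa hE π') from huz.symm)
  have := hval u hu _ hf σ hσ
  exact sub_eq_zero.mp this

include hK hS hpS hT hbig in
set_option maxHeartbeats 1000000 in
/-- Inflation in degree two is injective. -/
theorem infl2_injective : Function.Injective (infl2 (p := p) (K := K) (S := S)) := by
  classical
  have hp := (Fact.out : p.Prime)
  have : NeZero p := ⟨hp.ne_zero⟩
  refine (injective_iff_map_eq_zero _).2 fun x hx => ?_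
  obtain ⟨c, rfl⟩ := Submodule.mkQ_surjective _ x
  obtain ⟨y, hylev, hdy⟩ := (cl2_eq_zero_iff _ _ _).1 hx
  obtain ⟨Fy, hFy, hyl⟩ := Local.isLev₁_iff_exists_field.1 hylev
  obtain ⟨_, ⟨_, ⟨F, hF, rfl⟩, rfl⟩, hc⟩ := c.2.1
  obtain ⟨N, hN, hleN, hn⟩ := exists_normal_unramified (hF.sup hS)
  have := hN.1
  have hFN : F ≤ N := le_sup_left.trans hleN
  have hKN : K ≤ N := le_sup_right.trans hleN
  have hNK : N.fixingSubgroup ≤ K.fixingSubgroup := IntermediateField.fixingSubgroup_antitone hKN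
  have hdy' : ∀ g h : K.fixingSubgroup, y h - y (g * h) + y g = c.1 (g, h) := fun g h =>
    congrFun hdy (g, h)
  set c0 := c.1 (1, 1) with hc0
  have hcu : ∀ g u : K.fixingSubgroup, (u : GQ) ∈ N.fixingSubgroup →
      c.1 (g, u) = c0 ∧ c.1 (u, g) = c0 := by
    intro g u hu
    have huF : (u : GQ) ∈ F.fixingSubgroup := IntermediateField.fixingSubgroup_antitone hFN hu
    have h1 := hc g 1 1 (one_mem _) u huF
    have h2 := hc 1 g u huF 1 (one_mem _)
    simp only [one_mul, mul_one] at h1 h2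
    have e1 : c.1 (g * 1, 1) + c.1 (g, 1) = c.1 (1, 1) + c.1 (g, 1 * 1) := c.2.2 g 1 1
    have e2 : c.1 (1 * 1, g) + c.1 (1, 1) = c.1 (1, g) + c.1 (1, 1 * g) := c.2.2 1 1 g
    simp only [mul_one, one_mul] at e1 e2
    exact ⟨h1.trans (by linear_combination e1), h2.trans (by linear_combination -e2)⟩
  let ι : N.fixingSubgroup → K.fixingSubgroup := fun u => ⟨u, hNK u.2⟩
  -- `y` on `N` is a character, invariant under conjugation
  have hyr : ∀ g (u : N.fixingSubgroup), y (g * ι u) = y g + (y (ι u) - c0) := fun g u => by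
    linear_combination -(hdy' g (ι u)) - (hcu g (ι u) u.2).1
  have hyl' : ∀ g (u : N.fixingSubgroup), y (ι u * g) = y g + (y (ι u) - c0) := fun g u => by
    linear_combination -(hdy' (ι u) g) - (hcu g (ι u) u.2).2
  let ψ : Z1 (subLevels N.fixingSubgroup) (triv (ZMod p) N.fixingSubgroup) :=
    ⟨fun u => y (ι u) - c0, Local.isLev₁_iff_exists_field.2 ⟨Fy, hFy, fun g u hu => by
        show y (ι g * ι u) - c0 = y (ι g) - c0
        rw [hyl (ι g) (ι u) hu]⟩,
      fun g h => by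
        show y (ι g * ι h) - c0 = (y (ι h) - c0) + (y (ι g) - c0)
        rw [hyr]; ring⟩
  have hconj : ∀ (g : K.fixingSubgroup) (u v : N.fixingSubgroup),
      (v : GQ) = (g : GQ) * u * (g : GQ)⁻¹ → ψ.1 v = ψ.1 u := fun g u v huv => by
    have h1 : ι v * g = g * ι u := Subtype.ext (by
      show (v : GQ) * g = (g : GQ) * u
      rw [huv, inv_mul_cancel_right])
    have h2 := hyr g u
    rw [← h1, hyl'] at h2
    exact add_left_cancel h2
  -- the ramification outside `S`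
  choose pl hpl using exists_place (K := K)
  have hIN : ∀ {P : HeightOneSpectrum (𝓞 K)}, P ∉ T → ∀ {A : ValuationSubring Qb}, Over K A P →
      A.inertiaSubgroupIn ℚ ≤ N.fixingSubgroup := fun {P} hP {A} hA => by
    obtain ⟨l, hl, hlA⟩ := hA.1
    exact hN.2 ⟨l, hl⟩ (fun h => hP ((mem_iff_of_over hT (q := ⟨l, hl⟩) hlA hA).2 h)) A hlA
  have hπex : ∀ P : HeightOneSpectrum (𝓞 K), ∃ π : Kˣ, ord P π = 1 := exists_ord_eq_one
  choose π hπ using hπex
  have hlam : ∀ P : HeightOneSpectrum (𝓞 K), ∃ lam : ZMod p, ∀ (hP : P ∉ T) (σ : GQ)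
      (hσ : σ ∈ (pl P).inertiaSubgroupIn ℚ),
        ψ.1 ⟨σ, hIN hP (hpl P) hσ⟩ = lam * (chi hK (π P)).1 ⟨σ, hNK (hIN hP (hpl P) hσ)⟩ := by
    intro P
    by_cases hP : P ∈ T
    · exact ⟨0, fun h => absurd hP h⟩
    obtain ⟨l, hl, hlA⟩ := (hpl P).1
    have hlp : l ≠ p := fun h => hP (mem_of_natCast_p_mem hpS hT (h ▸ (hpl P).natCast_mem hlA))
    obtain ⟨lam, h⟩ :=
      exists_smul_on_inertia hK (hpl P) hl hlA hlp (hπ P) hKN (hIN hP (hpl P)) ψ
    exact ⟨lam, fun _ σ hσ => h σ hσ⟩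
  choose lam hlam using hlam
  -- it is finite
  have hNy : FiniteDimensional ℚ (Fy ⊔ N : IntermediateField ℚ Qb) :=
    IntermediateField.finiteDimensional_sup _ _
  obtain ⟨S₁, hSS₁, hNyS⟩ := exists_isUnramifiedOutside (Fy ⊔ N) S
  have hψ0 : ∀ u : N.fixingSubgroup, (u : GQ) ∈ (Fy ⊔ N).fixingSubgroup → ψ.1 u = 0 := fun u hu => by
    have h1 := hyl 1 (ι u) (IntermediateField.fixingSubgroup_antitone le_sup_left hu)
    have h2 : y 1 = c0 := by
      have := hdy' 1 1
      rw [one_mul] at this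
      linear_combination this
    show y (ι u) - c0 = 0
    rw [one_mul] at h1
    rw [h1, h2, sub_self]
  obtain ⟨T₁, hT₁⟩ := exists_primesOver K S₁
  have hfin : ∀ P, P ∉ T₁ → P ∉ T → lam P = 0 := by
    intro P hP₁ hP
    obtain ⟨l, hl, hlA⟩ := (hpl P).1
    have hlS : (⟨l, hl⟩ : Nat.Primes) ∉ S₁ := fun h =>
      hP₁ ((hT₁ P).2 ⟨_, h, (hpl P).natCast_mem hlA⟩)
    have hlp : l ≠ p := fun h => hP (mem_of_natCast_p_mem hpS hT (h ▸ (hpl P).natCast_mem hlA))
    by_contra h0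
    have hun : locF1 (pl P) (kappa hK (π P)) ∈ unramifiedH1 p K (pl P) := by
      rw [← cl1_chi, unramifiedH1, LinearMap.mem_ker]
      refine (cl1_eq_zero_iff _ _ _).2 ⟨0, ?_⟩
      rw [map_zero]
      funext σ
      have hσ : ((σ.1 : localGroup K (pl P)) : GQ) ∈ (pl P).inertiaSubgroupIn ℚ := σ.2
      have h := hlam P hP _ hσ
      rw [hψ0 _ (hNyS.2 ⟨l, hl⟩ hlS _ hlA hσ)] at h
      exact ((mul_eq_zero.mp h.symm).resolve_left h0).symm
    have := dvd_ord_of_unramified hK (hpl P) hl hlA hlp hun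
    rw [hπ P] at this
    exact hp.not_dvd_one (Int.natCast_dvd_natCast.mp (by exact_mod_cast this))
  obtain ⟨k, m, hm, hk⟩ := (isBig_primesOver hT hbig).exists_ord
    (fun P => if P ∈ T then 0 else ((lam P).val : ℤ))
    (T₁.finite_toSet.subset fun P hP => by
      by_contra hP₁
      refine hP ?_
      split_ifs with h
      · rfl
      · rw [hfin P hP₁ h, ZMod.val_zero]; rfl)
  have hm0 : (m : ZMod p) ≠ 0 := fun h => hm ((ZMod.natCast_eq_zero_iff _ _).1 h)
  let n := ((m : ZMod p)⁻¹).val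
  let χb : K.fixingSubgroup → ZMod p := fun g => (n : ZMod p) * (chi hK k).1 g
  -- the modified cochain
  let y' : K.fixingSubgroup → ZMod p := fun g => y g - χb g
  have hdy'' : ∀ g h : K.fixingSubgroup, y' h - y' (g * h) + y' g = c.1 (g, h) := fun g h => by
    simp only [y', χb, Local.chi_mul]
    linear_combination hdy' g h
  let V : Subgroup N.fixingSubgroup :=
    { carrier := {u | ψ.1 u - χb (ι u) = 0}
      one_mem' := by
        simp only [Set.mem_ofPred_eq, χb]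
        rw [Local.chi_one, show ι 1 = (1 : K.fixingSubgroup) from rfl, Local.chi_one]
        ring
      mul_mem' := fun {u v} hu hv => by
        simp only [Set.mem_ofPred_eq, χb] at hu hv ⊢
        rw [Local.chi_mul, show ι (u * v) = ι u * ι v from rfl, Local.chi_mul]
        linear_combination hu + hv
      inv_mem' := fun {u} hu => by
        simp only [Set.mem_ofPred_eq, χb] at hu ⊢
        rw [Local.chi_inv, show ι u⁻¹ = (ι u)⁻¹ from rfl, Local.chi_inv]
        linear_combination -hu }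
  set V₀ : Subgroup GQ := V.map N.fixingSubgroup.subtype
  let Fk := kummerExt p k
  have hopen : IsOpen (V₀ : Set GQ) := by
    have : FiniteDimensional ℚ (Fy ⊔ N ⊔ Fk : IntermediateField ℚ Qb) :=
      IntermediateField.finiteDimensional_sup _ _
    refine Subgroup.isOpen_mono (fun g hg => ?_)
      (IntermediateField.fixingSubgroup_isOpen (Fy ⊔ N ⊔ Fk))
    have hgy := IntermediateField.fixingSubgroup_antitone (le_sup_left : Fy ⊔ N ≤ Fy ⊔ N ⊔ Fk) hg
    have hgN := IntermediateField.fixingSubgroup_antitone (le_sup_right : N ≤ Fy ⊔ N) hgy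
    refine ⟨⟨g, hgN⟩, ?_, rfl⟩
    show ψ.1 ⟨g, hgN⟩ - χb (ι ⟨g, hgN⟩) = 0
    obtain ⟨_, h0⟩ := (mem_fix_kummerExt hK k).1
      (IntermediateField.fixingSubgroup_antitone (le_sup_right : Fk ≤ Fy ⊔ N ⊔ Fk) hg)
    simp only [χb]
    rw [hψ0 _ hgy, show (chi hK k).1 (ι ⟨g, hgN⟩) = 0 from h0, mul_zero, sub_zero]
  have hinert : ∀ q : Nat.Primes, q ∉ S → ∀ A : ValuationSubring Qb, A.LiesOverPrime (q : ℕ) →
      A.inertiaSubgroupIn ℚ ≤ V₀ := by
    intro q hq A hA σ hσ
    have hσN : σ ∈ N.fixingSubgroup := hN.2 q hq A hA hσ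
    refine ⟨⟨σ, hσN⟩, ?_, rfl⟩
    show ψ.1 ⟨σ, hσN⟩ - χb (ι ⟨σ, hσN⟩) = 0
    obtain ⟨P, hP⟩ := exists_over (K := K) (A := A) ⟨_, q.2, hA⟩
    have hPT : P ∉ T := fun h => hq ((mem_iff_of_over hT hA hP).1 h)
    obtain ⟨g, hg, hgA⟩ := exists_smul_eq_of_over (hpl P) hP
    have hσ' : g⁻¹ * σ * g ∈ (pl P).inertiaSubgroupIn ℚ := conj_mem_inertia g (hgA ▸ hσ)
    have hu := hIN hPT (hpl P) hσ'
    have h1 : ψ.1 ⟨σ, hσN⟩ = lam P * (chi hK (π P)).1 ⟨g⁻¹ * σ * g, hNK hu⟩ := by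
      rw [hconj ⟨g, hg⟩ ⟨g⁻¹ * σ * g, hu⟩ ⟨σ, hσN⟩
        (show σ = g * (g⁻¹ * σ * g) * g⁻¹ by group)]
      exact hlam P hPT _ hσ'
    have hconjchi : ∀ z : Kˣ, (chi hK z).1 ⟨g⁻¹ * σ * g, hNK hu⟩ = (chi hK z).1 ⟨σ, hNK hσN⟩ :=
      fun z => by
        rw [show (⟨g⁻¹ * σ * g, hNK hu⟩ : K.fixingSubgroup) =
          ⟨g, hg⟩⁻¹ * ⟨σ, hNK hσN⟩ * ⟨g, hg⟩ from rfl, Local.chi_mul, Local.chi_mul, Local.chi_inv,
          neg_add_cancel_comm]
    rw [hconjchi] at h1
    obtain ⟨l, hl, hlA⟩ := hP.1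
    have hlp : l ≠ p := fun h => hPT (mem_of_natCast_p_mem hpS hT (h ▸ hP.natCast_mem hlA))
    have hkπ : (chi hK k).1 ⟨σ, hNK hσN⟩ =
        (ord P k : ZMod p) * (chi hK (π P)).1 ⟨σ, hNK hσN⟩ := by
      have hu0 := locF1_kappa_unit_mem_unramified hK hP hl hlA hlp (x := k / π P ^ ord P k)
        (by rw [ord_div, ord_zpow, hπ P, mul_one, sub_self])
      rw [div_eq_mul_inv, kappa_mul, kappa_inv, kappa_zpow, ← sub_eq_add_neg, ← cl1_chi, ← cl1_chi,
        ← map_zsmul, ← map_sub, unramifiedH1, LinearMap.mem_ker] at hu0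
      obtain ⟨w, hw⟩ := (cl1_eq_zero_iff _ _ _).mp hu0
      have hσd : σ ∈ localGroup K A :=
        ⟨hNK hσN, (FermatAgent.LocalP.mem_inertia_iff_sub_mem.mp hσ).1⟩
      have h := congrFun hw ⟨⟨σ, hσd⟩, hσ⟩
      simp at h
      change (0 : ZMod p) = (chi hK k).1 ⟨σ, hσd.1⟩ -
        (ord P k : ZMod p) * (chi hK (π P)).1 ⟨σ, hσd.1⟩ at h
      linear_combination -h
    simp only [χb]
    rw [h1, show (chi hK k).1 (ι ⟨σ, hσN⟩) = (chi hK k).1 ⟨σ, hNK hσN⟩ from rfl, hkπ, hk P hPT,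
      if_neg hPT]
    simp only [n, ZMod.natCast_zmod_val, Int.cast_mul, Int.cast_natCast]
    field_simp
    ring
  set E' := IntermediateField.fixedField V₀
  have hE' : E'.fixingSubgroup = V₀ :=
    InfiniteGalois.fixingSubgroup_fixedField ⟨V₀, Subgroup.isClosed_of_isOpen _ hopen⟩
  have hfd : FiniteDimensional ℚ E' := by
    refine Module.finite_of_finrank_pos ?_
    rw [IntermediateField.finrank_eq_fixingSubgroup_index, hE']
    have := Subgroup.quotient_finite_of_isOpen V₀ hopen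
    exact Nat.pos_of_ne_zero (Nat.card_pos (α := GQ ⧸ V₀)).ne'
  have hE'S : E'.IsUnramifiedOutside S :=
    ⟨hfd, fun q hq A hA => hE'.symm ▸ hinert q hq A hA⟩
  refine (cl2_eq_zero_iff _ _ _).2 ⟨y', ?_, funext fun z => hdy'' z.1 z.2⟩
  refine ⟨_, ⟨_, ⟨E', hE'S, rfl⟩, rfl⟩, fun g u hu => ?_⟩
  have hu' : (u : GQ) ∈ V₀ := hE' ▸ hu
  obtain ⟨v, hv, hvu⟩ := hu'
  have hv' : y (ι v) - c0 - χb (ι v) = 0 := hv
  rw [show u = ι v from Subtype.ext hvu.symm]
  simp only [y', χb, hyr, Local.chi_mul]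
  simp only [χb] at hv'
  linear_combination hv'

end

end FermatAgent.Duality.Global
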