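import Fermat.Agent.Duality.Global.SymbolHasse

/-!
# Global norms and cyclic extensions of prime degree as Kummer extensions

For a number field `E ⊆ ℚ̄` containing the `p`-th roots of unity and a Kummer extension
`L = E(a^(1/p))`, an element `b` whose global symbol with `a` vanishes is a norm from `L`, and every
cyclic extension of degree `p` of `E` inside `ℚ̄` is a Kummer extension.
-/

set_option autoImplicit false

open scoped Pointwise

namespace FermatAgent.Duality.Global

open IsDedekindDomain NumberField Module Finset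
open FermatAgent.Duality.Local (muDataLocal kap)

noncomputable section

local notation "Qb" => AlgebraicClosure ℚ
local notation "GQ" => AlgebraicClosure ℚ ≃ₐ[ℚ] AlgebraicClosure ℚ

attribute [local instance] FermatAgent.RT.isGalois_algClosureRat numberField_of_finite

variable {p : ℕ} [Fact p.Prime] {E : IntermediateField ℚ Qb} [FiniteDimensional ℚ E]
  (hE : ContainsMuP p E) {a b : Eˣ}

omit [FiniteDimensional ℚ E] in
theorem exists_norm_of_gsym {s : E.fixingSubgroup} (hs : (chi hE a).1 s = 1)
    (h : gsym hE b a = 0) : ∃ z : (kummerExt p a)ˣ, normU hE s hs z = b := by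
  obtain ⟨z, hz0, hzfix, hzb⟩ := Local.exists_norm_of_cup_eq_zero hs (muGlobal hE) (toFix b) h
  have hzL : z ∈ kummerExt p a := by
    have h : z ∈ IntermediateField.fixedField (kummerExt p a).fixingSubgroup := by
      rintro ⟨g, hg⟩
      obtain ⟨hgK, hg0⟩ := (mem_fix_kummerExt hE a).mp hg
      exact hzfix ⟨g, hgK⟩ hg0
    rwa [InfiniteGalois.fixedField_fixingSubgroup] at h
  exact ⟨Units.mk0 ⟨z, hzL⟩ fun h0 => hz0 congr(($h0).1), Units.ext (Subtype.ext hzb)⟩

omit [FiniteDimensional ℚ E] in
include hE in
/-- Every cyclic extension of degree `p` of `E` inside `ℚ̄` is a Kummer extension. -/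
theorem exists_eq_kummerExt {L : IntermediateField ℚ Qb} (φ : E.fixingSubgroup →* Multiplicative (ZMod p))
    (hφ : ∀ g : GQ, g ∈ L.fixingSubgroup ↔ ∃ h : g ∈ E.fixingSubgroup, φ ⟨g, h⟩ = 1)
    [FiniteDimensional ℚ L] : ∃ a : Eˣ, kummerExt p a = L := by
  have hle : L.fixingSubgroup ≤ E.fixingSubgroup := fun g hg => ((hφ g).mp hg).choose
  let f : Z1 (subLevels E.fixingSubgroup) (triv (ZMod p) E.fixingSubgroup) :=
    ⟨fun g => (φ g).toAdd, Local.isLev₁_iff_exists_field.2 ⟨L, inferInstance, fun g u hu => by
        show (φ (g * u)).toAdd = (φ g).toAdd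
        obtain ⟨h, h1⟩ := (hφ u).mp hu
        rw [map_mul, show φ u = 1 from h1, mul_one]⟩,
      fun g h => by
        show (φ (g * h)).toAdd = (φ h).toAdd + (φ g).toAdd
        rw [map_mul, toAdd_mul, add_comm]⟩
  obtain ⟨c, hc⟩ := Local.kap_surjective (muGlobal hE) f
  obtain ⟨a, rfl⟩ := toFix_surjective (K := E) c
  refine ⟨a, ?_⟩
  have hG : (kummerExt p a).fixingSubgroup = L.fixingSubgroup := by
    ext g
    rw [mem_fix_kummerExt hE, hφ]
    refine exists_congr fun h => ?_
    rw [show (chi hE a).1 ⟨g, h⟩ = (φ ⟨g, h⟩).toAdd from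
      congrFun (congrArg Subtype.val hc) ⟨g, h⟩, toAdd_eq_zero]
  have := congrArg IntermediateField.fixedField hG
  rwa [InfiniteGalois.fixedField_fixingSubgroup, InfiniteGalois.fixedField_fixingSubgroup] at this

end

end FermatAgent.Duality.Global
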