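import Fermat.Agent.Duality.Global.HasseNorm
import Fermat.Agent.Duality.Core.Mackey
import Mathlib.GroupTheory.Sylow

/-!
# The Hasse principle in degree two

A class of `H²(G_K, 𝔽_p)` which vanishes at every place vanishes: it dies on a finite level, hence
by the Sylow argument it is enough to climb a chain of extensions of degree `p`, and on each of
them the class is a symbol.
-/

set_option autoImplicit false

open scoped Pointwise

namespace FermatAgent.Duality.Global

open IsDedekindDomain NumberField Module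

noncomputable section

local notation "Qb" => AlgebraicClosure ℚ
local notation "GQ" => AlgebraicClosure ℚ ≃ₐ[ℚ] AlgebraicClosure ℚ

attribute [local instance] FermatAgent.RT.isGalois_algClosureRat numberField_of_finite

variable {p : ℕ} [Fact p.Prime]

theorem res2_eq_zero_of_resSub2 {D : Subgroup GQ} (U : Subgroup D) (x : triH2 p D)
    (h : resSub2 p (Subgroup.map_subtype_le U) x = 0) :
    res2 (subLevels D) (triv (ZMod p) D) U x = 0 := by
  let e : U →* U.map D.subtype :=
    (Subgroup.equivMapOfInjective _ D.subtype Subtype.val_injective).toMonoidHom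
  have he : IsLevHom ((subLevels D).comap U.subtype) (subLevels (U.map D.subtype)) e := by
    rintro _ ⟨V, hV, rfl⟩
    exact ⟨_, ⟨_, ⟨V, hV, rfl⟩, rfl⟩, fun _ hx => hx⟩
  have h2 := congrArg (map2 (φ := LinearMap.id) (triv (ZMod p) (U.map D.subtype))
    ((triv (ZMod p) D).comp U.subtype) he fun _ _ => rfl) h
  rw [map_zero] at h2
  rw [← h2]
  obtain ⟨f, rfl⟩ := Submodule.mkQ_surjective _ x
  rfl

/-- A class of degree two dies on some finite level. -/
theorem exists_level_eq_zero {K : IntermediateField ℚ Qb} [FiniteDimensional ℚ K] (x : fullH2 p K) :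
    ∃ F : IntermediateField ℚ Qb, FiniteDimensional ℚ F ∧ IsGalois ℚ F ∧ K ≤ F ∧
      ∀ (D' : Subgroup GQ) (h : D' ≤ K.fixingSubgroup), D' ≤ F.fixingSubgroup → resSub2 p h x = 0 := by
  obtain ⟨c, rfl⟩ := Submodule.mkQ_surjective _ x
  obtain ⟨_, ⟨_, ⟨F₀, hF₀, rfl⟩, rfl⟩, hc⟩ := c.2.1
  let N := IntermediateField.normalClosure ℚ (F₀ ⊔ K : IntermediateField ℚ Qb) Qb
  have : FiniteDimensional ℚ (F₀ ⊔ K : IntermediateField ℚ Qb) :=
    IntermediateField.finiteDimensional_sup F₀ K
  have hN : FiniteDimensional ℚ N := normalClosure.is_finiteDimensional ℚ _ Qb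
  refine ⟨N, hN, IsGalois.normalClosure ℚ _ Qb,
    le_sup_right.trans (IntermediateField.le_normalClosure _), fun D' h hD => ?_⟩
  have hF : ∀ g : D', (g : GQ) ∈ F₀.fixingSubgroup := fun g =>
    IntermediateField.fixingSubgroup_antitone
      (le_sup_left.trans (IntermediateField.le_normalClosure _)) (hD g.2)
  refine (cl2_eq_zero_iff _ _ _).2 ⟨fun _ => c.1 (1, 1), ?_, funext fun q => ?_⟩
  · exact ⟨_, ⟨_, ⟨F₀, hF₀, rfl⟩, rfl⟩, fun _ _ _ => rfl⟩
  · obtain ⟨g, g'⟩ := q
    show c.1 (1, 1) - c.1 (1, 1) + c.1 (1, 1) = c.1 (⟨g, h g.2⟩, ⟨g', h g'.2⟩)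
    rw [sub_self, zero_add]
    have := hc 1 1 ⟨g, h g.2⟩ (hF g) ⟨g', h g'.2⟩ (hF g')
    rw [one_mul, one_mul] at this
    exact this.symm

/-- A nontrivial `p`-extension contains a Kummer extension of degree `p`. -/
theorem exists_kummerExt_le {E F : IntermediateField ℚ Qb} [FiniteDimensional ℚ E]
    [FiniteDimensional ℚ F] [hgal : IsGalois ℚ F] (hE : ContainsMuP p E) (hEF : E ≤ F) {k : ℕ}
    (hrank : finrank ℚ F = p ^ (k + 1) * finrank ℚ E) :
    ∃ a : Eˣ, kappa hE a ≠ 0 ∧ kummerExt p a ≤ F := by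
  have hp := (Fact.out : p.Prime)
  have : NeZero p := ⟨hp.ne_zero⟩
  have hFn : F.fixingSubgroup.Normal := (InfiniteGalois.normal_iff_isGalois F).mpr hgal
  set N := F.fixingSubgroup.subgroupOf E.fixingSubgroup
  have hle : F.fixingSubgroup ≤ E.fixingSubgroup := IntermediateField.fixingSubgroup_antitone hEF
  have hcard : Nat.card (E.fixingSubgroup ⧸ N) = p ^ (k + 1) := by
    have h := Subgroup.relIndex_mul_index hle
    rw [← IntermediateField.finrank_eq_fixingSubgroup_index,
      ← IntermediateField.finrank_eq_fixingSubgroup_index, hrank] at h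
    exact Nat.eq_of_mul_eq_mul_right finrank_pos h
  have : Finite (E.fixingSubgroup ⧸ N) :=
    Nat.finite_of_card_ne_zero (by rw [hcard]; exact pow_ne_zero _ hp.ne_zero)
  obtain ⟨H, hH⟩ := Sylow.exists_subgroup_card_pow_prime p (n := k) (G := E.fixingSubgroup ⧸ N)
    (by rw [hcard]; exact pow_dvd_pow p (Nat.le_succ k))
  have hidx : H.index = p := by
    have h := H.card_mul_index
    rw [hcard, hH, pow_succ] at h
    exact Nat.eq_of_mul_eq_mul_left (pow_pos hp.pos k) h
  have hHn : H.Normal := Subgroup.normal_of_index_eq_minFac_card (by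
    rw [hidx, hcard, Nat.Prime.pow_minFac hp k.succ_ne_zero])
  have hcardq : Nat.card ((E.fixingSubgroup ⧸ N) ⧸ H) = p := hidx
  let e := mulEquivOfPrimeCardEq hcardq (show Nat.card (Multiplicative (ZMod p)) = p by simp)
  let φ : E.fixingSubgroup →* Multiplicative (ZMod p) :=
    e.toMonoidHom.comp ((QuotientGroup.mk' H).comp (QuotientGroup.mk' N))
  have hφ : Function.Surjective φ :=
    e.surjective.comp ((QuotientGroup.mk'_surjective H).comp (QuotientGroup.mk'_surjective N))
  have hker : ∀ g : GQ, ∀ hg : g ∈ F.fixingSubgroup, φ ⟨g, hle hg⟩ = 1 := fun g hg => by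
    show e (QuotientGroup.mk' H (QuotientGroup.mk' N ⟨g, hle hg⟩)) = 1
    rw [show QuotientGroup.mk' N (⟨g, hle hg⟩ : E.fixingSubgroup) = 1 from
      (QuotientGroup.eq_one_iff _).mpr (Subgroup.mem_subgroupOf.mpr hg), map_one, map_one]
  let f : Z1 (subLevels E.fixingSubgroup) (triv (ZMod p) E.fixingSubgroup) :=
    ⟨fun g => (φ g).toAdd, Local.isLev₁_iff_exists_field.2 ⟨F, inferInstance, fun g u hu => by
        show (φ (g * u)).toAdd = (φ g).toAdd
        rw [map_mul, show φ u = 1 from hker _ hu, mul_one]⟩,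
      fun g h => by
        show (φ (g * h)).toAdd = (φ h).toAdd + (φ g).toAdd
        rw [map_mul, toAdd_mul, add_comm]⟩
  obtain ⟨c, hc⟩ := Local.kap_surjective (muGlobal hE) f
  obtain ⟨a, rfl⟩ := toFix_surjective (K := E) c
  have hval : ∀ g, (chi hE a).1 g = (φ g).toAdd := fun g => congrFun (congrArg Subtype.val hc) g
  refine ⟨a, fun h0 => ?_, ?_⟩
  · rw [← cl1_chi, Local.cl1_triv_eq_zero_iff] at h0
    obtain ⟨g, hg⟩ := hφ (Multiplicative.ofAdd 1)
    have h1 := hval g
    rw [show (chi hE a).1 g = 0 from congrFun (congrArg Subtype.val h0) g, hg, toAdd_ofAdd] at h1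
    have : Fact (1 < p) := ⟨hp.one_lt⟩
    exact zero_ne_one h1
  · have hF : F.fixingSubgroup ≤ (kummerExt p a).fixingSubgroup := fun g hg =>
      (mem_fix_kummerExt hE a).mpr ⟨hle hg, by rw [hval, hker g hg, toAdd_one]⟩
    intro x hx
    have h : x ∈ IntermediateField.fixedField F.fixingSubgroup := fun g => hF g.2 ⟨x, hx⟩
    rwa [InfiniteGalois.fixedField_fixingSubgroup] at h

theorem containsMuP_mono {E E' : IntermediateField ℚ Qb} (hE : ContainsMuP p E) (h : E ≤ E') :
    ContainsMuP p E' := fun g hg => hE g (IntermediateField.fixingSubgroup_antitone h hg)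

variable {K : IntermediateField ℚ Qb} [FiniteDimensional ℚ K]

theorem resSub2_eq_zero_of_le {D D' D'' : Subgroup GQ} (h : D' ≤ D) (h' : D'' ≤ D)
    (hle : D'' ≤ D') {x : triH2 p D} (hx : resSub2 p h x = 0) : resSub2 p h' x = 0 := by
  rw [← resSub2_resSub2 p h hle, hx, map_zero]

omit [FiniteDimensional ℚ K] in
/-- The climb through extensions of degree `p`. -/
theorem resSub2_eq_zero_of_pExt (hK : ContainsMuP p K) (hp2 : NoReal p K) (x : fullH2 p K)
    (hx : ∀ A, IsPlace A → locF2 A x = 0) {F : IntermediateField ℚ Qb} [FiniteDimensional ℚ F]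
    [IsGalois ℚ F]
    (hF : ∀ (D' : Subgroup GQ) (h : D' ≤ K.fixingSubgroup), D' ≤ F.fixingSubgroup → resSub2 p h x = 0)
    (k : ℕ) : ∀ (E : IntermediateField ℚ Qb) [FiniteDimensional ℚ E] (hKE : K ≤ E), E ≤ F →
      finrank ℚ F = p ^ k * finrank ℚ E →
      resSub2 p (IntermediateField.fixingSubgroup_antitone hKE) x = 0 := by
  induction k with
  | zero =>
    intro E _ hKE hEF hrank
    rw [pow_zero, one_mul] at hrank
    obtain rfl : E = F := IntermediateField.eq_of_le_of_finrank_eq hEF hrank.symm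
    exact hF _ _ le_rfl
  | succ k ih =>
    intro E _ hKE hEF hrank
    have hE := containsMuP_mono hK hKE
    obtain ⟨a, ha, hle⟩ := exists_kummerExt_le hE hEF hrank
    have hsub : (Local.kerChi (chi hE a)).map E.fixingSubgroup.subtype ≤
        (kummerExt p a).fixingSubgroup := by
      rintro _ ⟨g, hg, rfl⟩
      exact (mem_fix_kummerExt hE a).mpr ⟨g.2, hg⟩
    have h1 := ih (kummerExt p a) (hKE.trans (le_kummerExt a)) hle (by
      rw [finrank_kummerExt hE ha, hrank]; ring)
    set y := resSub2 p (IntermediateField.fixingSubgroup_antitone hKE) x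
    have hy : resSub2 p (Subgroup.map_subtype_le (Local.kerChi (chi hE a))) y = 0 := by
      rw [resSub2_resSub2]
      exact resSub2_eq_zero_of_le _ _ hsub h1
    obtain ⟨s, hs⟩ := exists_chi_eq_one hE ha
    obtain ⟨b, hb⟩ := Local.exists_eq_cup_of_res_eq_zero (muGlobal hE) hs y
      (res2_kerChi_eq_zero p (chi hE a) y hy)
    obtain ⟨b, rfl⟩ := toFix_surjective (K := E) b
    rw [show y = gsym hE b a from hb]
    choose pl hpl using exists_place (K := E)
    refine gsym_eq_zero_of_sym hE pl hpl (hp2.mono hKE) b a fun P => ?_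
    rw [← locF2_gsym, ← show y = gsym hE b a from hb]
    refine (resSub2_resSub2 p (IntermediateField.fixingSubgroup_antitone hKE)
      (inf_le_left : localGroup E (pl P) ≤ E.fixingSubgroup) x).trans ?_
    exact resSub2_eq_zero_of_le (inf_le_left : localGroup K (pl P) ≤ K.fixingSubgroup) _
      (inf_le_inf_right _ (IntermediateField.fixingSubgroup_antitone hKE)) (hx _ (hpl P).1)

/-- **Hasse principle in degree two.** -/
theorem eq_zero_of_locF2 (hK : ContainsMuP p K) (hp2 : NoReal p K) (x : fullH2 p K)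
    (hx : ∀ A, IsPlace A → locF2 A x = 0) : x = 0 := by
  have hp := (Fact.out : p.Prime)
  obtain ⟨F, hFfin, hFgal, hKF, hF⟩ := exists_level_eq_zero x
  have hFn : F.fixingSubgroup.Normal := (InfiniteGalois.normal_iff_isGalois F).mpr hFgal
  set N := F.fixingSubgroup.subgroupOf K.fixingSubgroup
  have hle : F.fixingSubgroup ≤ K.fixingSubgroup := IntermediateField.fixingSubgroup_antitone hKF
  have hfinF := finiteIndex_fixingSubgroup F
  have : Finite (K.fixingSubgroup ⧸ N) := Nat.finite_of_card_ne_zero fun h0 => by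
    have h := Subgroup.relIndex_mul_index hle
    rw [show F.fixingSubgroup.relIndex K.fixingSubgroup = 0 from h0, zero_mul] at h
    exact hfinF.index_ne_zero h.symm
  obtain ⟨P⟩ : Nonempty (Sylow p (K.fixingSubgroup ⧸ N)) := inferInstance
  set D₁ : Subgroup K.fixingSubgroup := (P : Subgroup (K.fixingSubgroup ⧸ N)).comap (QuotientGroup.mk' N)
  set D₀ : Subgroup GQ := D₁.map K.fixingSubgroup.subtype
  have hFD : F.fixingSubgroup ≤ D₀ := fun g hg => by
    refine ⟨⟨g, hle hg⟩, ?_, rfl⟩
    show QuotientGroup.mk' N ⟨g, hle hg⟩ ∈ (P : Subgroup (K.fixingSubgroup ⧸ N))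
    rw [show QuotientGroup.mk' N (⟨g, hle hg⟩ : K.fixingSubgroup) = 1 from
      (QuotientGroup.eq_one_iff _).mpr (Subgroup.mem_subgroupOf.mpr hg)]
    exact one_mem _
  have hD₀K : D₀ ≤ K.fixingSubgroup := Subgroup.map_subtype_le _
  have hopen : IsOpen (D₀ : Set GQ) :=
    Subgroup.isOpen_mono hFD (IntermediateField.fixingSubgroup_isOpen F)
  set E := IntermediateField.fixedField D₀
  have hED : E.fixingSubgroup = D₀ :=
    InfiniteGalois.fixingSubgroup_fixedField ⟨D₀, Subgroup.isClosed_of_isOpen _ hopen⟩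
  have hKE : K ≤ E := by
    intro y hy g
    exact hD₀K g.2 ⟨y, hy⟩
  have hEF : E ≤ F := by
    intro y hy
    have h : y ∈ IntermediateField.fixedField F.fixingSubgroup := fun g => hy ⟨g, hFD g.2⟩
    rwa [InfiniteGalois.fixedField_fixingSubgroup] at h
  have : FiniteDimensional ℚ E := Module.Finite.of_injective
    (IntermediateField.inclusion hEF).toLinearMap (IntermediateField.inclusion hEF).injective
  obtain ⟨k, hk⟩ := IsPGroup.iff_card.mp P.isPGroup'
  have hrank : finrank ℚ F = p ^ k * finrank ℚ E := by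
    rw [IntermediateField.finrank_eq_fixingSubgroup_index,
      IntermediateField.finrank_eq_fixingSubgroup_index, hED, ← Subgroup.relIndex_mul_index hFD]
    congr 1
    rw [← hk]
    have e : F.fixingSubgroup = N.map K.fixingSubgroup.subtype := by
      rw [Subgroup.subgroupOf_map_subtype, inf_eq_left.mpr hle]
    conv_lhs => rw [e]
    rw [Subgroup.relIndex_map_map_of_injective _ _ Subtype.val_injective]
    have e2 : N = (⊥ : Subgroup (K.fixingSubgroup ⧸ N)).comap (QuotientGroup.mk' N) := by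
      rw [MonoidHom.comap_bot, QuotientGroup.ker_mk']
    conv_lhs => rw [e2]
    rw [Subgroup.relIndex_comap, Subgroup.map_comap_eq_self_of_surjective
      (QuotientGroup.mk'_surjective N), Subgroup.relIndex_bot_left]
  have h0 := resSub2_eq_zero_of_pExt hK hp2 x hx hF k E hKE hEF hrank
  have hres : res2 (subLevels K.fixingSubgroup) (triv (ZMod p) K.fixingSubgroup) D₁ x = 0 :=
    res2_eq_zero_of_resSub2 D₁ x (resSub2_eq_zero_of_le _ _ hED.ge h0)
  have : Finite (K.fixingSubgroup ⧸ D₁) := by
    refine Nat.finite_of_card_ne_zero ?_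
    show D₁.index ≠ 0
    rw [Subgroup.index_comap_of_surjective _ (QuotientGroup.mk'_surjective N)]
    exact Subgroup.FiniteIndex.index_ne_zero
  have := Fintype.ofFinite (K.fixingSubgroup ⧸ D₁)
  have hU : ∃ V ∈ (subLevels K.fixingSubgroup).lev, V ≤ D₁ :=
    ⟨_, ⟨_, ⟨F, hFfin, rfl⟩, rfl⟩, fun g hg => by
      obtain ⟨g', hg', hgg⟩ := hFD hg
      rwa [← Subtype.ext hgg]⟩
  have h2 := cores2_res2 D₁ (triv (ZMod p) K.fixingSubgroup) (subLevels K.fixingSubgroup) hU x
  rw [hres, map_zero, ← Nat.card_eq_fintype_card, ← Nat.cast_smul_eq_nsmul (ZMod p), eq_comm,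
    smul_eq_zero] at h2
  refine h2.resolve_left fun hz => ?_
  rw [ZMod.natCast_eq_zero_iff] at hz
  refine P.not_dvd_index ?_
  rwa [← Subgroup.index_comap_of_surjective _ (QuotientGroup.mk'_surjective N)]

end

end FermatAgent.Duality.Global
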