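import Fermat.Agent.CFT.UnitsIndex

/-!
# The Herbrand quotient of a finitely generated module over a group of prime order, when `H¹ = 0`

For an endomorphism `σ` of a finitely generated abelian group `A` with `σ ^ p = 1`, fixed part `B`
and norm `N`, if every element of norm `0` is `σ x - x` and `rank A = rank B + (p - 1) k`, then
`[B : N A] * p ^ k = p ^ rank B`.
-/

set_option autoImplicit false

namespace FermatAgent.Duality.Global

noncomputable section

open Finset Module

variable {A : Type*} [AddCommGroup A] (σ : AddMonoid.End A) (p : ℕ)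

/-- `σ - 1`. -/
def dEnd : A →+ A := (σ - 1 : AddMonoid.End A)

/-- `1 + σ + ⋯ + σ ^ (p - 1)`. -/
def nEnd : A →+ A := (∑ i ∈ range p, σ ^ i : AddMonoid.End A)

variable {σ p}

theorem dEnd_apply (x : A) : dEnd σ x = σ x - x := rfl

theorem nEnd_apply (x : A) : nEnd σ p x = ∑ i ∈ range p, (σ ^ i) x := by
  change (∑ i ∈ range p, σ ^ i : AddMonoid.End A) x = _
  exact AddMonoidHom.finsetSum_apply _ _ _

theorem apply_nEnd (hσ : σ ^ p = 1) (x : A) :
    σ (nEnd σ p x) = nEnd σ p x ∧ nEnd σ p (σ x) = nEnd σ p x := by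
  have h1 : (σ - 1) * ∑ i ∈ range p, σ ^ i = 0 := by rw [mul_geom_sum, hσ, sub_self]
  have h2 : (∑ i ∈ range p, σ ^ i) * (σ - 1) = 0 := by rw [geom_sum_mul, hσ, sub_self]
  refine ⟨sub_eq_zero.mp congr($h1 x), sub_eq_zero.mp ?_⟩
  rw [← map_sub]
  exact congr($h2 x)

theorem index_norm_mul [Module.Finite ℤ A] [hp : Fact p.Prime] (hσ : σ ^ p = 1)
    (h1 : ∀ w, nEnd σ p w = 0 → ∃ x, dEnd σ x = w) {k : ℕ}
    (hrank : finrank ℤ A = finrank ℤ (dEnd σ).ker + (p - 1) * k) :
    (nEnd σ p).range.relIndex (dEnd σ).ker * p ^ k = p ^ finrank ℤ (dEnd σ).ker := by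
  have hp0 := hp.out.ne_zero
  set B := (dEnd σ).ker with hB
  set W := (nEnd σ p).ker with hW
  have hfix : ∀ b ∈ B, ∀ i : ℕ, (σ ^ i) b = b := by
    intro b hb i
    induction i with
    | zero => rfl
    | succ i ih =>
      rw [pow_succ]
      change (σ ^ i) (σ b) = b
      rw [show σ b = b from sub_eq_zero.mp hb, ih]
  have hNB : ∀ b ∈ B, nEnd σ p b = p • b := fun b hb => by
    rw [nEnd_apply, sum_congr rfl (fun i _ => hfix b hb i), sum_const, card_range]
  have hNrange : (nEnd σ p).range ≤ B := by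
    rintro _ ⟨x, rfl⟩
    exact sub_eq_zero.mpr (apply_nEnd hσ x).1
  have hdW : (dEnd σ).range = W := by
    refine le_antisymm ?_ fun w hw => h1 w hw
    rintro _ ⟨x, rfl⟩
    rw [hW, AddMonoidHom.mem_ker, dEnd_apply, map_sub, (apply_nEnd hσ x).2, sub_self]
  have hfinW : Module.Finite ℤ W := Module.Finite.of_injective
    W.subtype.toIntLinearMap Subtype.val_injective
  have hfinB : Module.Finite ℤ B := Module.Finite.of_injective
    B.subtype.toIntLinearMap Subtype.val_injective
  -- ranks
  have hrankW : finrank ℤ W = (p - 1) * k := by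
    let N := (nEnd σ p).toIntLinearMap
    have e := Submodule.finrank_quotient_add_finrank (LinearMap.ker N)
    rw [(LinearMap.quotKerEquivRange N).finrank_eq] at e
    have e1 : finrank ℤ (LinearMap.ker N) = finrank ℤ W := rfl
    have e2 : finrank ℤ (LinearMap.range N) = finrank ℤ B := by
      refine le_antisymm ?_ ?_
      · have : LinearMap.range N ≤ AddSubgroup.toIntSubmodule B := fun x hx => hNrange hx
        exact Submodule.finrank_mono this
      · rw [← FermatAgent.CFT.finrank_eq_of_ker_torsion (N ∘ₗ B.subtype.toIntLinearMap) fun b hb => by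
          refine isOfFinAddOrder_iff_nsmul_eq_zero.mpr ⟨p, hp.out.pos, Subtype.ext ?_⟩
          change p • (b : A) = 0
          rw [← hNB b.1 b.2]
          exact hb]
        exact Submodule.finrank_mono (LinearMap.range_comp_le_range _ _)
    rw [e1, e2] at e
    omega
  -- the index of `(σ - 1) W` in `W`
  let T : AddMonoid.End W :=
    ((σ : A →+ A).comp W.subtype).codRestrict W fun w =>
      (apply_nEnd hσ (w : A)).2.trans w.2
  have hTi : ∀ (i : ℕ) (w : W), (((T ^ i) w : W) : A) = (σ ^ i) (w : A) := by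
    intro i w
    induction i with
    | zero => rfl
    | succ i ih =>
      rw [pow_succ', pow_succ']
      change σ (((T ^ i) w : W) : A) = σ ((σ ^ i) (w : A))
      rw [ih]
  have hT : ∑ i ∈ range p, T ^ i = 0 := by
    refine AddMonoidHom.ext fun w => Subtype.ext ?_
    erw [AddMonoidHom.finsetSum_apply]
    rw [AddSubgroup.val_finsetSum]
    exact (sum_congr rfl fun i _ => hTi i w).trans ((nEnd_apply (w : A)).symm.trans w.2)
  obtain ⟨ν, hνbij, hν⟩ := FermatAgent.CFT.exists_bijective_nu T hT
  let D : W →+ W := (T - 1 : AddMonoid.End W)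
  have hDval : ∀ w : W, (D w : A) = dEnd σ (w : A) := fun w => rfl
  have hidx := FermatAgent.CFT.index_range_pow_eq D ν (Nat.sub_ne_zero_of_lt hp.out.one_lt)
    hp0 hνbij hν
  rw [hrankW] at hidx
  -- the kernel is the `p`-torsion of `B`
  let P : B →+ B := nsmulAddMonoidHom p
  have hker : Nat.card D.ker = Nat.card P.ker := Nat.card_congr
    { toFun := fun w => ⟨⟨(w.1 : A), (hDval w.1).symm.trans congr(($(w.2)).1)⟩,
        Subtype.ext (show p • (w.1 : A) = 0 by
          rw [← hNB _ ((hDval w.1).symm.trans congr(($(w.2)).1))]; exact w.1.2)⟩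
      invFun := fun b => ⟨⟨(b.1 : A), show nEnd σ p b.1.1 = 0 by
          rw [hNB _ b.1.2]; exact congr(($(b.2)).1)⟩,
        Subtype.ext (show (D _ : A) = 0 from (hDval _).trans b.1.2)⟩
      left_inv := fun w => rfl
      right_inv := fun b => rfl }
  have hP : P.range.index = Nat.card P.ker * p ^ finrank ℤ B := by
    have h := FermatAgent.CFT.index_range_pow_eq P (AddMonoidHom.id B) one_ne_zero hp0
      Function.bijective_id (fun x => rfl)
    rwa [pow_one, pow_one] at h
  have hDidx : D.range.index = Nat.card P.ker * p ^ k := by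
    refine Nat.pow_left_injective (Nat.sub_ne_zero_of_lt hp.out.one_lt) ?_
    dsimp only
    rw [hidx, hker, mul_pow, ← pow_mul, mul_comm k]
  -- transport the index to `[N A : p B]`
  have hpB : B.map (nEnd σ p) = P.range.map B.subtype := by
    ext x
    constructor
    · rintro ⟨b, hb, rfl⟩
      exact ⟨P ⟨b, hb⟩, ⟨_, rfl⟩, (hNB b hb).symm⟩
    · rintro ⟨_, ⟨b, rfl⟩, rfl⟩
      exact ⟨b, b.2, hNB _ b.2⟩
  have htrans : (B.map (nEnd σ p)).relIndex (nEnd σ p).range = D.range.index := by
    have e1 : D.range.index = (W.map (dEnd σ)).relIndex W := by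
      rw [AddSubgroup.relIndex]
      congr 1
      ext z
      rw [AddSubgroup.mem_addSubgroupOf, AddSubgroup.mem_map]
      exact ⟨fun ⟨w, hw⟩ => ⟨w, w.2, congr(($hw).1)⟩,
        fun ⟨w, hw, hw'⟩ => ⟨⟨w, hw⟩, Subtype.ext hw'⟩⟩
    have e2 : (W.map (dEnd σ)).relIndex W = (W ⊔ B).index := by
      conv_lhs => arg 2; rw [← hdW, AddMonoidHom.range_eq_map]
      rw [AddSubgroup.relIndex_map_map, top_sup_eq, AddSubgroup.relIndex_top_right]
    rw [AddMonoidHom.range_eq_map, AddSubgroup.relIndex_map_map, top_sup_eq,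
      AddSubgroup.relIndex_top_right, e1, e2, sup_comm]
  have hle : B.map (nEnd σ p) ≤ (nEnd σ p).range := AddSubgroup.map_le_range _ _
  have h := AddSubgroup.relIndex_mul_relIndex _ _ _ hle hNrange
  have hrel : (B.map (nEnd σ p)).relIndex B = P.range.index := by
    rw [hpB]
    conv_lhs => arg 2; rw [← AddSubgroup.range_subtype B, AddMonoidHom.range_eq_map]
    rw [AddSubgroup.relIndex_map_map, top_sup_eq, AddSubgroup.relIndex_top_right,
      AddSubgroup.ker_subtype, sup_bot_eq]
  rw [htrans, hrel, hP, hDidx, mul_assoc] at h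
  have hpos : 0 < Nat.card P.ker := by
    have : Finite P.ker := by
      have : Finite (AddCommGroup.torsion B) := FermatAgent.CFT.finite_addTorsion
      exact Finite.of_injective (β := AddCommGroup.torsion B)
        (fun x => ⟨x.1, isOfFinAddOrder_iff_nsmul_eq_zero.mpr ⟨p, hp.out.pos, x.2⟩⟩)
        fun x y hxy => Subtype.ext congr(($hxy).1)
    exact Nat.card_pos
  rw [mul_comm]
  exact Nat.eq_of_mul_eq_mul_left hpos h

end

end FermatAgent.Duality.Global
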