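import Fermat.Agent.Duality.Global.LevelFields

/-!
# Norms of ideals in a Kummer extension unramified outside `T`

If the order of `b` is divisible by `p` at the primes outside `T` inert in `L = K(e^(1/p))`, then a
power of `b` prime to `p` has, outside `T`, the same orders as the norm of an element of `L` all of
whose orders outside `T` are divisible by a high power of `p`.
-/

set_option autoImplicit false

open scoped Pointwise

namespace FermatAgent.Duality.Global

open IsDedekindDomain NumberField Module Finset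

noncomputable section

local notation "Qb" => AlgebraicClosure ℚ
local notation "GQ" => AlgebraicClosure ℚ ≃ₐ[ℚ] AlgebraicClosure ℚ

attribute [local instance] FermatAgent.RT.isGalois_algClosureRat numberField_of_finite

variable {p : ℕ} [Fact p.Prime] {K : IntermediateField ℚ Qb} [FiniteDimensional ℚ K]
  (hK : ContainsMuP p K) (pl : HeightOneSpectrum (𝓞 K) → ValuationSubring Qb)
  (hpl : ∀ P, Over K (pl P) P) {T : Finset (HeightOneSpectrum (𝓞 K))}
  (hpT : ∀ P : HeightOneSpectrum (𝓞 K), (p : 𝓞 K) ∈ P.asIdeal → P ∈ T)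
  {e : Kˣ} (heT : e ∈ tUnits T) {s : K.fixingSubgroup} (hs : (chi hK e).1 s = 1)

theorem val_smul_apply (g : GQ) (A : ValuationSubring Qb) (x : Qb) :
    A.valuation (g x) = 1 ↔ (g⁻¹ • A).valuation x = 1 := by
  rw [val_eq_one_smul_iff, inv_inv]

-- `hpl`, `hs` are unused here but kept so that callers see a uniform argument list.
set_option linter.unusedSectionVars false in
include hpl hpT heT hs in
/-- Outside `T` the Kummer extension has no new values. -/
theorem exists_val_eq_base {A : ValuationSubring Qb} {P : HeightOneSpectrum (𝓞 K)} (hA : Over K A P)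
    (hP : P ∉ T) {t : Qb} (ht : t ∈ kummerExt p e) (ht0 : t ≠ 0) :
    ∃ y : Kˣ, A.valuation t = A.valuation ((y : K) : Qb) := by
  have hp := (Fact.out : p.Prime)
  obtain ⟨l, hl, hlA⟩ := hA.1
  have hlp : l ≠ p := fun h => hP (hpT P (h ▸ hA.natCast_mem hlA))
  by_cases hsplit : ∀ (d : GQ) (hd : d ∈ localGroup K A), (chi hK e).1 ⟨d, hd.1⟩ = 0
  · have hfix : ∀ d ∈ localGroup K A, d t = t := fun d hd =>
      ((mem_fix_kummerExt hK e).mpr ⟨hd.1, hsplit d hd⟩ : d ∈ (kummerExt p e).fixingSubgroup) ⟨t, ht⟩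
    obtain ⟨y, hy, hy0, hyv⟩ :=
      Local.exists_mem_val_eq hl hlA (Local.mem_localField_iff.2 hfix) ht0
    exact ⟨Units.mk0 ⟨y, hy⟩ fun h => hy0 congr(($h).1), hyv.symm⟩
  · push Not at hsplit
    obtain ⟨d₀, hd₀, hne⟩ := hsplit
    have : NeZero p := ⟨hp.ne_zero⟩
    set d : localGroup K A := ⟨d₀, hd₀⟩ ^ (((chi hK e).1 ⟨d₀, hd₀.1⟩)⁻¹).val
    have hd1 : (chi hK e).1 ⟨d, d.2.1⟩ = 1 := by
      show (chi hK e).1 (⟨d₀, hd₀.1⟩ ^ (((chi hK e).1 ⟨d₀, hd₀.1⟩)⁻¹).val) = 1
      rw [Local.chi_pow, ZMod.natCast_zmod_val, inv_mul_cancel₀ hne]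
    let sd : K.fixingSubgroup := ⟨d, d.2.1⟩
    have hinv : ∀ j : ℕ, A.valuation (((sd ^ j : K.fixingSubgroup) : GQ) t) = A.valuation t := by
      have hone : ∀ x : Qb, A.valuation ((d : GQ) x) = A.valuation x :=
        FermatAgent.Local.val_galois_eq d.2.2
      intro j
      induction j with
      | zero => rfl
      | succ j ih =>
        rw [pow_succ', Subgroup.coe_mul, AlgEquiv.mul_apply]
        exact (hone _).trans ih
    let t' : (kummerExt p e)ˣ := Units.mk0 ⟨t, ht⟩ fun h => ht0 congr(($h).1)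
    set x := normU hK sd hd1 t'
    have hx : A.valuation t ^ p = A.valuation ((x : K) : Qb) := by
      rw [coe_normU, map_prod, prod_congr rfl fun j _ => show A.valuation
        (((sd ^ j : K.fixingSubgroup) : GQ) ((t' : kummerExt p e) : Qb)) = A.valuation t from hinv j,
        prod_const, card_range]
    have hu := locF1_kappa_unit_mem_unramified hK hA hl hlA hlp (heT P hP)
    obtain ⟨c, hc⟩ := dvd_ord_of_unramified hK hA hl hlA hlp
      (locF1_kappa_mem_unramified_of_root hK hl hlA hlp (t := t) (fun σ hσ => by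
        refine ((mem_fix_kummerExt hK e).mpr ⟨σ.2.1, ?_⟩ :
          (σ : GQ) ∈ (kummerExt p e).fixingSubgroup) ⟨t, ht⟩
        rw [← cl1_chi, unramifiedH1, LinearMap.mem_ker] at hu
        obtain ⟨m, hm⟩ := (cl1_eq_zero_iff _ _ _).mp hu
        have := congrFun hm ⟨σ, hσ⟩
        simp at this
        exact this.symm) hx)
    obtain ⟨π, hπ⟩ := exists_ord_eq_one P
    refine ⟨π ^ c, (pow_left_inj₀ zero_le zero_le hp.ne_zero).1 ?_⟩
    show A.valuation t ^ p = A.valuation (((π ^ c : Kˣ) : K) : Qb) ^ p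
    rw [hx, ← map_pow, show ((((π ^ c : Kˣ) : K) : Qb)) ^ p = ((((π ^ c) ^ p : Kˣ) : K) : Qb) from
      by rw [Units.val_pow_eq_pow_val, SubmonoidClass.coe_pow], hA.val_eq_iff, ord_pow, ord_zpow,
      hπ, mul_one, hc]

theorem val_apply_eq_of_smul (g : GQ) (A : ValuationSubring Qb) {x y : Qb} (hy : y ≠ 0)
    (h : (g⁻¹ • A).valuation x = (g⁻¹ • A).valuation y) :
    A.valuation (g x) = A.valuation (g y) := by
  have hy' : (g⁻¹ • A).valuation y ≠ 0 := (_root_.map_ne_zero _).mpr hy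
  have h1 : (g⁻¹ • A).valuation (x / y) = 1 := by rw [map_div₀, h, div_self hy']
  rw [← val_smul_apply, map_div₀ g, map_div₀ A.valuation,
    div_eq_one_iff_eq ((_root_.map_ne_zero _).mpr ((_root_.map_ne_zero _).mpr hy))] at h1
  exact h1

theorem coe_units_zpow {F : IntermediateField ℚ Qb} (x : Fˣ) (c : ℤ) :
    (((x ^ c : Fˣ) : F) : Qb) = ((x : F) : Qb) ^ c := by
  rw [Units.val_zpow_eq_zpow_val]
  exact map_zpow₀ F.val _ _

open scoped Classical in
include hpl hpT heT hs in
set_option maxHeartbeats 1000000 in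
/-- A prime outside `T`: an element of the extension with order `h` at one prime over it. -/
theorem exists_element_at {P : HeightOneSpectrum (𝓞 K)} (hP : P ∉ T) :
    ∃ α : (kummerExt p e)ˣ, ∃ π : Kˣ, ord P π = 1 ∧
      ∀ A P', Over K A P' → P' ∉ T →
        (∃ δ : Bool, A.valuation ((α : kummerExt p e) : Qb) =
          A.valuation (((π ^ (if δ then NumberField.classNumber (kummerExt p e) else 0) : Kˣ) : K) : Qb)) ∧
        A.valuation (((normU hK s hs α : Kˣ) : K) : Qb) =
          A.valuation (((π ^ (if P' = P then NumberField.classNumber (kummerExt p e) *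
            (if locF1 (pl P) (kappa hK e) = 0 then 1 else p) else 0) : Kˣ) : K) : Qb) := by
  classical
  have : NeZero p := ⟨(Fact.out : p.Prime).ne_zero⟩
  obtain ⟨Q, hQ⟩ := exists_over (K := kummerExt p e) (A := pl P) (hpl P).1
  set h := NumberField.classNumber (kummerExt p e)
  obtain ⟨π, hπ⟩ := exists_ord_eq_one P
  -- the uniformiser stays one
  have hπQ : ord Q (inclU p e π) = 1 := by
    obtain ⟨t, ht⟩ := exists_ord_eq_one Q
    obtain ⟨y, hy⟩ := exists_val_eq_base hK pl hpl hpT heT hs (hpl P) hP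
      (t : kummerExt p e).2 (fun h0 => t.ne_zero (Subtype.ext h0))
    have h1 : (pl P).valuation ((y : K) : Qb) =
        (pl P).valuation (((π ^ ord P y : Kˣ) : K) : Qb) :=
      ((hpl P).val_eq_iff _ _).2 (by rw [ord_zpow, hπ, mul_one])
    have h2 : ord Q t = ord Q (inclU p e (π ^ ord P y)) := (hQ.val_eq_iff _ _).1 (hy.trans h1)
    rw [ht, map_zpow, ord_zpow] at h2
    have h3 : 0 ≤ ord Q (inclU p e π) := by
      have h4 : (pl P).valuation ((π : K) : Qb) ≤ (pl P).valuation (((1 : Kˣ) : K) : Qb) :=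
        ((hpl P).val_le_iff _ _).2 (by rw [ord_one, hπ]; norm_num)
      have := (hQ.val_le_iff (inclU p e π) (inclU p e 1)).1 h4
      rwa [map_one, ord_one] at this
    exact Int.eq_one_of_dvd_one h3 ⟨ord P y, by rw [mul_comm]; exact h2⟩
  obtain ⟨α, hαQ, hαne⟩ := exists_ord_of_classGroup (T := (∅ : Finset _)) Q (Finset.notMem_empty Q)
    (m := h) (by rw [show h = Fintype.card (ClassGroup (𝓞 (kummerExt p e))) from rfl, pow_card_eq_one]; exact one_mem _)
  have hval : ∀ A Q', Over (kummerExt p e) A Q' → A.valuation ((α : kummerExt p e) : Qb) =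
      A.valuation (((π ^ (if Q' = Q then h else 0) : Kˣ) : K) : Qb) := by
    intro A Q' hA
    by_cases hQQ : Q' = Q
    · subst hQQ
      rw [if_pos rfl]
      refine (hA.val_eq_iff α (inclU p e (π ^ h))).2 ?_
      rw [hαQ, map_pow, ord_pow, hπQ, mul_one]
    · rw [if_neg hQQ, pow_zero, Units.val_one, OneMemClass.coe_one, map_one]
      exact (hA.val_eq_one_iff α).2 (hαne Q' (Finset.notMem_empty _) hQQ)
  refine ⟨α, π, hπ, fun A P' hA hP' => ⟨?_, ?_⟩⟩
  · obtain ⟨Q', hQ'⟩ := exists_over (K := kummerExt p e) hA.1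
    by_cases hQQ : Q' = Q
    · exact ⟨true, by rw [hval A Q' hQ', if_pos hQQ]; rfl⟩
    · exact ⟨false, by rw [hval A Q' hQ', if_neg hQQ]; rfl⟩
  · let Aj : ℕ → ValuationSubring Qb := fun j => ((s ^ j : K.fixingSubgroup) : GQ)⁻¹ • A
    have hAj : ∀ j, Over K (Aj j) P' := fun j => hA.smul (inv_mem (s ^ j).2)
    choose Qj hQj using fun j => exists_over (K := kummerExt p e) (hAj j).1
    have hterm : ∀ j, A.valuation (((s ^ j : K.fixingSubgroup) : GQ) ((α : kummerExt p e) : Qb)) =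
        A.valuation (((π ^ (if Qj j = Q then h else 0) : Kˣ) : K) : Qb) := fun j => by
      rw [val_apply_eq_of_smul _ A (by simp) (hval (Aj j) (Qj j) (hQj j))]
      exact congrArg A.valuation ((s ^ j).2 ⟨_, ((π ^ (if Qj j = Q then h else 0) : Kˣ) : K).2⟩)
    rw [coe_normU, map_prod, prod_congr rfl fun j _ => hterm j, ← map_prod,
      show (∏ j ∈ range p, (((π ^ (if Qj j = Q then h else 0) : Kˣ) : K) : Qb)) =
        (((π ^ (∑ j ∈ range p, if Qj j = Q then h else 0) : Kˣ) : K) : Qb) from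
      (map_prod ((K.val : K →* Qb).comp (Units.coeHom K)) _ _).symm.trans
        (congrArg _ (prod_pow_eq_pow_sum _ _ _))]
    congr 5
    by_cases hPP : P' = P
    swap
    · rw [if_neg hPP]
      refine sum_eq_zero fun j _ => if_neg fun hj => hPP ?_
      obtain ⟨n, hn, hnA⟩ := exists_smul_eq_of_over hQ (hj ▸ hQj j)
      refine (hAj j).eq ?_
      rw [hnA]
      exact (hpl P).smul (IntermediateField.fixingSubgroup_antitone (le_kummerExt e) hn)
    subst hPP
    rw [if_pos rfl]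
    obtain ⟨g, hg, hgA⟩ := exists_smul_eq_of_over (hpl P') hA
    have hiff : ∀ j, Qj j = Q ↔ ∃ (d : GQ) (hd : d ∈ localGroup K (pl P')),
        (chi hK e).1 ⟨d, hd.1⟩ = (chi hK e).1 ⟨g, hg⟩ - (j : ZMod p) := by
      intro j
      set γ : K.fixingSubgroup := (s ^ j)⁻¹ * ⟨g, hg⟩ with hγ
      have hγA : (γ : GQ) • pl P' = Aj j := by
        rw [hγ, Subgroup.coe_mul, mul_smul, Subgroup.coe_inv, ← hgA]
      have hχγ : (chi hK e).1 γ = (chi hK e).1 ⟨g, hg⟩ - (j : ZMod p) := by
        rw [hγ, Local.chi_mul, Local.chi_inv, Local.chi_pow, hs, mul_one]; ring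
      rw [← hχγ]
      constructor
      · intro hj
        obtain ⟨n, hn, hnA⟩ := exists_smul_eq_of_over hQ (hj ▸ hQj j)
        obtain ⟨hnK, hn0⟩ := (mem_fix_kummerExt hK e).mp hn
        let u : K.fixingSubgroup := (⟨n, hnK⟩ : K.fixingSubgroup)⁻¹ * γ
        refine ⟨(u : GQ), ⟨u.2, ?_⟩, ?_⟩
        · show ((((⟨n, hnK⟩ : K.fixingSubgroup)⁻¹ * γ : K.fixingSubgroup)) : GQ) • pl P' = pl P'
          rw [Subgroup.coe_mul, mul_smul, hγA, hnA, Subgroup.coe_inv, inv_smul_smul]
        · show (chi hK e).1 ((⟨n, hnK⟩ : K.fixingSubgroup)⁻¹ * γ) = _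
          rw [Local.chi_mul, Local.chi_inv, hn0, neg_zero, zero_add]
      · rintro ⟨d, hd, hdχ⟩
        have hn : ((γ * (⟨d, hd.1⟩ : K.fixingSubgroup)⁻¹ : K.fixingSubgroup) : GQ) ∈
            (kummerExt p e).fixingSubgroup := by
          refine (mem_fix_kummerExt hK e).mpr ⟨(γ * (⟨d, hd.1⟩ : K.fixingSubgroup)⁻¹).2, ?_⟩
          show (chi hK e).1 (γ * ⟨d, hd.1⟩⁻¹) = 0
          rw [Local.chi_mul, Local.chi_inv, hdχ, add_neg_cancel]
        have h2 := hQ.smul hn
        rw [Subgroup.coe_mul, mul_smul, Subgroup.coe_inv,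
          inv_smul_eq_iff.mpr (show pl P' = d • pl P' from hd.2.symm), hγA] at h2
        exact (hQj j).eq h2
    by_cases hsp : locF1 (pl P') (kappa hK e) = 0
    · rw [if_pos hsp, mul_one,
        Finset.sum_eq_single (((chi hK e).1 ⟨g, hg⟩).val) (fun j hj hne => if_neg fun hjQ => ?_)
          (fun hn => absurd (mem_range.2 (ZMod.val_lt _)) hn), if_pos ((hiff _).2 ?_)]
      · exact ⟨1, one_mem _, by
          rw [ZMod.natCast_zmod_val, sub_self]; exact Local.chi_one (chi hK e)⟩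
      · obtain ⟨d, hd, hdχ⟩ := (hiff j).1 hjQ
        rw [chi_eq_zero_of_local hK hsp d hd, eq_comm, sub_eq_zero] at hdχ
        exact hne (by rw [hdχ, ZMod.val_natCast, Nat.mod_eq_of_lt (mem_range.1 hj)])
    · rw [if_neg hsp, sum_congr rfl fun j _ => if_pos ((hiff j).2 ?_), sum_const, card_range,
        smul_eq_mul, mul_comm]
      obtain ⟨d, hd⟩ := exists_local_chi_ne_zero hK hsp
      refine ⟨_, (d ^ (((chi hK e).1 ⟨d, d.2.1⟩)⁻¹ * ((chi hK e).1 ⟨g, hg⟩ - (j : ZMod p))).val).2, ?_⟩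
      show (chi hK e).1 (⟨d, d.2.1⟩ ^ _) = _
      rw [Local.chi_pow, ZMod.natCast_zmod_val, mul_comm _ ((chi hK e).1 ⟨g, hg⟩ - (j : ZMod p)),
        mul_assoc, inv_mul_cancel₀ hd, mul_one]

include hpl hpT heT hs in
/-- The element whose norm has the orders of a power of `b`. -/
theorem exists_norm_element {b : Kˣ}
    (hb : ∀ P ∉ T, locF1 (pl P) (kappa hK e) ≠ 0 → (p : ℤ) ∣ ord P b) :
    ∃ (m k : ℕ) (α : (kummerExt p e)ˣ), ¬ p ∣ m ∧ ∀ A P, Over K A P → P ∉ T →
      A.valuation (((normU hK s hs α : Kˣ) : K) : Qb) =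
        A.valuation ((((b ^ m) ^ p ^ k : Kˣ) : K) : Qb) ∧
      ∃ z ∈ kummerExt p e, A.valuation ((α : kummerExt p e) : Qb) = A.valuation (z ^ p ^ k) := by
  classical
  have hh0 : NumberField.classNumber (kummerExt p e) ≠ 0 := Fintype.card_ne_zero
  obtain ⟨k, m, hm, hh⟩ :=
    Nat.exists_eq_pow_mul_and_not_dvd hh0 p (Fact.out : p.Prime).ne_one
  refine ⟨m, k, ?_⟩
  suffices ∀ F : Finset (HeightOneSpectrum (𝓞 K)), (∀ P ∈ F, P ∉ T) →
      ∃ α : (kummerExt p e)ˣ, ∀ A P, Over K A P → P ∉ T →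
        A.valuation (((normU hK s hs α : Kˣ) : K) : Qb) =
          A.valuation ((((if P ∈ F then (b ^ m) ^ p ^ k else 1) : Kˣ) : K) : Qb) ∧
        ∃ z ∈ kummerExt p e, A.valuation ((α : kummerExt p e) : Qb) = A.valuation (z ^ p ^ k) by
    obtain ⟨α, hα⟩ := this ((finite_setOf_ord_ne_zero b).toFinset.filter (· ∉ T))
      fun P hP => (Finset.mem_filter.1 hP).2
    refine ⟨α, hm, fun A P hA hP => ⟨(hα A P hA hP).1.trans ?_, (hα A P hA hP).2⟩⟩
    split_ifs with h
    · rfl
    · refine (hA.val_eq_iff 1 _).2 ?_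
      have h0 : ord P b = 0 := by_contra fun h0 =>
        h (Finset.mem_filter.2 ⟨(Set.Finite.mem_toFinset _).2 h0, hP⟩)
      rw [ord_pow, ord_pow, ord_one, h0, mul_zero, mul_zero]
  intro F
  induction F using Finset.induction_on with
  | empty =>
    refine fun _ => ⟨1, fun A P _ _ => ⟨by rw [map_one, if_neg (Finset.notMem_empty _)], 1, one_mem _, ?_⟩⟩
    rw [one_pow, Units.val_one, OneMemClass.coe_one]
  | insert P₀ F hP₀ ih =>
    intro hF
    obtain ⟨α, hα⟩ := ih fun P hP => hF P (Finset.mem_insert_of_mem hP)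
    have hP₀T := hF P₀ (Finset.mem_insert_self _ _)
    obtain ⟨β, π, hπ, hβ⟩ := exists_element_at hK pl hpl hpT heT hs hP₀T
    obtain ⟨c, hc⟩ : ∃ c : ℤ, ord P₀ b =
        ((if locF1 (pl P₀) (kappa hK e) = 0 then 1 else p : ℕ) : ℤ) * c := by
      split_ifs with h
      · exact ⟨ord P₀ b, by rw [Nat.cast_one, one_mul]⟩
      · exact hb P₀ hP₀T h
    refine ⟨α * β ^ c, fun A P hA hP => ?_⟩
    obtain ⟨hNα, zα, hzα, hvα⟩ := hα A P hA hP
    obtain ⟨⟨δ, hδ⟩, hNβ⟩ := hβ A P hA hP
    constructor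
    · rw [map_mul, map_zpow, Units.val_mul, MulMemClass.coe_mul, coe_units_zpow, map_mul,
        map_zpow₀ A.valuation, hNα, hNβ, ← map_zpow₀ A.valuation, ← coe_units_zpow, ← map_mul,
        ← MulMemClass.coe_mul, ← Units.val_mul, hA.val_eq_iff, ord_mul]
      by_cases hPP : P = P₀
      · subst hPP
        rw [if_neg hP₀, ord_one, zero_add, if_pos (Finset.mem_insert_self _ _), if_pos rfl, ord_zpow,
          ord_pow, hπ, mul_one, ord_pow, ord_pow, hc, hh]
        push_cast
        ring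
      · rw [if_neg hPP, pow_zero, one_zpow, ord_one, add_zero]
        simp only [Finset.mem_insert, hPP, false_or]
    · refine ⟨zα * (((π ^ (if δ then m else 0) : Kˣ) : K) : Qb) ^ c,
        mul_mem hzα (zpow_mem (le_kummerExt e ((π ^ (if δ then m else 0) : Kˣ) : K).2) c), ?_⟩
      rw [Units.val_mul, MulMemClass.coe_mul, coe_units_zpow,
        map_mul, map_zpow₀, hvα, hδ, mul_pow, map_mul, ← zpow_natCast (_ ^ c), ← zpow_mul, mul_comm c,
        zpow_mul, zpow_natCast, map_zpow₀, Units.val_pow_eq_pow_val, Units.val_pow_eq_pow_val,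
        SubmonoidClass.coe_pow, SubmonoidClass.coe_pow, ← pow_mul]
      congr 4
      cases δ <;> simp [hh, mul_comm]

end

end FermatAgent.Duality.Global
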