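import Fermat.Agent.Duality.Global.SymbolImage

/-!
# The global invariant

For big `T` there are nonzero coefficients `c P` at the primes of `T` such that a vector of local
classes of degree two at `T` comes from a global class vanishing outside `T` exactly when
`∑ c P · inv_P` kills it.
-/

set_option autoImplicit false

open scoped Pointwise

namespace FermatAgent.Duality.Global

open IsDedekindDomain NumberField Module

noncomputable section

local notation "Qb" => AlgebraicClosure ℚ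
local notation "GQ" => AlgebraicClosure ℚ ≃ₐ[ℚ] AlgebraicClosure ℚ

attribute [local instance] FermatAgent.RT.isGalois_algClosureRat numberField_of_finite

section Linear

variable {k : Type} [Field k] {U : Type} [AddCommGroup U] [Module k U]
  {ι : Type} [Fintype ι] {V : ι → Type} [∀ i, AddCommGroup (V i)] [∀ i, Module k (V i)]
  [∀ i, Module.Finite k (V i)]

/-- An isotropic space of more than half the dimension meets the kernel. -/
theorem exists_ne_zero_of_isotropic (W : Submodule k U) [Module.Finite k W]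
    (f : ∀ i, U →ₗ[k] V i) (β : ∀ i, V i →ₗ[k] V i →ₗ[k] k)
    (hβ : ∀ i x, (∀ y, β i x y = 0) → x = 0)
    (hiso : ∀ x ∈ W, ∀ y ∈ W, ∑ i, β i (f i x) (f i y) = 0)
    (hdim : ∑ i, finrank k (V i) < 2 * finrank k W) : ∃ x ∈ W, x ≠ 0 ∧ ∀ i, f i x = 0 := by
  classical
  by_contra! hall
  let F : U →ₗ[k] ∀ i, V i := LinearMap.pi f
  let Φ : (∀ i, V i) →ₗ[k] Module.Dual k (∀ i, V i) :=
    ∑ i, ((LinearMap.proj i).dualMap).comp ((β i).comp (LinearMap.proj i))
  have hΦ : ∀ v w, Φ v w = ∑ i, β i (v i) (w i) := fun v w => by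
    simp only [Φ, LinearMap.sum_apply, LinearMap.comp_apply, LinearMap.dualMap_apply,
      LinearMap.proj_apply]
  have hinj : Function.Injective Φ := by
    rw [← LinearMap.ker_eq_bot, LinearMap.ker_eq_bot']
    intro v hv
    funext i
    refine hβ i (v i) fun y => ?_
    have h := LinearMap.congr_fun hv (Pi.single i y)
    rw [hΦ, Finset.sum_eq_single i (fun j _ hj => by rw [Pi.single_eq_of_ne hj, map_zero])
      (by simp), Pi.single_eq_same] at h
    exact h
  set S := W.map F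
  have hS : finrank k S = finrank k W := by
    have h : Function.Injective (F.domRestrict W) :=
      LinearMap.ker_eq_bot.mp (LinearMap.ker_eq_bot'.mpr fun x hx => by
        by_contra h0
        obtain ⟨i, hi⟩ := hall x.1 x.2 (fun h => h0 (Subtype.ext h))
        exact hi (congrFun hx i))
    rw [show S = LinearMap.range (F.domRestrict W) from (LinearMap.range_domRestrict W F).symm]
    exact LinearMap.finrank_range_of_inj h
  have hle : S.map Φ ≤ S.dualAnnihilator := by
    rintro _ ⟨_, ⟨x, hx, rfl⟩, rfl⟩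
    rw [Submodule.mem_dualAnnihilator]
    rintro _ ⟨y, hy, rfl⟩
    rw [hΦ]
    exact hiso x hx y hy
  have h1 := Submodule.finrank_mono hle
  rw [← (Submodule.equivMapOfInjective Φ hinj S).finrank_eq] at h1
  have h2 := Subspace.finrank_add_finrank_dualAnnihilator_eq S
  rw [Module.finrank_pi_fintype k] at h2
  omega

end Linear

variable {p : ℕ} [Fact p.Prime] {K : IntermediateField ℚ Qb} [FiniteDimensional ℚ K]
  (hK : ContainsMuP p K) (pl : HeightOneSpectrum (𝓞 K) → ValuationSubring Qb)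
  (hpl : ∀ P, Over K (pl P) P) (hp2 : NoReal p K) {T : Finset (HeightOneSpectrum (𝓞 K))}
  (hpT : ∀ P : HeightOneSpectrum (𝓞 K), (p : 𝓞 K) ∈ P.asIdeal → P ∈ T) (hbig : IsBig p T)

/-- An element of order one at all primes of a finite set. -/
theorem exists_ord_eq_one_forall (T : Finset (HeightOneSpectrum (𝓞 K))) :
    ∃ a : Kˣ, ∀ P ∈ T, ord P a = 1 := by
  classical
  rcases T.eq_empty_or_nonempty with rfl | hT
  · exact ⟨1, by simp⟩
  have hπ : ∀ P : T, ∃ π : 𝓞 K, π ∈ P.1.asIdeal ∧ π ∉ P.1.asIdeal ^ 2 := fun P => by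
    have h : P.1.asIdeal ^ 2 < P.1.asIdeal := by
      conv_rhs => rw [← pow_one P.1.asIdeal]
      exact Ideal.pow_right_strictAnti _ P.1.ne_bot P.1.isPrime.ne_top one_lt_two
    exact SetLike.exists_of_lt h
  choose π hπ hπ' using hπ
  obtain ⟨y, hy⟩ := IsDedekindDomain.exists_forall_sub_mem_ideal (s := T)
    (fun P => P.asIdeal) (fun _ => 2) (fun P _ => P.prime) (fun P _ Q _ h hPQ => h (HeightOneSpectrum.ext hPQ)) π
  have hy0 : y ≠ 0 := by
    rintro rfl
    obtain ⟨P, hP⟩ := hT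
    exact hπ' ⟨P, hP⟩ (by simpa using hy P hP)
  refine ⟨Units.mk0 (algebraMap (𝓞 K) K y) (by simpa using hy0), fun P hP => ?_⟩
  have h1 : P.intValuation y ≤ WithZero.exp (-((1 : ℕ) : ℤ)) :=
    (P.intValuation_le_pow_iff_mem y 1).mpr (by
      rw [pow_one, ← sub_add_cancel y (π ⟨P, hP⟩)]
      exact add_mem (Ideal.pow_le_self two_ne_zero (hy P hP)) (hπ ⟨P, hP⟩))
  have h2 : ¬ P.intValuation y ≤ WithZero.exp (-((2 : ℕ) : ℤ)) := by
    rw [P.intValuation_le_pow_iff_mem]
    intro h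
    exact hπ' ⟨P, hP⟩ (by
      rw [show π ⟨P, hP⟩ = y - (y - π ⟨P, hP⟩) by ring]
      exact sub_mem h (hy P hP))
  have h := valuation_eq_exp P (Units.mk0 (algebraMap (𝓞 K) K y) (by simpa using hy0))
  rw [Units.val_mk0, P.valuation_of_algebraMap] at h
  rw [h, WithZero.exp_le_exp] at h1 h2
  omega

-- `hK`, `hpl` are unused here but kept so that callers see a uniform argument list.
set_option linter.unusedSectionVars false in
include hK hpl hpT in
theorem exists_mem_T : ∃ P : HeightOneSpectrum (𝓞 K), P ∈ T := by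
  obtain ⟨A, hA⟩ := FermatAgent.RT.exists_liesOverPrime (Fact.out : p.Prime)
  obtain ⟨P, hP⟩ := exists_over (K := K) (A := A) ⟨p, Fact.out, hA⟩
  exact ⟨P, hpT P (hP.natCast_mem hA)⟩

open scoped Classical in
include hK hpl hp2 hpT hbig in
set_option maxHeartbeats 2000000 in
/-- The invariant, when a `T`-unit is nowhere in `T` a local `p`-th power. -/
theorem exists_invariant_of_nonsplit {a : Kˣ} (haT : a ∈ tUnits T)
    (hall : ∀ P ∈ T, locF1 (pl P) (kappa hK a) ≠ 0) :
    ∃ c : HeightOneSpectrum (𝓞 K) → ZMod p, (∀ P ∈ T, c P ≠ 0) ∧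
      (∀ x : fullH2 p K, (∀ P ∉ T, locF2 (pl P) x = 0) →
        ∑ P ∈ T, c P * h2Map hK (pl P) (locF2 (pl P) x) = 0) ∧
      ∀ z : HeightOneSpectrum (𝓞 K) → ZMod p, ∑ P ∈ T, c P * z P = 0 →
        ∃ x : fullH2 p K, (∀ P ∈ T, h2Map hK (pl P) (locF2 (pl P) x) = z P) ∧
          ∀ P ∉ T, locF2 (pl P) x = 0 := by
  obtain ⟨P₀, hP₀⟩ := exists_mem_T hK pl hpl hpT
  have ha : kappa hK a ≠ 0 := fun h => hall P₀ hP₀ (by rw [h, map_zero])
  have hns : nonsplit hK pl a T = T := by
    ext P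
    rw [mem_nonsplit]
    exact ⟨fun h => h.1, fun h => ⟨h, hall P h⟩⟩
  obtain ⟨c, hc0, hvan, hreal⟩ := exists_symbol_hyperplane hK pl hpl hpT hbig hp2 haT ha
  rw [hns] at hc0 hvan hreal
  have hsupp : ∀ x : fullH2 p K, (∀ P ∉ T, locF2 (pl P) x = 0) →
      ∑ P ∈ T, c P * h2Map hK (pl P) (locF2 (pl P) x) = 0 := by
    intro x hx
    obtain ⟨b, rfl⟩ := exists_eq_gsym hK pl hpl hp2 ha x fun P hP => hx P fun h => hall P h hP
    rw [Finset.sum_congr rfl fun P _ => by rw [locF2_gsym]]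
    exact hvan b fun P hP hP' => dvd_ord_of_sym_eq_zero hK pl hpl hpT haT hP hP'
      (by rw [← locF2_gsym]; exact hx P hP)
  have hrealise : ∀ z : HeightOneSpectrum (𝓞 K) → ZMod p, ∑ P ∈ T, c P * z P = 0 →
      ∃ x : fullH2 p K, (∀ P ∈ T, h2Map hK (pl P) (locF2 (pl P) x) = z P) ∧
        ∀ P ∉ T, locF2 (pl P) x = 0 := fun z hz => by
    obtain ⟨b, hb, hb'⟩ := hreal z hz
    exact ⟨gsym hK b a, fun P hP => by rw [locF2_gsym]; exact hb P hP,
      fun P hP => by rw [locF2_gsym]; exact hb' P hP⟩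
  refine ⟨c, ?_, hsupp, hrealise⟩
  by_contra! hB
  obtain ⟨P₁, hP₁, hc₁⟩ := hB
  set C := T.filter fun P => c P ≠ 0
  have hfin : ∀ P : HeightOneSpectrum (𝓞 K), Module.Finite (ZMod p) (localH1 p K (pl P)) := fun P => by
    obtain ⟨l, hl, hlA⟩ := (hpl P).1
    exact (localDualityAt p hl K hK hlA).finite_H1
  have : ∀ P : C, Module.Finite (ZMod p) (localH1 p K (pl P.1)) := fun P => hfin P.1
  have hdim : ∑ P : C, finrank (ZMod p) (localH1 p K (pl P.1)) <
      2 * finrank (ZMod p) (unitSpace hK T) := by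
    rw [finrank_unitSpace, Finset.sum_coe_sort C (fun P => finrank (ZMod p) (localH1 p K (pl P)))]
    have h := sum_finrank_localH1 hK pl hpl hpT hp2
    rw [Finset.sum_coe_sort T (fun P => finrank (ZMod p) (localH1 p K (pl P)))] at h
    have h1 : ∑ P ∈ C, finrank (ZMod p) (localH1 p K (pl P)) +
        finrank (ZMod p) (localH1 p K (pl P₁)) ≤
        ∑ P ∈ T, finrank (ZMod p) (localH1 p K (pl P)) := by
      rw [← Finset.sum_erase_add T _ hP₁]
      refine Nat.add_le_add_right (Finset.sum_le_sum_of_subset fun P hP => ?_) _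
      exact Finset.mem_erase.mpr ⟨fun h => (Finset.mem_filter.mp hP).2 (h ▸ hc₁),
        (Finset.mem_filter.mp hP).1⟩
    obtain ⟨l, hl, hlA⟩ := (hpl P₁).1
    rw [(localDualityAt p hl K hK hlA).finrank_H1] at h1
    omega
  obtain ⟨κe, hκe, he0, hkill⟩ := exists_ne_zero_of_isotropic
    (V := fun P : C => localH1 p K (pl P.1)) (unitSpace hK T) (fun P => locF1 (pl P.1))
    (fun P => c P.1 • (cupTriv (ZMod p) (localLevels K (pl P.1))).compr₂ (h2Map hK (pl P.1)))
    (fun P x hx => by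
      obtain ⟨l, hl, hlA⟩ := (hpl P.1).1
      refine (localDualityAt p hl K hK hlA).cup_nondegenerate x fun y => ?_
      exact (h2Map_eq_zero_iff hK (hpl P.1).1).mp
        ((mul_eq_zero.mp (hx y)).resolve_left (Finset.mem_filter.mp P.2).2))
    (fun x hx y hy => by
      obtain ⟨b, hb, rfl⟩ := (mem_unitSpace hK).mp hx
      obtain ⟨b', hb', rfl⟩ := (mem_unitSpace hK).mp hy
      show ∑ P : C, c P.1 * h2Map hK (pl P.1) (sym hK (pl P.1) b b') = 0
      rw [Finset.sum_coe_sort C (fun P => c P * h2Map hK (pl P) (sym hK (pl P) b b')),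
        Finset.sum_subset (Finset.filter_subset _ T : C ⊆ T) fun P hP hP' => by
          rw [show c P = 0 from by_contra fun h => hP' (Finset.mem_filter.mpr ⟨hP, h⟩), zero_mul]]
      have h := hsupp (gsym hK b b') fun P hP => by
        rw [locF2_gsym]; exact sym_eq_zero_outside hK pl hpl hpT hb' hb hP
      rwa [Finset.sum_congr rfl fun P _ => by rw [locF2_gsym]] at h)
    hdim
  obtain ⟨e, heT, rfl⟩ := (mem_unitSpace hK).mp hκe
  obtain ⟨φ, ⟨Q, hQ, hφQ⟩, hφ, -⟩ := exists_symbol_hyperplane hK pl hpl hpT hbig hp2 heT he0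
  have hQT : Q ∈ T := ((mem_nonsplit hK pl).mp hQ).1
  have hQc : c Q = 0 := by
    by_contra h
    exact ((mem_nonsplit hK pl).mp hQ).2 (hkill ⟨Q, Finset.mem_filter.mpr ⟨hQT, h⟩⟩)
  obtain ⟨x, hx, hx'⟩ := hrealise (fun P => if P = Q then 1 else 0) (Finset.sum_eq_zero fun P _ => by
    split_ifs with h
    · rw [h, hQc, zero_mul]
    · rw [mul_zero])
  have hx0 : ∀ P, P ≠ Q → locF2 (pl P) x = 0 := fun P hne => by
    by_cases hP : P ∈ T
    · exact (h2Map_eq_zero_iff hK (hpl P).1).mp ((hx P hP).trans (if_neg hne))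
    · exact hx' P hP
  obtain ⟨b, rfl⟩ := exists_eq_gsym hK pl hpl hp2 he0 x fun P hP => hx0 P fun h =>
    ((mem_nonsplit hK pl).mp hQ).2 (h ▸ hP)
  have h := hφ b fun P hP hP' => dvd_ord_of_sym_eq_zero hK pl hpl hpT heT hP hP'
    (by rw [← locF2_gsym]; exact hx' P hP)
  rw [Finset.sum_eq_single Q (fun P _ hne => by rw [← locF2_gsym, hx0 P hne, map_zero, mul_zero])
    (fun h => absurd hQ h), ← locF2_gsym, hx Q hQT, if_pos rfl, mul_one] at h
  exact hφQ h

open scoped Classical in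
include hK hpl hp2 hpT hbig in
/-- **The global invariant.** -/
theorem exists_invariant :
    ∃ c : HeightOneSpectrum (𝓞 K) → ZMod p, (∀ P ∈ T, c P ≠ 0) ∧
      (∀ x : fullH2 p K, (∀ P ∉ T, locF2 (pl P) x = 0) →
        ∑ P ∈ T, c P * h2Map hK (pl P) (locF2 (pl P) x) = 0) ∧
      ∀ z : HeightOneSpectrum (𝓞 K) → ZMod p, ∑ P ∈ T, c P * z P = 0 →
        ∃ x : fullH2 p K, (∀ P ∈ T, h2Map hK (pl P) (locF2 (pl P) x) = z P) ∧
          ∀ P ∉ T, locF2 (pl P) x = 0 := by
  obtain ⟨a, ha⟩ := exists_ord_eq_one_forall T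
  set T₁ := T ∪ (finite_setOf_ord_ne_zero a).toFinset.filter fun P => ¬ (p : ℤ) ∣ ord P a with hT₁
  have hTT₁ : T ⊆ T₁ := Finset.subset_union_left
  have hpT₁ : ∀ P : HeightOneSpectrum (𝓞 K), (p : 𝓞 K) ∈ P.asIdeal → P ∈ T₁ :=
    fun P hP => hTT₁ (hpT P hP)
  obtain ⟨e, he, y, hey⟩ := (hbig.mono hTT₁).exists_tUnit_mul_pow (x := a) fun P hP => by
    by_contra h0
    refine hP (Finset.mem_union_right _ (Finset.mem_filter.mpr ⟨?_, h0⟩))
    exact (Set.Finite.mem_toFinset _).mpr fun hz => h0 (by rw [hz]; exact dvd_zero _)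
  have hnd : ∀ P ∈ T₁, ¬ (p : ℤ) ∣ ord P e := fun P hP h => by
    have h' : (p : ℤ) ∣ ord P a := by
      rw [hey, ord_mul, ord_pow]
      exact dvd_add h (dvd_mul_right _ _)
    rcases Finset.mem_union.mp hP with hP | hP
    · rw [ha P hP] at h'
      exact (Fact.out : p.Prime).ne_one (by simpa using Int.eq_one_of_dvd_one (by positivity) h')
    · exact (Finset.mem_filter.mp hP).2 h'
  obtain ⟨c, hc, h1, h2⟩ := exists_invariant_of_nonsplit hK pl hpl hp2 hpT₁ (hbig.mono hTT₁) he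
    fun P hP h => hnd P hP (dvd_ord_of_locF1_eq_zero hK (hpl P) h)
  refine ⟨c, fun P hP => hc P (hTT₁ hP), fun x hx => ?_, fun z hz => ?_⟩
  · rw [← h1 x fun P hP => hx P fun h => hP (hTT₁ h)]
    exact Finset.sum_subset hTT₁ fun P _ hP => by rw [hx P hP, map_zero, mul_zero]
  · obtain ⟨x, hx, hx'⟩ := h2 (fun P => if P ∈ T then z P else 0) (by
      rw [← Finset.sum_subset hTT₁ fun P _ hP => by rw [if_neg hP, mul_zero],
        Finset.sum_congr rfl fun P hP => by rw [if_pos hP]]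
      exact hz)
    refine ⟨x, fun P hP => (hx P (hTT₁ hP)).trans (if_pos hP), fun P hP => ?_⟩
    by_cases hP' : P ∈ T₁
    · exact (h2Map_eq_zero_iff hK (hpl P).1).mp ((hx P hP').trans (if_neg hP))
    · exact hx' P hP'

end

end FermatAgent.Duality.Global
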