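import Fermat.Agent.Duality.Global.CyclicExt
import Fermat.Agent.Duality.Global.Herbrand

/-!
# The norm index of the `T`-units in a Kummer extension

For `p`-big `T` containing the primes over `p` and a `T`-unit `a` which is no `p`-th power, the
norms of `T`-units of `K(a^(1/p))` have index `p ^ (n - 1)` in the `T`-units of `K`, where `n` is the
number of primes of `T` at which `a` is no local `p`-th power; the symbol with `a` kills them.
-/

set_option autoImplicit false

open scoped Pointwise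

namespace FermatAgent.Duality.Global

open IsDedekindDomain NumberField Module Finset
open FermatAgent.Duality.Local (kap kapFun kapFun_spec zpw rootP rootP_pow kerChi mem_kerChi muDataLocal)

noncomputable section

local notation "Qb" => AlgebraicClosure ℚ
local notation "GQ" => AlgebraicClosure ℚ ≃ₐ[ℚ] AlgebraicClosure ℚ

attribute [local instance] FermatAgent.RT.isGalois_algClosureRat numberField_of_finite

variable {p : ℕ} [Fact p.Prime] {K : IntermediateField ℚ Qb} [FiniteDimensional ℚ K]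
  (hK : ContainsMuP p K)

omit [FiniteDimensional ℚ K] in
/-- An element whose valuation is a `p`-th power of that of an inertia-fixed element has an
unramified class. -/
theorem locF1_kappa_mem_unramified_of_root {A : ValuationSubring Qb} {l : ℕ} (hl : l.Prime)
    (hA : A.LiesOverPrime l) (hlp : l ≠ p) {x : Kˣ} {t : Qb}
    (hfix : ∀ σ : localGroup K A, σ ∈ localInertia K A → (σ : GQ) t = t)
    (hv : A.valuation t ^ p = A.valuation ((x : K) : Qb)) :
    locF1 A (kappa hK x) ∈ unramifiedH1 p K A := by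
  rw [locF1_kappa]
  set μ := muDataLocal p K hK A
  rw [unramifiedH1, LinearMap.mem_ker, Local.kapHom_apply]
  refine (cl1_eq_zero_iff _ _ _).2 ⟨0, ?_⟩
  rw [map_zero]
  funext σ
  show (0 : ZMod p) = kapFun μ (toLocal A x) σ.1
  set r := rootP p (((toLocal A x : Local.fixedUnits (localGroup K A)) : Qbˣ) : Qb)
  have hr0 : r ≠ 0 := Local.ne_zero_of_pow_eq (rootP_pow _)
  have hx0 : A.valuation ((x : K) : Qb) ≠ 0 := (_root_.map_ne_zero _).mpr (by simp)
  have hr : A.valuation (r / t) = 1 := by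
    have h : A.valuation (r / t) ^ p = 1 := by
      rw [map_div₀, div_pow, hv, ← map_pow, rootP_pow]
      exact div_self hx0
    exact (pow_eq_one_iff.1 h).resolve_right (Fact.out : p.Prime).ne_zero
  have h1 := FermatAgent.Local.inertia_val_sub_lt_one
    (show ((σ.1 : localGroup K A) : GQ) ∈ A.inertiaSubgroupIn ℚ from σ.2)
    ((A.valuation_le_one_iff (r / t)).1 hr.le)
  rw [map_div₀, hfix σ.1 σ.2, kapFun_spec μ _ (rootP_pow _) σ.1, mul_div_assoc, ← sub_one_mul,
    map_mul, hr, mul_one] at h1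
  by_contra hne
  rw [Local.val_zpw_sub_one μ.isPrimitiveRoot (Ne.symm hne),
    Local.val_zeta_sub_one_eq_one μ.isPrimitiveRoot hl hA hlp] at h1
  exact lt_irrefl _ h1

variable {a : Kˣ} (s : K.fixingSubgroup) (hs : (chi hK a).1 s = 1)

omit [FiniteDimensional ℚ K] in
include hK in
theorem pow_p_apply {x : Qb} (hx : x ∈ kummerExt p a) : ((s ^ p : K.fixingSubgroup) : GQ) x = x :=
  ((mem_fix_kummerExt hK a).mpr ⟨(s ^ p).2, Local.pow_p_mem (χ := chi hK a) (s := s)⟩ :
    ((s ^ p : K.fixingSubgroup) : GQ) ∈ (kummerExt p a).fixingSubgroup) ⟨x, hx⟩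

omit [FiniteDimensional ℚ K] in
include hK hs in
theorem prod_mem_base {x : Qb} (hx : x ∈ kummerExt p a) :
    ∏ j ∈ range p, ((s ^ j : K.fixingSubgroup) : GQ) x ∈ K := by
  set P := ∏ j ∈ range p, ((s ^ j : K.fixingSubgroup) : GQ) x
  have hs' : (s : GQ) P = P := by
    have h : (s : GQ) P = ∏ j ∈ range p, ((s ^ (j + 1) : K.fixingSubgroup) : GQ) x := by
      rw [map_prod]
      exact prod_congr rfl fun j _ => by rw [pow_succ', Subgroup.coe_mul]; rfl
    obtain ⟨m, hm⟩ : ∃ m, p = m + 1 := ⟨p - 1, by have := (Fact.out : p.Prime).pos; omega⟩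
    rw [h]
    show _ = ∏ j ∈ range p, ((s ^ j : K.fixingSubgroup) : GQ) x
    have e := pow_p_apply hK s hx
    simp only [hm] at e ⊢
    rw [prod_range_succ, e]
    exact (prod_range_succ' (fun j => ((s ^ j : K.fixingSubgroup) : GQ) x) m).symm
  have hpow : ∀ i : ℕ, ((s ^ i : K.fixingSubgroup) : GQ) P = P := fun i => by
    induction i with
    | zero => rfl
    | succ i ih =>
      rw [pow_succ, Subgroup.coe_mul, AlgEquiv.mul_apply, hs', ih]
  have hPL : P ∈ kummerExt p a :=
    prod_mem fun j _ => apply_mem hK (s ^ j) hx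
  have h : P ∈ IntermediateField.fixedField K.fixingSubgroup := by
    rintro ⟨g, hg⟩
    exact (apply_eq_pow hK hs ⟨g, hg⟩ hPL).trans (hpow _)
  rwa [InfiniteGalois.fixedField_fixingSubgroup] at h

/-- The norm to `K` on the units of the Kummer extension. -/
def normU : (kummerExt p a)ˣ →* Kˣ where
  toFun x := Units.mk0 ⟨∏ j ∈ range p, ((s ^ j : K.fixingSubgroup) : GQ) ((x : kummerExt p a) : Qb),
      prod_mem_base hK s hs (x : kummerExt p a).2⟩ fun h => by
    have h' : ∏ j ∈ range p, ((s ^ j : K.fixingSubgroup) : GQ) ((x : kummerExt p a) : Qb) = 0 :=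
      congrArg Subtype.val h
    obtain ⟨j, -, hj⟩ := prod_eq_zero_iff.mp h'
    exact x.ne_zero (Subtype.ext ((_root_.map_eq_zero _).mp hj))
  map_one' := Units.ext (Subtype.ext (by
    show ∏ j ∈ range p, ((s ^ j : K.fixingSubgroup) : GQ) (1 : Qb) = 1
    exact prod_eq_one fun j _ => map_one _))
  map_mul' x y := Units.ext (Subtype.ext (by
    show ∏ j ∈ range p, _ = (∏ j ∈ range p, _) * ∏ j ∈ range p, _
    rw [← prod_mul_distrib]
    exact prod_congr rfl fun j _ => map_mul _ _ _))

omit [FiniteDimensional ℚ K] in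
theorem coe_normU (x : (kummerExt p a)ˣ) :
    (((normU hK s hs x : Kˣ) : K) : Qb) =
      ∏ j ∈ range p, ((s ^ j : K.fixingSubgroup) : GQ) ((x : kummerExt p a) : Qb) := rfl

variable (p a) in
/-- The inclusion of the units of `K`. -/
def inclU : Kˣ →* (kummerExt p a)ˣ :=
  Units.map (IntermediateField.inclusion (le_kummerExt (p := p) a)).toRingHom.toMonoidHom

omit [FiniteDimensional ℚ K] in
theorem coe_inclU (x : Kˣ) :
    ((((inclU p a x : (kummerExt p a)ˣ)) : kummerExt p a) : Qb) = ((x : K) : Qb) := rfl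

omit [FiniteDimensional ℚ K] in
theorem inclU_injective : Function.Injective (inclU p a) := fun _ _ h =>
  Units.ext (Subtype.ext congr((($h).1).1))

omit [FiniteDimensional ℚ K] in
include hs in
theorem exists_h90 (w : (kummerExt p a)ˣ) (hw : normU hK s hs w = 1) :
    ∃ t : (kummerExt p a)ˣ, (s : GQ) ((t : kummerExt p a) : Qb) =
      ((w : kummerExt p a) : Qb) * ((t : kummerExt p a) : Qb) := by
  have : NeZero p := ⟨(Fact.out : p.Prime).ne_zero⟩
  let Z : ℕ → Qb := fun i => ∏ j ∈ range i, ((s ^ j : K.fixingSubgroup) : GQ) ((w : kummerExt p a) : Qb)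
  have hZ0 : ∀ i, Z i ≠ 0 := fun i => prod_ne_zero_iff.2 fun j _ => (_root_.map_ne_zero _).2 (by simp)
  have hZL : ∀ i, Z i ∈ kummerExt p a := fun i =>
    prod_mem fun j _ => apply_mem hK (s ^ j) (w : kummerExt p a).2
  have hZadd : ∀ i j, Z (i + j) = Z i * ((s ^ i : K.fixingSubgroup) : GQ) (Z j) := by
    intro i j
    simp only [Z, prod_range_add, map_prod]
    exact congrArg _ (prod_congr rfl fun k _ => by rw [pow_add, Subgroup.coe_mul]; rfl)
  have hZp : Z p = 1 := (coe_normU hK s hs w).symm.trans (by rw [hw]; rfl)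
  have hZmod : ∀ q i, Z (p * q + i) = Z i := by
    intro q i
    induction q with
    | zero => simp
    | succ q ih =>
      rw [show p * (q + 1) + i = p + (p * q + i) by ring, hZadd, hZp, one_mul,
        pow_p_apply hK s (hZL _), ih]
  obtain ⟨t, ht0, ht⟩ := Local.exists_eq_div_of_mulCocycle
    (fun g : K.fixingSubgroup => Z ((chi hK a).1 g).val)
    ((chi hK a).2.1.comp fun i : ZMod p => Z i.val) (fun g => hZ0 _) fun g k => by
      show Z _ = Z _ * (g : GQ) (Z _)
      rw [apply_eq_pow hK hs g (hZL _), ← hZadd, Local.val_chi_mul, add_comm, hZmod]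
  have htL : t ∈ kummerExt p a := by
    have h : t ∈ IntermediateField.fixedField (kummerExt p a).fixingSubgroup := by
      rintro ⟨g, hg⟩
      obtain ⟨hgK, hg0⟩ := (mem_fix_kummerExt hK a).mp hg
      have e := ht ⟨g, hgK⟩
      simp only [hg0, ZMod.val_zero, Z, prod_range_zero] at e
      show g t = t
      rw [eq_div_iff ht0, one_mul] at e
      exact e.symm
    rwa [InfiniteGalois.fixedField_fixingSubgroup] at h
  refine ⟨Units.mk0 ⟨t, htL⟩ fun h => ht0 congr(($h).1), ?_⟩
  have : Fact (1 < p) := ⟨(Fact.out : p.Prime).one_lt⟩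
  have e := ht s
  simp only [hs, ZMod.val_one, Z, prod_range_one, pow_zero] at e
  rw [eq_div_iff ht0] at e
  exact e.symm

variable (pl : HeightOneSpectrum (𝓞 K) → ValuationSubring Qb) (hpl : ∀ P, Over K (pl P) P)
  {T : Finset (HeightOneSpectrum (𝓞 K))}

include hs in
theorem mem_tUnits_primesAbove_iff {x : (kummerExt p a)ˣ} :
    x ∈ tUnits (primesAbove pl hpl s T) ↔
      ∀ A P, Over K A P → P ∉ T → A.valuation ((x : kummerExt p a) : Qb) = 1 := by
  constructor
  · intro hx A P hP hPT
    obtain ⟨Q, hQ⟩ := exists_over (K := kummerExt p a) hP.1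
    exact (hQ.val_eq_one_iff x).mpr
      (hx Q fun h => hPT ((mem_primesAbove_iff hK hs pl hpl hQ hP).mp h))
  · intro h Q hQ
    obtain ⟨A, hA⟩ := exists_place Q
    obtain ⟨P, hP⟩ := exists_over (K := K) hA.1
    exact (hA.val_eq_one_iff x).mp
      (h A P hP fun hm => hQ ((mem_primesAbove_iff hK hs pl hpl hA hP).mpr hm))

include hs in
theorem galU_mem_tUnits {x : (kummerExt p a)ˣ} (hx : x ∈ tUnits (primesAbove pl hpl s T))
    (g : K.fixingSubgroup) : galU hK g x ∈ tUnits (primesAbove pl hpl s T) := by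
  refine (mem_tUnits_primesAbove_iff hK s hs pl hpl).mpr fun A P hP hPT => ?_
  have := (mem_tUnits_primesAbove_iff hK s hs pl hpl).mp hx _ P (hP.smul (inv_mem g.2)) hPT
  rwa [val_eq_one_smul_iff, inv_inv] at this

variable (haT : a ∈ tUnits T) (hpT : ∀ P : HeightOneSpectrum (𝓞 K), (p : 𝓞 K) ∈ P.asIdeal → P ∈ T)
  (hbig : IsBig p T)

include hs haT hpT hbig hpl in
/-- Hilbert 90 for the `T`-units. -/
theorem exists_tUnit_h90 {w : (kummerExt p a)ˣ} (hw : w ∈ tUnits (primesAbove pl hpl s T))
    (hN : normU hK s hs w = 1) :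
    ∃ x ∈ tUnits (primesAbove pl hpl s T), galU hK s x / x = w := by
  have hp := (Fact.out : p.Prime)
  obtain ⟨t, ht⟩ := exists_h90 hK s hs w hN
  have hwt : galU hK s t / t = w := by
    rw [div_eq_iff_eq_mul]
    exact Units.ext (Subtype.ext ht)
  -- outside `T` all conjugates of `t` have the same valuation
  have hconst : ∀ (i : ℕ) (A : ValuationSubring Qb) (P : HeightOneSpectrum (𝓞 K)), Over K A P → P ∉ T →
      A.valuation (((s ^ i : K.fixingSubgroup) : GQ) ((t : kummerExt p a) : Qb)) =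
        A.valuation ((t : kummerExt p a) : Qb) := by
    intro i
    induction i with
    | zero => intros; rfl
    | succ i ih =>
      intro A P hP hPT
      have h1 := (mem_tUnits_primesAbove_iff hK s hs pl hpl).mp
        (galU_mem_tUnits hK s hs pl hpl hw (s ^ i)) A P hP hPT
      rw [pow_succ, Subgroup.coe_mul, AlgEquiv.mul_apply, ht, map_mul, map_mul,
        show A.valuation (((s ^ i : K.fixingSubgroup) : GQ) ((w : kummerExt p a) : Qb)) = 1 from h1,
        one_mul, ih A P hP hPT]
  set x := normU hK s hs t with hxdef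
  have hvx : ∀ A P, Over K A P → P ∉ T →
      A.valuation ((t : kummerExt p a) : Qb) ^ p = A.valuation ((x : K) : Qb) := by
    intro A P hP hPT
    rw [hxdef, coe_normU, map_prod, prod_congr rfl fun j _ => hconst j A P hP hPT, prod_const,
      card_range]
  have hdvd : ∀ P ∉ T, (p : ℤ) ∣ ord P x := by
    intro P hPT
    obtain ⟨A, hA⟩ := exists_place P
    obtain ⟨l, hl, hlA⟩ := hA.1
    have hlp : l ≠ p := by rintro rfl; exact hPT (hpT P (hA.natCast_mem hlA))
    refine dvd_ord_of_unramified hK hA hl hlA hlp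
      (locF1_kappa_mem_unramified_of_root hK hl hlA hlp (t := ((t : kummerExt p a) : Qb)) ?_
        (hvx A P hA hPT))
    intro σ hσ
    refine ((mem_fix_kummerExt hK a).mpr ⟨σ.2.1, ?_⟩ :
      (σ : GQ) ∈ (kummerExt p a).fixingSubgroup) ⟨_, (t : kummerExt p a).2⟩
    have hu := locF1_kappa_unit_mem_unramified hK hA hl hlA hlp (haT P hPT)
    rw [← cl1_chi, unramifiedH1, LinearMap.mem_ker] at hu
    obtain ⟨m, hm⟩ := (cl1_eq_zero_iff _ _ _).mp hu
    have := congrFun hm ⟨σ, hσ⟩
    simp at this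
    exact this.symm
  obtain ⟨k, m, hm, hk⟩ := hbig.exists_ord (fun P => ord P x / p)
    ((finite_setOf_ord_ne_zero x).subset fun P hP hP0 => hP (by simp [hP0]))
  have hp0 : (p : ℤ) ≠ 0 := by exact_mod_cast hp.ne_zero
  set x₁ := t ^ m / inclU p a k with hx₁
  set x₂ := t ^ p / inclU p a x with hx₂
  have hx₁T : x₁ ∈ tUnits (primesAbove pl hpl s T) := by
    refine (mem_tUnits_primesAbove_iff hK s hs pl hpl).mpr fun A P hP hPT => ?_
    suffices h : A.valuation (((x₁ : (kummerExt p a)ˣ) : kummerExt p a) : Qb) ^ p = 1 from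
      (pow_eq_one_iff.1 h).resolve_right hp.ne_zero
    rw [hx₁, Units.val_div_eq_div_val, IntermediateField.coe_div, Units.val_pow_eq_pow_val,
      SubmonoidClass.coe_pow, map_div₀, map_pow, coe_inclU, div_pow, ← pow_mul, mul_comm, pow_mul,
      hvx A P hP hPT, ← map_pow, ← map_pow]
    have : A.valuation (((x ^ m : Kˣ) : K) : Qb) = A.valuation (((k ^ p : Kˣ) : K) : Qb) := by
      rw [hP.val_eq_iff, ord_pow, ord_pow, hk P hPT]
      obtain ⟨c, hc⟩ := hdvd P hPT
      rw [hc, Int.mul_ediv_cancel_left c hp0]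
      ring
    simp only [Units.val_pow_eq_pow_val, SubmonoidClass.coe_pow] at this
    rw [this, div_self ((_root_.map_ne_zero _).mpr (by simp))]
  have hx₂T : x₂ ∈ tUnits (primesAbove pl hpl s T) := by
    refine (mem_tUnits_primesAbove_iff hK s hs pl hpl).mpr fun A P hP hPT => ?_
    rw [hx₂, Units.val_div_eq_div_val, IntermediateField.coe_div, Units.val_pow_eq_pow_val,
      SubmonoidClass.coe_pow, map_div₀, map_pow, coe_inclU, hvx A P hP hPT,
      div_self ((_root_.map_ne_zero _).mpr (by simp))]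
  have hfixK : ∀ y : Kˣ, galU hK s (inclU p a y) = inclU p a y := fun y =>
    Units.ext (Subtype.ext (s.2 ⟨_, (y : K).2⟩))
  obtain ⟨c, d, hcd⟩ : IsCoprime (m : ℤ) p :=
    Nat.isCoprime_iff_coprime.mpr (hp.coprime_iff_not_dvd.mpr hm).symm
  refine ⟨x₁ ^ c * x₂ ^ d, mul_mem (zpow_mem hx₁T c) (zpow_mem hx₂T d), ?_⟩
  have e1 : galU hK s x₁ / x₁ = w ^ (m : ℤ) := by
    rw [hx₁, map_div, map_pow, hfixK, zpow_natCast, ← hwt, div_pow, div_div_div_cancel_right]
  have e2 : galU hK s x₂ / x₂ = w ^ (p : ℤ) := by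
    rw [hx₂, map_div, map_pow, hfixK, zpow_natCast, ← hwt, div_pow, div_div_div_cancel_right]
  rw [map_mul, map_zpow, map_zpow, mul_div_mul_comm, ← div_zpow, ← div_zpow, e1, e2, ← zpow_mul,
    ← zpow_mul, ← zpow_add, show (m : ℤ) * c + p * d = 1 by linear_combination hcd, zpow_one]

include hs hpl haT hpT hbig in
theorem exists_norm_subgroup (hp2 : NoReal p K) (ha : kappa hK a ≠ 0) :
    ∃ N : Subgroup Kˣ, N ≤ tUnits T ∧
      N.relIndex (tUnits T) * p =
        p ^ (Nat.card {P // P ∈ T ∧ locF1 (pl P) (kappa hK a) ≠ 0}) ∧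
      ∀ b ∈ N, gsym hK b a = 0 := by
  classical
  have hp := (Fact.out : p.Prime)
  set TL := primesAbove (p := p) (a := a) pl hpl s T
  set N := (tUnits TL).map (normU hK s hs)
  refine ⟨N, ?_, ?_, ?_⟩
  · rintro _ ⟨z, hz, rfl⟩ P hPT
    obtain ⟨A, hA⟩ := exists_place P
    rw [← hA.val_eq_one_iff, coe_normU, map_prod]
    refine prod_eq_one fun j _ => ?_
    exact (mem_tUnits_primesAbove_iff hK s hs pl hpl).mp
      (galU_mem_tUnits hK s hs pl hpl hz (s ^ j)) A P hA hPT
  swap
  · rintro _ ⟨z, -, rfl⟩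
    rw [gsym, ← cl1_chi hK a]
    refine Local.cup_eq_zero_of_norm hs (muGlobal hK) (toFix (normU hK s hs z))
      (z := ((z : kummerExt p a) : Qb)) (fun n hn => ?_) rfl
    exact ((mem_fix_kummerExt hK a).mpr ⟨n.2, hn⟩ : (n : GQ) ∈ (kummerExt p a).fixingSubgroup)
      ⟨_, (z : kummerExt p a).2⟩
  have := finite_tUnits (T := TL)
  let σ₀ : tUnits TL →* tUnits TL := ((galU hK s).comp (tUnits TL).subtype).codRestrict _
    fun x => galU_mem_tUnits hK s hs pl hpl x.2 s
  let σ : AddMonoid.End (Additive (tUnits TL)) := MonoidHom.toAdditive σ₀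
  have hpow : ∀ (i : ℕ) (x : tUnits TL),
      (((((σ ^ i) (Additive.ofMul x)).toMul : tUnits TL) : (kummerExt p a)ˣ) : kummerExt p a).1 =
        ((s ^ i : K.fixingSubgroup) : GQ) ((((x : (kummerExt p a)ˣ)) : kummerExt p a) : Qb) := by
    intro i x
    induction i with
    | zero => rfl
    | succ i ih =>
      rw [pow_succ', pow_succ', Subgroup.coe_mul, AlgEquiv.mul_apply, ← ih]
      rfl
  have hσ : σ ^ p = 1 := by
    refine AddMonoidHom.ext fun x => ?_
    apply Additive.toMul.injective
    exact Subtype.ext (Units.ext (Subtype.ext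
      ((hpow p x.toMul).trans (pow_p_apply hK s ((x.toMul : (kummerExt p a)ˣ) : kummerExt p a).2))))
  let j : Additive (tUnits TL) →+ Additive (kummerExt p a)ˣ := MonoidHom.toAdditive (tUnits TL).subtype
  let ψ : Additive Kˣ →+ Additive (kummerExt p a)ˣ := MonoidHom.toAdditive (inclU p a)
  have hjn : ∀ x : Additive (tUnits TL),
      j (nEnd σ p x) = ψ (Additive.ofMul (normU hK s hs (x.toMul : (kummerExt p a)ˣ))) := by
    intro x
    rw [nEnd_apply, map_sum]
    apply Additive.toMul.injective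
    rw [toMul_sum]
    refine Units.ext (Subtype.ext ?_)
    refine (map_prod ((kummerExt p a).val.toRingHom.toMonoidHom.comp (Units.coeHom _)) _ _).trans ?_
    exact prod_congr rfl fun i _ => hpow i x.toMul
  have hmapB : (dEnd σ).ker.map j = (tUnits T).toAddSubgroup.map ψ := by
    ext y
    constructor
    · rintro ⟨x, hx, rfl⟩
      set z : (kummerExt p a)ˣ := (x.toMul : tUnits TL).1
      have hfix : (s : GQ) ((z : kummerExt p a) : Qb) = ((z : kummerExt p a) : Qb) :=
        congrArg (fun v : Additive (tUnits TL) => (((v.toMul : tUnits TL) : (kummerExt p a)ˣ) :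
          kummerExt p a).1) (sub_eq_zero.mp hx)
      have hzK : ((z : kummerExt p a) : Qb) ∈ K := by
        have h : ((z : kummerExt p a) : Qb) ∈ IntermediateField.fixedField K.fixingSubgroup := by
          rintro ⟨g, hg⟩
          refine (apply_eq_pow hK hs ⟨g, hg⟩ (z : kummerExt p a).2).trans ?_
          suffices ∀ i : ℕ, ((s ^ i : K.fixingSubgroup) : GQ) ((z : kummerExt p a) : Qb) =
              ((z : kummerExt p a) : Qb) from this _
          intro i
          induction i with
          | zero => rfl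
          | succ i ih => rw [pow_succ, Subgroup.coe_mul, AlgEquiv.mul_apply, hfix, ih]
        rwa [InfiniteGalois.fixedField_fixingSubgroup] at h
      refine ⟨Additive.ofMul (Units.mk0 ⟨_, hzK⟩ fun h0 => z.ne_zero (Subtype.ext congr(($h0).1))),
        fun P hP => ?_, Additive.toMul.injective (Units.ext (Subtype.ext rfl))⟩
      obtain ⟨A, hA⟩ := exists_place P
      rw [← hA.val_eq_one_iff]
      exact (mem_tUnits_primesAbove_iff hK s hs pl hpl).mp (x.toMul : tUnits TL).2 A P hA hP
    · rintro ⟨y, hy, rfl⟩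
      have hyT : inclU p a y.toMul ∈ tUnits TL :=
        (mem_tUnits_primesAbove_iff hK s hs pl hpl).mpr fun A P hA hP =>
          (hA.val_eq_one_iff _).mpr (hy P hP)
      refine ⟨Additive.ofMul ⟨_, hyT⟩, sub_eq_zero.mpr ?_, rfl⟩
      exact Subtype.ext (Units.ext (Subtype.ext (s.2 ⟨_, (y.toMul : K).2⟩)))
  have hmapN : (nEnd σ p).range.map j = N.toAddSubgroup.map ψ := by
    ext y
    constructor
    · rintro ⟨_, ⟨x, rfl⟩, rfl⟩
      exact ⟨_, ⟨_, (x.toMul : tUnits TL).2, rfl⟩, (hjn x).symm⟩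
    · rintro ⟨_, ⟨z, hz, rfl⟩, rfl⟩
      exact ⟨_, ⟨Additive.ofMul ⟨z, hz⟩, rfl⟩, hjn _⟩
  have hj : Function.Injective j := fun x y h => Subtype.ext h
  have hψ : Function.Injective ψ := fun x y h => inclU_injective h
  have hrel : (nEnd σ p).range.relIndex (dEnd σ).ker = N.relIndex (tUnits T) := by
    rw [← AddSubgroup.relIndex_map_map_of_injective _ _ hj, hmapB, hmapN,
      AddSubgroup.relIndex_map_map_of_injective _ _ hψ]
    rfl
  have hrankB : finrank ℤ (dEnd σ).ker = finrank ℤ (Additive (tUnits T)) := by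
    let e1 := (dEnd σ).ker.equivMapOfInjective j hj
    let e2 := (tUnits T).toAddSubgroup.equivMapOfInjective ψ hψ
    exact ((e1.trans (AddEquiv.addSubgroupCongr hmapB)).trans e2.symm).toIntLinearEquiv.finrank_eq
  have h1 : ∀ w, nEnd σ p w = 0 → ∃ x, dEnd σ x = w := by
    intro w hw
    have h := hjn w
    rw [hw, map_zero] at h
    obtain ⟨x, hx, hxw⟩ := exists_tUnit_h90 hK s hs pl hpl haT hpT hbig
      (w.toMul : tUnits TL).2 (inclU_injective ((congrArg Additive.toMul h.symm).trans (map_one _).symm))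
    exact ⟨Additive.ofMul ⟨x, hx⟩, Subtype.ext hxw⟩
  set n := (T.filter fun P => locF1 (pl P) (kappa hK a) ≠ 0).card with hn
  have hcard : Nat.card {P // P ∈ T ∧ locF1 (pl P) (kappa hK a) ≠ 0} = n :=
    Nat.subtype_card _ fun P => mem_filter
  set k := Units.rank K + 1 + (T.filter fun P => locF1 (pl P) (kappa hK a) = 0).card with hk
  have hsplit : n + (T.filter fun P => locF1 (pl P) (kappa hK a) = 0).card = T.card := by
    rw [hn, add_comm, Finset.card_filter_add_card_filter_not]
  have hrank : finrank ℤ (Additive (tUnits TL)) = finrank ℤ (dEnd σ).ker + (p - 1) * k := by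
    rw [hrankB, finrank_tUnits, finrank_tUnits, card_primesAbove hK hs pl hpl T, ← hn, hk]
    have hζK : (muGlobal hK).ζ ∈ K := by
      have h : (muGlobal hK).ζ ∈ IntermediateField.fixedField K.fixingSubgroup :=
        fun σ => (muGlobal hK).fixed σ σ.2
      rwa [InfiniteGalois.fixedField_fixingSubgroup] at h
    have hL := (finrank_eq_two_mul (K := kummerExt p a) (hp2.mono (le_kummerExt a))
      (ζ := ⟨_, le_kummerExt a hζK⟩) (IsPrimitiveRoot.coe_submonoidClass_iff.mp (muGlobal hK).isPrimitiveRoot)).1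
    have hK' := (finrank_eq_two_mul (K := K) hp2
      (ζ := ⟨_, hζK⟩) (IsPrimitiveRoot.coe_submonoidClass_iff.mp (muGlobal hK).isPrimitiveRoot)).1
    have := finrank_kummerExt hK ha
    obtain ⟨q, hq⟩ : ∃ q, p = q + 1 := ⟨p - 1, by have := hp.pos; omega⟩
    subst hq
    rw [Nat.add_sub_cancel]
    have e : Units.rank (kummerExt (q + 1) a) + 1 = (q + 1) * (Units.rank K + 1) := by
      rw [hK'] at this; rw [hL] at this
      linarith
    linarith
  have h := index_norm_mul hσ h1 hrank
  rw [hrel, hrankB, finrank_tUnits] at h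
  rw [hcard]
  have he : Units.rank K + T.card + 1 = n + k := by omega
  have hpk : 0 < p ^ k := pow_pos hp.pos k
  refine Nat.eq_of_mul_eq_mul_right hpk ?_
  rw [← pow_add p n k, ← he, pow_succ, ← h]
  ring

end

end FermatAgent.Duality.Global
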