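import Fermat.Agent.Duality.Global.UnitSpaces
import Fermat.Agent.Duality.Global.LocalDegrees

/-!
# The Hasse principle for symbols

If `(b, a)` vanishes at all places then it vanishes globally: with auxiliary primes at which `a` is
a local `p`-th power the `T`-units fill a hyperplane of the local classes at `T`, so that the norm
group is the whole kernel of the local symbols.
-/

set_option autoImplicit false

open scoped Pointwise

namespace FermatAgent.Duality.Global

open IsDedekindDomain NumberField Module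

noncomputable section

local notation "Qb" => AlgebraicClosure ℚ
local notation "GQ" => AlgebraicClosure ℚ ≃ₐ[ℚ] AlgebraicClosure ℚ

attribute [local instance] FermatAgent.RT.isGalois_algClosureRat numberField_of_finite

section Linear

variable {k : Type} [Field k] {U : Type} [AddCommGroup U] [Module k U]
  {ι : Type} [Fintype ι] {V : ι → Type} [∀ i, AddCommGroup (V i)] [∀ i, Module k (V i)]
  [∀ i, Module.Finite k (V i)]

/-- A jointly injective family on a space one short of the total dimension maps onto all but one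
dimension of any family of nonzero functionals on distinct factors. -/
theorem card_le_finrank_map_add_one (W : Submodule k U) [Module.Finite k W]
    (f : ∀ i, U →ₗ[k] V i) (hf : ∀ x ∈ W, (∀ i, f i x = 0) → x = 0)
    (hdim : ∑ i, finrank k (V i) ≤ finrank k W + 1) {N : Type} [Fintype N] (e : N → ι)
    (he : Function.Injective e) (g : ∀ n, V (e n) →ₗ[k] k) (hg : ∀ n, g n ≠ 0) :
    Fintype.card N ≤
      finrank k (W.map (LinearMap.pi fun n => (g n).comp (f (e n)))) + 1 := by
  classical
  let F : U →ₗ[k] ∀ i, V i := LinearMap.pi f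
  let Φ : (∀ i, V i) →ₗ[k] (N → k) := LinearMap.pi fun n => (g n).comp (LinearMap.proj (e n))
  have hΦ : Function.Surjective Φ := by
    intro v
    choose x hx using fun n => LinearMap.surjective (hg n) (v n)
    refine ⟨∑ n, Pi.single (e n) (x n), funext fun m => ?_⟩
    show g m ((∑ n, Pi.single (e n) (x n)) (e m)) = v m
    rw [Finset.sum_apply, Finset.sum_eq_single m (fun n _ hn => Pi.single_eq_of_ne
      (fun h => hn (he h).symm) _) (by simp), Pi.single_eq_same, hx]
  have hcomp : (LinearMap.pi fun n => (g n).comp (f (e n))) = Φ.comp F := rfl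
  rw [hcomp, Submodule.map_comp]
  set S := W.map F
  have hS : finrank k S = finrank k W := by
    have h : Function.Injective (F.domRestrict W) :=
      LinearMap.ker_eq_bot.mp (LinearMap.ker_eq_bot'.mpr fun x hx =>
        Subtype.ext (hf x.1 x.2 fun i => congrFun hx i))
    rw [show S = LinearMap.range (F.domRestrict W) from (LinearMap.range_domRestrict W F).symm]
    exact LinearMap.finrank_range_of_inj h
  have h1 := LinearMap.finrank_range_add_finrank_ker (Φ.domRestrict S)
  rw [LinearMap.range_domRestrict, LinearMap.ker_domRestrict] at h1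
  have h2 : finrank k ((LinearMap.ker Φ).comap S.subtype) ≤ finrank k (LinearMap.ker Φ) :=
    LinearMap.finrank_le_finrank_of_injective
      (f := LinearMap.codRestrict (LinearMap.ker Φ) (S.subtype.comp (Submodule.subtype _))
        fun x => x.2) fun a b h => Subtype.ext (Subtype.ext congr(($h).1))
  have h3 := LinearMap.finrank_range_add_finrank_ker Φ
  rw [LinearMap.range_eq_top.mpr hΦ, finrank_top, Module.finrank_pi k, Module.finrank_pi_fintype k] at h3
  omega

end Linear

variable {p : ℕ} [Fact p.Prime] {K : IntermediateField ℚ Qb} [FiniteDimensional ℚ K]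
  (hK : ContainsMuP p K)

theorem exists_isBig (F : Finset (HeightOneSpectrum (𝓞 K))) :
    ∃ T : Finset (HeightOneSpectrum (𝓞 K)), F ⊆ T ∧ IsBig p T ∧
      ∀ P : HeightOneSpectrum (𝓞 K), (p : 𝓞 K) ∈ P.asIdeal → P ∈ T := by
  classical
  have hgen : ∀ c : ClassGroup (𝓞 K), ∃ T : Finset (HeightOneSpectrum (𝓞 K)),
      c ∈ Subgroup.closure (FermatAgent.CFT.primeClass '' (T : Set (HeightOneSpectrum (𝓞 K)))) := by
    intro c
    obtain ⟨⟨I, hI⟩, rfl⟩ := ClassGroup.mk0_surjective c
    revert hI
    refine UniqueFactorizationMonoid.induction_on_prime I (fun h => absurd rfl (nonZeroDivisors.ne_zero h))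
      (fun J hJ hJ' => ⟨∅, ?_⟩) (fun J P hJ0 hP ih hJ' => ?_)
    · obtain rfl : J = 1 := by simpa using Ideal.isUnit_iff.mp hJ
      exact (map_one (ClassGroup.mk0 (R := 𝓞 K))).symm ▸ one_mem _
    · obtain ⟨T, hT⟩ := ih (mem_nonZeroDivisors_of_ne_zero hJ0)
      let P' : HeightOneSpectrum (𝓞 K) := ⟨P, Ideal.isPrime_of_prime hP, hP.ne_zero⟩
      refine ⟨insert P' T, ?_⟩
      have e : ClassGroup.mk0 ⟨P * J, hJ'⟩ = FermatAgent.CFT.primeClass P' *
          ClassGroup.mk0 ⟨J, mem_nonZeroDivisors_of_ne_zero hJ0⟩ := by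
        rw [FermatAgent.CFT.primeClass_eq, ← map_mul]
        rfl
      rw [e]
      exact mul_mem (Subgroup.subset_closure ⟨P', by simp, rfl⟩)
        (Subgroup.closure_mono (Set.image_mono (by simp)) hT)
  choose g hg using hgen
  have hp0 : (p : ℕ) ≠ 0 := (Fact.out : p.Prime).ne_zero
  refine ⟨F ∪ Finset.univ.biUnion g ∪ (finite_setOf_natCast_mem hp0).toFinset,
    Finset.subset_union_left.trans Finset.subset_union_left, isBig_of_closure_eq_top ?_, fun P hP => ?_⟩
  · refine top_unique fun c _ => Subgroup.mem_sup_left (Subgroup.closure_mono (Set.image_mono ?_) (hg c))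
    rintro x hx
    simp only [Finset.coe_union, Set.mem_union, Finset.coe_biUnion, Set.mem_iUnion]
    exact Or.inl (Or.inr ⟨c, Finset.mem_univ _, hx⟩)
  · exact Finset.mem_union_right _ ((Set.Finite.mem_toFinset _).mpr hP)

variable (pl : HeightOneSpectrum (𝓞 K) → ValuationSubring Qb) (hpl : ∀ P, Over K (pl P) P)
  {T : Finset (HeightOneSpectrum (𝓞 K))}
  (hpT : ∀ P : HeightOneSpectrum (𝓞 K), (p : 𝓞 K) ∈ P.asIdeal → P ∈ T)

omit [Fact (Nat.Prime p)] [FiniteDimensional ℚ K] in
include hpl hpT in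
theorem exists_residueChar {P : HeightOneSpectrum (𝓞 K)} (hP : P ∉ T) :
    ∃ l : ℕ, l.Prime ∧ (pl P).LiesOverPrime l ∧ l ≠ p := by
  obtain ⟨l, hl, hlA⟩ := (hpl P).1
  exact ⟨l, hl, hlA, fun h => hP (hpT P (h ▸ (hpl P).natCast_mem hlA))⟩

/-- The cup product of a nonzero unramified class with a ramified one is not zero. -/
theorem cup_ne_zero_of_unr_ramified {A : ValuationSubring Qb} {l : ℕ} (hl : l.Prime)
    (hA : A.LiesOverPrime l) (hlp : l ≠ p) (hK : ContainsMuP p K) {u v : localH1 p K A}
    (hu : u ∈ unramifiedH1 p K A) (hu0 : u ≠ 0) (hv : v ∉ unramifiedH1 p K A) :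
    cupTriv (ZMod p) (localLevels K A) u v ≠ 0 := by
  intro h
  have hLD := localDualityAt p hl K hK hA
  have := hLD.finite_H1
  have htop : unramifiedH1 p K A ⊔ Submodule.span (ZMod p) {v} = ⊤ := by
    apply Submodule.eq_top_of_finrank_eq
    refine le_antisymm (Submodule.finrank_le _) ?_
    have h1 : unramifiedH1 p K A < unramifiedH1 p K A ⊔ Submodule.span (ZMod p) {v} :=
      left_lt_sup.mpr fun h' => hv (h' (Submodule.mem_span_singleton_self v))
    have h2 := Submodule.finrank_lt_finrank_of_lt h1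
    rw [hLD.finrank_unramified] at h2
    rw [hLD.finrank_H1, localDegree, if_neg hlp]
    omega
  refine hu0 (hLD.cup_nondegenerate u fun y => ?_)
  obtain ⟨w, hw, z, hz, rfl⟩ := Submodule.mem_sup.mp (htop ▸ Submodule.mem_top (x := y))
  obtain ⟨c, rfl⟩ := Submodule.mem_span_singleton.mp hz
  rw [map_add, map_smul, h, smul_zero, add_zero, hLD.cup_unramified hlp u hu w hw]

include hpl hpT in
theorem kappa_unit_mem_unramified {P : HeightOneSpectrum (𝓞 K)} (hP : P ∉ T) {c : fullH1 p K}
    (hc : c ∈ unitSpace hK T) : locF1 (pl P) c ∈ unramifiedH1 p K (pl P) := by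
  obtain ⟨l, hl, hlA, hlp⟩ := exists_residueChar pl hpl hpT hP
  obtain ⟨x, hx, rfl⟩ := (mem_unitSpace hK).mp hc
  exact locF1_kappa_unit_mem_unramified hK (hpl P) hl hlA hlp (hx P hP)

include hpl hpT in
set_option maxHeartbeats 800000 in
/-- Primes split for `a`, detecting the `T`-units modulo `a`, with a dual family of units. -/
theorem exists_aux_primes {a : Kˣ} (m : ℕ) : ∀ (F : Finset (HeightOneSpectrum (𝓞 K))), T ⊆ F →
    ∀ U ≤ unitSpace hK T, kappa hK a ∈ U → kappa hK a ≠ 0 → finrank (ZMod p) U = m + 1 →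
    ∃ T' : Finset (HeightOneSpectrum (𝓞 K)), T'.card = m ∧ Disjoint T' F ∧
      (∀ P ∈ T', locF1 (pl P) (kappa hK a) = 0) ∧
      (∀ c ∈ U, (∀ P ∈ T', locF1 (pl P) c = 0) → c ∈ Submodule.span (ZMod p) {kappa hK a}) ∧
      ∀ P ∈ T', ∃ u ∈ U, locF1 (pl P) u ≠ 0 ∧ ∀ Q ∈ T', Q ≠ P → locF1 (pl Q) u = 0 := by
  classical
  induction m with
  | zero =>
    intro F _ U hU ha ha0 hdim
    refine ⟨∅, rfl, Finset.disjoint_empty_left F, by simp, fun c hc _ => ?_, by simp⟩
    have : Finite U := Finite.of_injective (Submodule.inclusion hU) (Submodule.inclusion_injective hU)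
    rw [Submodule.eq_of_le_of_finrank_le
      ((Submodule.span_singleton_le_iff_mem _ _).mpr ha : Submodule.span (ZMod p) {kappa hK a} ≤ U)
      (by rw [hdim, finrank_span_singleton ha0])]
    exact hc
  | succ m ih =>
    intro F hTF U hU ha ha0 hdim
    have : Finite U := Finite.of_injective (Submodule.inclusion hU) (Submodule.inclusion_injective hU)
    obtain ⟨c, hcU, hca⟩ : ∃ c ∈ U, c ∉ Submodule.span (ZMod p) {kappa hK a} := by
      by_contra! hall
      have := Submodule.finrank_mono (show U ≤ Submodule.span (ZMod p) {kappa hK a} from hall)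
      rw [hdim, finrank_span_singleton ha0] at this
      omega
    obtain ⟨x, -, rfl⟩ := (mem_unitSpace hK).mp (hU hcU)
    obtain ⟨P, hPF, hPa, hPc⟩ := exists_split_prime hK pl hpl F
      (fun Q hQ => hTF (hpT Q hQ)) (c := x) fun lam h =>
        hca (Submodule.mem_span_singleton.mpr ⟨lam, h.symm⟩)
    have hPT : P ∉ T := fun h => hPF (hTF h)
    obtain ⟨l, hl, hlA, hlp⟩ := exists_residueChar pl hpl hpT hPT
    have hLD := localDualityAt p hl K hK hlA
    have := hLD.finite_H1
    set f := (locF1 (pl P) : fullH1 p K →ₗ[ZMod p] localH1 p K (pl P)).domRestrict U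
    have hrange : finrank (ZMod p) (LinearMap.range f) = 1 := by
      refine le_antisymm (le_trans (Submodule.finrank_mono ?_) hLD.finrank_unramified.le) ?_
      · rintro _ ⟨u, rfl⟩
        exact kappa_unit_mem_unramified hK pl hpl hpT hPT (hU u.2)
      · exact Submodule.one_le_finrank_iff.mpr fun h => hPc
          ((Submodule.mem_bot (ZMod p)).mp (h ▸ ⟨⟨_, hcU⟩, rfl⟩))
    set U' := (LinearMap.ker f).map U.subtype
    have hdim' : finrank (ZMod p) U' = m + 1 := by
      rw [Submodule.finrank_map_subtype_eq]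
      have := LinearMap.finrank_range_add_finrank_ker f
      omega
    have hU' : ∀ u, u ∈ U' ↔ u ∈ U ∧ locF1 (pl P) u = 0 := fun u =>
      ⟨fun ⟨v, hv, hvu⟩ => hvu ▸ ⟨v.2, hv⟩, fun h => ⟨⟨u, h.1⟩, h.2, rfl⟩⟩
    obtain ⟨T'', hcard, hdisj, hsplit, hker, hdual⟩ := ih (insert P F)
      (hTF.trans (Finset.subset_insert _ _)) U' (fun u hu => hU ((hU' u).mp hu).1)
      ((hU' _).mpr ⟨ha, hPa⟩) ha0 hdim'
    have hPT'' : P ∉ T'' := fun h => Finset.disjoint_left.mp hdisj h (Finset.mem_insert_self _ _)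
    refine ⟨insert P T'', by rw [Finset.card_insert_of_notMem hPT'', hcard], ?_, ?_, ?_, ?_⟩
    · rw [Finset.disjoint_insert_left]
      exact ⟨hPF, Finset.disjoint_of_subset_right (Finset.subset_insert _ _) hdisj⟩
    · exact Finset.forall_mem_insert .. |>.mpr ⟨hPa, hsplit⟩
    · intro c hc hall
      exact hker c ((hU' c).mpr ⟨hc, hall P (Finset.mem_insert_self _ _)⟩)
        fun Q hQ => hall Q (Finset.mem_insert_of_mem hQ)
    · intro Q hQ
      rcases Finset.mem_insert.mp hQ with rfl | hQ
      · choose u hu hu0 hu' using hdual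
        have hlam : ∀ R : T'', ∃ lam : ZMod p,
            lam • locF1 (pl R.1) (u R.1 R.2) = locF1 (pl R.1) (kappa hK x) := fun R => by
          have hRT : R.1 ∉ T := fun h =>
            Finset.disjoint_left.mp hdisj R.2 (Finset.mem_insert_of_mem (hTF h))
          obtain ⟨l', hl', hlA', -⟩ := exists_residueChar pl hpl hpT hRT
          obtain ⟨lam, hlam⟩ := exists_smul_eq_of_finrank_eq_one
            (localDualityAt p hl' K hK hlA').finrank_unramified
            (x := ⟨_, kappa_unit_mem_unramified hK pl hpl hpT hRT (hU ((hU' _).mp (hu R.1 R.2)).1)⟩)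
            (fun h => hu0 R.1 R.2 congr(($h).1))
            ⟨_, kappa_unit_mem_unramified hK pl hpl hpT hRT (hU hcU)⟩
          exact ⟨lam, congr(($hlam).1)⟩
        choose lam hlam using hlam
        refine ⟨kappa hK x - ∑ R : T'', lam R • u R.1 R.2,
          sub_mem hcU (sum_mem fun R _ => U.smul_mem _ ((hU' _).mp (hu R.1 R.2)).1), ?_, ?_⟩
        · rw [map_sub, map_sum, Finset.sum_eq_zero fun R _ => by
            rw [map_smul, ((hU' _).mp (hu R.1 R.2)).2, smul_zero], sub_zero]
          exact hPc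
        · intro R hR hne
          have hR' := (Finset.mem_insert.mp hR).resolve_left hne
          rw [map_sub, map_sum, Finset.sum_eq_single ⟨R, hR'⟩ (fun S _ hS => by
            rw [map_smul, hu' S.1 S.2 R hR' fun h => hS (Subtype.ext h.symm), smul_zero])
            (by simp), map_smul, hlam, sub_self]
      · obtain ⟨u, hu, hu0, hu'⟩ := hdual Q hQ
        refine ⟨u, ((hU' u).mp hu).1, hu0, fun R hR hne => ?_⟩
        rcases Finset.mem_insert.mp hR with rfl | hR
        · exact ((hU' u).mp hu).2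
        · exact hu' R hR hne

include hpl hpT in
/-- A class of `T ∪ T'`-units vanishing at `T` vanishes, for `T'` detected by a dual family. -/
theorem eq_zero_of_zero_at (hp2 : NoReal p K) (hbig : IsBig p T)
    {T' : Finset (HeightOneSpectrum (𝓞 K))} (hdisj : Disjoint T' T)
    (hdual : ∀ P ∈ T', ∃ u ∈ unitSpace hK T, locF1 (pl P) u ≠ 0 ∧
      ∀ Q ∈ T', Q ≠ P → locF1 (pl Q) u = 0)
    {c : fullH1 p K} (hc : ∀ P ∈ T, locF1 (pl P) c = 0)
    [DecidableEq (HeightOneSpectrum (𝓞 K))] (hcU : c ∈ unitSpace hK (T ∪ T')) : c = 0 := by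
  obtain ⟨b, hb, rfl⟩ := (mem_unitSpace hK).mp hcU
  by_contra hb0
  set R := T'.filter fun P => ¬ (p : ℤ) ∣ ord P b with hR
  obtain ⟨e, he, y, hey⟩ := (hbig.mono (Finset.subset_union_left (s₂ := R))).exists_tUnit_mul_pow
    (x := b) fun P hP => by
      rw [Finset.mem_union, not_or] at hP
      by_cases hP' : P ∈ T'
      · by_contra h
        exact hP.2 (Finset.mem_filter.mpr ⟨hP', h⟩)
      · rw [hb P (by simp [hP.1, hP'])]
        exact dvd_zero _
  have hκ : kappa hK e = kappa hK b := by
    rw [hey, kappa_mul, kappa_pow, ← Nat.cast_smul_eq_nsmul (ZMod p), ZMod.natCast_self, zero_smul,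
      add_zero]
  rw [← hκ] at hb0 hc
  have hpT₁ : ∀ P : HeightOneSpectrum (𝓞 K), (p : 𝓞 K) ∈ P.asIdeal → P ∈ T ∪ R :=
    fun P hP => Finset.mem_union_left _ (hpT P hP)
  have hram : ∀ P ∈ R, locF1 (pl P) (kappa hK e) ∉ unramifiedH1 p K (pl P) := by
    intro P hP h
    obtain ⟨l, hl, hlA, hlp⟩ := exists_residueChar pl hpl hpT
      (Finset.disjoint_left.mp hdisj (Finset.mem_filter.mp hP).1)
    obtain ⟨k, hk⟩ := dvd_ord_of_unramified hK (hpl P) hl hlA hlp h
    refine (Finset.mem_filter.mp hP).2 ⟨k + ord P y, ?_⟩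
    rw [hey, ord_mul, ord_pow, hk]
    ring
  have hns : nonsplit hK pl e (T ∪ R) = R := by
    ext P
    rw [mem_nonsplit, Finset.mem_union]
    refine ⟨fun ⟨h, h'⟩ => h.resolve_left fun hT => h' (hc P hT), fun h => ⟨Or.inr h, fun h0 => ?_⟩⟩
    exact hram P h (by rw [h0]; exact zero_mem _)
  obtain ⟨h1, -⟩ := symMap_bound hK pl hpl he hpT₁ (hbig.mono Finset.subset_union_left) hp2 hb0
  have htop : (unitSpace hK (T ∪ R)).map (symMap hK pl e (nonsplit hK pl e (T ∪ R))) = ⊤ := by
    rw [hns, eq_top_iff, ← (Pi.basisFun (ZMod p) R).span_eq, Submodule.span_le]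
    rintro _ ⟨P, rfl⟩
    have hPR := Finset.mem_filter.mp P.2
    obtain ⟨u, hu, hu0, hu'⟩ := hdual P.1 hPR.1
    have hPT : P.1 ∉ T := Finset.disjoint_left.mp hdisj hPR.1
    obtain ⟨l, hl, hlA, hlp⟩ := exists_residueChar pl hpl hpT hPT
    set v := symMap hK pl e R u
    have hv0 : v P ≠ 0 := fun h => cup_ne_zero_of_unr_ramified hl hlA hlp hK
      (kappa_unit_mem_unramified hK pl hpl hpT hPT hu) hu0 (hram P.1 P.2)
      ((h2Map_eq_zero_iff hK (hpl P.1).1).mp h)
    refine ⟨(v P)⁻¹ • u, Submodule.smul_mem _ _ (unitSpace_mono hK Finset.subset_union_left hu), ?_⟩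
    rw [map_smul]
    funext Q
    rw [Pi.smul_apply, Pi.basisFun_apply]
    rcases eq_or_ne Q P with rfl | hne
    · rw [Pi.single_eq_same, smul_eq_mul]
      exact inv_mul_cancel₀ hv0
    · rw [Pi.single_eq_of_ne hne]
      have : symMap hK pl e R u Q = 0 := by
        show h2Map hK (pl Q.1) (cupTriv (ZMod p) (localLevels K (pl Q.1)) (locF1 (pl Q.1) u) _) = 0
        rw [hu' Q.1 (Finset.mem_filter.mp Q.2).1 fun h => hne (Subtype.ext h), map_zero,
          LinearMap.zero_apply, map_zero]
      rw [this, smul_zero]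
  rw [htop, finrank_top, Module.finrank_pi, Fintype.card_coe] at h1
  omega

include hK hpl hpT in
theorem sum_finrank_localH1 (hp2 : NoReal p K) :
    ∑ P : T, finrank (ZMod p) (localH1 p K (pl P.1)) = 2 * T.card + 2 * (Units.rank K + 1) := by
  classical
  obtain ⟨ζ, hζ⟩ := exists_primitiveRoot hK
  have h1 : ∀ P : T, finrank (ZMod p) (localH1 p K (pl P.1)) =
      2 + (if (p : 𝓞 K) ∈ P.1.asIdeal then
        (localGroup K (pl P.1)).relIndex ((pl P.1).decompositionSubgroup ℚ) else 0) := by
    intro P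
    obtain ⟨l, hl, hlA⟩ := (hpl P.1).1
    rw [(localDualityAt p hl K hK hlA).finrank_H1, localDegree]
    split_ifs with h h' h'
    · rfl
    · exact absurd (h ▸ (hpl P.1).natCast_mem hlA) h'
    · exfalso
      have := liesOverPrime_of_natCast_mem (hpl P.1) (Fact.out : p.Prime) h'
      have hmem := (hpl P.1).natCast_mem hlA
      rw [← (hpl P.1).2, Ideal.mem_comap, map_natCast, ← Int.cast_natCast,
        FermatAgent.RT.intCast_mem_centre_iff (Fact.out : p.Prime) this, Int.natCast_dvd_natCast] at hmem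
      exact h ((Nat.prime_dvd_prime_iff_eq (Fact.out : p.Prime) hl).mp hmem).symm
    · rfl
  rw [Finset.sum_congr rfl fun P _ => h1 P, Finset.sum_add_distrib, Finset.sum_const,
    Finset.card_univ, Fintype.card_coe, smul_eq_mul, mul_comm T.card, ← (finrank_eq_two_mul hp2 hζ).1,
    Finset.sum_coe_sort T (fun P => if (p : 𝓞 K) ∈ P.asIdeal then
      (localGroup K (pl P)).relIndex ((pl P).decompositionSubgroup ℚ) else 0), ← Finset.sum_filter,
    sum_relIndex_eq_finrank (Fact.out : p.Prime) pl hpl]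
  intro P
  exact ⟨fun h => (Finset.mem_filter.mp h).2, fun h => Finset.mem_filter.mpr ⟨hpT P h, h⟩⟩

include hpl in
set_option maxHeartbeats 2000000 in
/-- **Hasse principle for symbols.** -/
theorem gsym_eq_zero_of_sym (hp2 : NoReal p K) (b a : Kˣ) (h : ∀ P, sym hK (pl P) b a = 0) :
    gsym hK b a = 0 := by
  classical
  by_cases ha : kappa hK a = 0
  · rw [gsym, ha, map_zero]
  obtain ⟨T, hFT, hbig, hpT⟩ := exists_isBig (p := p)
    ((finite_setOf_ord_ne_zero a).toFinset ∪ (finite_setOf_ord_ne_zero b).toFinset)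
  have haT : a ∈ tUnits T := fun P hP => by
    by_contra h0
    exact hP (hFT (Finset.mem_union_left _ ((Set.Finite.mem_toFinset _).mpr h0)))
  have hbT : b ∈ tUnits T := fun P hP => by
    by_contra h0
    exact hP (hFT (Finset.mem_union_right _ ((Set.Finite.mem_toFinset _).mpr h0)))
  obtain ⟨T', hcard, hdisj, hsplit, -, hdual⟩ := exists_aux_primes hK pl hpl hpT
    (Units.rank K + T.card) T subset_rfl _ le_rfl (kappa_mem_unitSpace hK haT) ha
    (finrank_unitSpace hK T)
  set T₂ := T ∪ T'
  have hns : nonsplit hK pl a T₂ = nonsplit hK pl a T := by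
    ext P
    rw [mem_nonsplit, mem_nonsplit, Finset.mem_union]
    exact ⟨fun ⟨h1, h2⟩ => ⟨h1.resolve_right fun hP => h2 (hsplit P hP), h2⟩,
      fun ⟨h1, h2⟩ => ⟨Or.inl h1, h2⟩⟩
  have hlow : (nonsplit hK pl a T₂).card ≤ finrank (ZMod p)
      ((unitSpace hK T₂).map (symMap hK pl a (nonsplit hK pl a T₂))) + 1 := by
    rw [hns]
    have : ∀ P : T, Module.Finite (ZMod p) (localH1 p K (pl P.1)) := fun P => by
      obtain ⟨l, hl, hlA⟩ := (hpl P.1).1
      exact (localDualityAt p hl K hK hlA).finite_H1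
    have hinj : ∀ c ∈ unitSpace hK T₂, (∀ P : T, locF1 (pl P.1) c = 0) → c = 0 := fun c hc h0 =>
      eq_zero_of_zero_at hK pl hpl hpT hp2 hbig hdisj hdual (fun P hP => h0 ⟨P, hP⟩) hc
    have hdim : ∑ P : T, finrank (ZMod p) (localH1 p K (pl P.1)) ≤
        finrank (ZMod p) (unitSpace hK T₂) + 1 := by
      rw [sum_finrank_localH1 hK pl hpl hpT hp2, finrank_unitSpace,
        Finset.card_union_of_disjoint hdisj.symm, hcard]
      omega
    let e : nonsplit hK pl a T → T := fun P => ⟨P.1, ((mem_nonsplit hK pl).mp P.2).1⟩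
    have he : Function.Injective e := fun P Q hPQ => Subtype.ext congr(($hPQ).1)
    have hg : ∀ P : nonsplit hK pl a T, symFun hK (pl P.1) a ≠ 0 := fun P h0 => by
      obtain ⟨l, hl, hlA⟩ := (hpl P.1).1
      obtain ⟨d, hd⟩ := exists_cup_ne_zero hl hlA hK ((mem_nonsplit hK pl).mp P.2).2
      have := LinearMap.congr_fun h0 d
      rw [symFun_apply, LinearMap.zero_apply, h2Map_eq_zero_iff hK (hpl P.1).1] at this
      exact hd (by
        rw [eq_neg_of_add_eq_zero_left (Local.cupTriv_anticomm
          (locF1 (pl P.1) (kappa hK a)) d), this, neg_zero])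
    have key := card_le_finrank_map_add_one (V := fun P : T => localH1 p K (pl P.1))
      (unitSpace hK T₂) (fun P => locF1 (pl P.1)) hinj hdim e he
      (fun P => symFun hK (pl P.1) a) hg
    rw [Fintype.card_coe] at key
    exact key
  refine (symMap_bound hK pl hpl (tUnits_mono Finset.subset_union_left haT)
    (fun P hP => Finset.mem_union_left _ (hpT P hP)) (hbig.mono Finset.subset_union_left) hp2 ha).2
    hlow b (tUnits_mono Finset.subset_union_left hbT) (funext fun P => ?_)
  rw [symMap_kappa, h, map_zero]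
  rfl

end

end FermatAgent.Duality.Global
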