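import Fermat.Agent.Duality.Global.HassePrinciple
import Fermat.Agent.Duality.Global.ConjPlace

/-!
# Classes of degree two as symbols, and the image of the symbols with a fixed element

A class vanishing wherever `a` is a local `p`-th power is a symbol `(b, a)`. The local symbols with
`a` at the primes of a big set where it is no local `p`-th power fill exactly a hyperplane.
-/

set_option autoImplicit false

open scoped Pointwise

namespace FermatAgent.Duality.Global

open IsDedekindDomain NumberField Module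

noncomputable section

local notation "Qb" => AlgebraicClosure ℚ
local notation "GQ" => AlgebraicClosure ℚ ≃ₐ[ℚ] AlgebraicClosure ℚ

attribute [local instance] FermatAgent.RT.isGalois_algClosureRat numberField_of_finite

variable {p : ℕ} [Fact p.Prime] {K : IntermediateField ℚ Qb} [FiniteDimensional ℚ K]
  (hK : ContainsMuP p K) (pl : HeightOneSpectrum (𝓞 K) → ValuationSubring Qb)
  (hpl : ∀ P, Over K (pl P) P)

theorem locF1_eq_zero_congr {A B : ValuationSubring Qb} {P : HeightOneSpectrum (𝓞 K)}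
    (hA : Over K A P) (hB : Over K B P) {x : fullH1 p K} (h : locF1 A x = 0) : locF1 B x = 0 := by
  obtain ⟨g, hg, rfl⟩ := exists_smul_eq_of_over hA hB
  exact locF1_smul_eq_zero hg h

theorem locF2_eq_zero_congr {A B : ValuationSubring Qb} {P : HeightOneSpectrum (𝓞 K)}
    (hA : Over K A P) (hB : Over K B P) {x : fullH2 p K} (h : locF2 A x = 0) : locF2 B x = 0 := by
  obtain ⟨g, hg, rfl⟩ := exists_smul_eq_of_over hA hB
  exact locF2_smul_eq_zero hg h

include hK in
/-- At a place where `a` is no local `p`-th power every class dies on the Kummer extension. -/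
theorem resSub2_eq_zero_of_nonsplit {A : ValuationSubring Qb} (hA : IsPlace A) {a : Kˣ}
    (ha : locF1 A (kappa hK a) ≠ 0) (z : localH2 p K A) {D' : Subgroup GQ} (h : D' ≤ localGroup K A)
    (hD : D' ≤ (kummerExt p a).fixingSubgroup) : resSub2 p h z = 0 := by
  obtain ⟨l, hl, hlA⟩ := hA
  have hLD := localDualityAt p hl K hK hlA
  obtain ⟨d, hd⟩ := exists_cup_ne_zero hl hlA hK ha
  obtain ⟨lam, rfl⟩ := exists_smul_eq_of_finrank_eq_one hLD.finrank_H2
    (x := cupTriv (ZMod p) (localLevels K A) d (locF1 A (kappa hK a))) (fun h0 => hd (by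
      rw [eq_neg_of_add_eq_zero_left (Local.cupTriv_anticomm (locF1 A (kappa hK a)) d), h0,
        neg_zero])) z
  rw [map_smul]
  suffices resSub2 p h (cupTriv (ZMod p) (localLevels K A) d (locF1 A (kappa hK a))) = 0 by
    rw [this, smul_zero]
  rw [locF1_kappa]
  refine resSub2_cup_self_eq_zero p (Local.kap (Local.muDataLocal p K hK A) (toLocal A a)) d h
    fun g => ?_
  obtain ⟨hg, hg0⟩ := (mem_fix_kummerExt hK a).mp (hD g.2)
  exact hg0

include hK hpl in
/-- A class vanishing wherever `a` is a local `p`-th power is a symbol with `a`. -/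
theorem exists_eq_gsym (hp2 : NoReal p K) {a : Kˣ} (ha : kappa hK a ≠ 0) (x : fullH2 p K)
    (hx : ∀ P, locF1 (pl P) (kappa hK a) = 0 → locF2 (pl P) x = 0) :
    ∃ b : Kˣ, x = gsym hK b a := by
  have hKL : K ≤ kummerExt p a := le_kummerExt a
  have hfix := IntermediateField.fixingSubgroup_antitone hKL
  have h0 : resSub2 p hfix x = 0 := by
    refine eq_zero_of_locF2 (containsMuP_mono hK hKL) (hp2.mono hKL) _ fun A hA => ?_
    obtain ⟨P, hP⟩ := exists_over (K := K) hA
    refine (resSub2_resSub2 p hfix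
      (inf_le_left : localGroup (kummerExt p a) A ≤ (kummerExt p a).fixingSubgroup) x).trans ?_
    by_cases hs : locF1 A (kappa hK a) = 0
    · exact resSub2_eq_zero_of_le (inf_le_left : localGroup K A ≤ K.fixingSubgroup) _
        (inf_le_inf_right _ hfix)
        (locF2_eq_zero_congr (hpl P) hP (hx P (locF1_eq_zero_congr hP (hpl P) hs)))
    · rw [← resSub2_resSub2 p (inf_le_left : localGroup K A ≤ K.fixingSubgroup)
        (inf_le_inf_right _ hfix : localGroup (kummerExt p a) A ≤ localGroup K A)]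
      exact resSub2_eq_zero_of_nonsplit hK hA hs _ _ inf_le_left
  have hsub : (Local.kerChi (chi hK a)).map K.fixingSubgroup.subtype ≤
      (kummerExt p a).fixingSubgroup := by
    rintro _ ⟨g, hg, rfl⟩
    exact (mem_fix_kummerExt hK a).mpr ⟨g.2, hg⟩
  obtain ⟨s, hs⟩ := exists_chi_eq_one hK ha
  obtain ⟨b, hb⟩ := Local.exists_eq_cup_of_res_eq_zero (muGlobal hK) hs x
    (res2_kerChi_eq_zero p (chi hK a) x (resSub2_eq_zero_of_le _ _ hsub h0))
  obtain ⟨b, rfl⟩ := toFix_surjective (K := K) b
  exact ⟨b, hb⟩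

variable {T : Finset (HeightOneSpectrum (𝓞 K))}
  (hpT : ∀ P : HeightOneSpectrum (𝓞 K), (p : 𝓞 K) ∈ P.asIdeal → P ∈ T)

include hK hpl hpT in
/-- At a prime outside `T` where the `T`-unit `a` is no local `p`-th power, a vanishing symbol
forces the order of `b` to be divisible by `p`. -/
theorem dvd_ord_of_sym_eq_zero {a b : Kˣ} (haT : a ∈ tUnits T) {P : HeightOneSpectrum (𝓞 K)}
    (hP : P ∉ T) (ha : locF1 (pl P) (kappa hK a) ≠ 0) (h : sym hK (pl P) b a = 0) :
    (p : ℤ) ∣ ord P b := by
  obtain ⟨l, hl, hlA, hlp⟩ := exists_residueChar pl hpl hpT hP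
  by_contra hnd
  refine cup_ne_zero_of_unr_ramified hl hlA hlp hK
    (locF1_kappa_unit_mem_unramified hK (hpl P) hl hlA hlp (haT P hP)) ha
    (fun hu => hnd (dvd_ord_of_unramified hK (hpl P) hl hlA hlp hu)) ?_
  show sym hK (pl P) a b = 0
  rw [sym_comm, h, neg_zero]

include hK hpl hpT in
theorem sym_eq_zero_outside {a b : Kˣ} (haT : a ∈ tUnits T) (hbT : b ∈ tUnits T)
    {P : HeightOneSpectrum (𝓞 K)} (hP : P ∉ T) : sym hK (pl P) b a = 0 := by
  obtain ⟨l, hl, hlA, hlp⟩ := exists_residueChar pl hpl hpT hP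
  exact sym_units_eq_zero hK (hpl P) hl hlA hlp (by rw [hbT P hP]; exact dvd_zero _)
    (by rw [haT P hP]; exact dvd_zero _)

variable (hbig : IsBig p T) (hp2 : NoReal p K)

open scoped Classical in
include hK hpl hpT hbig hp2 in
set_option maxHeartbeats 2000000 in
/-- The symbols with `a` at the primes of `T` where it is no local `p`-th power fill the hyperplane
of a functional `φ`; the symbols realising a vector vanish at every other prime. -/
theorem exists_symbol_hyperplane {a : Kˣ} (haT : a ∈ tUnits T) (ha : kappa hK a ≠ 0) :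
    ∃ φ : HeightOneSpectrum (𝓞 K) → ZMod p,
      (∃ P ∈ nonsplit hK pl a T, φ P ≠ 0) ∧
      (∀ b : Kˣ, (∀ P ∉ T, locF1 (pl P) (kappa hK a) ≠ 0 → (p : ℤ) ∣ ord P b) →
        ∑ P ∈ nonsplit hK pl a T, φ P * h2Map hK (pl P) (sym hK (pl P) b a) = 0) ∧
      ∀ z : HeightOneSpectrum (𝓞 K) → ZMod p,
        ∑ P ∈ nonsplit hK pl a T, φ P * z P = 0 →
          ∃ b : Kˣ, (∀ P ∈ nonsplit hK pl a T, h2Map hK (pl P) (sym hK (pl P) b a) = z P) ∧
            ∀ P ∉ nonsplit hK pl a T, sym hK (pl P) b a = 0 := by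
  obtain ⟨T', hcard, hdisj, hsplit, -, hdual⟩ := exists_aux_primes hK pl hpl hpT
    (Units.rank K + T.card) T subset_rfl _ le_rfl (kappa_mem_unitSpace hK haT) ha
    (finrank_unitSpace hK T)
  set N := nonsplit hK pl a T with hNdef
  have hns : ∀ U, T ⊆ U → (∀ P ∈ U, P ∉ T → locF1 (pl P) (kappa hK a) = 0) →
      nonsplit hK pl a U = N := fun U hTU hU => by
    ext P
    rw [hNdef, mem_nonsplit, mem_nonsplit]
    exact ⟨fun ⟨h1, h2⟩ => ⟨by_contra fun hP => h2 (hU P h1 hP), h2⟩,
      fun ⟨h1, h2⟩ => ⟨hTU h1, h2⟩⟩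
  have hT₂ : ∀ P ∈ T ∪ T', P ∉ T → locF1 (pl P) (kappa hK a) = 0 := fun P hP hPT =>
    hsplit P ((Finset.mem_union.mp hP).resolve_left hPT)
  set H := (unitSpace hK (T ∪ T')).map (symMap hK pl a N) with hH
  have hlow : N.card ≤ finrank (ZMod p) H + 1 := by
    have : ∀ P : T, Module.Finite (ZMod p) (localH1 p K (pl P.1)) := fun P => by
      obtain ⟨l, hl, hlA⟩ := (hpl P.1).1
      exact (localDualityAt p hl K hK hlA).finite_H1
    have hinj : ∀ c ∈ unitSpace hK (T ∪ T'), (∀ P : T, locF1 (pl P.1) c = 0) → c = 0 :=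
      fun c hc h0 =>
        eq_zero_of_zero_at hK pl hpl hpT hp2 hbig hdisj hdual (fun P hP => h0 ⟨P, hP⟩) hc
    have hdim : ∑ P : T, finrank (ZMod p) (localH1 p K (pl P.1)) ≤
        finrank (ZMod p) (unitSpace hK (T ∪ T')) + 1 := by
      rw [sum_finrank_localH1 hK pl hpl hpT hp2, finrank_unitSpace,
        Finset.card_union_of_disjoint hdisj.symm, hcard]
      omega
    let e : N → T := fun P => ⟨P.1, ((mem_nonsplit hK pl).mp P.2).1⟩
    have he : Function.Injective e := fun P Q hPQ => Subtype.ext congr(($hPQ).1)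
    have hg : ∀ P : N, symFun hK (pl P.1) a ≠ 0 := fun P h0 => by
      obtain ⟨l, hl, hlA⟩ := (hpl P.1).1
      obtain ⟨d, hd⟩ := exists_cup_ne_zero hl hlA hK ((mem_nonsplit hK pl).mp P.2).2
      have := LinearMap.congr_fun h0 d
      rw [symFun_apply, LinearMap.zero_apply, h2Map_eq_zero_iff hK (hpl P.1).1] at this
      exact hd (by
        rw [eq_neg_of_add_eq_zero_left (Local.cupTriv_anticomm
          (locF1 (pl P.1) (kappa hK a)) d), this, neg_zero])
    have key := card_le_finrank_map_add_one (V := fun P : T => localH1 p K (pl P.1))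
      (unitSpace hK (T ∪ T')) (fun P => locF1 (pl P.1)) hinj (by convert hdim using 4) e he
      (fun P => symFun hK (pl P.1) a) hg
    rw [Fintype.card_coe] at key
    exact key
  have hup : ∀ U, T ⊆ U → (∀ P ∈ U, P ∉ T → locF1 (pl P) (kappa hK a) = 0) →
      finrank (ZMod p) ((unitSpace hK U).map (symMap hK pl a N)) + 1 ≤ N.card := fun U hTU hU => by
    have h := (symMap_bound hK pl hpl (tUnits_mono hTU haT) (fun P hP => hTU (hpT P hP))
      (hbig.mono hTU) hp2 ha).1
    rw [hns U hTU hU] at h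
    exact h
  have hHcard := hup _ Finset.subset_union_left hT₂
  have hHtop : H < ⊤ := lt_top_iff_ne_top.mpr fun h => by
    rw [← hH, h, finrank_top, Module.finrank_pi, Fintype.card_coe] at hHcard
    omega
  obtain ⟨f, hf0, hfH⟩ := Submodule.exists_le_ker_of_lt_top H hHtop
  have hker : LinearMap.ker f = H := by
    refine (Submodule.eq_of_le_of_finrank_le hfH ?_).symm
    have h1 := LinearMap.finrank_range_add_finrank_ker f
    rw [LinearMap.range_eq_top.mpr (LinearMap.surjective hf0), finrank_top, finrank_self,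
      Module.finrank_pi, Fintype.card_coe] at h1
    omega
  let φ : HeightOneSpectrum (𝓞 K) → ZMod p := fun P =>
    if h : P ∈ N then f (Pi.single ⟨P, h⟩ 1) else 0
  have hfφ : ∀ v : HeightOneSpectrum (𝓞 K) → ZMod p,
      f (fun P => v P.1) = ∑ P ∈ N, φ P * v P := fun v => by
    rw [← Finset.sum_coe_sort N, LinearMap.pi_apply_eq_sum_univ f]
    refine Finset.sum_congr rfl fun P _ => ?_
    simp only [φ, dif_pos P.2, smul_eq_mul]
    rw [mul_comm]
    congr 2
    funext Q
    simp [Pi.single_apply, eq_comm]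
  refine ⟨φ, ?_, fun b hb => ?_, fun z hz => ?_⟩
  · by_contra! h0
    refine hf0 (LinearMap.ext fun v => ?_)
    rw [LinearMap.zero_apply, show v = fun P : N => (fun Q => if h : Q ∈ N then v ⟨Q, h⟩ else 0) P.1
      from funext fun P => by simp]
    exact (hfφ fun Q => if h : Q ∈ N then v ⟨Q, h⟩ else 0).trans
      (Finset.sum_eq_zero fun P hP => by rw [h0 P hP, zero_mul])
  · set U := T ∪ T' ∪ (finite_setOf_ord_ne_zero b).toFinset.filter fun P =>
      ¬ (p : ℤ) ∣ ord P b with hUdef
    have hTU : T ⊆ U := Finset.subset_union_left.trans Finset.subset_union_left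
    have hU : ∀ P ∈ U, P ∉ T → locF1 (pl P) (kappa hK a) = 0 := fun P hP hPT => by
      rcases Finset.mem_union.mp hP with hP | hP
      · exact hT₂ P hP hPT
      · by_contra h0
        exact (Finset.mem_filter.mp hP).2 (hb P hPT h0)
    obtain ⟨e, he, y, rfl⟩ := (hbig.mono hTU).exists_tUnit_mul_pow (x := b) fun P hP => by
      by_contra h0
      refine hP (Finset.mem_union_right _ (Finset.mem_filter.mpr ⟨?_, h0⟩))
      exact (Set.Finite.mem_toFinset _).mpr fun hz => h0 (by rw [hz]; exact dvd_zero _)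
    have hκ : kappa hK (e * y ^ p) = kappa hK e := by
      rw [kappa_mul, kappa_pow, ← Nat.cast_smul_eq_nsmul (ZMod p), ZMod.natCast_self, zero_smul,
        add_zero]
    have heq : (unitSpace hK U).map (symMap hK pl a N) = H := by
      refine (Submodule.eq_of_le_of_finrank_le
        (Submodule.map_mono (unitSpace_mono hK Finset.subset_union_left)) ?_).symm
      have := hup U hTU hU
      rw [hH] at hlow
      exact Nat.le_of_succ_le_succ (this.trans hlow)
    have hmem : symMap hK pl a N (kappa hK (e * y ^ p)) ∈ LinearMap.ker f := by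
      rw [hker, ← heq, hκ]
      exact Submodule.mem_map_of_mem (kappa_mem_unitSpace hK he)
    have := hfφ fun P => h2Map hK (pl P) (sym hK (pl P) (e * y ^ p) a)
    rw [← this]
    exact hmem
  · have hmem : (fun P : N => z P.1) ∈ H := by
      rw [← hker, LinearMap.mem_ker, hfφ]
      exact hz
    obtain ⟨c, hc, hcz⟩ := hmem
    obtain ⟨b, hb, rfl⟩ := (mem_unitSpace hK).mp hc
    refine ⟨b, fun P hP => congrFun hcz ⟨P, hP⟩, fun P hP => ?_⟩
    by_cases hs : locF1 (pl P) (kappa hK a) = 0
    · rw [sym, hs, map_zero]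
    · exact sym_eq_zero_outside hK pl hpl (fun Q hQ => Finset.mem_union_left _ (hpT Q hQ))
        (tUnits_mono Finset.subset_union_left haT) hb fun hm => hP ((mem_nonsplit hK pl).mpr
          ⟨by_contra fun hPT => hs (hT₂ P hm hPT), hs⟩)

end

end FermatAgent.Duality.Global
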