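import Fermat.Agent.Duality.Global.IdealNorm

/-!
# Symbols supported in `S` come from `G_{K,S}`

For a `T`-unit `e` and `b` whose orders outside `T` are, up to a power prime to `p`, those of the
norm of the `p ^ k`-th power of an ideal of `L = K(e^(1/p))`, the ideal becomes principal on a level
unramified outside `S`, and the symbol `(b, e)` is represented by a cocycle of that level.
-/

set_option autoImplicit false

open scoped Pointwise

namespace FermatAgent.Duality.Global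

open IsDedekindDomain NumberField Module Finset
open FermatAgent.Duality.Local (zpw rootP rootP_pow carryP kapFun)

noncomputable section

local notation "Qb" => AlgebraicClosure ℚ
local notation "GQ" => AlgebraicClosure ℚ ≃ₐ[ℚ] AlgebraicClosure ℚ

attribute [local instance] FermatAgent.RT.isGalois_algClosureRat numberField_of_finite

section Periodic

variable {M : Type*} [CommMonoid M] {v : ℕ → M} {p : ℕ}

omit [CommMonoid M] in
theorem periodic_mod (hv : ∀ i, v (i + p) = v i) (n : ℕ) : v (n % p) = v n := by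
  conv_rhs => rw [← Nat.mod_add_div n p]
  generalize n % p = r
  induction n / p with
  | zero => simp
  | succ d ih => rw [Nat.mul_succ, ← add_assoc, hv, ih]

/-- The identity behind `(σ ^ m - 1) ∑ j σ ^ j = p (1 + ⋯ + σ ^ (m - 1)) - m N`. -/
theorem periodic_identity (hp : p ≠ 0) (hv : ∀ i, v (i + p) = v i) (m : ℕ) :
    (∏ i ∈ range m, v i) ^ p * ∏ j ∈ range p, v j ^ j =
      (∏ i ∈ range p, v i) ^ m * ∏ j ∈ range p, v (j + m) ^ j := by
  obtain ⟨n, rfl⟩ := Nat.exists_eq_succ_of_ne_zero hp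
  have key : ∀ u : ℕ → M, u (n + 1) = u 0 →
      (∏ j ∈ range (n + 1), u j) * ∏ j ∈ range (n + 1), u (j + 1) ^ j =
        u 0 ^ (n + 1) * ∏ j ∈ range (n + 1), u j ^ j := fun u hu => by
    rw [prod_range_succ' u n, prod_range_succ (fun j => u (j + 1) ^ j) n,
      prod_range_succ' (fun j => u j ^ j) n, hu, pow_zero, mul_one, pow_succ]
    have : (∏ k ∈ range n, u (k + 1)) * ∏ x ∈ range n, u (x + 1) ^ x =
        ∏ k ∈ range n, u (k + 1) ^ (k + 1) := by
      rw [← prod_mul_distrib]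
      exact prod_congr rfl fun k _ => (pow_succ' _ _).symm
    rw [← this]
    simp only [mul_comm, mul_left_comm, mul_assoc]
  have hshift : ∀ m, ∏ j ∈ range (n + 1), v (j + m) = ∏ i ∈ range (n + 1), v i := fun m => by
    induction m with
    | zero => rfl
    | succ m ih =>
      conv_rhs => rw [← ih, prod_range_succ' (fun j => v (j + m)) n]
      rw [prod_range_succ]
      congr 1
      · exact prod_congr rfl fun j _ => congrArg v (by omega)
      · rw [show n + (m + 1) = 0 + m + (n + 1) by omega, hv]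
  induction m with
  | zero => simp
  | succ m ih =>
    have h := key (fun j => v (j + m)) (by
      show v (n + 1 + m) = v (0 + m)
      rw [zero_add, add_comm, hv])
    simp only [zero_add, hshift m] at h
    rw [prod_range_succ v m, mul_pow, mul_right_comm, ih, mul_assoc, mul_comm (∏ j ∈ _, v (j + m) ^ j),
      ← h, pow_succ, mul_assoc]
    refine congrArg _ (congrArg _ (prod_congr rfl fun j _ => ?_))
    rw [add_assoc, add_comm 1 m]

end Periodic

theorem apply_mem_of_normal {F : IntermediateField ℚ Qb} (hn : F.fixingSubgroup.Normal) (g : GQ)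
    {x : Qb} (hx : x ∈ F) : g x ∈ F := by
  have h : g x ∈ IntermediateField.fixedField F.fixingSubgroup := by
    rintro ⟨n, hn'⟩
    have hmem : g⁻¹ * n * g ∈ F.fixingSubgroup := by simpa using hn.conj_mem n hn' g⁻¹
    show n (g x) = g x
    conv_rhs => rw [← (show (g⁻¹ * n * g) x = x from hmem ⟨x, hx⟩)]
    rw [← AlgEquiv.mul_apply, ← AlgEquiv.mul_apply]
    congr 1
    group
  rwa [InfiniteGalois.fixedField_fixingSubgroup] at h

theorem exists_normal_unramified {S : Finset Nat.Primes} {F : IntermediateField ℚ Qb}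
    (hF : F.IsUnramifiedOutside S) :
    ∃ N : IntermediateField ℚ Qb, N.IsUnramifiedOutside S ∧ F ≤ N ∧ N.fixingSubgroup.Normal := by
  have := hF.1
  have hgal : IsGalois ℚ (IntermediateField.normalClosure ℚ F Qb) := IsGalois.normalClosure ℚ F Qb
  exact ⟨_, isUnramifiedOutside_normalClosure hF, IntermediateField.le_normalClosure F,
    (InfiniteGalois.normal_iff_isGalois _).mpr hgal⟩

variable {p : ℕ} [Fact p.Prime] {K : IntermediateField ℚ Qb} [FiniteDimensional ℚ K]
  (hK : ContainsMuP p K) {S : Finset Nat.Primes} {T : Finset (HeightOneSpectrum (𝓞 K))}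
  (hS : K.IsUnramifiedOutside S) (hpS : ExtCitation.pPrime p ∈ S)
  (hT : ∀ P, P ∈ T ↔ ∃ q ∈ S, ((q : ℕ) : 𝓞 K) ∈ P.asIdeal) {e : Kˣ} (he : e ∈ tUnits T)

include hpS in
theorem not_dvd_pow_of_notMem {q : Nat.Primes} (hq : q ∉ S) (k : ℕ) : ¬ (q : ℕ) ∣ p ^ k := fun h =>
  hq (by
    rw [show q = ExtCitation.pPrime p from
      Subtype.ext ((Nat.prime_dvd_prime_iff_eq q.2 (Fact.out : p.Prime)).1 (q.2.dvd_of_dvd_pow h))]
    exact hpS)

include hK hS hpS hT he in
/-- The Kummer extension of a `T`-unit is unramified outside `S`. -/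
theorem isUnramifiedOutside_kummerExt : (kummerExt p e).IsUnramifiedOutside S := by
  have _ := hK
  refine isUnramifiedOutside_sup_adjoin hS (Set.finite_singleton _) fun q hq A hA σ hσ x hx => ?_
  rw [Set.mem_singleton_iff] at hx
  subst hx
  obtain ⟨P, hP⟩ := exists_over (K := K) (A := A) ⟨_, q.2, hA⟩
  have hPT : P ∉ T := fun h => hq ((mem_iff_of_over hT hA hP).1 h)
  have hv : A.valuation ((e : K) : Qb) = 1 := (hP.val_eq_one_iff e).2 (he P hPT)
  refine inertia_fix_of_root q.2 hA (M := p) (by simpa using not_dvd_pow_of_notMem hpS hq 1) hσ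
    (rootP_ne_zero e) ?_ (map_one σ) ?_
  · rw [rootP_pow]
    exact (hS.2 q hq A hA hσ) ⟨_, (e : K).2⟩
  · rw [map_one]
    rw [← rootP_pow (p := p) ((e : K) : Qb), map_pow] at hv
    exact (pow_eq_one_iff.1 hv).resolve_right (Fact.out : p.Prime).ne_zero

variable {s : K.fixingSubgroup} (hs : (chi hK e).1 s = 1)

include hS hpS hT he hs in
set_option maxHeartbeats 2000000 in
/-- The symbol of `b` with `e` on a level unramified outside `S`. -/
theorem exists_infl2_eq_gsym_of_norm (b : Kˣ) (k : ℕ) (α : (kummerExt p e)ˣ)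
    (hα : ∀ A P, Over K A P → P ∉ T →
      A.valuation (((normU hK s hs α : Kˣ) : K) : Qb) =
        A.valuation ((((b ^ p ^ k : Kˣ)) : K) : Qb) ∧
      ∃ z ∈ kummerExt p e, A.valuation ((α : kummerExt p e) : Qb) = A.valuation (z ^ p ^ k)) :
    ∃ x : globalH2 p K S, infl2 x = gsym hK b e := by
  classical
  have hp := (Fact.out : p.Prime)
  have : NeZero p := ⟨hp.ne_zero⟩
  set μ := muGlobal (p := p) hK
  set χ := chi hK e
  set M := p ^ k with hMdef
  have hM0 : M ≠ 0 := pow_ne_zero _ hp.ne_zero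
  have hL := isUnramifiedOutside_kummerExt hK hS hpS hT he
  obtain ⟨β, hβ⟩ := IsAlgClosed.exists_pow_nat_eq ((α : kummerExt p e) : Qb) (Nat.pos_of_ne_zero hM0)
  have hβ0 : β ≠ 0 := fun h => α.ne_zero (Subtype.ext (by rw [← hβ, h, zero_pow hM0]; rfl))
  -- the level where the ideal is principal
  have hF₀ : (kummerExt p e ⊔ IntermediateField.adjoin ℚ {β}).IsUnramifiedOutside S := by
    refine isUnramifiedOutside_sup_adjoin hL (Set.finite_singleton β) fun q hq A hA σ hσ x hx => ?_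
    rw [Set.mem_singleton_iff] at hx
    subst hx
    obtain ⟨P, hP⟩ := exists_over (K := K) (A := A) ⟨_, q.2, hA⟩
    obtain ⟨-, z, hz, hv⟩ := hα A P hP fun h => hq ((mem_iff_of_over hT hA hP).1 h)
    refine inertia_fix_of_root q.2 hA (M := M) (not_dvd_pow_of_notMem hpS hq k) hσ hβ0 ?_
      ((hL.2 q hq A hA hσ) ⟨z, hz⟩) ?_
    · rw [hβ]
      exact (hL.2 q hq A hA hσ) ⟨_, (α : kummerExt p e).2⟩
    · rw [← hβ, map_pow, map_pow] at hv
      exact (pow_left_inj₀ zero_le zero_le hM0).1 hv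
  obtain ⟨F₁, hF₁, hle₁, hn₁⟩ := exists_normal_unramified hF₀
  have hLF₁ : kummerExt p e ≤ F₁ := le_sup_left.trans hle₁
  have hβF₁ : β ∈ F₁ := hle₁ ((le_sup_right : _ ≤ kummerExt p e ⊔ _)
    (IntermediateField.mem_adjoin_simple_self ℚ β))
  let idx : K.fixingSubgroup → ℕ := fun g => (χ.1 g).val
  let Si : ℕ → Qb := fun i => ((s ^ i : K.fixingSubgroup) : GQ) β
  let w : K.fixingSubgroup → Qb := fun g => ∏ i ∈ range (idx g), Si i
  let δ : Qb := ∏ j ∈ range p, Si j ^ j
  let bb : Qb := ((b : K) : Qb)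
  have hbb : bb ≠ 0 := by simp [bb]
  have hSi0 : ∀ i, Si i ≠ 0 := fun i => (_root_.map_ne_zero _).2 hβ0
  have hw0 : ∀ g, w g ≠ 0 := fun g => prod_ne_zero_iff.2 fun i _ => hSi0 i
  have hδ0 : δ ≠ 0 := prod_ne_zero_iff.2 fun j _ => pow_ne_zero _ (hSi0 j)
  have hgδ0 : ∀ g : K.fixingSubgroup, (g : GQ) δ ≠ 0 := fun g => (_root_.map_ne_zero _).2 hδ0
  let V : K.fixingSubgroup → Qb := fun g => w g ^ p * δ / (bb ^ idx g * (g : GQ) δ)
  have hSiF : ∀ i, Si i ∈ F₁ := fun i => apply_mem_of_normal hn₁ _ hβF₁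
  have hδF : δ ∈ F₁ := prod_mem fun j _ => pow_mem (hSiF j) j
  have hwF : ∀ g, w g ∈ F₁ := fun g => prod_mem fun i _ => hSiF i
  have hbF : bb ∈ F₁ := hLF₁ (le_kummerExt e (b : K).2)
  have hVF : ∀ g, V g ∈ F₁ := fun g =>
    div_mem (mul_mem (pow_mem (hwF g) p) hδF)
      (mul_mem (pow_mem hbF _) (apply_mem_of_normal hn₁ _ hδF))
  -- `V g` is a unit outside `S`
  have hVval : ∀ q : Nat.Primes, q ∉ S → ∀ A : ValuationSubring Qb, A.LiesOverPrime (q : ℕ) →
      ∀ g, A.valuation (V g) = 1 := by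
    intro q hq A hA g
    obtain ⟨P, hP⟩ := exists_over (K := K) (A := A) ⟨_, q.2, hA⟩
    obtain ⟨hN, -⟩ := hα A P hP fun h => hq ((mem_iff_of_over hT hA hP).1 h)
    let v : ℕ → A.ValueGroup := fun i =>
      A.valuation (((s ^ i : K.fixingSubgroup) : GQ) ((α : kummerExt p e) : Qb))
    have hv : ∀ i, v (i + p) = v i := fun i => by
      show A.valuation _ = A.valuation _
      rw [pow_add, Subgroup.coe_mul, AlgEquiv.mul_apply, pow_p_apply hK s (α : kummerExt p e).2]
    have hSv : ∀ i, A.valuation (Si i) ^ M = v i := fun i => by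
      show A.valuation (((s ^ i : K.fixingSubgroup) : GQ) β) ^ M = _
      rw [← map_pow, ← map_pow, hβ]
    have hgS : ∀ j, A.valuation ((g : GQ) (Si j)) ^ M = v (j + idx g) := fun j => by
      show A.valuation ((g : GQ) (((s ^ j : K.fixingSubgroup) : GQ) β)) ^ M = _
      rw [← map_pow, ← map_pow (g : GQ), ← map_pow, hβ, ← AlgEquiv.mul_apply, ← Subgroup.coe_mul,
        apply_eq_pow hK hs (g * s ^ j) (α : kummerExt p e).2]
      refine Eq.trans ?_ (periodic_mod hv _)
      show v _ = v _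
      congr 1
      rw [← ZMod.val_natCast, Local.chi_mul, Local.chi_pow, hs, mul_one, Nat.cast_add,
        ZMod.natCast_zmod_val, add_comm]
    have hB : A.valuation bb ^ M = ∏ i ∈ range p, v i := by
      rw [coe_normU, map_prod, Units.val_pow_eq_pow_val, SubmonoidClass.coe_pow, map_pow] at hN
      exact hN.symm
    refine (pow_eq_one_iff.1 ?_).resolve_right hM0
    have hid := periodic_identity (v := v) hp.ne_zero hv (idx g)
    simp only [V, w, δ, map_div₀, map_mul, map_pow, map_prod, div_pow, mul_pow, ← prod_pow]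
    simp only [← pow_mul, mul_comm _ M]
    simp only [pow_mul, hSv, hgS, hB, prod_pow]
    rw [hid, div_self]
    have hv0 : ∀ i, v i ≠ 0 := fun i =>
      (_root_.map_ne_zero _).2 ((_root_.map_ne_zero _).2 (by simp))
    exact mul_ne_zero (pow_ne_zero _ (prod_ne_zero_iff.2 fun i _ => hv0 i))
      (prod_ne_zero_iff.2 fun j _ => pow_ne_zero _ (hv0 _))
  -- the roots of the `V g`
  let r : K.fixingSubgroup → Qb := fun g => rootP p (V g)
  have hV0 : ∀ g, V g ≠ 0 := fun g =>
    div_ne_zero (mul_ne_zero (pow_ne_zero _ (hw0 g)) hδ0) (mul_ne_zero (pow_ne_zero _ hbb) (hgδ0 g))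
  have hr0 : ∀ g, r g ≠ 0 := fun g h => hV0 g (by
    rw [← rootP_pow (p := p) (V g), show rootP p (V g) = 0 from h, zero_pow hp.ne_zero])
  have hrfin : (Set.range r).Finite := by
    refine (((Finset.range p).finite_toSet.prod
      (Polynomial.rootSet_finite (minpoly ℚ δ) Qb)).image fun x : ℕ × Qb =>
        rootP p ((∏ i ∈ range x.1, Si i) ^ p * δ / (bb ^ x.1 * x.2))).subset ?_
    rintro _ ⟨g, rfl⟩
    refine ⟨(idx g, (g : GQ) δ), ⟨Finset.mem_coe.2 (mem_range.2 (ZMod.val_lt _)), ?_⟩, rfl⟩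
    rw [Polynomial.mem_rootSet_of_ne (minpoly.ne_zero (Algebra.IsIntegral.isIntegral δ)),
      Polynomial.aeval_algHom_apply, minpoly.aeval, map_zero]
  have hF₁' : (F₁ ⊔ IntermediateField.adjoin ℚ (Set.range r)).IsUnramifiedOutside S := by
    refine isUnramifiedOutside_sup_adjoin hF₁ hrfin fun q hq A hA σ hσ x hx => ?_
    obtain ⟨g, rfl⟩ := hx
    refine inertia_fix_of_root q.2 hA (M := p) (by simpa using not_dvd_pow_of_notMem hpS hq 1) hσ
      (hr0 g) ?_ (map_one σ) ?_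
    · rw [show r g ^ p = V g from rootP_pow _]
      exact (hF₁.2 q hq A hA hσ) ⟨_, hVF g⟩
    · rw [map_one]
      have := hVval q hq A hA g
      rw [← show r g ^ p = V g from rootP_pow _, map_pow] at this
      exact (pow_eq_one_iff.1 this).resolve_right hp.ne_zero
  obtain ⟨F₂, hF₂, hle₂, hn₂⟩ := exists_normal_unramified hF₁'
  have hF₁₂ : F₁ ≤ F₂ := le_sup_left.trans hle₂
  have hrF : ∀ g, r g ∈ F₂ := fun g => hle₂ ((le_sup_right : _ ≤ F₁ ⊔ _)
    (IntermediateField.subset_adjoin ℚ _ ⟨g, rfl⟩))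
  have hfix : ∀ u : K.fixingSubgroup, (u : GQ) ∈ F₂.fixingSubgroup →
      χ.1 u = 0 ∧ ∀ x ∈ F₂, (u : GQ) x = x := fun u hu => by
    refine ⟨?_, fun x hx => hu ⟨x, hx⟩⟩
    obtain ⟨h, h0⟩ := (mem_fix_kummerExt hK e).1
      (IntermediateField.fixingSubgroup_antitone (hLF₁.trans hF₁₂) hu)
    exact h0
  have hidx : ∀ g u : K.fixingSubgroup, (u : GQ) ∈ F₂.fixingSubgroup →
      idx (g * u) = idx g ∧ w (g * u) = w g ∧ r (g * u) = r g := fun g u hu => by
    have h1 : idx (g * u) = idx g := by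
      show (χ.1 (g * u)).val = (χ.1 g).val
      rw [Local.chi_mul, (hfix u hu).1, add_zero]
    have h2 : ((g * u : K.fixingSubgroup) : GQ) δ = (g : GQ) δ := by
      rw [Subgroup.coe_mul, AlgEquiv.mul_apply, (hfix u hu).2 δ (hF₁₂ hδF)]
    have h3 : w (g * u) = w g := by simp only [w, h1]
    exact ⟨h1, h3, congrArg (rootP p) (by simp only [V, h1, h3, h2])⟩
  -- the two cochains
  set c := cupZ (triv (ZMod p) K.fixingSubgroup) (subLevels K.fixingSubgroup)
    (isPairing_mul (ZMod p) K.fixingSubgroup) (Local.kap μ (toFix b)) χ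
  let rb : Qb := rootP p bb
  have hrb : rb ^ p = bb := rootP_pow _
  have hrb0 : rb ≠ 0 := fun h => hbb (by rw [← hrb, h, zero_pow hp.ne_zero])
  let W : K.fixingSubgroup → Qb := fun g => rb ^ idx g * r g / w g
  have hW0 : ∀ g, W g ≠ 0 := fun g => div_ne_zero (mul_ne_zero (pow_ne_zero _ hrb0) (hr0 g)) (hw0 g)
  have hWp : ∀ g, W g ^ p = δ / (g : GQ) δ := fun g => by
    show (rb ^ idx g * r g / w g) ^ p = _
    rw [div_pow, mul_pow, ← pow_mul, mul_comm (idx g), pow_mul, hrb,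
      show r g ^ p = V g from rootP_pow _]
    simp only [V]
    have := hw0 g
    have := hgδ0 g
    field_simp
  let q : K.fixingSubgroup × K.fixingSubgroup → Qb := fun x =>
    r (x.1 * x.2) * w x.1 * (x.1 : GQ) (w x.2) /
      (bb ^ carryP (χ.1 x.1) (χ.1 x.2) * w (x.1 * x.2) * r x.1 * (x.1 : GQ) (r x.2))
  have hq : ∀ g h : K.fixingSubgroup,
      zpw p μ.ζ (c.1 (g, h)) * W (g * h) = q (g, h) * (W g * (g : GQ) (W h)) := fun g h => by
    have e1 := Local.symbol_cochain (χ := χ) μ (toFix b) g h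
    rw [← Local.chi_mul, coe_toFix] at e1
    change zpw p μ.ζ (c.1 (g, h)) * (rb ^ idx (g * h) * bb ^ carryP (χ.1 g) (χ.1 h)) =
      rb ^ idx g * (g : GQ) (rb ^ idx h) at e1
    simp only [q, W, map_div₀, map_mul]
    have := hr0 g
    have := hw0 g
    have := hw0 (g * h)
    have := (_root_.map_ne_zero (g : GQ)).2 (hw0 h)
    have := (_root_.map_ne_zero (g : GQ)).2 (hr0 h)
    have := pow_ne_zero (carryP (χ.1 g) (χ.1 h)) hbb
    field_simp
    linear_combination r (g * h) * e1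
  have hqroot : ∀ g h : K.fixingSubgroup, ∃ i, zpw p μ.ζ i = q (g, h) := fun g h => by
    refine Local.exists_zpw_eq μ.isPrimitiveRoot ?_
    have e1 := congrArg (· ^ p) (hq g h)
    simp only [mul_pow, Local.zpw_pow_eq_one μ.isPrimitiveRoot, one_mul, ← map_pow, hWp, map_div₀]
      at e1
    rw [← AlgEquiv.mul_apply, ← Subgroup.coe_mul] at e1
    have := hgδ0 g
    have := hgδ0 (g * h)
    field_simp at e1
    exact e1.symm
  let c' : K.fixingSubgroup × K.fixingSubgroup → ZMod p := fun x => Function.invFun (zpw p μ.ζ) (q x)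
  have hc' : ∀ g h, zpw p μ.ζ (c' (g, h)) = q (g, h) := fun g h => Function.invFun_eq (hqroot g h)
  have hlev : IsLev₂ (globalLevels K S) c' := by
    refine ⟨_, ⟨_, ⟨F₂, hF₂, rfl⟩, rfl⟩, fun g h u hu v hv => congrArg (Function.invFun _) ?_⟩
    obtain ⟨h1, h2, h3⟩ := hidx g u hu
    obtain ⟨h1', h2', h3'⟩ := hidx h v hv
    have hu' : ((h⁻¹ * u * h * v : K.fixingSubgroup) : GQ) ∈ F₂.fixingSubgroup := by
      have : (h : GQ)⁻¹ * (u : GQ) * h ∈ F₂.fixingSubgroup := by
        simpa using hn₂.conj_mem _ hu (h : GQ)⁻¹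
      exact mul_mem this hv
    obtain ⟨h1'', h2'', h3''⟩ := hidx (g * h) _ hu'
    rw [show g * h * (h⁻¹ * u * h * v) = g * u * (h * v) by group] at h1'' h2'' h3''
    have hχ : χ.1 (g * u) = χ.1 g ∧ χ.1 (h * v) = χ.1 h := by
      constructor <;> rw [Local.chi_mul]
      · rw [(hfix u hu).1, add_zero]
      · rw [(hfix v hv).1, add_zero]
    simp only [q, h2, h3, h2'', h3'', h2', h3', hχ.1, hχ.2]
    rw [show ((g * u : K.fixingSubgroup) : GQ) (w h) = (g : GQ) (w h) by
        rw [Subgroup.coe_mul, AlgEquiv.mul_apply, (hfix u hu).2 _ (hF₁₂ (hwF h))],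
      show ((g * u : K.fixingSubgroup) : GQ) (r h) = (g : GQ) (r h) by
        rw [Subgroup.coe_mul, AlgEquiv.mul_apply, (hfix u hu).2 _ (hrF h)]]
  have hζ := μ.isPrimitiveRoot
  have hcW : ∀ g h, zpw p μ.ζ (c' (g, h)) * (W g * (g : GQ) (W h)) =
      zpw p μ.ζ (c.1 (g, h)) * W (g * h) := fun g h => by rw [hc', hq]
  have hcoc : ∀ g h j, c' (g * h, j) + c' (g, h) = c' (h, j) + c' (g, h * j) := by
    intro g h j
    refine Local.zpw_injective hζ ?_
    rw [Local.zpw_add hζ, Local.zpw_add hζ]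
    have e1 := hcW (g * h) j
    have e2 := hcW g h
    have e3 := congrArg (g : GQ) (hcW h j)
    have e4 := hcW g (h * j)
    rw [map_mul, map_mul, map_mul, Local.map_zpw (μ.fixed _ g.2), Local.map_zpw (μ.fixed _ g.2),
      ← AlgEquiv.mul_apply, ← Subgroup.coe_mul] at e3
    rw [← mul_assoc g h j] at e4
    have ec : zpw p μ.ζ (c.1 (g * h, j)) * zpw p μ.ζ (c.1 (g, h)) =
        zpw p μ.ζ (c.1 (h, j)) * zpw p μ.ζ (c.1 (g, h * j)) := by
      rw [← Local.zpw_add hζ, ← Local.zpw_add hζ]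
      exact congrArg _ (c.2.2 g h j)
    have := hW0 (g * h)
    have := hW0 g
    have := (_root_.map_ne_zero (g : GQ)).2 (hW0 h)
    have := (_root_.map_ne_zero ((g * h : K.fixingSubgroup) : GQ)).2 (hW0 j)
    refine mul_right_cancel₀ (show W g * (g : GQ) (W h) * ((g * h : K.fixingSubgroup) : GQ) (W j) *
      (W (g * h) * (g : GQ) (W (h * j))) ≠ 0 from mul_ne_zero (mul_ne_zero (mul_ne_zero ‹_› ‹_›) ‹_›)
        (mul_ne_zero ‹_› ((_root_.map_ne_zero _).2 (hW0 _)))) ?_
    linear_combination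
      (zpw p μ.ζ (c' (g, h)) * (W g * (g : GQ) (W h)) * (g : GQ) (W (h * j))) * e1 +
      (zpw p μ.ζ (c.1 (g * h, j)) * W (g * h * j) * (g : GQ) (W (h * j))) * e2 -
      (zpw p μ.ζ (c' (g, h * j)) * (W g * (g : GQ) (W (h * j))) * W (g * h)) * e3 -
      (zpw p μ.ζ (c.1 (h, j)) * (g : GQ) (W (h * j)) * W (g * h)) * e4 +
      (W (g * h * j) * (g : GQ) (W (h * j)) * W (g * h)) * ec
  let x : Z2 (globalLevels K S) (triv (ZMod p) K.fixingSubgroup) :=
    ⟨c', hlev, fun g h j => hcoc g h j⟩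
  refine ⟨cl2 (globalLevels K S) (triv (ZMod p) K.fixingSubgroup) x, ?_⟩
  let x' : Z2 (subLevels K.fixingSubgroup) (triv (ZMod p) K.fixingSubgroup) :=
    ⟨c', by
      obtain ⟨_, ⟨_, ⟨F, hF, rfl⟩, rfl⟩, hU⟩ := hlev
      exact ⟨_, ⟨_, ⟨F, hF.1, rfl⟩, rfl⟩, hU⟩, fun g h j => hcoc g h j⟩
  show cl2 (subLevels K.fixingSubgroup) (triv (ZMod p) K.fixingSubgroup) x' =
    cl2 (subLevels K.fixingSubgroup) (triv (ZMod p) K.fixingSubgroup) c
  rw [eq_comm, ← sub_eq_zero, ← map_sub]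
  refine Local.cl2_eq_zero_of_mul μ (c - x') W
    (Local.isLev₁_iff_exists_field.2 ⟨F₂, hF₂.1, fun g u hu => ?_⟩) hW0 fun g h => ?_
  · obtain ⟨h1, h2, h3⟩ := hidx g u hu
    simp only [W, h1, h2, h3]
  · show zpw p μ.ζ (c.1 (g, h) - c' (g, h)) * W (g * h) = W g * (g : GQ) (W h)
    refine mul_left_cancel₀ (Local.zpw_ne_zero hζ (c' (g, h))) ?_
    rw [← mul_assoc, ← Local.zpw_add hζ, add_sub_cancel, hcW]

variable (pl : HeightOneSpectrum (𝓞 K) → ValuationSubring Qb) (hpl : ∀ P, Over K (pl P) P)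

include hS hpS hT he hpl in
/-- **Symbols with an `S`-unit supported in `S` come from `G_{K,S}`.** -/
theorem exists_infl2_eq_gsym (he0 : kappa hK e ≠ 0) {b : Kˣ}
    (hb : ∀ P ∉ T, locF1 (pl P) (kappa hK e) ≠ 0 → (p : ℤ) ∣ ord P b) :
    ∃ x : globalH2 p K S, infl2 x = gsym hK b e := by
  obtain ⟨s, hs⟩ := exists_chi_eq_one hK he0
  obtain ⟨m, k, α, hm, hα⟩ := exists_norm_element hK pl hpl
    (fun P hP => mem_of_natCast_p_mem hpS hT hP) he hs hb
  obtain ⟨x, hx⟩ := exists_infl2_eq_gsym_of_norm hK hS hpS hT he hs (b ^ m) k α hα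
  refine ⟨((m : ZMod p))⁻¹ • x, ?_⟩
  have hm0 : (m : ZMod p) ≠ 0 := fun h => hm ((ZMod.natCast_eq_zero_iff _ _).1 h)
  rw [map_smul, hx, gsym, kappa_pow, ← Nat.cast_smul_eq_nsmul (ZMod p), map_smul,
    LinearMap.smul_apply, smul_smul, inv_mul_cancel₀ hm0, one_smul]
  rfl

end

end FermatAgent.Duality.Global
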