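import Fermat.Agent.Duality.Global.Finite

/-!
# Classes of divisors outside `T`

`TClass T` is the group of divisors supported outside `T` modulo those of elements of `K`. It is
finite, so its `p`-torsion and its quotient by `p` have the same order; Kummer classes with orders
divisible by `p` outside `T` are at most as many as `T`-unit classes times this torsion.
-/

set_option autoImplicit false

open scoped nonZeroDivisors

namespace FermatAgent.Duality.Global

open IsDedekindDomain NumberField Module

noncomputable section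

local notation "Qb" => AlgebraicClosure ℚ

attribute [local instance] FermatAgent.RT.isGalois_algClosureRat numberField_of_finite

variable {K : IntermediateField ℚ Qb} [FiniteDimensional ℚ K]
  (T : Finset (HeightOneSpectrum (𝓞 K)))

/-- The primes outside `T`. -/
abbrev TOut : Type := {P : HeightOneSpectrum (𝓞 K) // P ∉ T}

lemma finite_support_ordOut (x : Kˣ) :
    (Function.support fun P : TOut T => ord P.1 x).Finite :=
  ((finite_setOf_ord_ne_zero x).preimage Subtype.val_injective.injOn).subset fun _ h => h

/-- The divisor of an element outside `T`. -/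
def ordOut : Additive Kˣ →+ (TOut T →₀ ℤ) :=
  AddMonoidHom.mk' (fun x => Finsupp.ofSupportFinite _ (finite_support_ordOut T x.toMul))
    fun x y => Finsupp.ext fun P => by
      show ord P.1 (x + y).toMul = ord P.1 x.toMul + ord P.1 y.toMul
      rw [toMul_add, ord_mul]

lemma ordOut_apply (x : Kˣ) (P : TOut T) : ordOut T (Additive.ofMul x) P = ord P.1 x := rfl

/-- Divisors outside `T` modulo elements. -/
abbrev TClass : Type := (TOut T →₀ ℤ) ⧸ (ordOut T).range

variable {T}

lemma mk_eq_zero_iff {e : TOut T →₀ ℤ} :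
    (QuotientAddGroup.mk e : TClass T) = 0 ↔ ∃ k : Kˣ, ∀ P : TOut T, ord P.1 k = e P := by
  rw [QuotientAddGroup.eq_zero_iff]
  constructor
  · rintro ⟨x, rfl⟩
    exact ⟨x.toMul, fun P => rfl⟩
  · rintro ⟨k, hk⟩
    exact ⟨Additive.ofMul k, Finsupp.ext hk⟩

/-- The class group is generated by finitely many primes. -/
theorem exists_closure_eq_top :
    ∃ T' : Finset (HeightOneSpectrum (𝓞 K)), T ⊆ T' ∧
      Subgroup.closure (FermatAgent.CFT.primeClass '' (T' : Set (HeightOneSpectrum (𝓞 K)))) = ⊤ := by
  classical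
  choose m hm using fun c : ClassGroup (𝓞 K) => show ∃ m : Multiset (HeightOneSpectrum (𝓞 K)),
      ClassGroup.mk0 (FermatAgent.CFT.idealOfMultiset K m) = c by
    obtain ⟨I, hI⟩ := ClassGroup.mk0_surjective c
    obtain ⟨m, rfl⟩ := (FermatAgent.CFT.idealOfMultiset_bijective K).surjective I
    exact ⟨m, hI⟩
  refine ⟨T ∪ Finset.univ.biUnion fun c => (m c).toFinset, Finset.subset_union_left,
    top_unique fun c _ => ?_⟩
  rw [← hm c, FermatAgent.CFT.idealOfMultiset, map_multiset_prod, Multiset.map_map]
  refine multiset_prod_mem _ fun x hx => ?_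
  obtain ⟨P, hP, rfl⟩ := Multiset.mem_map.1 hx
  refine Subgroup.subset_closure ⟨P, Finset.mem_union_right _ (Finset.mem_biUnion.2
    ⟨c, Finset.mem_univ _, Multiset.mem_toFinset.2 hP⟩), ?_⟩
  rw [FermatAgent.CFT.primeClass_eq]
  rfl

variable (T) in
/-- `TClass T` is finite. -/
theorem finite_tClass : Finite (TClass T) := by
  classical
  obtain ⟨T', hTT', htop⟩ := exists_closure_eq_top (T := T)
  let cls : TOut T → TClass T := fun P => QuotientAddGroup.mk (Finsupp.single P 1)
  -- the classes of the primes in `T'` generate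
  have hgen : AddSubgroup.closure (cls '' {P : TOut T | P.1 ∈ T'}) = ⊤ := by
    set H := AddSubgroup.closure (cls '' {P : TOut T | P.1 ∈ T'})
    have hP : ∀ P, cls P ∈ H := by
      intro P
      by_cases hP : P.1 ∈ T'
      · exact AddSubgroup.subset_closure ⟨P, hP, rfl⟩
      obtain ⟨k, hk, hk'⟩ := exists_ord_of_classGroup (T := T') P.1 hP (m := 1)
        (by rw [htop]; exact Subgroup.mem_top _)
      have h0 : (QuotientAddGroup.mk (ordOut T (Additive.ofMul k)) : TClass T) = 0 :=
        (QuotientAddGroup.eq_zero_iff _).2 ⟨_, rfl⟩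
      set e := ordOut T (Additive.ofMul k)
      have he : e = ∑ Q ∈ e.support, Finsupp.single Q (e Q) := (Finsupp.sum_single e).symm
      have hPs : P ∈ e.support := by
        rw [Finsupp.mem_support_iff, ordOut_apply, hk]
        norm_num
      rw [he, ← Finset.add_sum_erase _ _ hPs, QuotientAddGroup.mk_add,
        show e P = 1 from hk, add_eq_zero_iff_eq_neg] at h0
      rw [show cls P = _ from h0]
      refine neg_mem ?_
      rw [← QuotientAddGroup.mk'_apply (N := (ordOut T).range), map_sum]
      refine sum_mem fun Q hQ => ?_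
      obtain ⟨hne, hQs⟩ := Finset.mem_erase.1 hQ
      have hQT' : Q.1 ∈ T' := by
        by_contra hQ'
        exact (Finsupp.mem_support_iff.1 hQs) (hk' Q.1 hQ' fun h => hne (Subtype.ext h))
      rw [← Finsupp.smul_single_one, map_zsmul]
      exact zsmul_mem (show cls Q ∈ H from AddSubgroup.subset_closure ⟨Q, hQT', rfl⟩) _
    refine top_unique fun x _ => ?_
    induction x using QuotientAddGroup.induction_on with
    | _ e =>
    induction e using Finsupp.induction_linear with
    | zero => exact zero_mem _
    | add a b ha hb => rw [QuotientAddGroup.mk_add]; exact add_mem (ha trivial) (hb trivial)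
    | single Q n =>
      rw [← Finsupp.smul_single_one, QuotientAddGroup.mk_zsmul]
      exact zsmul_mem (hP Q) n
  -- and have finite order
  have htors : IsAddTorsion (TClass T) := by
    intro x
    have hx : x ∈ AddSubgroup.closure (cls '' {P : TOut T | P.1 ∈ T'}) := hgen ▸ AddSubgroup.mem_top x
    induction hx using AddSubgroup.closure_induction with
    | mem y hy =>
      obtain ⟨P, -, rfl⟩ := hy
      obtain ⟨k, hk, hk'⟩ := exists_ord_of_classGroup (T := T) P.1 P.2
        (m := Nat.card (ClassGroup (𝓞 K))) (by rw [pow_card_eq_one']; exact one_mem _)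
      refine isOfFinAddOrder_iff_nsmul_eq_zero.2 ⟨Nat.card (ClassGroup (𝓞 K)), Nat.card_pos, ?_⟩
      rw [← QuotientAddGroup.mk_nsmul, mk_eq_zero_iff]
      refine ⟨k, fun Q => ?_⟩
      rcases eq_or_ne Q P with rfl | hne
      · simp [hk]
      · rw [hk' Q.1 Q.2 fun h => hne (Subtype.ext h)]
        simp [Finsupp.single_eq_of_ne hne]
    | zero => exact IsOfFinAddOrder.zero
    | add a b _ _ ha hb => exact ha.add hb
    | neg a _ ha => exact ha.neg
  have : AddGroup.FG (TClass T) := AddGroup.fg_iff.2 ⟨_, hgen,
    ((T'.finite_toSet.preimage Subtype.val_injective.injOn).image _)⟩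
  exact AddCommGroup.finite_of_fg_isAddTorsion _ htors

variable (p : ℕ) [Fact p.Prime]

/-- For a finite group the `p`-torsion has the order of the quotient by `p`. -/
theorem card_ker_nsmul_eq {G : Type*} [AddCommGroup G] [Finite G] (n : ℕ) :
    Nat.card (nsmulAddMonoidHom (α := G) n).ker = (nsmulAddMonoidHom (α := G) n).range.index := by
  set f := nsmulAddMonoidHom (α := G) n
  have h1 := f.ker.card_mul_index
  rw [AddSubgroup.index_ker, ← f.range.index_mul_card] at h1
  exact Nat.eq_of_mul_eq_mul_right Nat.card_pos h1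

variable {p}

/-- Classes with orders divisible by `p` outside `T`. -/
theorem natCard_le_of_dvd_ord (hK : ContainsMuP p K) (D : Submodule (ZMod p) (fullH1 p K))
    (hD : ∀ c ∈ D, ∃ x : Kˣ, kappa hK x = c ∧ ∀ P ∉ T, (p : ℤ) ∣ ord P x) :
    Finite D ∧ Nat.card D ≤
      (nsmulAddMonoidHom (α := TClass T) p).range.index * p ^ (Units.rank K + T.card + 1) := by
  classical
  have := finite_tClass T
  choose x hx hdvd using hD
  let ψ : D → (nsmulAddMonoidHom (α := TClass T) p).ker := fun c =>
    ⟨QuotientAddGroup.mk ((ordOut T (Additive.ofMul (x c.1 c.2))).mapRange (· / (p : ℤ)) (by simp)),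
      by
      rw [AddMonoidHom.mem_ker, nsmulAddMonoidHom_apply, ← QuotientAddGroup.mk_nsmul, mk_eq_zero_iff]
      refine ⟨x c.1 c.2, fun P => ?_⟩
      rw [Finsupp.smul_apply, Finsupp.mapRange_apply, ordOut_apply, nsmul_eq_mul,
        Int.mul_ediv_cancel' (hdvd c.1 c.2 P.1 P.2)]⟩
  have hfib : ∀ c c' : D, ψ c = ψ c' → (c : fullH1 p K) - c' ∈ unitSpace hK T := by
    intro c c' h
    have h' := congrArg Subtype.val h
    simp only [ψ] at h'
    rw [← sub_eq_zero, ← QuotientAddGroup.mk_sub, mk_eq_zero_iff] at h'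
    obtain ⟨k, hk⟩ := h'
    refine (mem_unitSpace hK).2 ⟨x c.1 c.2 / (x c'.1 c'.2 * k ^ p), fun P hP => ?_, ?_⟩
    · have hkP := hk ⟨P, hP⟩
      rw [Finsupp.sub_apply, Finsupp.mapRange_apply, Finsupp.mapRange_apply, ordOut_apply,
        ordOut_apply] at hkP
      rw [ord_div, ord_mul, ord_pow, hkP, mul_sub, Int.mul_ediv_cancel' (hdvd c.1 c.2 P hP),
        Int.mul_ediv_cancel' (hdvd c'.1 c'.2 P hP)]
      abel
    · rw [div_eq_mul_inv, kappa_mul, kappa_inv, kappa_mul, hx, hx, kappa_pow,
        ← Nat.cast_smul_eq_nsmul (ZMod p), ZMod.natCast_self, zero_smul, add_zero, ← sub_eq_add_neg]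
  let rep : (nsmulAddMonoidHom (α := TClass T) p).ker → D := fun a =>
    if h : ∃ c, ψ c = a then h.choose else 0
  have hrep : ∀ c, ψ (rep (ψ c)) = ψ c := fun c => by
    have h : ∃ d, ψ d = ψ c := ⟨c, rfl⟩
    simp only [rep, dif_pos h]
    exact h.choose_spec
  let F : D → (nsmulAddMonoidHom (α := TClass T) p).ker × unitSpace hK T := fun c =>
    (ψ c, ⟨(c : fullH1 p K) - rep (ψ c), hfib _ _ (hrep c).symm⟩)
  have hF : Function.Injective F := fun c c' h => by
    obtain ⟨h1, h2⟩ := Prod.mk.inj h
    have := congrArg Subtype.val h2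
    simp only [h1, sub_left_inj] at this
    exact Subtype.ext this
  refine ⟨Finite.of_injective F hF, (Nat.card_le_card_of_injective F hF).trans (le_of_eq ?_)⟩
  rw [Nat.card_prod, card_ker_nsmul_eq, natCard_unitSpace]

end

end FermatAgent.Duality.Global
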